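import Fermat.Agent.RepTwo.Residual
import Fermat.Agent.DS.Artin

/-!
# Residual representations from Eichler-Shimura data with nebentypus
-/

set_option autoImplicit false
set_option linter.style.haveILetI false

namespace Fermat.Agent.Neb

open Module TensorProduct Fermat.Agent.RepTwo

local notation "Qbar" => AlgebraicClosure ℚ
local notation "Γℚ" => (AlgebraicClosure ℚ ≃ₐ[ℚ] AlgebraicClosure ℚ)

section Cyc

variable (B : ℕ) [NeZero B]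

/-- The mod `B` cyclotomic character. -/
noncomputable def cyc : Γℚ →* (ZMod B)ˣ :=
  MonoidHom.mk' (fun σ => modularCyclotomicCharacter Qbar (IsAlgClosed.card_rootsOfUnity_eq Qbar B)
    (σ : Qbar ≃+* Qbar)) (fun a b => by rw [← map_mul]; congr 1)

theorem cyc_eq_of_forall {σ : Γℚ} {a : ℕ} (h : ∀ ζ : Qbar, ζ ^ B = 1 → σ ζ = ζ ^ a) :
    ((cyc B σ : (ZMod B)ˣ) : ZMod B) = (a : ZMod B) := by
  have h1 := modularCyclotomicCharacter.unique Qbar (IsAlgClosed.card_rootsOfUnity_eq Qbar B)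
    (σ : Qbar ≃+* Qbar) (c := (a : ZMod B)) (by
      intro t ht
      have h2 : (t : Qbar) ^ B = 1 := by
        have := (mem_rootsOfUnity B t).mp ht
        have h3 := congrArg (fun u : (Qbar)ˣ => (u : Qbar)) this
        simpa using h3
      have h4 := h _ h2
      rw [ZMod.val_natCast]
      have h5 : (t : Qbar) ^ a = (t : Qbar) ^ (a % B) := by
        conv_lhs => rw [← Nat.div_add_mod a B]
        rw [pow_add, pow_mul, h2, one_pow, one_mul]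
      rw [← h5, ← h4]
      rfl)
  exact h1.symm

theorem cyc_frobenius {ℓ : ℕ} (hℓ : ℓ.Prime) (hℓB : ¬ ℓ ∣ B)
    {A : ValuationSubring Qbar} (hA : A.LiesOverPrime ℓ) {σ : Γℚ} (hσ : A.IsFrobeniusAt σ ℓ) :
    ((cyc B σ : (ZMod B)ˣ) : ZMod B) = (ℓ : ZMod B) :=
  cyc_eq_of_forall B fun _ hζ => CycChar.frobenius_apply_eq hA
    ((Nat.Prime.coprime_iff_not_dvd hℓ).mpr hℓB).symm hσ hζ

theorem cyc_inertia {ℓ : ℕ} (hℓ : ℓ.Prime) (hℓB : ¬ ℓ ∣ B)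
    {A : ValuationSubring Qbar} (hA : A.LiesOverPrime ℓ) {σ : Γℚ}
    (hσ : σ ∈ A.inertiaSubgroupIn ℚ) : cyc B σ = 1 := by
  ext
  rw [cyc_eq_of_forall B (a := 1) fun ζ hζ => by
    rw [pow_one]
    exact CycChar.inertia_apply_eq hA ((Nat.Prime.coprime_iff_not_dvd hℓ).mpr hℓB).symm hσ hζ]
  simp

theorem cyc_finite_level : GaloisFactorsThroughFiniteLevel (cyc B) := by
  obtain ⟨L, hL, h⟩ := CycChar.exists_finite_level_rootsOfUnity (NeZero.ne B)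
  refine ⟨L, hL, fun σ hσ => ?_⟩
  ext
  rw [cyc_eq_of_forall B (a := 1) fun ζ hζ => by rw [pow_one]; exact hσ ζ (h ζ hζ)]
  simp

end Cyc

/-- Residual representations from a quadratic relation at Frobenius elements, with a determinant
given by a character `ψ` modulo `B`. -/
theorem exists_rep_of_quadratic_neb {B : ℕ} [NeZero B]
    {K : Type} [Field K] [IsAlgClosed K] (ψ : ZMod B →* K)
    {W : Type} [AddCommGroup W] [Module K W] [FiniteDimensional K W] [Nontrivial W]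
    (ρW : Γℚ →* Module.End K W) (hfl : GaloisFactorsThroughFiniteLevel ρW)
    (hunram : ∀ ℓ : ℕ, ℓ.Prime → ¬ ℓ ∣ B → ∀ A : ValuationSubring Qbar,
      A.LiesOverPrime ℓ → ∀ σ ∈ A.inertiaSubgroupIn ℚ, ρW σ = 1)
    (a : ℕ → K)
    (hfrob : ∀ ℓ : ℕ, ℓ.Prime → ¬ ℓ ∣ B → ∀ A : ValuationSubring Qbar,
      A.LiesOverPrime ℓ → ∀ σ : Γℚ, A.IsFrobeniusAt σ ℓ →
        ρW σ * ρW σ - a ℓ • ρW σ + (ψ (ℓ : ZMod B)) • (1 : Module.End K W) = 0) :
    ∃ M : Γℚ →* Matrix (Fin 2) (Fin 2) K, DS.IsFrobRep B a (fun p ↦ ψ (p : ZMod B)) M := by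
  classical
  -- the determinant character
  let d : Γℚ →* Kˣ := (Units.map ψ).comp (cyc B)
  have hd : ∀ σ, ((d σ : Kˣ) : K) = ψ ((cyc B σ : (ZMod B)ˣ) : ZMod B) := fun σ => rfl
  have hdfrob : ∀ ℓ : ℕ, ℓ.Prime → ¬ ℓ ∣ B → ∀ A : ValuationSubring Qbar,
      A.LiesOverPrime ℓ → ∀ σ : Γℚ, A.IsFrobeniusAt σ ℓ → (d σ : K) = ψ (ℓ : ZMod B) := by
    intro ℓ hℓ hℓB A hA σ hσ
    rw [hd, cyc_frobenius B hℓ hℓB hA hσ]
  -- finite level for the pair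
  have hprod := GaloisFactors_prod hfl (cyc_finite_level B)
  -- quadratic relation for all elements
  have hquad : ∀ σ : Γℚ, ∃ t : K,
      ρW σ * ρW σ - t • ρW σ + (d σ : K) • (1 : Module.End K W) = 0 := by
    intro σ
    obtain ⟨ℓ, hℓ, hℓS, -, A, hA, φ, hφ, ⟨k, hk⟩, -⟩ :=
      Cheb.exists_frobenius_of_factors _ hprod σ B.primeFactors
    have hℓB : ¬ ℓ ∣ B := fun h0 => hℓS (Nat.mem_primeFactors.mpr ⟨hℓ, h0, NeZero.ne B⟩)
    have hk1 : ρW σ = ρW φ ^ k := congrArg Prod.fst hk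
    have hk2 : cyc B σ = cyc B φ ^ k := congrArg Prod.snd hk
    have hdk : (d σ : K) = (ψ (ℓ : ZMod B)) ^ k := by
      rw [hd, hk2, Units.val_pow_eq_pow_val, map_pow, ← hd, hdfrob ℓ hℓ hℓB A hA φ hφ]
    obtain ⟨s, hs⟩ := exists_quadratic_pow (hfrob ℓ hℓ hℓB A hA φ hφ) k
    exact ⟨s, by rw [hk1, hdk]; exact hs⟩
  choose t ht using hquad
  obtain ⟨M, htr, hdet, hkerM⟩ := exists_matrix_rep_of_quadratic ρW t d ht
  refine ⟨M, ?_, ?_, ?_, ?_⟩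
  · obtain ⟨L, hL, h1⟩ := hprod
    refine ⟨L, hL, fun σ hσ => ?_⟩
    have h2 := h1 σ hσ
    have h3 : ρW σ = 1 := congrArg Prod.fst h2
    have h4 : cyc B σ = 1 := congrArg Prod.snd h2
    refine hkerM σ h3 ?_
    show Units.map _ (cyc B σ) = 1
    rw [h4, map_one]
  · intro ℓ hℓ hℓB A hA σ hσ
    refine hkerM σ (hunram ℓ hℓ hℓB A hA σ hσ) ?_
    show Units.map _ (cyc B σ) = 1
    rw [cyc_inertia B hℓ hℓB hA hσ, map_one]
  · intro ℓ hℓ hℓB A hA σ hσ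
    rw [htr]
    have h1 := ht σ
    rw [hdfrob ℓ hℓ hℓB A hA σ hσ] at h1
    have h2 := hfrob ℓ hℓ hℓB A hA σ hσ
    have h3 : (t σ - a ℓ) • ρW σ = 0 := by
      rw [sub_smul, ← sub_eq_zero.mpr (h2.trans h1.symm)]; abel
    have h4 : (t σ - a ℓ) • (1 : Module.End K W) = 0 := by
      have h5 : ρW σ * ρW σ⁻¹ = 1 := by rw [← map_mul, mul_inv_cancel, map_one]
      rw [← h5, ← smul_mul_assoc, h3, zero_mul]
    obtain ⟨w, hw⟩ := exists_ne (0 : W)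
    have h6 := congrArg (fun f => f w) h4
    simp only [LinearMap.smul_apply, Module.End.one_apply, LinearMap.zero_apply] at h6
    exact sub_eq_zero.mp ((smul_eq_zero.mp h6).resolve_right hw)
  · intro ℓ hℓ hℓB A hA σ hσ
    rw [hdet, hdfrob ℓ hℓ hℓB A hA σ hσ]

/-- Residual Eichler–Shimura data with nebentypus. -/
structure IsNebES (l B : ℕ) {U : Type} [AddCommGroup U] [Module (ZMod l) U]
    (ρ : Γℚ →* Module.End (ZMod l) U) (T δ : ℕ → Module.End (ZMod l) U) : Prop where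
  finite_level : GaloisFactorsThroughFiniteLevel ρ
  comm : ∀ (σ : Γℚ) (p : ℕ), p.Prime → ¬ p ∣ B → ρ σ * T p = T p * ρ σ
  comm' : ∀ (σ : Γℚ) (p : ℕ), p.Prime → ¬ p ∣ B → ρ σ * δ p = δ p * ρ σ
  unram : ∀ p : ℕ, p.Prime → ¬ p ∣ B → ∀ A : ValuationSubring Qbar,
    A.LiesOverPrime p → ∀ σ ∈ A.inertiaSubgroupIn ℚ, ρ σ = 1
  frob : ∀ p : ℕ, p.Prime → ¬ p ∣ B → ∀ A : ValuationSubring Qbar,
    A.LiesOverPrime p → ∀ σ : Γℚ, A.IsFrobeniusAt σ p →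
      ρ σ * ρ σ - T p * ρ σ + (p : ZMod l) • δ p = 0

/-- **Residual representation from a common eigenvector**, on an abstract vector space. -/
theorem exists_rep_of_eigenvector_neb {B : ℕ} [NeZero B]
    {K : Type} [Field K] [IsAlgClosed K] (ψ : ZMod B →* K)
    {X : Type} [AddCommGroup X] [Module K X] [FiniteDimensional K X]
    (ρX : Γℚ →* Module.End K X) (TX DX : ℕ → Module.End K X)
    (hfl : GaloisFactorsThroughFiniteLevel ρX)
    (hcomm : ∀ (σ : Γℚ) (ℓ : ℕ), ℓ.Prime → ¬ ℓ ∣ B → ρX σ * TX ℓ = TX ℓ * ρX σ)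
    (hcomm' : ∀ (σ : Γℚ) (ℓ : ℕ), ℓ.Prime → ¬ ℓ ∣ B → ρX σ * DX ℓ = DX ℓ * ρX σ)
    (hunram : ∀ ℓ : ℕ, ℓ.Prime → ¬ ℓ ∣ B → ∀ A : ValuationSubring Qbar,
      A.LiesOverPrime ℓ → ∀ σ ∈ A.inertiaSubgroupIn ℚ, ρX σ = 1)
    (hfrob : ∀ ℓ : ℕ, ℓ.Prime → ¬ ℓ ∣ B → ∀ A : ValuationSubring Qbar,
      A.LiesOverPrime ℓ → ∀ σ : Γℚ, A.IsFrobeniusAt σ ℓ →
        ρX σ * ρX σ - TX ℓ * ρX σ + (ℓ : K) • DX ℓ = 0)
    (a : ℕ → K) {x : X} (hx0 : x ≠ 0)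
    (hx : ∀ ℓ : ℕ, ℓ.Prime → ¬ ℓ ∣ B → TX ℓ x = a ℓ • x)
    (hx' : ∀ ℓ : ℕ, ℓ.Prime → ¬ ℓ ∣ B → (ℓ : K) • DX ℓ x = ψ (ℓ : ZMod B) • x) :
    ∃ M : Γℚ →* Matrix (Fin 2) (Fin 2) K, DS.IsFrobRep B a (fun p ↦ ψ (p : ZMod B)) M := by
  -- the eigenspace
  let W : Submodule K X :=
    { carrier := {y | ∀ ℓ : ℕ, ℓ.Prime → ¬ ℓ ∣ B → TX ℓ y = a ℓ • y ∧
        (ℓ : K) • DX ℓ y = ψ (ℓ : ZMod B) • y}
      add_mem' := fun {y z} hy hz ℓ hℓ hℓB => by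
        rw [map_add, (hy ℓ hℓ hℓB).1, (hz ℓ hℓ hℓB).1, smul_add, map_add, smul_add,
          (hy ℓ hℓ hℓB).2, (hz ℓ hℓ hℓB).2, smul_add]
        exact ⟨rfl, rfl⟩
      zero_mem' := fun ℓ _ _ => by simp
      smul_mem' := fun c y hy ℓ hℓ hℓB => by
        refine ⟨by rw [map_smul, (hy ℓ hℓ hℓB).1, smul_comm], ?_⟩
        rw [map_smul, smul_comm (ℓ : K) c, (hy ℓ hℓ hℓB).2, smul_comm c] }
  have hWnt : Nontrivial W := ⟨⟨⟨x, fun ℓ hℓ hℓB ↦ ⟨hx ℓ hℓ hℓB, hx' ℓ hℓ hℓB⟩⟩, 0,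
    fun h0 => hx0 (congrArg Subtype.val h0)⟩⟩
  have hWinv : ∀ σ, ∀ y ∈ W, ρX σ y ∈ W := by
    intro σ y hy ℓ hℓ hℓB
    have h1 : TX ℓ (ρX σ y) = ρX σ (TX ℓ y) :=
      (congrArg (fun f => f y) (hcomm σ ℓ hℓ hℓB)).symm
    have h2 : DX ℓ (ρX σ y) = ρX σ (DX ℓ y) :=
      (congrArg (fun f => f y) (hcomm' σ ℓ hℓ hℓB)).symm
    refine ⟨by rw [h1, (hy ℓ hℓ hℓB).1, map_smul], ?_⟩
    rw [h2, ← map_smul, (hy ℓ hℓ hℓB).2, map_smul]
  let ρW : Γℚ →* Module.End K W :=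
    { toFun := fun σ => (ρX σ).restrict (hWinv σ)
      map_one' := by ext y; simp
      map_mul' := fun σ τ => by ext y; simp }
  have hρW : ∀ σ (y : W), ((ρW σ y : W) : X) = ρX σ y := fun σ y => rfl
  have hker : ∀ σ, ρX σ = 1 → ρW σ = 1 := by
    intro σ hσ
    ext y
    rw [hρW, hσ]
    rfl
  refine exists_rep_of_quadratic_neb ψ ρW ?_ ?_ a ?_
  · obtain ⟨L, hL, h1⟩ := hfl
    exact ⟨L, hL, fun σ hσ => hker σ (h1 σ hσ)⟩
  · intro ℓ hℓ hℓB A hA σ hσ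
    exact hker σ (hunram ℓ hℓ hℓB A hA σ hσ)
  · intro ℓ hℓ hℓB A hA σ hσ
    have h2 := hfrob ℓ hℓ hℓB A hA σ hσ
    ext y
    have h3 := congrArg (fun f => f (y : X)) h2
    simp only [LinearMap.add_apply, LinearMap.sub_apply, LinearMap.smul_apply,
      Module.End.mul_apply, Module.End.one_apply, LinearMap.zero_apply] at h3 ⊢
    rw [(hWinv σ y y.2 ℓ hℓ hℓB).1, (y.2 ℓ hℓ hℓB).2] at h3
    simpa [hρW] using h3

/-- **Residual representation from abstract Eichler–Shimura data with nebentypus.** -/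
theorem IsNebES.exists_rep {l B : ℕ} [Fact l.Prime] [NeZero B]
    {U : Type} [AddCommGroup U] [Module (ZMod l) U] [Finite U]
    {ρ : Γℚ →* Module.End (ZMod l) U} {T δ : ℕ → Module.End (ZMod l) U} (h : IsNebES l B ρ T δ)
    {K : Type} [Field K] [IsAlgClosed K] [Algebra (ZMod l) K] (ψ : ZMod B →* K) (a : ℕ → K)
    {x : K ⊗[ZMod l] U} (hx0 : x ≠ 0)
    (hx : ∀ p : ℕ, p.Prime → ¬ p ∣ B → (T p).baseChange K x = a p • x)
    (hx' : ∀ p : ℕ, p.Prime → ¬ p ∣ B → (p : K) • (δ p).baseChange K x = ψ (p : ZMod B) • x) :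
    ∃ M : Γℚ →* Matrix (Fin 2) (Fin 2) K, DS.IsFrobRep B a (fun p ↦ ψ (p : ZMod B)) M := by
  classical
  have hfinU : Module.Finite (ZMod l) U := Module.Finite.of_finite
  -- the base changed representation
  let ρK : Γℚ →* Module.End K (K ⊗[ZMod l] U) :=
    { toFun := fun σ => (ρ σ).baseChange K
      map_one' := by rw [map_one, LinearMap.baseChange_one]
      map_mul' := fun σ τ => by rw [map_mul, LinearMap.baseChange_mul] }
  have hρK : ∀ σ, ρK σ = (ρ σ).baseChange K := fun σ => rfl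
  have hker : ∀ σ, ρ σ = 1 → ρK σ = 1 := by
    intro σ hσ
    rw [hρK, hσ, LinearMap.baseChange_one]
  refine exists_rep_of_eigenvector_neb ψ (X := K ⊗[ZMod l] U) ρK
    (fun ℓ => (T ℓ).baseChange K) (fun ℓ => (δ ℓ).baseChange K) ?_ ?_ ?_ ?_ ?_ a hx0 hx hx'
  · obtain ⟨L, hL, h1⟩ := h.finite_level
    exact ⟨L, hL, fun σ hσ => hker σ (h1 σ hσ)⟩
  · intro σ ℓ hℓ hℓB
    have h2 := congrArg (fun f => LinearMap.baseChange K f) (h.comm σ ℓ hℓ hℓB)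
    simp only [LinearMap.baseChange_mul] at h2
    exact h2
  · intro σ ℓ hℓ hℓB
    have h2 := congrArg (fun f => LinearMap.baseChange K f) (h.comm' σ ℓ hℓ hℓB)
    simp only [LinearMap.baseChange_mul] at h2
    exact h2
  · intro ℓ hℓ hℓB A hA σ hσ
    exact hker σ (h.unram ℓ hℓ hℓB A hA σ hσ)
  · intro ℓ hℓ hℓB A hA σ hσ
    have h1 := h.frob ℓ hℓ hℓB A hA σ hσ
    have h2 := congrArg (fun f => LinearMap.baseChange K f) h1
    simp only [LinearMap.baseChange_add, LinearMap.baseChange_sub, LinearMap.baseChange_mul,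
      LinearMap.baseChange_smul, LinearMap.baseChange_zero] at h2
    have h5 : ((ℓ : ZMod l) • (δ ℓ).baseChange K) = (ℓ : K) • (δ ℓ).baseChange K := by
      rw [Nat.cast_smul_eq_nsmul, Nat.cast_smul_eq_nsmul]
    rw [h5] at h2
    exact h2

end Fermat.Agent.Neb
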