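import Mathlib
import Fermat.Agent.Top.Coset

/-!
# Level structures with a separating modular function

`Datum N` is a subgroup `Γ` of `Γ₀(N)` of finite index containing all unipotent elements of
`Γ₀(N)` and `-1`, together with a modular function `t` for `Γ` with integral `q`-expansion whose
stabiliser in `SL₂(ℤ)` is `Γ`.
-/

set_option autoImplicit false

noncomputable section

namespace Fermat.Agent.Neb

open UpperHalfPlane hiding I
open ModularForm Filter Topology Fermat.Agent.ModFn Fermat.Agent.Support Fermat.Agent.Top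
open scoped MatrixGroups Manifold

/-- A level structure over `X₀(N)` with a separating function. -/
structure Datum (N : ℕ) where
  /-- the group -/
  Γ : Subgroup SL(2, ℤ)
  le : Γ ≤ CongruenceSubgroup.Gamma0 N
  finiteIndex : Γ.FiniteIndex
  conj_mem : ∀ (δ : SL(2, ℤ)) (h : ℤ), (N : ℤ) ∣ (δ 1 0) ^ 2 * h →
    δ * ModularGroup.T ^ h * δ⁻¹ ∈ Γ
  neg_mem : (-1 : SL(2, ℤ)) ∈ Γ
  /-- the separating function -/
  t : ℍ → ℂ
  /-- its `q`-expansion -/
  tq : LaurentSeries ℤ
  t_exp : HasExp 1 t (ModularCurve.coeffMap (Int.castRingHom ℂ) tq)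
  t_mem : t ∈ bigA N
  t_inv : ∀ γ ∈ Γ, ∀ z : ℍ, t (γ • z) = t z
  t_sep : ∀ γ : SL(2, ℤ), (∀ z : ℍ, t (γ • z) = t z) → γ ∈ Γ

variable {N : ℕ} (D : Datum N)

theorem Datum.T_mem : ModularGroup.T ∈ D.Γ := by
  have := D.conj_mem 1 1 (by simp)
  simpa using this

theorem Datum.trace_conj (δ : SL(2, ℤ)) (h : ℤ) :
    ((δ * ModularGroup.T ^ h * δ⁻¹ : SL(2, ℤ)) : Matrix (Fin 2) (Fin 2) ℤ).trace = 2 :=
  trace_conj_T_zpow δ h

end Fermat.Agent.Neb
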