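import Mathlib
import Fermat.Agent.Neb.Datum

/-!
# Eisenstein series with a character of the group of a `Datum`
-/

set_option autoImplicit false

noncomputable section

namespace Fermat.Agent.Neb

open UpperHalfPlane EisensteinSeries ModularForm Filter Topology Fermat.Agent.Support
  Fermat.Agent.Top
open scoped MatrixGroups Manifold

section Character

variable {N : ℕ} {D : Datum N} (χ : D.Γ →* ℂˣ)

/-- The weight function attached to a character of `Γ₀(N)`. -/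
def chiW (v : Fin 2 → ℤ) : ℂ :=
  open Classical in
  if h : ∃ γ : D.Γ, (γ : SL(2, ℤ)) 1 = v then
    (((χ h.choose)⁻¹ : ℂˣ) : ℂ) else 0

/-- hypothesis: trivial on all elements with `trace ^ 2 = 4` -/
def IsParaChar : Prop :=
  ∀ γ : D.Γ,
    ((γ : SL(2, ℤ)) : Matrix (Fin 2) (Fin 2) ℤ).trace ^ 2 = 4 → χ γ = 1

variable {χ}

theorem chi_eq_of_row_eq (hχ : IsParaChar χ) {γ δ : D.Γ}
    (h : (γ : SL(2, ℤ)) 1 = (δ : SL(2, ℤ)) 1) : χ γ = χ δ := by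
  have h1 : χ (γ * δ⁻¹) = 1 := by
    apply hχ
    have h10 : (γ : SL(2, ℤ)) 1 0 = (δ : SL(2, ℤ)) 1 0 := congrFun h 0
    have h11 : (γ : SL(2, ℤ)) 1 1 = (δ : SL(2, ℤ)) 1 1 := congrFun h 1
    have hg := (γ : SL(2, ℤ)).det_coe
    have hd := (δ : SL(2, ℤ)).det_coe
    rw [Matrix.det_fin_two] at hg hd
    have e : ((γ * δ⁻¹ : D.Γ) : SL(2, ℤ)) =
        (γ : SL(2, ℤ)) * (δ : SL(2, ℤ))⁻¹ := rfl
    rw [e, Matrix.SpecialLinearGroup.coe_mul, Matrix.SpecialLinearGroup.coe_inv,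
      Matrix.adjugate_fin_two, Matrix.trace_fin_two]
    simp only [Matrix.mul_apply, Fin.sum_univ_two, Matrix.of_apply, Matrix.cons_val', Matrix.cons_val_zero,
      Matrix.cons_val_one, Matrix.cons_val_fin_one]
    have : ((γ : SL(2, ℤ)) 0 0 * (δ : SL(2, ℤ)) 1 1 + (γ : SL(2, ℤ)) 0 1 * -(δ : SL(2, ℤ)) 1 0 +
      ((γ : SL(2, ℤ)) 1 0 * -(δ : SL(2, ℤ)) 0 1 + (γ : SL(2, ℤ)) 1 1 * (δ : SL(2, ℤ)) 0 0)) = 2 := by
      rw [← h10, ← h11]
      rw [← h10, ← h11] at hd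
      linear_combination hg + hd
    rw [this]; norm_num
  rw [map_mul, map_inv, mul_inv_eq_one] at h1
  exact h1

theorem chiW_row (hχ : IsParaChar χ) (γ : D.Γ) :
    chiW χ ((γ : SL(2, ℤ)) 1) = (((χ γ)⁻¹ : ℂˣ) : ℂ) := by
  have h : ∃ δ : D.Γ, (δ : SL(2, ℤ)) 1 = (γ : SL(2, ℤ)) 1 := ⟨γ, rfl⟩
  rw [chiW, dif_pos h, chi_eq_of_row_eq hχ h.choose_spec]

theorem chiW_of_not {v : Fin 2 → ℤ}
    (h : ¬ ∃ γ : D.Γ, (γ : SL(2, ℤ)) 1 = v) : chiW χ v = 0 := by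
  rw [chiW, dif_neg h]

theorem chiW_vmul (hχ : IsParaChar χ) (γ : D.Γ) (v : Fin 2 → ℤ) :
    chiW χ (vmul v (γ : SL(2, ℤ))⁻¹) = (χ γ : ℂ) * chiW χ v := by
  by_cases h : ∃ δ : D.Γ, (δ : SL(2, ℤ)) 1 = v
  · obtain ⟨δ, rfl⟩ := h
    have e : ((δ * γ⁻¹ : D.Γ) : SL(2, ℤ)) =
        (δ : SL(2, ℤ)) * (γ : SL(2, ℤ))⁻¹ := rfl
    rw [← row_mul, ← e, chiW_row hχ, chiW_row hχ, map_mul, map_inv, mul_inv, inv_inv,
      Units.val_mul, mul_comm]
  · have h' : ¬ ∃ δ : D.Γ,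
        (δ : SL(2, ℤ)) 1 = vmul v (γ : SL(2, ℤ))⁻¹ := by
      rintro ⟨δ, hδ⟩
      apply h
      refine ⟨δ * γ, ?_⟩
      have e : ((δ * γ : D.Γ) : SL(2, ℤ)) =
        (δ : SL(2, ℤ)) * (γ : SL(2, ℤ)) := rfl
      rw [e, row_mul, hδ, ← vmul_mul, inv_mul_cancel, vmul_one]
    rw [chiW_of_not h, chiW_of_not h', mul_zero]

theorem norm_chiW_le (hfin : ∀ γ, IsOfFinOrder (χ γ)) (v : Fin 2 → ℤ) : ‖chiW χ v‖ ≤ 1 := by
  by_cases h : ∃ δ : D.Γ, (δ : SL(2, ℤ)) 1 = v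
  · rw [chiW, dif_pos h, norm_eq_one_of_isOfFinOrder (hfin _).inv]
  · rw [chiW_of_not h, norm_zero]; exact zero_le_one

/-- The Eisenstein series of weight `12` attached to `χ`. -/
def eisChi (χ : D.Γ →* ℂˣ) : ℍ → ℂ := wEis 12 (chiW χ)

theorem eisChi_mdifferentiable (hfin : ∀ γ, IsOfFinOrder (χ γ)) : MDiff (eisChi χ) :=
  wEis_mdifferentiable (by norm_num) (norm_chiW_le hfin)

theorem eisChi_slash (hχ : IsParaChar χ) (γ : D.Γ) :
    eisChi χ ∣[(12 : ℤ)] (γ : SL(2, ℤ)) = (χ γ : ℂ) • eisChi χ := by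
  rw [eisChi, wEis_slash]
  funext z
  simp only [wEis, Pi.smul_apply, smul_eq_mul]
  simp_rw [chiW_vmul hχ, mul_assoc]
  rw [tsum_mul_left]

theorem eisChi_slash_mdifferentiable (hfin : ∀ γ, IsOfFinOrder (χ γ)) (δ : SL(2, ℤ)) :
    MDiff (eisChi χ ∣[(12 : ℤ)] δ) := by
  rw [eisChi, wEis_slash]
  exact wEis_mdifferentiable (by norm_num) (fun v => norm_chiW_le hfin _)

theorem eisChi_slash_isBoundedAtImInfty (hfin : ∀ γ, IsOfFinOrder (χ γ)) (δ : SL(2, ℤ)) :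
    IsBoundedAtImInfty (eisChi χ ∣[(12 : ℤ)] δ) := by
  rw [eisChi, wEis_slash]
  exact wEis_isBoundedAtImInfty (by norm_num) (fun v => norm_chiW_le hfin _)

theorem chiW_zero_d (hχ : IsParaChar χ) (d : ℤ) :
    chiW χ ![0, d] * (d : ℂ) ^ (-12 : ℤ) = if d = 1 ∨ d = -1 then 1 else 0 := by
  by_cases h : ∃ γ : D.Γ, (γ : SL(2, ℤ)) 1 = ![0, d]
  · obtain ⟨γ, hγ⟩ := h
    have h0 : (γ : SL(2, ℤ)) 1 0 = 0 := by rw [hγ]; rfl
    have h1 : (γ : SL(2, ℤ)) 1 1 = d := by rw [hγ]; rfl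
    have hdet := (γ : SL(2, ℤ)).det_coe
    rw [Matrix.det_fin_two, h0, h1, mul_zero, sub_zero] at hdet
    have hd : d = 1 ∨ d = -1 := by
      have : IsUnit d := IsUnit.of_mul_eq_one_right _ hdet
      exact Int.isUnit_iff.mp this
    rw [if_pos hd, ← hγ, chiW_row hχ]
    have : χ γ = 1 := by
      apply hχ
      rw [Matrix.trace_fin_two]
      have h1' : ((γ : SL(2, ℤ)) : Matrix (Fin 2) (Fin 2) ℤ) 1 1 = d := h1
      rw [h1']
      rcases hd with rfl | rfl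
      · have : ((γ : SL(2, ℤ)) : Matrix (Fin 2) (Fin 2) ℤ) 0 0 = 1 := by
          have : (γ : SL(2, ℤ)) 0 0 = 1 := by linarith
          exact this
        rw [this]; norm_num
      · have : ((γ : SL(2, ℤ)) : Matrix (Fin 2) (Fin 2) ℤ) 0 0 = -1 := by
          have : (γ : SL(2, ℤ)) 0 0 = -1 := by linarith
          exact this
        rw [this]; norm_num
    rw [this]
    rcases hd with rfl | rfl
    · simp
    · have : ((-1 : ℤ) : ℂ) ^ (-12 : ℤ) = 1 := by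
        rw [zpow_neg]
        norm_num
      rw [this]; simp
  · rw [chiW_of_not h, zero_mul, if_neg]
    rintro (rfl | rfl)
    · exact h ⟨1, by ext j; fin_cases j <;> rfl⟩
    · refine h ⟨⟨-1, D.neg_mem⟩, ?_⟩
      ext j; fin_cases j <;> simp

theorem eisChi_tendsto (hχ : IsParaChar χ) (hfin : ∀ γ, IsOfFinOrder (χ γ)) :
    Tendsto (fun y : ℝ => eisChi χ (iy y)) atTop (𝓝 2) := by
  have h := wEis_tendsto (k := 12) (by norm_num) (norm_chiW_le hfin)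
  have hs : (fun v : Fin 2 → ℤ => if v 0 = 0 then chiW χ v * (v 1 : ℂ) ^ (-12 : ℤ) else 0) =
      fun v => if v ∈ ({![0, 1], ![0, -1]} : Finset (Fin 2 → ℤ)) then (1 : ℂ) else 0 := by
    funext v
    have hv : v = ![v 0, v 1] := by ext j; fin_cases j <;> rfl
    by_cases h0 : v 0 = 0
    · rw [if_pos h0]
      have h1 := chiW_zero_d hχ (v 1)
      rw [h0] at hv
      rw [← hv] at h1
      rw [h1]
      refine if_congr ?_ rfl rfl
      rw [hv]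
      simp
    · rw [if_neg h0, if_neg]
      intro hmem
      simp only [Finset.mem_insert, Finset.mem_singleton] at hmem
      rcases hmem with h | h <;> (rw [h] at h0; simp at h0)
  rw [hs, tsum_eq_sum (s := ({![0, 1], ![0, -1]} : Finset (Fin 2 → ℤ)))
    (fun v hv => if_neg hv), Finset.sum_congr rfl (fun v hv => if_pos hv), Finset.sum_const,
    Finset.card_insert_of_notMem (by simp)] at h
  have h2 : ((({![0, -1]} : Finset (Fin 2 → ℤ)).card + 1) • (1 : ℂ)) = 2 := by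
    norm_num
  rw [h2] at h
  exact h

theorem eisChi_ne_zero (hχ : IsParaChar χ) (hfin : ∀ γ, IsOfFinOrder (χ γ)) : eisChi χ ≠ 0 := by
  intro h0
  have h := eisChi_tendsto hχ hfin
  rw [h0] at h
  have h1 := tendsto_nhds_unique h (tendsto_const_nhds (x := (0 : ℂ)))
  exact two_ne_zero h1

end Character

end Fermat.Agent.Neb
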