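import Mathlib
import Fermat.Agent.Neb.Eis
import Fermat.Agent.Top.Forms

/-!
# Functions with a character of the group of a `Datum`, meromorphic at the cusps
-/

set_option autoImplicit false
set_option linter.unusedSectionVars false

noncomputable section

namespace Fermat.Agent.Neb

open UpperHalfPlane hiding I
open ModularForm Filter Topology Fermat.Agent.ModFn Fermat.Agent.Support Fermat.Agent.Top
open scoped MatrixGroups Manifold

/-- `V : ℍ → ℂ` transforms under `Γ₀(N)` with the character `χ` and has a Laurent expansion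
in `exp (2πiz/N)` at each cusp. -/
structure IsCForm {N : ℕ} (D : Datum N) (χ : D.Γ →* ℂˣ) (V : ℍ → ℂ) : Prop where
  inv : ∀ (γ : D.Γ) (z : ℍ), V ((γ : SL(2, ℤ)) • z) = χ γ * V z
  exp : ∀ δ : SL(2, ℤ), ∃ φ : LaurentSeries ℂ, HasExp N (fun z => V (δ • z)) φ

namespace IsCForm

variable {N : ℕ} [NeZero N] {D : Datum N} {χ ψ : D.Γ →* ℂˣ} {V W : ℍ → ℂ}

theorem mul (hV : IsCForm D χ V) (hW : IsCForm D ψ W) : IsCForm D (χ * ψ) (V * W) where
  inv γ z := by
    simp only [Pi.mul_apply, hV.inv, hW.inv, MonoidHom.mul_apply, Units.val_mul]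
    ring
  exp δ := by
    obtain ⟨φ, hφ⟩ := hV.exp δ
    obtain ⟨φ', hφ'⟩ := hW.exp δ
    exact ⟨φ * φ', hφ.mul hφ'⟩

theorem const (c : ℂ) : IsCForm D 1 (fun _ => c) where
  inv γ z := by simp
  exp δ := ⟨HahnSeries.C c, HasExp.const N c⟩

theorem one : IsCForm D 1 1 := const 1

theorem pow (hV : IsCForm D χ V) (n : ℕ) : IsCForm D (χ ^ n) (V ^ n) where
  inv γ z := by
    simp only [Pi.pow_apply, hV.inv, MonoidHom.pow_apply, Units.val_pow_eq_pow_val, mul_pow]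
  exp δ := by
    obtain ⟨φ, hφ⟩ := hV.exp δ
    exact ⟨φ ^ n, hφ.pow n⟩

theorem add (hV : IsCForm D χ V) (hW : IsCForm D χ W) : IsCForm D χ (V + W) where
  inv γ z := by
    simp only [Pi.add_apply, hV.inv, hW.inv]
    ring
  exp δ := by
    obtain ⟨φ, hφ⟩ := hV.exp δ
    obtain ⟨φ', hφ'⟩ := hW.exp δ
    exact ⟨φ + φ', hφ.add hφ'⟩

theorem neg (hV : IsCForm D χ V) : IsCForm D χ (-V) where
  inv γ z := by
    simp only [Pi.neg_apply, hV.inv, mul_neg]
  exp δ := by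
    obtain ⟨φ, hφ⟩ := hV.exp δ
    exact ⟨-φ, hφ.neg⟩

theorem zero : IsCForm D χ 0 where
  inv γ z := by simp
  exp δ := ⟨0, HasExp.zero N⟩

theorem congr (hV : IsCForm D χ V) (h : χ = ψ) : IsCForm D ψ V := h ▸ hV

theorem mdifferentiable (hV : IsCForm D χ V) : MDiff V := by
  obtain ⟨φ, hφ⟩ := hV.exp 1
  have := hφ.mdifferentiable
  simpa using this

/-- The `q_N`-expansion of `V ∘ δ`. -/
def expAt (hV : IsCForm D χ V) (δ : SL(2, ℤ)) : LaurentSeries ℂ := (hV.exp δ).choose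

theorem hasExp_expAt (hV : IsCForm D χ V) (δ : SL(2, ℤ)) :
    HasExp N (fun z => V (δ • z)) (hV.expAt δ) := (hV.exp δ).choose_spec

theorem expAt_eq (hV : IsCForm D χ V) {δ : SL(2, ℤ)} {φ : LaurentSeries ℂ}
    (h : HasExp N (fun z => V (δ • z)) φ) : hV.expAt δ = φ := (hV.hasExp_expAt δ).unique h

theorem expAt_ne_zero (hV : IsCForm D χ V) (h0 : V ≠ 0) (δ : SL(2, ℤ)) : hV.expAt δ ≠ 0 := by
  intro h
  have h1 := (hV.hasExp_expAt δ).eq_zero_iff.mpr h
  apply h0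
  funext z
  have := congrFun h1 (δ⁻¹ • z)
  simpa using this

theorem mul_eq_zero (hV : IsCForm D χ V) (hW : IsCForm D ψ W) (h : V * W = 0) : V = 0 ∨ W = 0 := by
  by_contra hcon
  rw [not_or] at hcon
  have h1 := hV.expAt_ne_zero hcon.1 1
  have h2 := hW.expAt_ne_zero hcon.2 1
  have h3 := (hV.hasExp_expAt 1).mul (hW.hasExp_expAt 1)
  have h4 : (fun z => V ((1 : SL(2, ℤ)) • z)) * (fun z => W ((1 : SL(2, ℤ)) • z)) = 0 := by
    funext z
    simpa using congrFun h z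
  rw [h4] at h3
  rcases _root_.mul_eq_zero.mp h3.eq_zero_of_zero with h | h
  · exact h1 h
  · exact h2 h

theorem mul_ne_zero (hV : IsCForm D χ V) (hW : IsCForm D ψ W) (h1 : V ≠ 0) (h2 : W ≠ 0) :
    V * W ≠ 0 := fun h => (hV.mul_eq_zero hW h).elim h1 h2

theorem pow_ne_zero (hV : IsCForm D χ V) (h1 : V ≠ 0) (n : ℕ) : V ^ n ≠ 0 := by
  induction n with
  | zero =>
    rw [pow_zero]
    intro h
    exact one_ne_zero (congrFun h UpperHalfPlane.I)
  | succ n ih => rw [pow_succ]; exact (hV.pow n).mul_ne_zero hV ih h1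

end IsCForm

local notation "Δ" => ModularForm.discriminant

/-! ### The function with given character -/

section chiForm

variable {N : ℕ} [NeZero N] {D : Datum N} {χ : D.Γ →* ℂˣ}

/-- `E_χ / Δ`, a nonzero function with character `χ`. -/
def chiForm (χ : D.Γ →* ℂˣ) (z : ℍ) : ℂ := eisChi χ z / Δ z

theorem chiForm_smul (χ : D.Γ →* ℂˣ) (δ : SL(2, ℤ)) (z : ℍ) :
    chiForm χ (δ • z) = (eisChi χ ∣[(12 : ℤ)] δ) z / Δ z := by
  rw [chiForm, delta_smul, SL_slash_apply, zpow_neg]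
  have := denom_ne_zero δ z
  field_simp

/-- parabolic invariance: `V ∘ δ` is invariant under `T ^ h` if `N ∣ c² h`. -/
theorem IsCForm.smul_T_zpow {V : ℍ → ℂ} (hV : IsCForm D χ V) (hχ : IsParaChar χ) (δ : SL(2, ℤ))
    {h : ℤ} (hh : (N : ℤ) ∣ (δ 1 0) ^ 2 * h) (z : ℍ) :
    V (δ • (ModularGroup.T ^ h : SL(2, ℤ)) • z) = V (δ • z) := by
  have h1 := hV.inv ⟨_, D.conj_mem δ _ hh⟩ (δ • z)
  rw [hχ _ (by rw [trace_conj_T_zpow]; norm_num), Units.val_one, one_mul] at h1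
  rw [← h1, ← mul_smul, ← mul_smul]
  congr 2
  simp [mul_assoc]

theorem isCForm_chiForm (hχ : IsParaChar χ) (hfin : ∀ γ, IsOfFinOrder (χ γ)) :
    IsCForm D χ (chiForm χ) where
  inv γ z := by
    rw [chiForm_smul, eisChi_slash hχ, chiForm]
    simp only [Pi.smul_apply, smul_eq_mul]
    ring
  exp δ := by
    have h1 : ∃ φ, HasExp N (eisChi χ ∣[(12 : ℤ)] δ) φ := by
      refine ⟨_, HasExp.of_periodic (h := N) (periodic_of_T_zpow fun z => ?_)
        (eisChi_slash_mdifferentiable hfin δ) (eisChi_slash_isBoundedAtImInfty hfin δ)⟩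
      have h2 := congrFun (eisChi_slash hχ ⟨_, D.conj_mem δ N (dvd_mul_left _ _)⟩) 
      rw [hχ _ (by rw [trace_conj_T_zpow]; norm_num), Units.val_one, one_smul] at h2
      have h3 : (eisChi χ ∣[(12 : ℤ)] (δ * ModularGroup.T ^ (N : ℤ) * δ⁻¹ : SL(2, ℤ))) =
        eisChi χ := funext h2
      have h4 : (eisChi χ ∣[(12 : ℤ)] (δ * ModularGroup.T ^ (N : ℤ) : SL(2, ℤ))) =
        eisChi χ ∣[(12 : ℤ)] δ := by
        rw [← congrArg (fun f : ℍ → ℂ => f ∣[(12 : ℤ)] δ) h3]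
        rw [← SlashAction.slash_mul, inv_mul_cancel_right]
      have h5 := congrFun h4 z
      rw [SlashAction.slash_mul, SL_slash_apply] at h5
      have hd : denom (ModularGroup.T ^ (N : ℤ) : SL(2, ℤ)) z = 1 := by
        rw [ModularGroup.denom_apply, ModularGroup.coe_T_zpow]
        simp
      rw [hd, one_zpow, mul_one] at h5
      exact h5
    obtain ⟨φ, hφ⟩ := h1
    obtain ⟨ψ, hψ⟩ := hasExp_delta_inv N
    refine ⟨φ * ψ, (hφ.mul hψ).congr ?_ rfl⟩
    funext z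
    rw [chiForm_smul, Pi.mul_apply, Pi.inv_apply, div_eq_mul_inv]

theorem chiForm_ne_zero (hχ : IsParaChar χ) (hfin : ∀ γ, IsOfFinOrder (χ γ)) :
    chiForm χ ≠ 0 := by
  intro h0
  apply eisChi_ne_zero hχ hfin
  funext z
  have h1 := congrFun h0 z
  rw [chiForm, Pi.zero_apply, div_eq_zero_iff] at h1
  exact h1.resolve_right (discriminant_ne_zero z)

end chiForm

end Fermat.Agent.Neb
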