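import Mathlib
import Fermat.Agent.Neb.Forms
import Fermat.Agent.Top.Coset

/-!
# Invariant functions, coset translates and norms to level one
-/

set_option autoImplicit false

noncomputable section

namespace Fermat.Agent.Neb

open UpperHalfPlane hiding I
open ModularForm Filter Topology Fermat.Agent.ModFn Fermat.Agent.Support Fermat.Agent.Top
open Polynomial
open scoped MatrixGroups Manifold

/-- The coset space `SL(2, ℤ) ⧸ Γ₀(N)`. -/
abbrev X0 {N : ℕ} (D : Datum N) : Type := SL(2, ℤ) ⧸ D.Γ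

instance {N : ℕ} (D : Datum N) : Fintype (X0 D) :=
  haveI := D.finiteIndex
  Fintype.ofFinite _

/-- The ring of `Γ₀(N)`-invariant functions with expansions at all cusps. -/
def WN {N : ℕ} (D : Datum N) : Subalgebra ℂ (ℍ → ℂ) where
  carrier := {f | f ∈ bigA N ∧ ∀ γ ∈ D.Γ, ∀ z : ℍ, f (γ • z) = f z}
  mul_mem' := fun {f g} hf hg => ⟨mul_mem hf.1 hg.1, fun γ hγ z => by
    rw [Pi.mul_apply, Pi.mul_apply, hf.2 γ hγ, hg.2 γ hγ]⟩
  one_mem' := ⟨one_mem _, fun _ _ _ => rfl⟩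
  add_mem' := fun {f g} hf hg => ⟨add_mem hf.1 hg.1, fun γ hγ z => by
    rw [Pi.add_apply, Pi.add_apply, hf.2 γ hγ, hg.2 γ hγ]⟩
  zero_mem' := ⟨zero_mem _, fun _ _ _ => rfl⟩
  algebraMap_mem' := fun c => ⟨Subalgebra.algebraMap_mem _ c, fun _ _ _ => rfl⟩

theorem mem_WN {N : ℕ} {D : Datum N} {f : ℍ → ℂ} : f ∈ WN D ↔
    f ∈ bigA N ∧ ∀ γ ∈ D.Γ, ∀ z : ℍ, f (γ • z) = f z := Iff.rfl

theorem mem_WN_iff_isCForm {N : ℕ} {D : Datum N} {f : ℍ → ℂ} : f ∈ WN D ↔ IsCForm D 1 f := by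
  constructor
  · rintro ⟨h1, h2⟩
    exact ⟨fun γ z => by simpa using h2 γ γ.2 z, h1⟩
  · rintro ⟨h1, h2⟩
    exact ⟨h2, fun γ hγ z => by simpa using h1 ⟨γ, hγ⟩ z⟩

theorem WN_le_bigA {N : ℕ} (D : Datum N) : WN D ≤ bigA N := fun _ hf => hf.1

theorem WN_eq_zero_or {N : ℕ} [NeZero N] {D : Datum N} {f g : ℍ → ℂ} (hf : f ∈ WN D) (hg : g ∈ WN D)
    (h : f * g = 0) : f = 0 ∨ g = 0 := bigA_eq_zero_or hf.1 hg.1 h

instance {N : ℕ} [NeZero N] (D : Datum N) : IsDomain (WN D) :=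
  (Subalgebra.inclusion_injective (WN_le_bigA D)).isDomain (Subalgebra.inclusion (WN_le_bigA D))

theorem jH_mem_WN {N : ℕ} [NeZero N] (D : Datum N) : jH ∈ WN D := ⟨jH_mem_bigA N, fun γ _ z => jH_smul γ z⟩

theorem t_mem_WN {N : ℕ} [NeZero N] (D : Datum N) : D.t ∈ WN D := ⟨D.t_mem, D.t_inv⟩

theorem jd_mem_WN {N : ℕ} [NeZero N] {D : Datum N} {d : ℕ} [NeZero d] (h : d ∣ N) :
    jd d ∈ WN D := by
  refine ⟨fun δ => ?_, fun γ hγ z => jd_smul h (D.le hγ) z⟩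
  obtain ⟨φ, hφ, -⟩ := exists_hasExp_jd_smul_order d δ
  obtain ⟨m, rfl⟩ := h
  have : NeZero m := ⟨fun h0 => NeZero.ne (d * m) (by rw [h0, mul_zero])⟩
  exact ⟨_, hφ.qExpand (m := m)⟩

theorem jdN_mem_WN {N : ℕ} [NeZero N] (D : Datum N) : jd N ∈ WN D := jd_mem_WN dvd_rfl

theorem WN_Gamma0_le {N : ℕ} [NeZero N] (D : Datum N) : Top.WN N ≤ WN D :=
  fun _ hf => ⟨hf.1, fun γ hγ z => hf.2 γ (D.le hγ) z⟩

/-! ### Coset translates -/

/-- translate of a function along a coset -/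
def cosetFn {N : ℕ} {D : Datum N} (f : ℍ → ℂ) (x : X0 D) : ℍ → ℂ := fun z => f ((x.out)⁻¹ • z)

theorem cosetFn_mk {N : ℕ} {D : Datum N} {f : ℍ → ℂ}
    (hf : ∀ γ ∈ D.Γ, ∀ z : ℍ, f (γ • z) = f z) (g : SL(2, ℤ)) :
    cosetFn f (g : X0 D) = fun z => f (g⁻¹ • z) := by
  funext z
  obtain ⟨γ, hγ⟩ := QuotientGroup.mk_out_eq_mul (D.Γ) g
  rw [cosetFn, hγ, mul_inv_rev, mul_smul, hf _ (inv_mem γ.2)]

theorem cosetFn_smul {N : ℕ} {D : Datum N} {f : ℍ → ℂ}
    (hf : ∀ γ ∈ D.Γ, ∀ z : ℍ, f (γ • z) = f z) (x : X0 D)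
    (δ : SL(2, ℤ)) (z : ℍ) : cosetFn f x (δ • z) = cosetFn f (δ⁻¹ • x) z := by
  induction x using QuotientGroup.induction_on with
  | H g =>
    have h1 : δ⁻¹ • (g : X0 D) = ((δ⁻¹ * g : SL(2, ℤ)) : X0 D) := rfl
    rw [h1, cosetFn_mk hf, cosetFn_mk hf, mul_inv_rev, inv_inv]
    show f (g⁻¹ • δ • z) = f ((g⁻¹ * δ) • z)
    rw [mul_smul]

theorem cosetFn_one {N : ℕ} {D : Datum N} {f : ℍ → ℂ}
    (hf : ∀ γ ∈ D.Γ, ∀ z : ℍ, f (γ • z) = f z) :
    cosetFn f ((1 : SL(2, ℤ)) : X0 D) = f := by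
  rw [cosetFn_mk hf]
  simp

theorem cosetFn_mem_bigA {N : ℕ} {D : Datum N} {f : ℍ → ℂ} (hf : f ∈ bigA N) (x : X0 D) :
    cosetFn f x ∈ bigA N := smul_mem_bigA hf _

theorem cosetFn_ne_zero {N : ℕ} {D : Datum N} {f : ℍ → ℂ} (hf : f ≠ 0) (x : X0 D) : cosetFn f x ≠ 0 := by
  intro h
  apply hf
  funext z
  have := congrFun h (x.out • z)
  simpa [cosetFn] using this

/-- the Lagrange polynomial -/
def lagr {N : ℕ} [NeZero N] {D : Datum N} (g t : ℍ → ℂ) : Polynomial (ℍ → ℂ) :=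
  open Classical in
  ∑ x : X0 D, Polynomial.C (cosetFn g x) *
    ∏ y ∈ Finset.univ.erase x, (Polynomial.X - Polynomial.C (cosetFn t y))

theorem map_precomp_cosetFn {N : ℕ} {D : Datum N} {f : ℍ → ℂ}
    (hf : ∀ γ ∈ D.Γ, ∀ z : ℍ, f (γ • z) = f z) (x : X0 D)
    (δ : SL(2, ℤ)) : (precomp (K := ℂ) (fun z => δ • z)).toRingHom (cosetFn f x) =
      cosetFn f (δ⁻¹ • x) := funext fun z => cosetFn_smul hf x δ z

theorem lagr_inv {N : ℕ} [NeZero N] {D : Datum N} {g t : ℍ → ℂ}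
    (hg : ∀ γ ∈ D.Γ, ∀ z : ℍ, g (γ • z) = g z)
    (ht : ∀ γ ∈ D.Γ, ∀ z : ℍ, t (γ • z) = t z) (δ : SL(2, ℤ)) :
    (lagr (D := D) g t).map (precomp (K := ℂ) (fun z => δ • z)).toRingHom = lagr (D := D) g t := by
  classical
  have h1 : ∀ x : X0 D, (Polynomial.C (cosetFn g x) *
      ∏ y ∈ Finset.univ.erase x, (Polynomial.X - Polynomial.C (cosetFn t y))).map
        (precomp (K := ℂ) (fun z => δ • z)).toRingHom = Polynomial.C (cosetFn g (δ⁻¹ • x)) *
      ∏ y ∈ Finset.univ.erase (δ⁻¹ • x), (Polynomial.X - Polynomial.C (cosetFn t y)) := by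
    intro x
    rw [Polynomial.map_mul, Polynomial.map_C, map_precomp_cosetFn hg, Polynomial.map_prod]
    congr 1
    refine Finset.prod_bij (fun y _ => δ⁻¹ • y) (fun y hy => ?_) (fun y _ y' _ h => ?_)
      (fun y hy => ?_) (fun y _ => ?_)
    · rw [Finset.mem_erase] at hy ⊢
      exact ⟨fun h => hy.1 (MulAction.injective δ⁻¹ h), Finset.mem_univ _⟩
    · exact MulAction.injective δ⁻¹ h
    · refine ⟨δ • y, ?_, ?_⟩
      · rw [Finset.mem_erase] at hy ⊢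
        refine ⟨fun h => hy.1 ?_, Finset.mem_univ _⟩
        rw [← h, inv_smul_smul]
      · exact inv_smul_smul δ y
    · rw [Polynomial.map_sub, Polynomial.map_X, Polynomial.map_C, map_precomp_cosetFn ht]
  rw [lagr, Polynomial.map_sum, Finset.sum_congr rfl fun x _ => h1 x]
  exact Equiv.sum_comp (MulAction.toPerm (δ⁻¹)) (fun x : X0 D => Polynomial.C (cosetFn g x) *
      ∏ y ∈ Finset.univ.erase x, (Polynomial.X - Polynomial.C (cosetFn t y)))

theorem lagr_coeff_mem_bigA {N : ℕ} [NeZero N] {D : Datum N} {g t : ℍ → ℂ} (hg : g ∈ bigA N) (ht : t ∈ bigA N)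
    (k : ℕ) : (lagr (D := D) g t).coeff k ∈ bigA N := by
  classical
  rw [lagr, Polynomial.finsetSum_coeff]
  exact sum_mem fun x _ => coeff_mul_mem (coeff_C_mem (cosetFn_mem_bigA hg x))
    (coeff_prod_X_sub_C_mem _ fun y _ => cosetFn_mem_bigA ht y) k

theorem lagr_coeff_mem {N : ℕ} [NeZero N] {D : Datum N} {g t : ℍ → ℂ} (hg : g ∈ WN D) (ht : t ∈ WN D)
    (k : ℕ) : (lagr (D := D) g t).coeff k ∈ Algebra.adjoin ℂ {jH} :=
  coeff_mem_adjoin_jH (lagr_coeff_mem_bigA hg.1 ht.1) (lagr_inv hg.2 ht.2) k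

/-- The value of the Lagrange polynomial at `t`. -/
theorem lagr_eval {N : ℕ} [NeZero N] {D : Datum N} {g t : ℍ → ℂ} (hg : g ∈ WN D) (ht : t ∈ WN D) :
    (lagr (D := D) g t).eval t = g * (lagr (D := D) 1 t).eval t := by
  classical
  have key : ∀ g : ℍ → ℂ, g ∈ WN D → (lagr (D := D) g t).eval t =
      g * ∏ y ∈ Finset.univ.erase ((1 : SL(2, ℤ)) : X0 D), (t - cosetFn t y) := by
    intro g hg
    rw [lagr, Polynomial.eval_finsetSum,
      Finset.sum_eq_single ((1 : SL(2, ℤ)) : X0 D)]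
    · rw [Polynomial.eval_mul, Polynomial.eval_C, Polynomial.eval_prod, cosetFn_one hg.2]
      simp
    · intro x _ hx
      rw [Polynomial.eval_mul, Polynomial.eval_prod]
      have h1 : ((1 : SL(2, ℤ)) : X0 D) ∈ Finset.univ.erase x :=
        Finset.mem_erase.mpr ⟨hx.symm, Finset.mem_univ _⟩
      rw [Finset.prod_eq_zero h1, mul_zero]
      rw [cosetFn_one ht.2]
      simp
    · intro h
      exact absurd (Finset.mem_univ _) h
  rw [key g hg, key 1 (one_mem _), one_mul]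

theorem lagr_one_eval_ne_zero {N : ℕ} [NeZero N] (D : Datum N) :
    (lagr (D := D) 1 (D.t)).eval (D.t) ≠ 0 := by
  classical
  have key : (lagr (D := D) 1 (D.t)).eval (D.t) =
      ∏ y ∈ Finset.univ.erase ((1 : SL(2, ℤ)) : X0 D), (D.t - cosetFn (D.t) y) := by
    rw [lagr, Polynomial.eval_finsetSum,
      Finset.sum_eq_single ((1 : SL(2, ℤ)) : X0 D)]
    · rw [Polynomial.eval_mul, Polynomial.eval_C, Polynomial.eval_prod]
      have : cosetFn (1 : ℍ → ℂ) ((1 : SL(2, ℤ)) : X0 D) = 1 := rfl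
      rw [this, one_mul]
      simp
    · intro x _ hx
      rw [Polynomial.eval_mul, Polynomial.eval_prod]
      have h1 : ((1 : SL(2, ℤ)) : X0 D) ∈ Finset.univ.erase x :=
        Finset.mem_erase.mpr ⟨hx.symm, Finset.mem_univ _⟩
      rw [Finset.prod_eq_zero h1, mul_zero]
      rw [cosetFn_one (t_mem_WN D).2]
      simp
    · intro h
      exact absurd (Finset.mem_univ _) h
  rw [key]
  have hmem : ∀ s : Finset (X0 D), (∏ y ∈ s, (D.t - cosetFn (D.t) y)) ∈ bigA N := fun s =>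
    prod_mem fun y _ => sub_mem (t_mem_WN D).1 (cosetFn_mem_bigA (t_mem_WN D).1 y)
  have hne : ∀ y : X0 D, y ≠ ((1 : SL(2, ℤ)) : X0 D) → D.t - cosetFn (D.t) y ≠ 0 := by
    intro y hy h
    apply hy
    induction y using QuotientGroup.induction_on with
    | H g =>
      rw [cosetFn_mk (t_mem_WN D).2, sub_eq_zero] at h
      have h2 : g⁻¹ ∈ D.Γ := D.t_sep _ fun τ =>
        (congrFun h τ).symm
      rw [QuotientGroup.eq, mul_one]
      exact h2
  have : ∀ s : Finset (X0 D), (∀ y ∈ s, y ≠ ((1 : SL(2, ℤ)) : X0 D)) →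
      (∏ y ∈ s, (D.t - cosetFn (D.t) y)) ≠ 0 := by
    intro s
    induction s using Finset.induction_on with
    | empty =>
      intro _ h
      exact one_ne_zero (congrFun h UpperHalfPlane.I)
    | insert y s hys ih =>
      intro hs h
      rw [Finset.prod_insert hys] at h
      rcases bigA_eq_zero_or (sub_mem (t_mem_WN D).1 (cosetFn_mem_bigA (t_mem_WN D).1 y))
        (hmem s) h with h | h
      · exact hne y (hs y (Finset.mem_insert_self y s)) h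
      · exact ih (fun z hz => hs z (Finset.mem_insert_of_mem hz)) h
  exact this _ fun y hy => (Finset.mem_erase.mp hy).1

/-- `ℂ[j, j_N]` -/
def A0 {N : ℕ} (D : Datum N) : Subalgebra ℂ (ℍ → ℂ) := Algebra.adjoin ℂ {jH, D.t}

theorem A0_le_WN {N : ℕ} [NeZero N] (D : Datum N) : A0 D ≤ WN D := by
  rw [A0, Algebra.adjoin_le_iff]
  rintro f (rfl | rfl)
  · exact jH_mem_WN D
  · exact t_mem_WN D

theorem adjoin_jH_le_A0 {N : ℕ} (D : Datum N) : Algebra.adjoin ℂ {jH} ≤ A0 D :=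
  Algebra.adjoin_mono (Set.singleton_subset_iff.mpr (Set.mem_insert _ _))

theorem t_mem_A0 {N : ℕ} (D : Datum N) : D.t ∈ A0 D :=
  Algebra.subset_adjoin (Set.mem_insert_of_mem _ rfl)

theorem eval_mem_A0 {N : ℕ} {D : Datum N} {P : Polynomial (ℍ → ℂ)}
    (hP : ∀ k, P.coeff k ∈ Algebra.adjoin ℂ {jH}) : P.eval (D.t) ∈ A0 D := by
  rw [Polynomial.eval_eq_sum_range]
  exact sum_mem fun k _ => mul_mem (adjoin_jH_le_A0 D (hP k)) (pow_mem (t_mem_A0 D) k)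

/-- **(D1), function version**: every `g` in `W_N` is a quotient of elements of `ℂ[j, j_N]`. -/
theorem exists_quot_of_mem_WN {N : ℕ} [NeZero N] {D : Datum N} {g : ℍ → ℂ} (hg : g ∈ WN D) :
    ∃ a ∈ A0 D, ∃ b ∈ A0 D, b ≠ 0 ∧ g * b = a :=
  ⟨_, eval_mem_A0 (lagr_coeff_mem hg (t_mem_WN D)), _,
    eval_mem_A0 (lagr_coeff_mem (one_mem _) (t_mem_WN D)), lagr_one_eval_ne_zero D,
    (lagr_eval hg (t_mem_WN D)).symm⟩

/-! ### Norms -/

/-- product of all the translates -/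
def normFn {N : ℕ} [NeZero N] {D : Datum N} (g : ℍ → ℂ) : ℍ → ℂ := ∏ x : X0 D, cosetFn g x

/-- product of all the nontrivial translates -/
def cofacFn {N : ℕ} [NeZero N] {D : Datum N} (g : ℍ → ℂ) : ℍ → ℂ :=
  open Classical in
  ∏ x ∈ Finset.univ.erase ((1 : SL(2, ℤ)) : X0 D), cosetFn g x

theorem mul_cofacFn {N : ℕ} [NeZero N] {D : Datum N} {g : ℍ → ℂ}
    (hg : ∀ γ ∈ D.Γ, ∀ z : ℍ, g (γ • z) = g z) :
    g * cofacFn (D := D) g = normFn (D := D) g := by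
  classical
  rw [cofacFn, normFn, ← Finset.mul_prod_erase _ _ (Finset.mem_univ ((1 : SL(2, ℤ)) : X0 D)),
    cosetFn_one hg]

theorem normFn_smul {N : ℕ} [NeZero N] {D : Datum N} {g : ℍ → ℂ}
    (hg : ∀ γ ∈ D.Γ, ∀ z : ℍ, g (γ • z) = g z) (δ : SL(2, ℤ)) (z : ℍ) :
    normFn (D := D) g (δ • z) = normFn (D := D) g z := by
  rw [normFn, Finset.prod_apply, Finset.prod_apply]
  exact Fintype.prod_bijective (fun x => δ⁻¹ • x) (MulAction.bijective δ⁻¹) _ _ fun x =>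
    cosetFn_smul hg x δ z

theorem normFn_mem {N : ℕ} [NeZero N] {D : Datum N} {g : ℍ → ℂ} (hg : g ∈ WN D) :
    normFn (D := D) g ∈ Algebra.adjoin ℂ {jH} := by
  rw [mem_adjoin_jH_iff]
  exact exists_poly_of_invariant (N := N) (prod_mem fun x _ => cosetFn_mem_bigA hg.1 x)
    (normFn_smul hg.2)

theorem normFn_ne_zero {N : ℕ} [NeZero N] {D : Datum N} {g : ℍ → ℂ} (hg : g ∈ WN D) (h0 : g ≠ 0) :
    normFn (D := D) g ≠ 0 := by
  classical
  have : ∀ s : Finset (X0 D), (∏ y ∈ s, cosetFn g y) ≠ 0 := by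
    intro s
    induction s using Finset.induction_on with
    | empty =>
      intro h
      exact one_ne_zero (congrFun h UpperHalfPlane.I)
    | insert y s hys ih =>
      intro h
      rw [Finset.prod_insert hys] at h
      rcases bigA_eq_zero_or (cosetFn_mem_bigA hg.1 y)
        (prod_mem fun x _ => cosetFn_mem_bigA hg.1 x) h with h | h
      · exact cosetFn_ne_zero h0 y h
      · exact ih h
  exact this _

theorem cofacFn_mem {N : ℕ} [NeZero N] {D : Datum N} {g : ℍ → ℂ} (hg : g ∈ WN D) :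
    cofacFn (D := D) g ∈ WN D := by
  classical
  refine ⟨prod_mem fun x _ => cosetFn_mem_bigA hg.1 x, fun γ hγ z => ?_⟩
  rw [cofacFn, Finset.prod_apply, Finset.prod_apply]
  have hfix : γ⁻¹ • ((1 : SL(2, ℤ)) : X0 D) = ((1 : SL(2, ℤ)) : X0 D) := by
    have h1 : γ⁻¹ • ((1 : SL(2, ℤ)) : X0 D) = ((γ⁻¹ * 1 : SL(2, ℤ)) : X0 D) := rfl
    rw [h1, QuotientGroup.eq]
    simpa using hγ
  refine Finset.prod_bij (fun y _ => γ⁻¹ • y) (fun y hy => ?_) (fun y _ y' _ h => ?_)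
    (fun y hy => ?_) (fun y _ => cosetFn_smul hg.2 y γ z)
  · rw [Finset.mem_erase] at hy ⊢
    refine ⟨fun h => hy.1 ?_, Finset.mem_univ _⟩
    rw [← hfix] at h
    exact MulAction.injective γ⁻¹ h
  · exact MulAction.injective γ⁻¹ h
  · refine ⟨γ • y, ?_, ?_⟩
    · rw [Finset.mem_erase] at hy ⊢
      refine ⟨fun h => hy.1 ?_, Finset.mem_univ _⟩
      rw [← hfix, ← h, inv_smul_smul]
    · rw [inv_smul_smul]

end Fermat.Agent.Neb
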