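import Mathlib
import Fermat.Agent.Neb.Coset
import Fermat.Agent.Top.FC
import Fermat.Agent.FF.FnField

/-!
# `q`-expansions of invariant functions and the function field of `X₀(N)` over `ℂ`
-/

set_option autoImplicit false
set_option linter.unusedSectionVars false

noncomputable section

namespace Fermat.Agent.Neb

open UpperHalfPlane hiding I
open ModularForm Filter Topology Fermat.Agent.ModFn Fermat.Agent.Support Polynomial Fermat.Agent.Top
open ModularCurve IntermediateField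
open scoped MatrixGroups Manifold

/-- The function field over `ℚ`. -/
def F₀ {N : ℕ} (D : Datum N) : IntermediateField ℚ (LaurentSeries ℚ) :=
  IntermediateField.adjoin ℚ {jq, coeffMap (Int.castRingHom ℚ) D.tq}

/-- The function field over `ℂ`, inside `ℂ((q))`. -/
abbrev FC {N : ℕ} (D : Datum N) : IntermediateField ℂ (LaurentSeries ℂ) :=
  laurentBaseChange ℂ (F₀ D)

variable {N : ℕ} [NeZero N] (D : Datum N)

theorem exists_hasExp_one (f : WN D) : ∃ φ : LaurentSeries ℂ, HasExp 1 f.1 φ := by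
  obtain ⟨φ, hφ⟩ := f.2.1 1
  simp only [one_smul] at hφ
  refine ⟨_, (hasExp_one_of_inv hφ fun z => f.2.2 _ ?_ z).1⟩
  exact D.T_mem

/-- the `q`-expansion of an element of `W_N` -/
def wqFun (f : WN D) : LaurentSeries ℂ := (exists_hasExp_one D f).choose

variable {D}

theorem hasExp_wqFun (f : WN D) : HasExp 1 f.1 (wqFun D f) := (exists_hasExp_one D f).choose_spec

theorem wqFun_eq (f : WN D) {φ : LaurentSeries ℂ} (h : HasExp 1 f.1 φ) : wqFun D f = φ :=
  (hasExp_wqFun f).unique h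

variable (D)

/-- The `q`-expansion homomorphism on `W_N`. -/
def wq : WN D →ₐ[ℂ] LaurentSeries ℂ where
  toFun := wqFun D
  map_one' := wqFun_eq _ (HasExp.one 1)
  map_mul' f g := wqFun_eq _ ((hasExp_wqFun f).mul (hasExp_wqFun g))
  map_zero' := wqFun_eq _ (HasExp.zero 1)
  map_add' f g := wqFun_eq _ ((hasExp_wqFun f).add (hasExp_wqFun g))
  commutes' c := wqFun_eq _ (by
    rw [algebraMap_laurentSeries_eq_single]
    exact HasExp.const 1 c)

variable {D}

theorem hasExp_wq (f : WN D) : HasExp 1 f.1 (wq D f) := hasExp_wqFun f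

theorem wq_eq (f : WN D) {φ : LaurentSeries ℂ} (h : HasExp 1 f.1 φ) : wq D f = φ := wqFun_eq f h

theorem wq_injective : Function.Injective (wq D) := fun f g h => by
  apply Subtype.ext
  have h1 := hasExp_wq f
  rw [h] at h1
  exact h1.eq_of_same (hasExp_wq g)

theorem wq_ne_zero {f : WN D} (hf : f ≠ 0) : wq D f ≠ 0 := fun h => hf
  (wq_injective (h.trans (map_zero _).symm))

theorem wq_jH : wq D ⟨jH, jH_mem_WN D⟩ = jqModC ℂ := wq_eq _ hasExp_jH

theorem wq_jd {d : ℕ} [NeZero d] (h : d ∣ N) :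
    wq D ⟨jd d, jd_mem_WN h⟩ = qExpand ℂ d (jqModC ℂ) := wq_eq _ (hasExp_jd d)

theorem coeffEmb_tq {L : Type*} [Field L] [Algebra ℚ L] (D : Datum N) :
    coeffEmb L (coeffMap (Int.castRingHom ℚ) D.tq) = coeffMap (Int.castRingHom L) D.tq := by
  rw [coeffEmb]
  ext n
  simp

theorem wq_t : wq D ⟨D.t, t_mem_WN D⟩ = coeffMap (Int.castRingHom ℂ) D.tq := wq_eq _ D.t_exp

theorem jqModC_mem_FC : jqModC ℂ ∈ FC D := by
  rw [← coeffEmb_jq]
  exact coeffEmb_mem_laurentBaseChange ℂ
    (IntermediateField.subset_adjoin ℚ _ (Set.mem_insert _ _))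

theorem tq_mem_FC : coeffMap (Int.castRingHom ℂ) D.tq ∈ FC D := by
  rw [← coeffEmb_tq]
  exact coeffEmb_mem_laurentBaseChange ℂ
    (IntermediateField.subset_adjoin ℚ _ (Set.mem_insert_of_mem _ rfl))

theorem wq_mem_of_mem_A0 (f : WN D) (hf : f.1 ∈ A0 D) : wq D f ∈ FC D := by
  -- the subalgebra of `W_N` of elements with `q`-expansion in `FC`
  have h1 : A0 D ≤ ((FC D).toSubalgebra.comap (wq D)).map (WN D).val := by
    rw [A0, Algebra.adjoin_le_iff]
    intro g hg
    rcases hg with hg | hg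
    · refine ⟨⟨jH, jH_mem_WN D⟩, ?_, hg.symm⟩
      change wq D _ ∈ FC D
      rw [wq_jH]
      exact jqModC_mem_FC
    · refine ⟨⟨D.t, t_mem_WN D⟩, ?_, (Set.mem_singleton_iff.mp hg).symm⟩
      change wq D _ ∈ FC D
      rw [wq_t]
      exact tq_mem_FC
  obtain ⟨g, hg, hgf⟩ := h1 hf
  have : g = f := Subtype.ext hgf
  rw [← this]
  exact hg

/-- **(D1)** the `q`-expansion of an element of `W_N` lies in the function field. -/
theorem wq_mem (f : WN D) : wq D f ∈ FC D := by
  obtain ⟨a, ha, b, hb, hb0, hab⟩ := exists_quot_of_mem_WN f.2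
  have h1 : f * ⟨b, A0_le_WN D hb⟩ = (⟨a, A0_le_WN D ha⟩ : WN D) := Subtype.ext hab
  have h2 := congrArg (wq D) h1
  rw [map_mul] at h2
  have h3 : wq D ⟨b, A0_le_WN D hb⟩ ≠ 0 := wq_ne_zero fun h => hb0 (congrArg Subtype.val h)
  rw [eq_div_of_mul_eq h3 h2]
  exact div_mem (wq_mem_of_mem_A0 _ ha) (wq_mem_of_mem_A0 _ hb)

variable (D) in
/-- `W_N → F_ℂ` -/
def toFC : WN D →ₐ[ℂ] FC D := (wq D).codRestrict (FC D).toSubalgebra wq_mem

@[simp] theorem coe_toFC (f : WN D) : (toFC D f : LaurentSeries ℂ) = wq D f := rfl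

theorem toFC_injective : Function.Injective (toFC D) := fun _ _ h =>
  wq_injective (congrArg Subtype.val h)

theorem exists_div (x : FC D) : ∃ g h : WN D, h ≠ 0 ∧ x = toFC D g / toFC D h := by
  have h1 : (FC D).toSubfield ≤ Subfield.closure ((wq D).range : Set (LaurentSeries ℂ)) := by
    have hbase : ∀ c : ℂ, algebraMap ℂ (LaurentSeries ℂ) c ∈
        Subfield.closure ((wq D).range : Set (LaurentSeries ℂ)) := fun c =>
      Subfield.subset_closure ⟨algebraMap ℂ (WN D) c, (wq D).commutes c⟩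
    have h2 : (F₀ D).toSubfield ≤
        (Subfield.closure ((wq D).range : Set (LaurentSeries ℂ))).comap (coeffEmb ℂ) := by
      have h3 : (F₀ D).toSubfield = Subfield.closure
        (Set.range (algebraMap ℚ (LaurentSeries ℚ)) ∪
          {jq, coeffMap (Int.castRingHom ℚ) D.tq}) := rfl
      rw [h3, Subfield.closure_le]
      rintro y (⟨c, rfl⟩ | rfl | rfl)
      · refine Subfield.mem_comap.mpr ?_
        have h4 : coeffEmb ℂ (algebraMap ℚ (LaurentSeries ℚ) c) =
            algebraMap ℂ (LaurentSeries ℂ) (algebraMap ℚ ℂ c) := by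
          rw [algebraMap_laurentSeries_eq_single, algebraMap_laurentSeries_eq_single, coeffEmb,
            coeffMap_single]
        rw [h4]
        exact hbase _
      · refine Subfield.mem_comap.mpr ?_
        rw [coeffEmb_jq, ← wq_jH (D := D)]
        exact Subfield.subset_closure ⟨_, rfl⟩
      · refine Subfield.mem_comap.mpr ?_
        rw [coeffEmb_tq, ← wq_t (D := D)]
        exact Subfield.subset_closure ⟨_, rfl⟩
    intro y hy
    have hy' : y ∈ Subfield.closure (Set.range (algebraMap ℂ (LaurentSeries ℂ)) ∪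
          (⇑(coeffEmb ℂ) '' (F₀ D : Set (LaurentSeries ℚ)))) := hy
    refine (Subfield.closure_le.mpr ?_) hy'
    rintro z (⟨c, rfl⟩ | ⟨z, hz, rfl⟩)
    · exact hbase c
    · exact h2 hz
  have h2 := h1 x.2
  rw [Subfield.mem_closure_iff] at h2
  obtain ⟨y, hy, z, hz, hyz⟩ := h2
  have h3 : Subring.closure ((wq D).range : Set (LaurentSeries ℂ)) = (wq D).range.toSubring :=
    Subring.closure_eq (wq D).range.toSubring
  rw [h3] at hy hz
  obtain ⟨g, rfl⟩ := hy
  obtain ⟨h, rfl⟩ := hz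
  by_cases h0 : h = 0
  · subst h0
    refine ⟨0, 1, one_ne_zero, Subtype.ext ?_⟩
    rw [← hyz]
    simp
  · exact ⟨g, h, h0, Subtype.ext hyz.symm⟩

instance algebraWNFC : Algebra (WN D) (FC D) := (toFC D).toRingHom.toAlgebra

theorem algebraMap_WN (f : WN D) : algebraMap (WN D) (FC D) f = toFC D f := rfl

instance : FaithfulSMul (WN D) (FC D) :=
  (faithfulSMul_iff_algebraMap_injective _ _).mpr toFC_injective

instance : IsFractionRing (WN D) (FC D) := IsFractionRing.of_field _ _ fun z => by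
  obtain ⟨g, h, -, hz⟩ := exists_div z
  exact ⟨g, h, hz⟩

/-! ### Denominators in `ℂ[j]` -/

variable (D) in
/-- evaluation of polynomials at `j` -/
def evJ : ℂ[X] →ₐ[ℂ] WN D := Polynomial.aeval (⟨jH, jH_mem_WN D⟩ : WN D)

theorem coe_evJ (P : ℂ[X]) (z : ℍ) : (evJ D P).1 z = P.eval (jH z) := by
  have h1 : (Pi.evalAlgHom ℂ (fun _ : ℍ => ℂ) z).comp (WN D).val (evJ D P) =
      Polynomial.aeval (jH z) P := by
    rw [evJ, ← Polynomial.aeval_algHom_apply]; rfl
  rw [Polynomial.coe_aeval_eq_eval] at h1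
  exact h1

/-- `j` as an element of the function field -/
def jF {N : ℕ} [NeZero N] (D : Datum N) : FC D := ⟨jqModC ℂ, jqModC_mem_FC⟩

theorem toFC_jH : toFC D ⟨jH, jH_mem_WN D⟩ = jF D := Subtype.ext wq_jH

theorem toFC_evJ (P : ℂ[X]) : toFC D (evJ D P) = Polynomial.aeval (jF D) P := by
  rw [evJ, ← Polynomial.aeval_algHom_apply, toFC_jH]

theorem exists_evJ_of_mem_adjoin {f : ℍ → ℂ} (hf : f ∈ Algebra.adjoin ℂ {jH}) (hW : f ∈ WN D) :
    ∃ P : ℂ[X], (⟨f, hW⟩ : WN D) = evJ D P := by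
  rw [mem_adjoin_jH_iff] at hf
  obtain ⟨P, hP⟩ := hf
  exact ⟨P, Subtype.ext (funext fun z => by rw [coe_evJ, ← hP z])⟩

theorem adjoin_jH_le_WN : Algebra.adjoin ℂ {jH} ≤ WN D :=
  (adjoin_jH_le_A0 D).trans (A0_le_WN D)

/-- norm to `ℂ[j]` -/
theorem exists_norm (g : WN D) : ∃ (g' : WN D) (P : ℂ[X]), g * g' = evJ D P ∧
    (∀ z, P.eval (jH z) = normFn (D := D) g.1 z) ∧ (g ≠ 0 → P ≠ 0) ∧
    g'.1 = cofacFn (D := D) g.1 := by
  obtain ⟨P, hP⟩ := exists_evJ_of_mem_adjoin (D := D) (normFn_mem g.2)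
    (adjoin_jH_le_WN (normFn_mem g.2))
  have hPz : ∀ z, P.eval (jH z) = normFn (D := D) g.1 z := fun z => by
    rw [← coe_evJ (D := D), ← hP]
  refine ⟨⟨cofacFn (D := D) g.1, cofacFn_mem g.2⟩, P, ?_, hPz, ?_, rfl⟩
  · rw [← hP]
    exact Subtype.ext (mul_cofacFn g.2.2)
  · rintro h0 rfl
    apply normFn_ne_zero g.2 (fun h => h0 (Subtype.ext h))
    funext z
    rw [← hPz z]
    simp

theorem evJ_injective : Function.Injective (evJ D) := by
  rw [injective_iff_map_eq_zero]
  intro P hP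
  by_contra hne
  have h1 := congrArg (toFC D) hP
  rw [toFC_evJ, map_zero] at h1
  have h2 : Polynomial.aeval (jqModC ℂ) P = 0 := by
    have := congrArg (FC D).val h1
    rwa [← Polynomial.aeval_algHom_apply, map_zero] at this
  -- leading term
  have h3 := congrArg (fun φ : LaurentSeries ℂ => φ.coeff (-(P.natDegree : ℤ))) h2
  simp only [Polynomial.aeval_def, Polynomial.eval₂_eq_sum_range, HahnSeries.coeff_sum,
    HahnSeries.coeff_zero] at h3
  rw [Finset.sum_eq_single P.natDegree] at h3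
  · rw [laurent_algebraMap_mul_coeff, jqModC_pow_coeff_self, mul_one] at h3
    exact hne (Polynomial.leadingCoeff_eq_zero.mp h3)
  · intro k hk hkne
    rw [laurent_algebraMap_mul_coeff, jqModC_pow_coeff_of_lt, mul_zero]
    have := Finset.mem_range.mp hk
    omega
  · intro h
    exact absurd (Finset.self_mem_range_succ _) h

theorem jF_transcendental : Transcendental ℂ (jF D) := by
  rw [transcendental_iff]
  intro P hP
  rw [← toFC_evJ] at hP
  exact evJ_injective ((toFC_injective (hP.trans (map_zero _).symm)).trans (map_zero _).symm)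

/-- Every element of the function field is `g / P(j)`. -/
theorem exists_div_poly (x : FC D) : ∃ (g : WN D) (P : ℂ[X]), P ≠ 0 ∧
    x = toFC D g / toFC D (evJ D P) := by
  obtain ⟨g, h, h0, rfl⟩ := exists_div x
  obtain ⟨h', P, hP, -, hP0, -⟩ := exists_norm h
  refine ⟨g * h', P, hP0 h0, ?_⟩
  have h1 : toFC D (evJ D P) ≠ 0 := fun h2 =>
    hP0 h0 (evJ_injective ((toFC_injective (h2.trans (map_zero _).symm)).trans (map_zero _).symm))
  rw [← hP] at h1 ⊢
  rw [map_mul] at h1 ⊢
  rw [map_mul]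
  have h2 : toFC D h ≠ 0 := left_ne_zero_of_mul h1
  have h3 : toFC D h' ≠ 0 := right_ne_zero_of_mul h1
  field_simp

end Fermat.Agent.Neb
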