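import Fermat.Agent.Neb.KummerRed
import Fermat.Agent.Neb.FC

/-!
# The Gauss valuation on the function field of a level structure
-/

set_option autoImplicit false
set_option linter.unusedSectionVars false
set_option linter.style.haveILetI false

noncomputable section

open AlgebraicCurve IntermediateField ModularCurve Module

namespace Fermat.Agent.Neb

open Fermat.Agent.Red Fermat.Agent.ModFn

theorem laurentBaseChange_adjoin (L : Type*) [Field L] [Algebra ℚ L] (S : Set (LaurentSeries ℚ)) :
    laurentBaseChange L (IntermediateField.adjoin ℚ S) =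
      IntermediateField.adjoin L (coeffEmb L '' S) := by
  apply le_antisymm
  · rw [laurentBaseChange, IntermediateField.adjoin_le_iff]
    rintro _ ⟨x, hx, rfl⟩
    have h1 : x ∈ Subfield.closure (Set.range (algebraMap ℚ (LaurentSeries ℚ)) ∪ S) := hx
    clear hx
    induction h1 using Subfield.closure_induction with
    | mem y hy =>
      rcases hy with ⟨a, rfl⟩ | hy
      · have : coeffEmb L (algebraMap ℚ (LaurentSeries ℚ) a) =
            algebraMap L (LaurentSeries L) (algebraMap ℚ L a) := by
          rw [algebraMap_laurentSeries_eq_single, algebraMap_laurentSeries_eq_single, coeffEmb,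
            coeffMap_single]
        rw [this]
        exact IntermediateField.algebraMap_mem _ _
      · exact IntermediateField.subset_adjoin _ _ ⟨y, hy, rfl⟩
    | one => simp
    | add x y _ _ hx hy => simpa using add_mem hx hy
    | neg x _ hx => simpa using neg_mem hx
    | inv x _ hx => simpa using inv_mem hx
    | mul x y _ _ hx hy => simpa using mul_mem hx hy
  · rw [IntermediateField.adjoin_le_iff]
    rintro _ ⟨x, hx, rfl⟩
    exact coeffEmb_mem_laurentBaseChange L (IntermediateField.subset_adjoin _ _ hx)

/-- The function field of a level structure carries a Gauss valuation. -/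
theorem gaussField_F₀ {N : ℕ} [NeZero N] (D : Datum N) {L k : Type*} [Field L] [Algebra ℚ L]
    [Algebra.IsAlgebraic ℚ L] [Field k] {A : ValuationSubring L} (π : A →+* k) {p : ℕ}
    (hp : p.Prime) (hA : A.LiesOverPrime p) : GaussField π (laurentBaseChange L (F₀ D)) := by
  rw [F₀, laurentBaseChange_adjoin]
  apply gaussField_adjoin hp hA
  rintro _ ⟨x, hx, rfl⟩
  rcases hx with rfl | rfl
  · exact ⟨jqModC ℤ, by rw [ModFn.coeffMap_jqModC]; exact S24Lib.coeffEmb_jq L⟩
  · exact ⟨D.tq, coeffEmb_tq D⟩

end Fermat.Agent.Neb
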