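import Fermat.Agent.Top.HeckeHom
import Fermat.Agent.Top.HomLattice
import Fermat.Agent.DS.HeckeG1

/-!
# The group `{γ ∈ Γ₀(D²) : γ₁₁ ≡ ±1 mod D}`, its diamond and Hecke operators
-/

set_option autoImplicit false
set_option linter.unusedSectionVars false

open UpperHalfPlane CongruenceSubgroup ModularCurve.Period
open scoped MatrixGroups ModularForm Pointwise

namespace Fermat.Agent.Neb

open Matrix.SpecialLinearGroup Fermat.Agent.Top Fermat.Agent.DS

/-! ### The group -/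

theorem zmodD_of_mem {D : ℕ} {γ : SL(2, ℤ)} (h : γ ∈ Gamma0 (D ^ 2)) :
    ((γ 1 0 : ℤ) : ZMod D) = 0 := by
  rw [ZMod.intCast_zmod_eq_zero_iff_dvd]
  have h1 := (ZMod.intCast_zmod_eq_zero_iff_dvd _ _).mp (Gamma0_mem.mp h)
  push_cast at h1
  exact (dvd_pow_self (D : ℤ) two_ne_zero).trans h1

theorem zmodD_mul {D : ℕ} {γ δ : SL(2, ℤ)} (h : γ ∈ Gamma0 (D ^ 2)) :
    (((γ * δ) 1 1 : ℤ) : ZMod D) = ((γ 1 1 : ℤ) : ZMod D) * ((δ 1 1 : ℤ) : ZMod D) := by
  have e : (γ * δ) 1 1 = γ 1 0 * δ 0 1 + γ 1 1 * δ 1 1 := by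
    simp [Matrix.mul_apply, Fin.sum_univ_two]
  rw [e]
  push_cast
  rw [zmodD_of_mem h, zero_mul, zero_add]

theorem zmodD_det {D : ℕ} {γ : SL(2, ℤ)} (h : γ ∈ Gamma0 (D ^ 2)) :
    ((γ 0 0 : ℤ) : ZMod D) * ((γ 1 1 : ℤ) : ZMod D) = 1 := by
  have hdet := congrArg (Int.cast : ℤ → ZMod D) γ.det_coe
  rw [Matrix.det_fin_two] at hdet
  push_cast at hdet
  rw [zmodD_of_mem h, mul_zero, sub_zero] at hdet
  exact hdet

theorem pm_iff {D : ℕ} {x y : ZMod D} (h : x * y = 1) : (x = 1 ∨ x = -1) ↔ (y = 1 ∨ y = -1) := by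
  constructor
  · rintro (rfl | rfl)
    · left; simpa using h
    · right; linear_combination -h
  · rintro (rfl | rfl)
    · left; simpa using h
    · right; linear_combination -h

/-- The group of all `γ ∈ Γ₀(D²)` with lower right entry congruent to `± 1` modulo `D`. -/
def GH (D : ℕ) : Subgroup SL(2, ℤ) where
  carrier := {γ | γ ∈ Gamma0 (D ^ 2) ∧ (((γ 1 1 : ℤ) : ZMod D) = 1 ∨ ((γ 1 1 : ℤ) : ZMod D) = -1)}
  one_mem' := ⟨one_mem _, by left; simp⟩
  mul_mem' {γ δ} hγ hδ := ⟨mul_mem hγ.1 hδ.1, by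
    change (((γ * δ) 1 1 : ℤ) : ZMod D) = 1 ∨ (((γ * δ) 1 1 : ℤ) : ZMod D) = -1
    rw [zmodD_mul hγ.1]
    rcases hγ.2 with h | h <;> rcases hδ.2 with h' | h' <;> rw [h, h'] <;> simp⟩
  inv_mem' {γ} hγ := ⟨inv_mem hγ.1, by
    have e : (γ⁻¹) 1 1 = γ 0 0 := by
      rw [Matrix.SpecialLinearGroup.SL2_inv_expl]
      rfl
    rw [e]
    exact (pm_iff (zmodD_det hγ.1)).mpr hγ.2⟩

theorem mem_GH {D : ℕ} {γ : SL(2, ℤ)} : γ ∈ GH D ↔ γ ∈ Gamma0 (D ^ 2) ∧
    (((γ 1 1 : ℤ) : ZMod D) = 1 ∨ ((γ 1 1 : ℤ) : ZMod D) = -1) := Iff.rfl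

theorem GH_le (D : ℕ) : GH D ≤ Gamma0 (D ^ 2) := fun _ h => h.1

/-- `GH D` is normal in `Γ₀(D²)`. -/
theorem conj_mem_GH {D : ℕ} {γ g : SL(2, ℤ)} (hγ : γ ∈ GH D) (hg : g ∈ Gamma0 (D ^ 2)) :
    g * γ * g⁻¹ ∈ GH D := by
  refine ⟨mul_mem (mul_mem hg hγ.1) (inv_mem hg), ?_⟩
  have e : (g⁻¹) 1 1 = g 0 0 := by
    rw [Matrix.SpecialLinearGroup.SL2_inv_expl]
    rfl
  rw [zmodD_mul (mul_mem hg hγ.1), zmodD_mul hg, e]
  have h1 := zmodD_det hg
  have h2 : ((g 1 1 : ℤ) : ZMod D) * ((γ 1 1 : ℤ) : ZMod D) * ((g 0 0 : ℤ) : ZMod D) =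
      ((γ 1 1 : ℤ) : ZMod D) := by linear_combination ((γ 1 1 : ℤ) : ZMod D) * h1
  rw [h2]
  exact hγ.2

theorem trace_sq_mem_GH {D : ℕ} {γ : SL(2, ℤ)} (hγ : γ ∈ Gamma0 (D ^ 2))
    (h : (γ : Matrix (Fin 2) (Fin 2) ℤ).trace ^ 2 = 4) : γ ∈ GH D := by
  refine ⟨hγ, ?_⟩
  obtain ⟨ε, hε, htr⟩ : ∃ ε : ℤ, (ε = 1 ∨ ε = -1) ∧ γ 0 0 + γ 1 1 = 2 * ε := by
    rw [Matrix.trace_fin_two] at h
    have : (γ 0 0 + γ 1 1 - 2) * (γ 0 0 + γ 1 1 + 2) = 0 := by linear_combination h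
    rcases mul_eq_zero.mp this with h | h
    · exact ⟨1, Or.inl rfl, by linarith⟩
    · exact ⟨-1, Or.inr rfl, by linarith⟩
  -- `(γ₁₁ - ε)² = - γ₀₁ γ₁₀`
  have hdet := γ.det_coe
  rw [Matrix.det_fin_two] at hdet
  have hε2 : ε ^ 2 = 1 := by rcases hε with rfl | rfl <;> norm_num
  have h1 : (γ 1 1 - ε) ^ 2 = - (γ 0 1 * γ 1 0) := by
    have h00 : γ 0 0 = 2 * ε - γ 1 1 := by linarith
    rw [h00] at hdet
    linear_combination hε2 - hdet
  have h2 : ((D : ℤ)) ^ 2 ∣ (γ 1 1 - ε) ^ 2 := by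
    have h3 := (ZMod.intCast_zmod_eq_zero_iff_dvd _ _).mp (Gamma0_mem.mp hγ)
    push_cast at h3
    rw [h1, dvd_neg]
    exact h3.mul_left _
  have h3 : (D : ℤ) ∣ γ 1 1 - ε := (Int.pow_dvd_pow_iff two_ne_zero).mp h2
  have h4 : ((γ 1 1 : ℤ) : ZMod D) = ((ε : ℤ) : ZMod D) := by
    rw [eq_comm, ZMod.intCast_eq_intCast_iff_dvd_sub]
    exact h3
  rw [h4]
  rcases hε with rfl | rfl
  · left; simp
  · right; simp

theorem Gamma1_le_GH (D : ℕ) : Gamma1 (D ^ 2) ≤ GH D := by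
  intro γ hγ
  rw [Gamma1_mem] at hγ
  refine ⟨Gamma0_mem.mpr hγ.2.2, Or.inl ?_⟩
  have h1 := (ZMod.intCast_eq_intCast_iff_dvd_sub (1 : ℤ) (γ 1 1) (D ^ 2)).mp (by
    rw [hγ.2.1]; simp)
  have h2 := (ZMod.intCast_eq_intCast_iff_dvd_sub (1 : ℤ) (γ 1 1) D).mpr (by
    push_cast at h1
    exact (dvd_pow_self (D : ℤ) two_ne_zero).trans h1)
  rw [← h2, Int.cast_one]

instance finiteIndex_GH (D : ℕ) [NeZero D] : (GH D).FiniteIndex :=
  Subgroup.finiteIndex_of_le (Gamma1_le_GH D)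

theorem neg_mem_GH (D : ℕ) {γ : SL(2, ℤ)} (h : γ ∈ GH D) : -γ ∈ GH D := by
  refine ⟨?_, ?_⟩
  · have := Gamma0_mem.mp h.1
    rw [Gamma0_mem]
    simp [this]
  · rcases h.2 with h | h
    · right; simp [h]
    · left; simp [h]

instance fg_GH (D : ℕ) [NeZero D] : Group.FG (GH D) := by
  haveI : Group.FG SL(2, ℤ) := inferInstance
  infer_instance

/-! ### Diamonds -/

variable {D : ℕ} [NeZero D]

/-- Conjugation by the chosen element of `Γ₀(D²)` with lower right entry `u`. -/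
noncomputable def conjH (u : (ZMod (D ^ 2))ˣ) : GH D →* GH D where
  toFun γ := ⟨gam u * γ * (gam u)⁻¹, conj_mem_GH γ.2 (gam_mem u)⟩
  map_one' := by ext1; simp
  map_mul' γ γ' := by ext1; simp

@[simp] theorem coe_conjH (u : (ZMod (D ^ 2))ˣ) (γ : GH D) :
    (conjH u γ : SL(2, ℤ)) = gam u * γ * (gam u)⁻¹ := rfl

theorem trace_conjH (u : (ZMod (D ^ 2))ˣ) (γ : GH D) :
    ((conjH u γ : SL(2, ℤ)) : Matrix (Fin 2) (Fin 2) ℤ).trace =
      ((γ : SL(2, ℤ)) : Matrix (Fin 2) (Fin 2) ℤ).trace := by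
  rw [coe_conjH, Matrix.SpecialLinearGroup.coe_mul, Matrix.SpecialLinearGroup.coe_mul,
    Matrix.trace_mul_comm, ← Matrix.mul_assoc, ← Matrix.SpecialLinearGroup.coe_mul,
    inv_mul_cancel, Matrix.SpecialLinearGroup.coe_one, Matrix.one_mul]

/-! ### Coset representatives -/

variable (D) in
/-- The inclusion `GH D → GL₂(ℝ)`. -/
noncomputable def toGLH : GH D →* GL (Fin 2) ℝ := (mapGL ℝ).comp (GH D).subtype

theorem toGLH_apply (γ : GH D) : toGLH D γ = mapGL ℝ (γ : SL(2, ℤ)) := rfl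

theorem toGLH_injective : Function.Injective (toGLH D) :=
  mapGL_injective'.comp (Subgroup.subtype_injective _)

theorem toGLH_smul (γ : GH D) (τ : ℍ) : toGLH D γ • τ = (γ : SL(2, ℤ)) • τ := rfl

/-- The integral matrices representing `T_p`. -/
noncomputable def MH (u : (ZMod (D ^ 2))ˣ) (p : ℕ) : Option (Fin p) → Matrix (Fin 2) (Fin 2) ℤ
  | some j => HM p (some j)
  | none => (gam u : SL(2, ℤ)) * HM p none

theorem det_MH (u : (ZMod (D ^ 2))ˣ) (p : ℕ) (i : Option (Fin p)) : (MH u p i).det = p := by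
  cases i with
  | none => rw [MH, Matrix.det_mul, det_HM, (gam u).det_coe, one_mul]
  | some j => rw [MH, det_HM]

theorem rH_apply (u : (ZMod (D ^ 2))ˣ) {p : ℕ} (hp : p ≠ 0) (i : Option (Fin p)) :
    ((rH u p i : GL (Fin 2) ℝ) : Matrix (Fin 2) (Fin 2) ℝ) =
      (MH u p i).map (Int.cast : ℤ → ℝ) := by
  cases i with
  | none =>
    rw [rH, MH, Units.val_mul, mapGL_coe, ← HR_none, HR_apply hp, ← map_mul_cast]
  | some j => rw [rH, MH, ← HR_some, HR_apply hp]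

/-- The semigroup containing `GH D` and the representatives. -/
def IsDeltaH (D : ℕ) (A : Matrix (Fin 2) (Fin 2) ℤ) : Prop :=
  IsDelta (D ^ 2) A ∧ (((A 0 0 : ℤ) : ZMod D) = 1 ∨ ((A 0 0 : ℤ) : ZMod D) = -1)

theorem IsDelta.zmod {A : Matrix (Fin 2) (Fin 2) ℤ} (hA : IsDelta (D ^ 2) A) :
    ((A 1 0 : ℤ) : ZMod D) = 0 := by
  rw [ZMod.intCast_zmod_eq_zero_iff_dvd]
  have h1 := hA.1
  push_cast at h1
  exact (dvd_pow_self (D : ℤ) two_ne_zero).trans h1

theorem IsDelta.mul_apply {A B : Matrix (Fin 2) (Fin 2) ℤ}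
    (hB : ((B 1 0 : ℤ) : ZMod D) = 0) : (((A * B) 0 0 : ℤ) : ZMod D) =
      ((A 0 0 : ℤ) : ZMod D) * ((B 0 0 : ℤ) : ZMod D) := by
  rw [Matrix.mul_apply, Fin.sum_univ_two]
  push_cast
  rw [hB, mul_zero, add_zero]

theorem IsDeltaH.mul {A B : Matrix (Fin 2) (Fin 2) ℤ} (hA : IsDeltaH D A)
    (hB : IsDeltaH D B) : IsDeltaH D (A * B) := by
  refine ⟨hA.1.mul hB.1, ?_⟩
  rw [IsDelta.mul_apply (IsDelta.zmod hB.1)]
  rcases hA.2 with h | h <;> rcases hB.2 with h' | h' <;> rw [h, h'] <;> simp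

theorem isDeltaH_of_mem (γ : GH D) :
    IsDeltaH D ((γ : SL(2, ℤ)) : Matrix (Fin 2) (Fin 2) ℤ) := by
  refine ⟨isDelta_of_mem ⟨γ.1, γ.2.1⟩, ?_⟩
  exact (pm_iff (zmodD_det γ.2.1)).mpr γ.2.2

theorem exists_mem_of_isDeltaH {A : Matrix (Fin 2) (Fin 2) ℤ} (hA : IsDeltaH D A)
    (hdet : A.det = 1) : ∃ γ : GH D, ((γ : SL(2, ℤ)) : Matrix (Fin 2) (Fin 2) ℤ) = A := by
  obtain ⟨γ, hγ⟩ := exists_mem_of_isDelta hA.1 hdet
  refine ⟨⟨γ, γ.2, (pm_iff (zmodD_det γ.2)).mp ?_⟩, hγ⟩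
  rw [hγ]
  exact hA.2

theorem zmodD_gam (u : (ZMod (D ^ 2))ˣ) :
    ((gam u 1 1 : ℤ) : ZMod D) = ZMod.castHom (dvd_pow_self D two_ne_zero) (ZMod D) u := by
  rw [← gam_one_one u, map_intCast]

theorem zmodD_gam_up {p : ℕ} (hp : p.Prime) (hpN : ¬ p ∣ D ^ 2) :
    ((gam (up hp hpN) 1 1 : ℤ) : ZMod D) = p := by
  rw [zmodD_gam, val_up, map_natCast]

theorem zmodD_gam_up' {p : ℕ} (hp : p.Prime) (hpN : ¬ p ∣ D ^ 2) :
    ((gam (up hp hpN) 0 0 : ℤ) : ZMod D) * p = 1 := by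
  rw [← zmodD_gam_up hp hpN]
  exact zmodD_det (gam_mem _)

theorem isDeltaH_MH {p : ℕ} (hp : p.Prime) (hpN : ¬ p ∣ D ^ 2) (i : Option (Fin p)) :
    IsDeltaH D (MH (up hp hpN) p i) := by
  cases i with
  | none =>
    refine ⟨(isDelta_of_mem ⟨_, gam_mem _⟩).mul (isDelta_HM hp ⟨none, fun h => absurd h hpN⟩), ?_⟩
    left
    rw [MH, IsDelta.mul_apply (by simp)]
    simpa using zmodD_gam_up' hp hpN
  | some j => exact ⟨isDelta_HM hp ⟨some j, fun _ => by simp⟩, by left; simp [MH]⟩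

theorem exists_factorH {p : ℕ} (hp : p.Prime) (hpN : ¬ p ∣ D ^ 2) {A : Matrix (Fin 2) (Fin 2) ℤ}
    (hA : IsDeltaH D A) (hdet : (p : ℤ) ∣ A.det) :
    ∃ (i : Option (Fin p)) (B : Matrix (Fin 2) (Fin 2) ℤ), IsDeltaH D B ∧
      A = B * MH (up hp hpN) p i := by
  obtain ⟨⟨i, hi⟩, B, hB, rfl⟩ := exists_factor hp hA.1 hdet
  cases i with
  | some j =>
    refine ⟨some j, B, ⟨hB, ?_⟩, rfl⟩
    have := hA.2
    rw [IsDelta.mul_apply (by simp)] at this
    simpa using this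
  | none =>
    refine ⟨none, B * ((gam (up hp hpN))⁻¹ : SL(2, ℤ)), ?_, ?_⟩
    · have hg : IsDelta (D ^ 2) (((gam (up hp hpN))⁻¹ : SL(2, ℤ)) : Matrix (Fin 2) (Fin 2) ℤ) :=
        isDelta_of_mem ⟨_, inv_mem (gam_mem (up hp hpN))⟩
      refine ⟨hB.mul hg, ?_⟩
      have h1 := hA.2
      rw [IsDelta.mul_apply (by simp)] at h1
      rw [IsDelta.mul_apply (IsDelta.zmod hg)]
      have e : (((gam (up hp hpN))⁻¹ : SL(2, ℤ)) : Matrix (Fin 2) (Fin 2) ℤ) 0 0 =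
          gam (up hp hpN) 1 1 := by
        rw [Matrix.SpecialLinearGroup.SL2_inv_expl]
        rfl
      rw [e, zmodD_gam_up]
      simpa using h1
    · rw [MH, Matrix.mul_assoc, ← Matrix.mul_assoc ((gam (up hp hpN))⁻¹ : SL(2, ℤ)).1,
        ← Matrix.SpecialLinearGroup.coe_mul, inv_mul_cancel, Matrix.SpecialLinearGroup.coe_one,
        Matrix.one_mul]

theorem MH_unique {p : ℕ} (hp : p.Prime) (hpN : ¬ p ∣ D ^ 2) (g : SL(2, ℤ))
    (i j : Option (Fin p))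
    (h : (g : Matrix (Fin 2) (Fin 2) ℤ) * MH (up hp hpN) p i = MH (up hp hpN) p j) : i = j := by
  have key : ∀ i : Option (Fin p), ∃ g : SL(2, ℤ), MH (up hp hpN) p i = g.1 * HM p i := by
    intro i
    cases i with
    | none => exact ⟨gam (up hp hpN), rfl⟩
    | some j => exact ⟨1, by rw [Matrix.SpecialLinearGroup.coe_one, Matrix.one_mul]; rfl⟩
  obtain ⟨g1, h1⟩ := key i
  obtain ⟨g2, h2⟩ := key j
  refine HM_unique hp (g2⁻¹ * g * g1) i j ?_
  rw [Matrix.SpecialLinearGroup.coe_mul, Matrix.SpecialLinearGroup.coe_mul, Matrix.mul_assoc,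
    ← h1, Matrix.mul_assoc, h, h2, ← Matrix.mul_assoc, ← Matrix.SpecialLinearGroup.coe_mul,
    inv_mul_cancel, Matrix.SpecialLinearGroup.coe_one, Matrix.one_mul]

/-- The representatives of the Hecke operator `T_p` for `GH D`. -/
noncomputable def hrepsH {p : ℕ} (hp : p.Prime) (hpN : ¬ p ∣ D ^ 2) :
    Reps (toGLH D) (Option (Fin p)) :=
  Reps.mk' toGLH_injective (fun i ↦ rH (up hp hpN) p i)
    (fun γ i ↦ by
      obtain ⟨j, B, hB, h⟩ := exists_factorH hp hpN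
        (A := MH (up hp hpN) p i * ((γ : SL(2, ℤ)) : Matrix _ _ ℤ))
        ((isDeltaH_MH hp hpN i).mul (isDeltaH_of_mem γ))
        (by rw [Matrix.det_mul, det_MH]; exact dvd_mul_right _ _)
      have hdet : B.det = 1 := by
        have := congrArg Matrix.det h
        rw [Matrix.det_mul, Matrix.det_mul, det_MH, det_MH, (γ : SL(2, ℤ)).det_coe, mul_one] at this
        have hℓ0 : (p : ℤ) ≠ 0 := by exact_mod_cast hp.ne_zero
        exact (mul_right_cancel₀ hℓ0 (by rw [← this, one_mul]) : B.det = 1)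
      obtain ⟨g, rfl⟩ := exists_mem_of_isDeltaH hB hdet
      refine ⟨g, j, ?_⟩
      apply Units.ext
      rw [Units.val_mul, Units.val_mul, toGLH_apply, toGLH_apply, mapGL_coe, mapGL_coe,
        rH_apply _ hp.ne_zero, rH_apply _ hp.ne_zero, ← map_mul_cast, ← map_mul_cast, h])
    (fun g i j h ↦ by
      rw [toGLH_apply] at h
      exact MH_unique hp hpN _ _ _
        ((eq_coe_of_mapGL_mul (rH_apply _ hp.ne_zero _) (rH_apply _ hp.ne_zero _)).mp h))

@[simp] theorem hrepsH_δ {p : ℕ} (hp : p.Prime) (hpN : ¬ p ∣ D ^ 2) (i : Option (Fin p)) :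
    (hrepsH hp hpN).δ i = rH (up hp hpN) p i := rfl

/-! ### The operators on parabolic homomorphisms -/

/-- Sum over orbits. -/
theorem sum_eq_zero_of_orbits {I A : Type*} [Fintype I] [AddCommGroup A] (σ : Equiv.Perm I)
    (f : I → A) (h : ∀ (i : I) (n : ℕ), (σ ^ n) i = i → ∑ k ∈ Finset.range n, f ((σ ^ k) i) = 0) :
    ∑ i, f i = 0 := by
  classical
  suffices H : ∀ (m : ℕ) (S : Finset I), S.card = m → (∀ i ∈ S, σ i ∈ S) → (∀ i ∈ S, σ⁻¹ i ∈ S) →
      ∑ i ∈ S, f i = 0 from H _ Finset.univ rfl (fun _ _ => Finset.mem_univ _)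
        (fun _ _ => Finset.mem_univ _)
  intro m
  induction m using Nat.strong_induction_on with
  | _ m ih =>
    intro S hS hst hst'
    rcases S.eq_empty_or_nonempty with rfl | ⟨i, hi⟩
    · simp
    set n := Function.minimalPeriod σ i with hn
    have hnpos : 0 < n := Function.minimalPeriod_pos_of_mem_periodicPts
      (Function.Injective.mem_periodicPts σ.injective i)
    have hper : (σ ^ n) i = i := by
      rw [Equiv.Perm.coe_pow]
      exact Function.iterate_minimalPeriod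
    set O := (Finset.range n).image (fun k => (σ ^ k) i) with hO
    have hinj : Set.InjOn (fun k => (σ ^ k) i) (Finset.range n : Set ℕ) := by
      intro a ha b hb hab
      simp only [Finset.coe_range, Set.mem_Iio] at ha hb
      simp only [Equiv.Perm.coe_pow] at hab
      exact Function.iterate_injOn_Iio_minimalPeriod (f := σ) (x := i) ha hb hab
    have hmem : ∀ k : ℕ, (σ ^ k) i ∈ S := by
      intro k
      induction k with
      | zero => simpa using hi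
      | succ k ih => rw [pow_succ', Equiv.Perm.mul_apply]; exact hst _ ih
    have hOS : O ⊆ S := by
      intro x hx
      obtain ⟨k, -, rfl⟩ := Finset.mem_image.mp hx
      exact hmem k
    have hOk : ∀ k : ℕ, (σ ^ k) i ∈ O := by
      intro k
      refine Finset.mem_image.mpr ⟨k % n, Finset.mem_range.mpr (Nat.mod_lt _ hnpos), ?_⟩
      conv_rhs => rw [← Nat.mod_add_div k n, pow_add, Equiv.Perm.mul_apply, pow_mul]
      congr 1
      have : ∀ q : ℕ, ((σ ^ n) ^ q) i = i := by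
        intro q
        induction q with
        | zero => simp
        | succ q ih => rw [pow_succ', Equiv.Perm.mul_apply, ih, hper]
      exact (this _).symm
    have hOσ : ∀ x ∈ O, σ x ∈ O := by
      intro x hx
      obtain ⟨k, -, rfl⟩ := Finset.mem_image.mp hx
      have := hOk (k + 1)
      rwa [pow_succ', Equiv.Perm.mul_apply] at this
    have hOσ' : ∀ x ∈ O, σ⁻¹ x ∈ O := by
      intro x hx
      obtain ⟨k, -, rfl⟩ := Finset.mem_image.mp hx
      have e : σ⁻¹ ((σ ^ k) i) = (σ ^ (k + (n - 1))) i := by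
        rw [Equiv.Perm.inv_eq_iff_eq, ← Equiv.Perm.mul_apply, ← pow_succ',
          show k + (n - 1) + 1 = k + n by omega, pow_add, Equiv.Perm.mul_apply, hper]
      rw [e]
      exact hOk _
    have h1 : ∑ x ∈ O, f x = 0 := by
      rw [hO, Finset.sum_image hinj]
      exact h i n hper
    have h2 : ∑ x ∈ S \ O, f x = 0 := by
      refine ih (S \ O).card ?_ _ rfl ?_ ?_
      · rw [← hS]
        apply Finset.card_lt_card
        refine Finset.ssubset_iff_subset_ne.mpr ⟨Finset.sdiff_subset, fun hc => ?_⟩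
        have : i ∈ S \ O := by rw [hc]; exact hi
        exact (Finset.mem_sdiff.mp this).2 (by simpa using hOk 0)
      · intro x hx
        rw [Finset.mem_sdiff] at hx ⊢
        refine ⟨hst x hx.1, fun hc => hx.2 ?_⟩
        have := hOσ' _ hc
        simpa using this
      · intro x hx
        rw [Finset.mem_sdiff] at hx ⊢
        refine ⟨hst' x hx.1, fun hc => hx.2 ?_⟩
        have := hOσ _ hc
        simpa using this
    rw [← Finset.sum_sdiff hOS, h1, h2, add_zero]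

theorem _root_.Fermat.Agent.Top.Reps.c_pow {Γ G : Type*} [Group Γ] [Group G] {ι : Γ →* G}
    {I : Type*} (R : Reps ι I) {A : Type*} [AddCommGroup A] (φ : Additive Γ →+ A) (γ : Γ) (i : I)
    (n : ℕ) : φ (Additive.ofMul (R.c (γ ^ n) i)) =
      ∑ k ∈ Finset.range n, φ (Additive.ofMul (R.c γ ((R.perm γ ^ k) i))) := by
  induction n with
  | zero => simp [R.c_one]
  | succ n ih =>
    rw [pow_succ, R.c_mul, ofMul_mul, map_add, ih, Finset.sum_range_succ, R.σ_pow]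

/-- `R.op φ` vanishes on `P` if `φ` does. -/
theorem _root_.Fermat.Agent.Top.Reps.op_eq_zero_of' {Γ G : Type*} [Group Γ] [Group G]
    {ι : Γ →* G} {I : Type*} [Fintype I] (R : Reps ι I) {A : Type*} [AddCommGroup A]
    (P : Γ → Prop) (hpow : ∀ γ, P γ → ∀ n : ℕ, P (γ ^ n))
    (hconj : ∀ γ γ' i, P γ → R.δ i * ι γ = ι γ' * R.δ i → P γ')
    (φ : Additive Γ →+ A) (hφ : ∀ γ, P γ → φ (Additive.ofMul γ) = 0) (γ : Γ) (hγ : P γ) :
    R.op φ (Additive.ofMul γ) = 0 := by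
  rw [Reps.op_apply]
  refine sum_eq_zero_of_orbits (R.perm γ) (fun i => φ (Additive.ofMul (R.c γ i))) ?_
  intro i n hn
  rw [← R.c_pow]
  apply hφ
  have h3 := R.mul_eq (γ ^ n) i
  rw [R.σ_pow, hn] at h3
  exact hconj _ _ i (hpow γ hγ n) h3

section Par

variable (D) (R A : Type*) [CommRing R] [AddCommGroup A] [Module R A]

/-- The module of parabolic homomorphisms `GH D → A`. -/
def parH : Submodule R (Additive (GH D) →+ A) where
  carrier := {φ | IsParabolicHom (GH D) φ}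
  zero_mem' := fun _ _ => rfl
  add_mem' {φ ψ} hφ hψ := fun γ hγ => by
    rw [AddMonoidHom.add_apply, hφ γ hγ, hψ γ hγ, add_zero]
  smul_mem' r φ hφ := fun γ hγ => by
    rw [AddMonoidHom.smul_apply, hφ γ hγ, smul_zero]

variable {D R A}

theorem mem_parH {φ : Additive (GH D) →+ A} : φ ∈ parH D R A ↔ IsParabolicHom (GH D) φ := Iff.rfl

variable (D R A) in
/-- The diamond operator on `Hom(GH D, A)`. -/
noncomputable def diaHom (u : (ZMod (D ^ 2))ˣ) :
    (Additive (GH D) →+ A) →ₗ[R] (Additive (GH D) →+ A) where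
  toFun φ := φ.comp (MonoidHom.toAdditive (conjH u))
  map_add' φ ψ := rfl
  map_smul' r φ := rfl

theorem diaHom_apply (u : (ZMod (D ^ 2))ˣ) (φ : Additive (GH D) →+ A) (γ : GH D) :
    diaHom D R A u φ (Additive.ofMul γ) = φ (Additive.ofMul (conjH u γ)) := rfl

theorem isParabolicHom_diaHom (u : (ZMod (D ^ 2))ˣ) {φ : Additive (GH D) →+ A}
    (hφ : IsParabolicHom (GH D) φ) : IsParabolicHom (GH D) (diaHom D R A u φ) := by
  intro γ hγ
  rw [diaHom_apply]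
  apply hφ
  rw [trace_conjH]
  exact hγ

theorem isParabolicHom_op {p : ℕ} (hp : p.Prime) (hpN : ¬ p ∣ D ^ 2)
    {φ : Additive (GH D) →+ A} (hφ : IsParabolicHom (GH D) φ) :
    IsParabolicHom (GH D) ((hrepsH hp hpN).op φ) := by
  intro γ hγ
  refine (hrepsH hp hpN).op_eq_zero_of'
    (fun γ ↦ ((γ : SL(2, ℤ)) : Matrix (Fin 2) (Fin 2) ℤ).trace ^ 2 = 4) ?_ ?_ φ hφ γ hγ
  · intro γ hγ n
    exact trace_pow_sq _ hγ n
  · intro γ γ' i hγ h
    have e : ((γ' : SL(2, ℤ)) : Matrix (Fin 2) (Fin 2) ℤ).trace =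
        ((γ : SL(2, ℤ)) : Matrix (Fin 2) (Fin 2) ℤ).trace := trace_eq_of_conj h
    change ((γ' : SL(2, ℤ)) : Matrix (Fin 2) (Fin 2) ℤ).trace ^ 2 = 4
    rw [e]
    exact hγ

variable (D R A) in
/-- The Hecke operator `T_p` on parabolic homomorphisms. -/
noncomputable def TpH {p : ℕ} (hp : p.Prime) (hpN : ¬ p ∣ D ^ 2) : Module.End R (parH D R A) :=
  ((hrepsH hp hpN).opLin R).restrict fun _ h => isParabolicHom_op hp hpN h

variable (D R A) in
/-- The diamond operators on parabolic homomorphisms. -/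
noncomputable def diaH (u : (ZMod (D ^ 2))ˣ) : Module.End R (parH D R A) :=
  (diaHom D R A u).restrict fun _ h => isParabolicHom_diaHom u h

@[simp] theorem coe_TpH {p : ℕ} (hp : p.Prime) (hpN : ¬ p ∣ D ^ 2) (φ : parH D R A) :
    (TpH D R A hp hpN φ : Additive (GH D) →+ A) = (hrepsH hp hpN).op φ := rfl

theorem TpH_apply {p : ℕ} (hp : p.Prime) (hpN : ¬ p ∣ D ^ 2) (φ : parH D R A) (γ : GH D) :
    (TpH D R A hp hpN φ : Additive (GH D) →+ A) (Additive.ofMul γ) =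
      ∑ i, (φ : Additive (GH D) →+ A) (Additive.ofMul ((hrepsH hp hpN).c γ i)) := rfl

theorem diaH_apply (u : (ZMod (D ^ 2))ˣ) (φ : parH D R A) (γ : GH D) :
    (diaH D R A u φ : Additive (GH D) →+ A) (Additive.ofMul γ) =
      (φ : Additive (GH D) →+ A) (Additive.ofMul (conjH u γ)) := rfl

end Par

end Fermat.Agent.Neb
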