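import Mathlib
import Fermat.Agent.Neb.Coset
import Fermat.Agent.DS.NiceG1

/-!
# The functions `y_a` on `X_H`
-/

set_option autoImplicit false
set_option linter.unusedSectionVars false
set_option linter.style.haveILetI false

noncomputable section

namespace Fermat.Agent.Neb

open UpperHalfPlane hiding I
open EisensteinSeries ModularForm Filter Topology Fermat.Agent.ModFn Fermat.Agent.Support
open Fermat.Agent.Top Fermat.Agent.DS CongruenceSubgroup ModularCurve
open scoped MatrixGroups Manifold Real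

variable {D : ℕ} [NeZero D]

/-- the normalising constant of the weight four Eisenstein series -/
def c4 : ℂ := (-2 * π * Complex.I) ^ 4 / ((4 - 1 : ℕ).factorial : ℂ)

theorem c4_ne : c4 ≠ 0 := by
  refine div_ne_zero (pow_ne_zero _ ?_) ?_
  · simp [Real.pi_ne_zero, Complex.I_ne_zero]
  · exact_mod_cast Nat.factorial_ne_zero _

/-- The integral Fourier coefficients. -/
def gInt (D : ℕ) (a : ZMod D) (m : ℕ) : ℤ :=
  ∑ x ∈ m.divisorsAntidiagonal, ((if (x.1 : ZMod D) = a then 1 else 0) +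
    (if -(x.1 : ZMod D) = a then 1 else 0)) * (x.2 : ℤ) ^ 3

theorem GEcoeff_single (a : ZMod D) (m : ℕ) :
    GEcoeff D 4 (Pi.single a 1) m = (gInt D a m : ℂ) := by
  rw [GEcoeff, gInt]
  push_cast
  refine Finset.sum_congr rfl fun x _ ↦ ?_
  simp only [Pi.single_apply]
  norm_num

variable (D) in
/-- The weight four Eisenstein series -/
def gE (a : ZMod D) : ℍ → ℂ := fun τ => c4⁻¹ * GE D 4 (Pi.single a 1) τ

theorem gE_hasSum {a : ZMod D} (ha : a ≠ 0) (τ : ℍ) :
    HasSum (fun m : ℕ => (gInt D a m : ℂ) * qpar 1 τ ^ m) (gE D a τ) := by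
  have h0 : (Pi.single a 1 : ZMod D → ℂ) 0 = 0 := by
    rw [Pi.single_apply, if_neg ha.symm]
  have h1 := (GE_hasSum (N := D) (k := 4) (by norm_num) h0 τ).mul_left c4⁻¹
  refine h1.congr_fun ?_
  intro m
  rw [GEcoeff_single, smul_eq_mul, ← mul_assoc, ← mul_assoc]
  have : c4⁻¹ * ((-2 * π * Complex.I) ^ 4 / ((4 - 1 : ℕ).factorial : ℂ)) = 1 := inv_mul_cancel₀ c4_ne
  rw [this, one_mul, qpar_def, Function.Periodic.qParam]
  simp

theorem gE_hasExp {a : ZMod D} (ha : a ≠ 0) :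
    HasExp 1 (gE D a) (HahnSeries.ofPowerSeries ℤ ℂ
      ((PowerSeries.mk (gInt D a)).map (Int.castRingHom ℂ))) := by
  intro τ
  rw [SumsTo.ofPowerSeries_iff]
  refine (gE_hasSum ha τ).congr_fun ?_
  intro m
  rw [PowerSeries.coeff_map, PowerSeries.coeff_mk]
  rfl

theorem gE_eq_smul (a : ZMod D) : gE D a = c4⁻¹ • GE D 4 (Pi.single a 1) := rfl

theorem gE_slash (a : ZMod D) {γ : SL(2, ℤ)} (hγ : γ ∈ Gamma0 D) :
    gE D a ∣[(4 : ℤ)] γ = gE D (a * ((γ 0 0 : ℤ) : ZMod D)) := by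
  have hdet := congrArg (Int.cast : ℤ → ZMod D) γ.det_coe
  rw [Matrix.det_fin_two] at hdet
  push_cast at hdet
  rw [Gamma0_mem.mp hγ, mul_zero, sub_zero] at hdet
  rw [gE_eq_smul, SL_smul_slash, gE_eq_smul]
  congr 1
  have h1 := GE_slash 4 (Pi.single a 1 : ZMod D → ℂ) hγ
  rw [show ((4 : ℕ) : ℤ) = 4 from rfl] at h1
  rw [h1]
  congr 1
  funext x
  rw [Pi.single_apply, Pi.single_apply]
  congr 1
  rw [eq_iff_iff]
  constructor
  · rintro rfl
    rw [mul_assoc, mul_comm ((γ 1 1 : ℤ) : ZMod D), hdet, mul_one]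
  · rintro rfl
    rw [mul_assoc, hdet, mul_one]

variable (D) in
/-- The functions `y_a = E₄² G_a / Δ`. -/
def yH (a : ZMod D) : ℍ → ℂ := fun τ => E₄ τ ^ 2 * gE D a τ / discriminant τ

theorem yH_smul (a : ZMod D) (γ : SL(2, ℤ)) (τ : ℍ) :
    yH D a (γ • τ) = E₄ τ ^ 2 * (gE D a ∣[(4 : ℤ)] γ) τ / discriminant τ := by
  have hd : denom γ τ ≠ 0 := denom_ne_zero _ _
  rw [yH, E₄_smul, discriminant_smul, SL_slash_apply, zpow_neg]
  have h2 := discriminant_ne_zero τ
  have e1 : denom γ τ ^ (12 : ℤ) = denom γ τ ^ (4 : ℤ) * denom γ τ ^ (4 : ℤ) *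
      denom γ τ ^ (4 : ℤ) := by
    rw [← zpow_add₀ hd, ← zpow_add₀ hd]; norm_num
  have h4 : denom γ τ ^ (4 : ℤ) ≠ 0 := zpow_ne_zero _ hd
  rw [e1]
  field_simp

theorem yH_smul_of_mem (a : ZMod D) {γ : SL(2, ℤ)} (hγ : γ ∈ Gamma0 D) (τ : ℍ) :
    yH D a (γ • τ) = yH D (a * ((γ 0 0 : ℤ) : ZMod D)) τ := by
  rw [yH_smul, gE_slash a hγ, yH]

/-- The integral `q`-expansion. -/
def yPS (D : ℕ) (a : ZMod D) : PowerSeries ℤ :=
  eisenstein4 ^ 2 * dedekindEtaUnitInv * PowerSeries.mk (gInt D a)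

/-- The integral `q`-expansion of `y_a`. -/
def yq (D : ℕ) (a : ZMod D) : LaurentSeries ℤ :=
  HahnSeries.single (-1 : ℤ) 1 * HahnSeries.ofPowerSeries ℤ ℤ (yPS D a)

theorem coeffMap_single {R S : Type*} [CommRing R] [CommRing S] (f : R →+* S) (n : ℤ) (r : R) :
    coeffMap f (HahnSeries.single n r) = HahnSeries.single n (f r) := by
  ext g
  rw [coeffMap_coeff, HahnSeries.coeff_single, HahnSeries.coeff_single]
  split_ifs
  · rfl
  · rw [map_zero]

theorem coeffMap_ofPowerSeries {R S : Type*} [CommRing R] [CommRing S] (f : R →+* S)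
    (u : PowerSeries R) : coeffMap f (HahnSeries.ofPowerSeries ℤ R u) =
      HahnSeries.ofPowerSeries ℤ S (u.map f) := by
  ext k
  rw [coeffMap_coeff]
  rcases le_or_gt 0 k with hk | hk
  · lift k to ℕ using hk
    rw [HahnSeries.ofPowerSeries_apply_coeff, HahnSeries.ofPowerSeries_apply_coeff,
      PowerSeries.coeff_map]
  · rw [ofPowerSeries_coeff_of_neg _ hk, ofPowerSeries_coeff_of_neg _ hk, map_zero]

theorem coeffMap_yq {R : Type*} [CommRing R] (a : ZMod D) :
    coeffMap (Int.castRingHom R) (yq D a) =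
      HahnSeries.single (-1 : ℤ) 1 * HahnSeries.ofPowerSeries ℤ R
        ((yPS D a).map (Int.castRingHom R)) := by
  rw [yq, map_mul, coeffMap_single, map_one, coeffMap_ofPowerSeries]

theorem hasExp_yH {a : ZMod D} (ha : a ≠ 0) :
    HasExp 1 (yH D a) (coeffMap (Int.castRingHom ℂ) (yq D a)) := by
  have h1 := ((hasExp_E₄.pow 2).mul (gE_hasExp ha)).mul
    (hasExp_discriminant.inv discriminant_ne_zero)
  have hcast : (dedekindEtaUnit.map (Int.castRingHom ℂ)) *
      (dedekindEtaUnitInv.map (Int.castRingHom ℂ)) = 1 := by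
    rw [← map_mul, dedekindEtaUnit_mul_inv, map_one]
  refine h1.congr ?_ ?_
  · funext τ
    rw [yH, div_eq_mul_inv]
    rfl
  · rw [coeffMap_yq, yPS, map_mul, map_mul, map_mul, map_mul, map_pow, map_pow, mul_inv]
    have h2 : (HahnSeries.single (1 : ℤ) (1 : ℂ))⁻¹ = HahnSeries.single (-1) 1 := by
      rw [inv_eq_of_mul_eq_one_right]
      rw [HahnSeries.single_mul_single, add_neg_cancel, one_mul]
      rfl
    have h3 : ((HahnSeries.ofPowerSeries ℤ ℂ) (dedekindEtaUnit.map (Int.castRingHom ℂ)))⁻¹ =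
        (HahnSeries.ofPowerSeries ℤ ℂ) (dedekindEtaUnitInv.map (Int.castRingHom ℂ)) := by
      apply inv_eq_of_mul_eq_one_right
      rw [← map_mul, hcast, map_one]
    rw [h2, h3]
    ring

/-! ### Membership in `bigA` -/

theorem gE_mf (a : ZMod D) : IntStr.IsMF (Gamma1 D) 4 (gE D a) :=
  (GE_mf (k := 4) (by norm_num) (Pi.single a 1)).smul _

theorem gE_slash_T (a : ZMod D) (δ : SL(2, ℤ)) (z : ℍ) :
    (gE D a ∣[(4 : ℤ)] δ) ((ModularGroup.T ^ (D : ℤ) : SL(2, ℤ)) • z) =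
      (gE D a ∣[(4 : ℤ)] δ) z := by
  have h3 : (gE D a ∣[(4 : ℤ)] (δ * ModularGroup.T ^ (D : ℤ) * δ⁻¹ : SL(2, ℤ))) = gE D a := by
    apply (gE_mf a).slash
    rw [zpow_natCast]
    exact conj_T_pow_mem_Gamma1 D δ
  have h4 : (gE D a ∣[(4 : ℤ)] (δ * ModularGroup.T ^ (D : ℤ) : SL(2, ℤ))) =
      gE D a ∣[(4 : ℤ)] δ := by
    rw [← congrArg (fun f : ℍ → ℂ => f ∣[(4 : ℤ)] δ) h3]
    rw [← SlashAction.slash_mul, inv_mul_cancel_right]
  have h5 := congrFun h4 z
  rw [SlashAction.slash_mul, SL_slash_apply] at h5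
  have hd : denom (ModularGroup.T ^ (D : ℤ) : SL(2, ℤ)) z = 1 := by
    rw [ModularGroup.denom_apply, ModularGroup.coe_T_zpow]
    simp
  rw [hd, one_zpow, mul_one] at h5
  exact h5

theorem yH_mem_bigA' (a : ZMod D) : yH D a ∈ bigA D := by
  intro δ
  have h1 : ∃ φ, HasExp D (gE D a ∣[(4 : ℤ)] δ) φ :=
    ⟨_, HasExp.of_periodic (h := D) (periodic_of_T_zpow fun z => gE_slash_T a δ z)
      ((gE_mf a).holo_slash δ) ((gE_mf a).bdd δ)⟩
  obtain ⟨φ, hφ⟩ := h1
  obtain ⟨ψ, hψ⟩ := hasExp_delta_inv D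
  refine ⟨_, (((hasExp_of_one (N := D) hasExp_E₄).pow 2).mul (hφ.mul hψ)).congr ?_ rfl⟩
  funext z
  rw [yH_smul]
  simp only [Pi.mul_apply, Pi.pow_apply, Pi.inv_apply, div_eq_mul_inv]
  ring

theorem bigA_mul {N k : ℕ} [NeZero N] [NeZero k] {f : ℍ → ℂ} (hf : f ∈ bigA N) :
    f ∈ bigA (N * k) := by
  intro δ
  obtain ⟨φ, hφ⟩ := hf δ
  exact ⟨_, hφ.qExpand (m := k)⟩

theorem yH_mem_bigA (a : ZMod D) : yH D a ∈ bigA (D ^ 2) := by
  rw [pow_two]
  exact bigA_mul (yH_mem_bigA' a)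

/-! ### Leading exponents -/

theorem exists_pos_rep (a : ZMod D) :
    ∃ m : ℕ, 0 < m ∧ ((m : ZMod D) = a ∨ -(m : ZMod D) = a) := by
  refine ⟨a.val + D, by have := NeZero.pos D; omega, Or.inl ?_⟩
  simp

open Classical in
/-- The smallest positive integer congruent to `± a`. -/
def muD (a : ZMod D) : ℕ := Nat.find (exists_pos_rep a)

theorem muD_pos (a : ZMod D) : 0 < muD a := by
  classical
  exact (Nat.find_spec (exists_pos_rep a)).1

theorem muD_spec (a : ZMod D) : ((muD a : ℕ) : ZMod D) = a ∨ -((muD a : ℕ) : ZMod D) = a := by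
  classical
  exact (Nat.find_spec (exists_pos_rep a)).2

theorem muD_min {a : ZMod D} {m : ℕ} (hm : 0 < m) (h : m < muD a) :
    ¬ ((m : ZMod D) = a ∨ -(m : ZMod D) = a) := by
  classical
  exact fun hc => Nat.find_min (exists_pos_rep a) h ⟨hm, hc⟩

theorem eq_or_eq_neg_of_muD_eq {a b : ZMod D} (h : muD a = muD b) : a = b ∨ a = -b := by
  have h1 := muD_spec a
  have h2 := muD_spec b
  rw [h] at h1
  rcases h1 with h1 | h1 <;> rcases h2 with h2 | h2
  · left; exact h1.symm.trans h2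
  · right; exact h1.symm.trans (by rw [← h2, neg_neg]; rw [h2])
  · right; exact h1.symm.trans (by rw [h2])
  · left; exact h1.symm.trans h2

theorem gInt_eq_zero {a : ZMod D} {m : ℕ} (h : m < muD a) : gInt D a m = 0 := by
  rw [gInt]
  refine Finset.sum_eq_zero fun x hx => ?_
  rw [Nat.mem_divisorsAntidiagonal] at hx
  have h1 : 0 < x.1 := Nat.pos_of_ne_zero fun h0 => by
    rw [h0, zero_mul] at hx
    exact hx.2 hx.1.symm
  have h2 : x.1 < muD a := lt_of_le_of_lt (Nat.le_of_dvd (Nat.pos_of_ne_zero hx.2)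
    ⟨x.2, hx.1.symm⟩) h
  have h3 := muD_min h1 h2
  rw [not_or] at h3
  rw [if_neg h3.1, if_neg h3.2]
  simp

theorem gInt_muD {a : ZMod D} (ha : a ≠ -a) : gInt D a (muD a) = 1 := by
  have h0 := muD_pos a
  rw [gInt, Finset.sum_eq_single (muD a, 1)]
  · rcases muD_spec a with h | h
    · rw [if_pos h, if_neg (fun h' => ha (h'.symm.trans (congrArg _ h)))]
      simp
    · rw [if_neg (fun h' => ha (h.symm.trans (congrArg _ h'))), if_pos h]
      simp
  · intro x hx hne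
    rw [Nat.mem_divisorsAntidiagonal] at hx
    have h1 : 0 < x.1 := Nat.pos_of_ne_zero fun h0 => by
      rw [h0, zero_mul] at hx
      exact hx.2 hx.1.symm
    have h2 : x.1 ≤ muD a := Nat.le_of_dvd h0 ⟨x.2, hx.1.symm⟩
    rcases h2.lt_or_eq with h3 | h3
    · have h4 := muD_min h1 h3
      rw [not_or] at h4
      rw [if_neg h4.1, if_neg h4.2]
      simp
    · exfalso
      apply hne
      have h4 : x.2 = 1 := by
        have h5 := hx.1
        rw [h3] at h5
        exact Nat.eq_of_mul_eq_mul_left h0 (by rw [h5, mul_one])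
      exact Prod.ext h3 h4
  · intro h
    exact absurd (Nat.mem_divisorsAntidiagonal.mpr ⟨mul_one _, h0.ne'⟩) h

theorem isUnit_E {R : Type*} [CommRing R] :
    IsUnit ((eisenstein4 ^ 2 * dedekindEtaUnitInv).map (Int.castRingHom R)) := by
  rw [PowerSeries.isUnit_iff_constantCoeff, ← PowerSeries.coeff_zero_eq_constantCoeff_apply,
    PowerSeries.coeff_map, PowerSeries.coeff_zero_eq_constantCoeff_apply, map_mul, map_pow,
    constantCoeff_eisenstein4, constantCoeff_dedekindEtaUnitInv]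
  simp

/-- Reductions of distinct `y_a` are distinct. -/
theorem eq_or_eq_neg_of_coeffMap_yq {R : Type*} [CommRing R] [Nontrivial R] {a b : ZMod D}
    (ha : a ≠ -a) (hb : b ≠ -b)
    (h : coeffMap (Int.castRingHom R) (yq D a) = coeffMap (Int.castRingHom R) (yq D b)) :
    a = b ∨ a = -b := by
  apply eq_or_eq_neg_of_muD_eq
  rw [coeffMap_yq, coeffMap_yq] at h
  have h1 : (HahnSeries.ofPowerSeries ℤ R) ((yPS D a).map (Int.castRingHom R)) =
      (HahnSeries.ofPowerSeries ℤ R) ((yPS D b).map (Int.castRingHom R)) := by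
    have h2 := congrArg (fun x => HahnSeries.single (1 : ℤ) (1 : R) * x) h
    simp only [← mul_assoc, HahnSeries.single_mul_single] at h2
    rw [show (1 : ℤ) + -1 = 0 by norm_num, one_mul] at h2
    change (1 : LaurentSeries R) * _ = (1 : LaurentSeries R) * _ at h2
    rw [one_mul, one_mul] at h2
    exact h2
  have h2 := HahnSeries.ofPowerSeries_injective h1
  rw [yPS, yPS, map_mul _ (eisenstein4 ^ 2 * dedekindEtaUnitInv),
    map_mul _ (eisenstein4 ^ 2 * dedekindEtaUnitInv)] at h2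
  have h3 := (isUnit_E (R := R)).mul_left_cancel h2
  rcases lt_trichotomy (muD a) (muD b) with h4 | h4 | h4
  · exfalso
    have h5 := congrArg (PowerSeries.coeff (muD a)) h3
    rw [PowerSeries.coeff_map, PowerSeries.coeff_map, PowerSeries.coeff_mk, PowerSeries.coeff_mk,
      gInt_muD ha, gInt_eq_zero h4] at h5
    simp at h5
  · exact h4
  · exfalso
    have h5 := congrArg (PowerSeries.coeff (muD b)) h3
    rw [PowerSeries.coeff_map, PowerSeries.coeff_map, PowerSeries.coeff_mk, PowerSeries.coeff_mk,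
      gInt_muD hb, gInt_eq_zero h4] at h5
    simp at h5

theorem eq_or_eq_neg_of_yH {a b : ZMod D} (ha : a ≠ -a) (hb : b ≠ -b)
    (h : yH D a = yH D b) : a = b ∨ a = -b := by
  have ha0 : a ≠ 0 := fun h0 => ha (by rw [h0, neg_zero])
  have hb0 : b ≠ 0 := fun h0 => hb (by rw [h0, neg_zero])
  have h1 := hasExp_yH ha0
  rw [h] at h1
  exact eq_or_eq_neg_of_coeffMap_yq ha hb (h1.unique (hasExp_yH hb0))

end Fermat.Agent.Neb
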