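import Mathlib
import Fermat.Agent.Neb.YFun
import Fermat.Agent.Neb.GH

/-!
# The level structure `GH D` with its separating function
-/

set_option autoImplicit false
set_option linter.unusedSectionVars false
set_option linter.style.haveILetI false

noncomputable section

namespace Fermat.Agent.Neb

open UpperHalfPlane hiding I
open EisensteinSeries ModularForm Filter Topology Fermat.Agent.ModFn Fermat.Agent.Support
open Fermat.Agent.Top Fermat.Agent.DS CongruenceSubgroup ModularCurve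
open scoped MatrixGroups Manifold Real

variable {D : ℕ} [NeZero D]

theorem gInt_neg (a : ZMod D) (m : ℕ) : gInt D (-a) m = gInt D a m := by
  rw [gInt, gInt]
  refine Finset.sum_congr rfl fun x _ => ?_
  congr 1
  rw [add_comm]
  congr 1
  · congr 1
    rw [neg_inj]
  · congr 1
    rw [eq_iff_iff, neg_eq_iff_eq_neg]

theorem yq_neg (a : ZMod D) : yq D (-a) = yq D a := by
  rw [yq, yq, yPS, yPS, funext (gInt_neg a)]

theorem yH_neg {a : ZMod D} (ha : a ≠ 0) : yH D (-a) = yH D a := by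
  have h1 := hasExp_yH (D := D) (neg_ne_zero.mpr ha)
  rw [yq_neg] at h1
  exact h1.eq_of_same (hasExp_yH ha)

theorem Gamma0_le_of_sq {γ : SL(2, ℤ)} (h : γ ∈ Gamma0 (D ^ 2)) : γ ∈ Gamma0 D :=
  Gamma0_mem.mpr (zmodD_of_mem h)

theorem one_ne_neg_one' (hD : 3 ≤ D) : (1 : ZMod D) ≠ -1 := one_ne_neg_one hD

theorem one_ne_zero' (hD : 3 ≤ D) : (1 : ZMod D) ≠ 0 := by
  haveI : Fact (1 < D) := ⟨by omega⟩
  exact one_ne_zero

theorem isUnit_ne_neg (hD : 3 ≤ D) {a : ZMod D} (ha : IsUnit a) : a ≠ -a := by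
  intro h
  obtain ⟨u, rfl⟩ := ha
  apply one_ne_neg_one' hD
  have := congrArg (fun x => ((u⁻¹ : (ZMod D)ˣ) : ZMod D) * x) h
  simpa using this

theorem isUnit_zero_zero {γ : SL(2, ℤ)} (h : γ ∈ Gamma0 (D ^ 2)) :
    IsUnit (((γ 0 0 : ℤ) : ZMod D)) := IsUnit.of_mul_eq_one _ (zmodD_det h)

theorem yH_GH {γ : SL(2, ℤ)} (hγ : γ ∈ GH D) {a : ZMod D} (ha : a ≠ 0) (z : ℍ) :
    yH D a (γ • z) = yH D a z := by
  rw [yH_smul_of_mem a (Gamma0_le_of_sq hγ.1)]
  rcases (pm_iff (zmodD_det hγ.1)).mpr hγ.2 with h | h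
  · rw [h, mul_one]
  · rw [h, mul_neg_one, yH_neg ha]

variable (D) in
theorem exists_sep (hD : 3 ≤ D) : ∃ c : ℤ, ∀ γ : SL(2, ℤ),
    (∀ z : ℍ, jd (D ^ 2) (γ • z) + c * yH D 1 (γ • z) = jd (D ^ 2) z + c * yH D 1 z) →
      γ ∈ GH D := by
  by_contra hcon
  push Not at hcon
  choose g hg hgn using hcon
  have h10 := one_ne_zero' hD
  haveI : Finite (SL(2, ℤ) ⧸ GH D) := Subgroup.finite_quotient_of_finiteIndex
  obtain ⟨c, c', hcc, hcc'⟩ := Finite.exists_ne_map_eq_of_infinite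
    (fun c : ℤ => (((g c)⁻¹ : SL(2, ℤ)) : SL(2, ℤ) ⧸ GH D))
  rw [QuotientGroup.eq, inv_inv] at hcc'
  -- `g c' = h * g c`
  set h := g c * (g c')⁻¹ with hh
  have hjd : ∀ z : ℍ, jd (D ^ 2) (g c' • z) = jd (D ^ 2) (g c • z) := by
    intro z
    have : g c • z = h • (g c' • z) := by rw [hh, mul_smul, inv_smul_smul]
    rw [this, jd_smul dvd_rfl hcc'.1]
  have hy : ∀ z : ℍ, yH D 1 (g c' • z) = yH D 1 (g c • z) := by
    intro z
    have : g c • z = h • (g c' • z) := by rw [hh, mul_smul, inv_smul_smul]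
    rw [this, yH_GH hcc' h10]
  have hne : ((c : ℂ) - c') ≠ 0 := by
    rw [sub_ne_zero]
    exact_mod_cast hcc
  have e1 : ∀ z : ℍ, yH D 1 (g c • z) = yH D 1 z := by
    intro z
    have h1 := hg c z
    have h2 := hg c' z
    rw [hjd, hy] at h2
    apply sub_eq_zero.mp
    apply (mul_eq_zero.mp (?_ : ((c : ℂ) - c') * (yH D 1 (g c • z) - yH D 1 z) = 0)).resolve_left hne
    linear_combination h1 - h2
  have e2 : ∀ z : ℍ, jd (D ^ 2) (g c • z) = jd (D ^ 2) z := by
    intro z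
    have h1 := hg c z
    rw [e1] at h1
    exact add_right_cancel h1
  have h3 : g c ∈ Gamma0 (D ^ 2) := mem_Gamma0_of_jd_smul e2
  refine hgn c ⟨h3, ?_⟩
  rw [← pm_iff (zmodD_det h3)]
  have hu := isUnit_zero_zero h3
  have e3 : yH D (((g c) 0 0 : ℤ) : ZMod D) = yH D 1 := by
    funext z
    rw [← e1 z, yH_smul_of_mem 1 (Gamma0_le_of_sq h3), one_mul]
  exact eq_or_eq_neg_of_yH (isUnit_ne_neg hD hu) (one_ne_neg_one' hD) e3

variable (D) in
/-- The coefficient in the separating function. -/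
def cSep (hD : 3 ≤ D) : ℤ := (exists_sep D hD).choose

/-- The level structure `GH D`. -/
def datumH (D : ℕ) [NeZero D] (hD : 3 ≤ D) : Datum (D ^ 2) where
  Γ := GH D
  le := GH_le D
  finiteIndex := inferInstance
  conj_mem δ h hh := trace_sq_mem_GH (exists_conj_mem_Gamma0 _ δ hh) (by
    rw [trace_conj_T_zpow]; norm_num)
  neg_mem := neg_mem_GH D (one_mem _)
  t := jd (D ^ 2) + (cSep D hD : ℂ) • yH D 1
  tq := jqNModC ℤ (D ^ 2) + (cSep D hD : LaurentSeries ℤ) * yq D 1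
  t_exp := by
    refine ((hasExp_jd (D ^ 2)).add ((hasExp_yH (one_ne_zero' hD)).smul (cSep D hD : ℂ))).congr rfl ?_
    rw [map_add, map_mul, map_intCast]
    congr 1
    · rw [jqNModC, coeffMap_qExpand]
      congr 1
      exact (map_jqModC (Int.castRingHom ℂ)).symm
    · congr 1
      simp
  t_mem := by
    refine add_mem (Top.jdN_mem_WN (D ^ 2)).1 (Subalgebra.smul_mem _ (yH_mem_bigA 1) _)
  t_inv γ hγ z := by
    simp only [Pi.add_apply, Pi.smul_apply, smul_eq_mul]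
    rw [jd_smul dvd_rfl hγ.1, yH_GH hγ (one_ne_zero' hD)]
  t_sep γ h := (exists_sep D hD).choose_spec γ fun z => by
    have h1 := h z
    simp only [Pi.add_apply, Pi.smul_apply, smul_eq_mul] at h1
    exact h1

end Fermat.Agent.Neb
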