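import Mathlib
import Fermat.Agent.Neb.FC
import Fermat.Agent.Top.FnC

/-!
# `F_ℂ` is a function field; integrality of `W_N` over `ℂ[j]`
-/

set_option autoImplicit false
set_option linter.unusedSectionVars false
set_option linter.style.haveILetI false

noncomputable section

namespace Fermat.Agent.Neb

open UpperHalfPlane hiding I
open ModularForm Filter Topology Fermat.Agent.ModFn Fermat.Agent.Support Polynomial Fermat.Agent.Top
open ModularCurve IntermediateField Fermat.Agent.FF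
open scoped MatrixGroups Manifold

variable {N : ℕ} [NeZero N] {D : Datum N}

/-- characteristic polynomial -/
def charFn {N : ℕ} [NeZero N] (D : Datum N) (g : ℍ → ℂ) : Polynomial (ℍ → ℂ) :=
  ∏ x : X0 D, (Polynomial.X - Polynomial.C (cosetFn g x))

theorem charFn_monic (g : ℍ → ℂ) : (charFn D g).Monic :=
  Polynomial.monic_prod_X_sub_C _ _

theorem charFn_eval {g : ℍ → ℂ} (hg : g ∈ WN D) : (charFn D g).eval g = 0 := by
  rw [charFn, Polynomial.eval_prod]
  refine Finset.prod_eq_zero (Finset.mem_univ ((1 : SL(2, ℤ)) : X0 D)) ?_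
  rw [cosetFn_one hg.2]
  simp

theorem charFn_inv {g : ℍ → ℂ}
    (hg : ∀ γ ∈ D.Γ, ∀ z : ℍ, g (γ • z) = g z) (δ : SL(2, ℤ)) :
    (charFn D g).map (precomp (K := ℂ) (fun z => δ • z)).toRingHom = charFn D g := by
  rw [charFn, Polynomial.map_prod]
  have h1 : ∀ x : X0 D, (Polynomial.X - Polynomial.C (cosetFn g x)).map
      (precomp (K := ℂ) (fun z => δ • z)).toRingHom =
      Polynomial.X - Polynomial.C (cosetFn g (δ⁻¹ • x)) := by
    intro x
    rw [Polynomial.map_sub, Polynomial.map_X, Polynomial.map_C, map_precomp_cosetFn hg]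
  rw [Finset.prod_congr rfl fun x _ => h1 x]
  exact Equiv.prod_comp (MulAction.toPerm (δ⁻¹))
    (fun x : X0 D => Polynomial.X - Polynomial.C (cosetFn g x))

theorem charFn_coeff_mem {g : ℍ → ℂ} (hg : g ∈ WN D) (k : ℕ) :
    (charFn D g).coeff k ∈ Algebra.adjoin ℂ {jH} :=
  coeff_mem_adjoin_jH (fun k => coeff_prod_X_sub_C_mem _ (fun x _ => cosetFn_mem_bigA hg.1 x) k)
    (charFn_inv hg.2) k

/-- Every element of `W_N` satisfies a monic equation over `ℂ[j]`. -/
theorem exists_monic (g : WN D) :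
    ∃ q : Polynomial ℂ[X], q.Monic ∧ q.eval₂ (evJ D : ℂ[X] →+* WN D) g = 0 := by
  let f : ℂ[X] →+* (ℍ → ℂ) := ((WN D).val : WN D →+* (ℍ → ℂ)).comp (evJ D : ℂ[X] →+* WN D)
  have hf : ∀ P : ℂ[X], f P = fun z => P.eval (jH z) := fun P => funext fun z => coe_evJ P z
  have hlift : charFn D g.1 ∈ Polynomial.lifts f := by
    rw [Polynomial.lifts_iff_coeff_lifts]
    intro k
    have h1 := charFn_coeff_mem g.2 k
    rw [mem_adjoin_jH_iff] at h1
    obtain ⟨P, hP⟩ := h1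
    exact ⟨P, by rw [hf]; exact (funext hP).symm⟩
  obtain ⟨q, hq, -, hqm⟩ := Polynomial.lifts_and_natDegree_eq_and_monic hlift (charFn_monic _)
  refine ⟨q, hqm, ?_⟩
  apply Subtype.ext
  have h1 : ((WN D).val : WN D →+* (ℍ → ℂ)) (q.eval₂ (evJ D : ℂ[X] →+* WN D) g) =
      q.eval₂ f g.1 := by
    rw [Polynomial.hom_eval₂]; rfl
  have h2 : q.eval₂ f g.1 = 0 := by
    rw [← Polynomial.eval_map, hq, charFn_eval g.2]
  exact h1.trans h2

theorem isIntegral_toFC (g : WN D) : IsIntegral (Algebra.adjoin ℂ {jF D}) (toFC D g) := by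
  obtain ⟨q, hq, hqg⟩ := exists_monic g
  let φ : ℂ[X] →+* Algebra.adjoin ℂ {jF D} :=
    (Polynomial.aeval (⟨jF D, Algebra.self_mem_adjoin_singleton ℂ (jF D)⟩ :
      Algebra.adjoin ℂ {jF D}) : ℂ[X] →ₐ[ℂ] _)
  have hφ : (algebraMap (Algebra.adjoin ℂ {jF D}) (FC D)).comp φ =
      ((toFC D : WN D →ₐ[ℂ] FC D) : WN D →+* FC D).comp (evJ D : ℂ[X] →+* WN D) := by
    refine RingHom.ext fun P => ?_
    have h1 := toFC_evJ (D := D) P
    have h2 : ((φ P : Algebra.adjoin ℂ {jF D}) : FC D) = Polynomial.aeval (jF D) P :=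
      Polynomial.aeval_subalgebra_coe P _ _
    exact h2.trans h1.symm
  refine ⟨q.map φ, hq.map φ, ?_⟩
  rw [Polynomial.eval₂_map, hφ]
  have h1 := congrArg (toFC D) hqg
  rw [map_zero] at h1
  rw [← h1]
  exact (Polynomial.hom_eval₂ _ _ _ _).symm

/-- `j_N` as an element of the function field -/
def jNF {N : ℕ} [NeZero N] (D : Datum N) : FC D := toFC D ⟨jd N, jdN_mem_WN D⟩

/-- `t` as an element of the function field -/
def tF {N : ℕ} [NeZero N] (D : Datum N) : FC D := toFC D ⟨D.t, t_mem_WN D⟩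

theorem toFC_mem_of_mem_A0 (f : WN D) (hf : f.1 ∈ A0 D) :
    toFC D f ∈ Algebra.adjoin ℂ {jF D, tF D} := by
  have h1 : A0 D ≤ ((Algebra.adjoin ℂ {jF D, tF D}).comap (toFC D)).map (WN D).val := by
    rw [A0, Algebra.adjoin_le_iff]
    rintro g (rfl | rfl)
    · exact ⟨⟨jH, jH_mem_WN D⟩, by
        show toFC D _ ∈ Algebra.adjoin ℂ {jF D, tF D}
        rw [toFC_jH]; exact Algebra.subset_adjoin (Set.mem_insert _ _), rfl⟩
    · exact ⟨⟨D.t, t_mem_WN D⟩, by
        show toFC D _ ∈ Algebra.adjoin ℂ {jF D, tF D}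
        exact Algebra.subset_adjoin (Set.mem_insert_of_mem _ rfl), rfl⟩
  obtain ⟨g, hg, hgf⟩ := h1 hf
  have : g = f := Subtype.ext hgf
  rw [← this]
  exact hg

theorem exists_quot_toFC (z : FC D) : ∃ a ∈ Algebra.adjoin ℂ {jF D, tF D},
    ∃ b ∈ Algebra.adjoin ℂ {jF D, tF D}, b ≠ 0 ∧ z * b = a := by
  have key : ∀ g : WN D, ∃ a ∈ Algebra.adjoin ℂ {jF D, tF D},
      ∃ b ∈ Algebra.adjoin ℂ {jF D, tF D}, b ≠ 0 ∧ toFC D g * b = a := by
    intro g
    obtain ⟨a, ha, b, hb, hb0, hab⟩ := exists_quot_of_mem_WN g.2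
    have h1 : g * ⟨b, A0_le_WN D hb⟩ = (⟨a, A0_le_WN D ha⟩ : WN D) := Subtype.ext hab
    have h2 := congrArg (toFC D) h1
    rw [map_mul] at h2
    have h3 : toFC D ⟨b, A0_le_WN D hb⟩ ≠ 0 := fun h => by
      have := toFC_injective (h.trans (map_zero _).symm)
      exact hb0 (congrArg Subtype.val this)
    exact ⟨_, toFC_mem_of_mem_A0 _ ha, _, toFC_mem_of_mem_A0 _ hb, h3, h2⟩
  obtain ⟨g, h, h0, rfl⟩ := exists_div z
  obtain ⟨a, ha, b, hb, hb0, hab⟩ := key g
  obtain ⟨c, hc, d, hd, hd0, hcd⟩ := key h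
  have hh0 : toFC D h ≠ 0 := fun h1 => h0 (toFC_injective (h1.trans (map_zero _).symm))
  refine ⟨a * d, mul_mem ha hd, b * c, mul_mem hb hc, mul_ne_zero hb0 ?_, ?_⟩
  · rw [← hcd]; exact mul_ne_zero hh0 hd0
  · rw [← hab, ← hcd]
    field_simp

instance finiteDimensional_FC : FiniteDimensional ℂ⟮jF D⟯ (FC D) :=
  finiteDimensional_of_generated exists_quot_toFC (isIntegral_toFC _)

instance isFnField_FC : IsFnField ℂ (FC D) := IsFnField.of_finiteDimensional jF_transcendental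

end Fermat.Agent.Neb
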