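import Mathlib
import Fermat.Agent.Top.Val
import Fermat.Agent.Neb.FnC

/-!
# Valuations of `F_ℂ` attached to points of `ℍ` and to cusps
-/

set_option autoImplicit false
set_option linter.unusedSectionVars false
set_option linter.style.haveILetI false

noncomputable section

namespace Fermat.Agent.Neb

open UpperHalfPlane hiding I
open ModularForm Filter Topology Fermat.Agent.ModFn Fermat.Agent.Support Polynomial Fermat.Agent.Top
open ModularCurve IntermediateField Fermat.Agent.FF WithZero AlgebraicCurve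
open scoped MatrixGroups Manifold

variable {N : ℕ} [NeZero N] {D : Datum N}

/-! ### Expansions at the cusps -/

variable (D) in
/-- expansion at the cusp `δ` in `q_N` -/
def expW (δ : SL(2, ℤ)) : WN D →ₐ[ℂ] LaurentSeries ℂ where
  toFun f := (f.2.1 δ).choose
  map_one' := ((1 : WN D).2.1 δ).choose_spec.unique (HasExp.one N)
  map_mul' f g := ((f * g).2.1 δ).choose_spec.unique
    ((f.2.1 δ).choose_spec.mul (g.2.1 δ).choose_spec)
  map_zero' := ((0 : WN D).2.1 δ).choose_spec.unique (HasExp.zero N)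
  map_add' f g := ((f + g).2.1 δ).choose_spec.unique
    ((f.2.1 δ).choose_spec.add (g.2.1 δ).choose_spec)
  commutes' c := ((algebraMap ℂ (WN D) c).2.1 δ).choose_spec.unique (by
    rw [algebraMap_laurentSeries_eq_single]
    exact HasExp.const N c)

theorem hasExp_expW (δ : SL(2, ℤ)) (f : WN D) :
    HasExp N (fun z => f.1 (δ • z)) (expW D δ f) := (f.2.1 δ).choose_spec

theorem expW_eq {δ : SL(2, ℤ)} {f : WN D} {φ : LaurentSeries ℂ}
    (h : HasExp N (fun z => f.1 (δ • z)) φ) : expW D δ f = φ := (hasExp_expW δ f).unique h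

theorem expW_injective (δ : SL(2, ℤ)) : Function.Injective (expW D δ) := fun f g h => by
  apply Subtype.ext
  have h1 := hasExp_expW δ f
  rw [h] at h1
  have h2 := h1.eq_of_same (hasExp_expW δ g)
  funext z
  have := congrFun h2 (δ⁻¹ • z)
  simpa using this

theorem expW_congr {δ δ' : SL(2, ℤ)} (h : ∃ γ ∈ D.Γ, δ' = γ * δ)
    (f : WN D) : expW D δ' f = expW D δ f := by
  obtain ⟨γ, hγ, rfl⟩ := h
  refine expW_eq ((hasExp_expW δ f).congr ?_ rfl)
  funext z
  rw [mul_smul, f.2.2 γ hγ]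

instance isScalarTower_WN : IsScalarTower ℂ (WN D) (FC D) :=
  IsScalarTower.of_algebraMap_eq fun c => ((toFC D).commutes c).symm

variable (D) in
/-- the embedding of the function field given by the expansion at the cusp `δ` -/
def kap (δ : SL(2, ℤ)) : FC D →ₐ[ℂ] LaurentSeries ℂ :=
  IsFractionRing.liftAlgHom (A := WN D) (expW_injective δ)

@[simp] theorem kap_toFC (δ : SL(2, ℤ)) (f : WN D) : kap D δ (toFC D f) = expW D δ f := by
  have := IsFractionRing.lift_algebraMap (K := FC D)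
    (g := (expW D δ : WN D →+* LaurentSeries ℂ)) (expW_injective δ) f
  exact this

theorem expW_jH (δ : SL(2, ℤ)) : expW D δ ⟨jH, jH_mem_WN D⟩ = qExpand ℂ N (jqModC ℂ) :=
  expW_eq ((hasExp_of_one hasExp_jH).congr (funext fun z => (jH_smul δ z).symm) rfl)

theorem kap_jF (δ : SL(2, ℤ)) : kap D δ (jF D) = qExpand ℂ N (jqModC ℂ) := by
  rw [← toFC_jH, kap_toFC, expW_jH]

theorem order_kap_jF (δ : SL(2, ℤ)) : (kap D δ (jF D)).order = -N := by
  rw [kap_jF, order_qExpand, order_jqModC]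
  ring

theorem jF_ne_zero : jF D ≠ 0 := fun h => by
  have := order_kap_jF (D := D) 1
  rw [h, map_zero, HahnSeries.order_zero] at this
  have h2 := NeZero.ne N
  omega

variable (D) in
/-- the valuation of the cusp `δ` -/
def cuspVal (δ : SL(2, ℤ)) : Valuation (FC D) ℤᵐ⁰ :=
  laurVal.comap (kap D δ : FC D →+* LaurentSeries ℂ)

theorem cuspVal_apply (δ : SL(2, ℤ)) {f : FC D} (hf : f ≠ 0) :
    cuspVal D δ f = exp (-(kap D δ f).order) :=
  laurVal_apply ((map_ne_zero (kap D δ)).mpr hf)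

/-- `P` is the place of the cusp `δ`, with index `e`. -/
def IsCuspPlace (δ : SL(2, ℤ)) (P : Place ℂ (FC D)) (e : ℕ) : Prop :=
  0 < e ∧ ∀ f : FC D, f ≠ 0 → (kap D δ f).order = e * P.ord f

theorem exists_isCuspPlace (δ : SL(2, ℤ)) : ∃ (P : Place ℂ (FC D)) (e : ℕ),
    IsCuspPlace δ P e := by
  obtain ⟨P, e, he, h⟩ := exists_place_of_valuation (K := ℂ) (cuspVal D δ) (fun a ha => by
    rw [cuspVal_apply δ (by simpa using ha), AlgHom.commutes, order_algebraMap_laurent, neg_zero,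
      exp_zero]) ⟨jF D, jF_ne_zero, fun h => by
        rw [cuspVal_apply δ jF_ne_zero, order_kap_jF, neg_neg, ← exp_zero, exp_inj] at h
        exact NeZero.ne N (by exact_mod_cast h)⟩
  refine ⟨P, e, he, fun f hf => ?_⟩
  have h1 := h f hf
  rw [cuspVal_apply δ hf, exp_inj] at h1
  omega

theorem IsCuspPlace.ord_jF_neg {δ : SL(2, ℤ)} {P : Place ℂ (FC D)} {e : ℕ}
    (h : IsCuspPlace δ P e) : P.ord (jF D) < 0 := by
  have h1 := h.2 (jF D) jF_ne_zero
  rw [order_kap_jF] at h1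
  have h2 : (0 : ℤ) < N := by exact_mod_cast Nat.pos_of_neZero N
  have h3 : (0 : ℤ) < e := by exact_mod_cast h.1
  by_contra hcon
  rw [not_lt] at hcon
  have := mul_nonneg h3.le hcon
  omega

/-! ### Points of the upper half plane -/

theorem WN.mdiff (f : WN D) : MDiff f.1 := (mem_WN_iff_isCForm.mp f.2).mdifferentiable

theorem WN.coe_ne_zero {f : WN D} (hf : f ≠ 0) : f.1 ≠ 0 := fun h => hf (Subtype.ext h)

theorem WN.one_ne_zero' : (1 : WN D) ≠ 0 := by
  intro h
  have h1 := congrFun (congrArg Subtype.val h) UpperHalfPlane.I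
  exact (one_ne_zero : (1 : ℂ) ≠ 0) h1

open Classical in
variable (D) in
/-- order valuation on `W_N` at a point -/
def ptValW (τ : ℍ) : Valuation (WN D) ℤᵐ⁰ where
  toFun f := if f = 0 then 0 else exp (-ordZ f.1 τ)
  map_zero' := if_pos rfl
  map_one' := by
    rw [if_neg WN.one_ne_zero']
    have h1 : ordZ (1 : WN D).1 τ = 0 := by
      refine (ordZ_eq_zero (WN.mdiff 1) (WN.coe_ne_zero WN.one_ne_zero') τ).mpr ?_
      show (1 : ℂ) ≠ 0
      exact one_ne_zero
    rw [h1, neg_zero, exp_zero]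
  map_mul' φ ψ := by
    by_cases hφ : φ = 0
    · simp [hφ]
    by_cases hψ : ψ = 0
    · simp [hψ]
    rw [if_neg hφ, if_neg hψ, if_neg (mul_ne_zero hφ hψ)]
    have h1 := ordZ_mul (WN.mdiff φ) (WN.mdiff ψ) (WN.coe_ne_zero hφ) (WN.coe_ne_zero hψ) τ
    have h2 : (φ * ψ).1 = φ.1 * ψ.1 := rfl
    rw [h2, h1, ← exp_add]
    congr 1
    ring
  map_add_le_max' φ ψ := by
    by_cases hφ : φ = 0
    · simp [hφ]
    by_cases hψ : ψ = 0
    · simp [hψ]
    by_cases hs : φ + ψ = 0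
    · rw [if_pos hs]; exact zero_le
    rw [if_neg hφ, if_neg hψ, if_neg hs, le_max_iff, exp_le_exp, exp_le_exp]
    have := min_le_ordZ_add (WN.mdiff φ) (WN.mdiff ψ) (WN.mdiff (φ + ψ)) (WN.coe_ne_zero hφ)
      (WN.coe_ne_zero hψ) (WN.coe_ne_zero hs) τ
    have h2 : (φ + ψ).1 = φ.1 + ψ.1 := rfl
    rw [h2]
    rcases min_le_iff.mp this with h | h
    · exact Or.inl (by omega)
    · exact Or.inr (by omega)

theorem ptValW_apply (τ : ℍ) {f : WN D} (h : f ≠ 0) : ptValW D τ f = exp (-ordZ f.1 τ) := if_neg h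

theorem ptValW_supp (τ : ℍ) : nonZeroDivisors (WN D) ≤ (ptValW D τ).supp.primeCompl := by
  intro f hf
  rw [Ideal.mem_primeCompl_iff, Valuation.mem_supp_iff, ptValW_apply τ (nonZeroDivisors.ne_zero hf)]
  exact exp_ne_zero

variable (D) in
/-- the valuation of the point `τ` -/
def ptVal (τ : ℍ) : Valuation (FC D) ℤᵐ⁰ :=
  (ptValW D τ).extendToLocalization (ptValW_supp τ) (FC D)

theorem ptVal_toFC (τ : ℍ) {f : WN D} (hf : f ≠ 0) :
    ptVal D τ (toFC D f) = exp (-ordZ f.1 τ) := by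
  rw [← ptValW_apply τ hf]
  exact Valuation.extendToLocalization_apply_map_apply _ _ _ _

/-- `P` is the place of the point `τ`, with index `e`. -/
def IsPtPlace (τ : ℍ) (P : Place ℂ (FC D)) (e : ℕ) : Prop :=
  0 < e ∧ ∀ f : WN D, f ≠ 0 → ordZ f.1 τ = e * P.ord (toFC D f)

theorem toFC_ne_zero {f : WN D} (hf : f ≠ 0) : toFC D f ≠ 0 := fun h =>
  hf (toFC_injective (h.trans (map_zero _).symm))

/-- `j - a` as an element of `W_N` -/
def jSub {N : ℕ} [NeZero N] (D : Datum N) (a : ℂ) : WN D := ⟨jH, jH_mem_WN D⟩ - algebraMap ℂ (WN D) a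

theorem coe_jSub (a : ℂ) : (jSub D a).1 = fun z => jH z - a := rfl

theorem toFC_jSub (a : ℂ) : toFC D (jSub D a) = jF D - algebraMap ℂ (FC D) a := by
  rw [jSub, map_sub, toFC_jH, AlgHom.commutes]

theorem jSub_ne_zero (a : ℂ) : jSub D a ≠ 0 := by
  intro h
  have h1 := congrArg (toFC D) h
  rw [toFC_jSub, map_zero, sub_eq_zero] at h1
  exact jF_transcendental (D := D) (by rw [h1]; exact isAlgebraic_algebraMap a)

theorem exists_isPtPlace (τ : ℍ) : ∃ (P : Place ℂ (FC D)) (e : ℕ), IsPtPlace τ P e := by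
  obtain ⟨P, e, he, h⟩ := exists_place_of_valuation (K := ℂ) (ptVal D τ) (fun a ha => by
    have h1 : algebraMap ℂ (WN D) a ≠ 0 := by simpa using ha
    have h2 : algebraMap ℂ (FC D) a = toFC D (algebraMap ℂ (WN D) a) := ((toFC D).commutes a).symm
    rw [h2, ptVal_toFC τ h1]
    have h3 : ordZ (algebraMap ℂ (WN D) a).1 τ = 0 :=
      (ordZ_eq_zero (WN.mdiff _) (WN.coe_ne_zero h1) τ).mpr ha
    rw [h3, neg_zero, exp_zero]) ⟨toFC D (jSub D (jH τ)), toFC_ne_zero (jSub_ne_zero _), fun h => by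
      rw [ptVal_toFC τ (jSub_ne_zero _), ← exp_zero, exp_inj, neg_eq_zero,
        ordZ_eq_zero (WN.mdiff _) (WN.coe_ne_zero (jSub_ne_zero _)), coe_jSub] at h
      exact h (sub_self _)⟩
  refine ⟨P, e, he, fun f hf => ?_⟩
  have h1 := h _ (toFC_ne_zero hf)
  rw [ptVal_toFC τ hf, exp_inj] at h1
  omega

theorem IsPtPlace.ord_pos {τ : ℍ} {P : Place ℂ (FC D)} {e : ℕ}
    (h : IsPtPlace τ P e) : 0 < P.ord (jF D - algebraMap ℂ (FC D) (jH τ)) := by
  have h1 := h.2 _ (jSub_ne_zero (jH τ))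
  rw [toFC_jSub] at h1
  have h2 : ordZ (jSub D (jH τ)).1 τ ≠ 0 := by
    intro h
    rw [ordZ_eq_zero (WN.mdiff _) (WN.coe_ne_zero (jSub_ne_zero _)), coe_jSub] at h
    exact h (sub_self _)
  have h3 := ordZ_nonneg (jSub D (jH τ)).1 τ
  have h4 : (0 : ℤ) < e := by exact_mod_cast h.1
  by_contra hcon
  rw [not_lt] at hcon
  have := mul_nonpos_of_nonneg_of_nonpos h4.le hcon
  omega

end Fermat.Agent.Neb
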