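import Mathlib
import Fermat.Agent.Top.Index
import Fermat.Agent.Neb.Exhaust

/-!
# Divisibility of orders by the ramification indices
-/

set_option autoImplicit false
set_option linter.unusedSectionVars false
set_option linter.style.haveILetI false

noncomputable section

namespace Fermat.Agent.Neb

open UpperHalfPlane hiding I
open ModularForm Filter Topology Fermat.Agent.ModFn Fermat.Agent.Support Polynomial Fermat.Agent.Top
open ModularCurve IntermediateField Fermat.Agent.FF WithZero AlgebraicCurve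
open scoped MatrixGroups Manifold

variable {N : ℕ} [NeZero N] {D : Datum N}

/-! ### Cusps -/

theorem expW_jdN_order (δ : SL(2, ℤ)) :
    (kap D δ (jNF D)).order = -((Int.gcd (δ 1 0) N : ℤ) ^ 2) := by
  obtain ⟨φ, hφ, hord⟩ := exists_hasExp_jd_smul_order N δ
  rw [jNF, kap_toFC, expW_eq hφ, hord]

theorem jNF_ne_zero : jNF D ≠ 0 := fun h => by
  have := expW_jdN_order (D := D) 1
  rw [h, map_zero, HahnSeries.order_zero] at this
  have h1 : Int.gcd ((1 : SL(2, ℤ)) 1 0) N = N := by simp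
  rw [h1] at this
  have h2 := NeZero.ne N
  have h3 : (N : ℤ) ^ 2 = 0 := by omega
  rw [pow_eq_zero_iff two_ne_zero] at h3
  exact h2 (by exact_mod_cast h3)

theorem IsCuspPlace.dvd_gcd {δ : SL(2, ℤ)} {P : Place ℂ (FC D)} {e : ℕ}
    (h : IsCuspPlace δ P e) : (e : ℤ) ∣ (Int.gcd N ((δ 1 0) ^ 2) : ℤ) := by
  have h1 := h.2 (jF D) jF_ne_zero
  rw [order_kap_jF] at h1
  have h2 := h.2 (jNF D) jNF_ne_zero
  rw [expW_jdN_order] at h2
  have h3 : (e : ℤ) ∣ N := by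
    rw [← dvd_neg]; exact Dvd.intro _ h1.symm
  have h4 : (e : ℤ) ∣ (δ 1 0) ^ 2 := by
    have : (e : ℤ) ∣ (Int.gcd (δ 1 0) N : ℤ) ^ 2 := by
      rw [← dvd_neg]; exact Dvd.intro _ h2.symm
    exact this.trans (pow_dvd_pow_of_dvd (Int.gcd_dvd_left ..) 2)
  exact Int.dvd_coe_gcd h3 h4

theorem IsCuspPlace.dvd_order {δ : SL(2, ℤ)} {P : Place ℂ (FC D)} {e : ℕ}
    (h : IsCuspPlace δ P e) {f : ℍ → ℂ} {φ : LaurentSeries ℂ} (hf : HasExp N f φ) (hφ : φ ≠ 0)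
    (hinv : ∀ k : ℤ, (N : ℤ) ∣ (δ 1 0) ^ 2 * k →
      ∀ z : ℍ, f ((ModularGroup.T ^ k : SL(2, ℤ)) • z) = f z) :
    (e : ℤ) ∣ φ.order := by
  refine h.dvd_gcd.trans ?_
  obtain ⟨g, hg⟩ : ∃ g : ℕ, g = Int.gcd N ((δ 1 0) ^ 2) := ⟨_, rfl⟩
  rw [← hg]
  have hN : (0 : ℤ) < N := by exact_mod_cast Nat.pos_of_neZero N
  have hgN : (g : ℤ) ∣ N := by rw [hg]; exact Int.gcd_dvd_left ..
  have hgc : (g : ℤ) ∣ (δ 1 0) ^ 2 := by rw [hg]; exact Int.gcd_dvd_right ..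
  obtain ⟨k, hk⟩ := hgN
  obtain ⟨l, hl⟩ := hgc
  have h1 : (N : ℤ) ∣ (δ 1 0) ^ 2 * k := ⟨l, by rw [hl, hk]; ring⟩
  have h2 := dvd_order_of_invariant hf hφ (hinv k h1)
  have hk0 : k ≠ 0 := by
    rintro rfl
    rw [mul_zero] at hk
    omega
  rw [hk, mul_comm (g : ℤ) k] at h2
  exact (mul_dvd_mul_iff_left hk0).mp h2

/-! ### Points -/

theorem ordZ_jSub (τ : ℍ) : ordZ (jSub D (jH τ)).1 τ =
    if jH τ = 0 then 3 else if jH τ = 1728 then 2 else 1 := by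
  rw [coe_jSub, ordZ, ordAt_jH_sub]
  split_ifs <;> rfl

theorem IsPtPlace.eq_jH {τ : ℍ} {P : Place ℂ (FC D)} {e : ℕ} (h : IsPtPlace τ P e) {a : ℂ}
    (ha : 0 < P.ord (jF D - algebraMap ℂ (FC D) a)) : a = jH τ := by
  by_contra hne
  have h1 := h.ord_pos
  have h2 : (jF D - algebraMap ℂ (FC D) a) + -(jF D - algebraMap ℂ (FC D) (jH τ)) =
      algebraMap ℂ (FC D) (jH τ - a) := by
    rw [map_sub]; ring
  have hne' : jH τ - a ≠ 0 := sub_ne_zero.mpr (Ne.symm hne)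
  have h3 : (algebraMap ℂ (FC D) (jH τ - a)) ≠ 0 := (_root_.map_ne_zero _).mpr hne'
  have h4 := min_le_ord_add P (f := jF D - algebraMap ℂ (FC D) a)
    (g := -(jF D - algebraMap ℂ (FC D) (jH τ))) (by rw [h2]; exact h3)
  rw [h2, ord_algebraMap, ord_neg] at h4
  omega

/-- The ramification index divides `6`. -/
theorem IsPtPlace.dvd_six {τ : ℍ} {P : Place ℂ (FC D)} {e : ℕ} (h : IsPtPlace τ P e) :
    e ∣ 6 := by
  have h1 : (e : ℤ) ∣ ordZ (jSub D (jH τ)).1 τ := ⟨_, h.2 _ (jSub_ne_zero _)⟩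
  rw [ordZ_jSub] at h1
  have h2 : (e : ℤ) ∣ 6 := by
    split_ifs at h1
    · exact h1.trans (by norm_num)
    · exact h1.trans (by norm_num)
    · exact h1.trans (by norm_num)
  exact_mod_cast h2

/-- Ramification over the `j`-line. -/
theorem ord_jF_sub_le (P : Place ℂ (FC D)) (a : ℂ)
    (ha : 0 < P.ord (jF D - algebraMap ℂ (FC D) a)) :
    P.ord (jF D - algebraMap ℂ (FC D) a) ∣ if a = 0 then 3 else if a = 1728 then 2 else 1 := by
  have hP : 0 ≤ P.ord (jF D) := by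
    by_contra hneg
    rw [not_le] at hneg
    rw [ord_sub_algebraMap_neg hneg] at ha
    omega
  obtain ⟨τ, e, h⟩ := exists_isPtPlace_of_ord_nonneg P hP
  obtain rfl := h.eq_jH ha
  rw [← ordZ_jSub (D := D), h.2 _ (jSub_ne_zero _), toFC_jSub]
  exact dvd_mul_left _ _

end Fermat.Agent.Neb
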