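import Mathlib
import Fermat.Agent.Top.KummerSurj
import Fermat.Agent.Neb.KummerFin

/-!
# Every class of the complex Kummer group comes from an admissible character
-/

set_option autoImplicit false
set_option linter.unusedSectionVars false
set_option linter.style.haveILetI false
set_option linter.unusedSimpArgs false

noncomputable section

namespace Fermat.Agent.Neb

open UpperHalfPlane hiding I
open ModularForm Filter Topology Fermat.Agent.ModFn Fermat.Agent.Support Polynomial Fermat.Agent.Top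
open ModularCurve IntermediateField Fermat.Agent.FF WithZero AlgebraicCurve
open scoped MatrixGroups Manifold

variable {N : ℕ} [NeZero N] {D : Datum N}

theorem exists_ord_eq_one_div (P : Place ℂ (FC D)) : ∃ (g h : WN D), g ≠ 0 ∧ h ≠ 0 ∧
    P.ord (toFC D g) - P.ord (toFC D h) = 1 := by
  obtain ⟨t, ht0, ht⟩ := exists_ord_eq_one P
  obtain ⟨g, h, hh, hgh⟩ := exists_div t
  have hg : g ≠ 0 := by
    rintro rfl
    rw [map_zero, zero_div] at hgh
    exact ht0 hgh
  refine ⟨g, h, hg, hh, ?_⟩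
  rw [← ht, hgh, div_eq_mul_inv, P.ord_mul (toFC_ne_zero hg) (inv_ne_zero (toFC_ne_zero hh)),
    P.ord_inv]
  ring

/-! ### Parabolic elements -/

theorem IsCuspPlace.dvd_mul {δ : SL(2, ℤ)} {P : Place ℂ (FC D)} {e : ℕ}
    (h : IsCuspPlace δ P e) {k : ℤ}
    (hk : ∀ f : WN D, ∀ z : ℍ, f.1 (δ • (ModularGroup.T ^ k : SL(2, ℤ)) • z) = f.1 (δ • z)) :
    (N : ℤ) ∣ k * e := by
  obtain ⟨a, b, ha, hb, hab⟩ := exists_ord_eq_one_div P
  have key : ∀ f : WN D, f ≠ 0 → (N : ℤ) ∣ k * (e * P.ord (toFC D f)) := by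
    intro f hf
    have h1 := h.2 (toFC D f) (toFC_ne_zero hf)
    rw [kap_toFC] at h1
    rw [← h1]
    refine dvd_order_of_invariant (hasExp_expW δ f) ?_ (hk f)
    intro h0
    exact hf (expW_injective δ (h0.trans (map_zero _).symm))
  have h2 := dvd_sub (key a ha) (key b hb)
  have h3 : k * (e * P.ord (toFC D a)) - k * (e * P.ord (toFC D b)) = k * e := by
    rw [← mul_sub, ← mul_sub, hab, mul_one]
  rwa [h3] at h2

/-- The character of a root is trivial on parabolic elements. -/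
theorem IsRoot.para {m : ℕ} (hm : m ≠ 0) {u : (FC D)ˣ} (hu : u ∈ kummerSubgroup ℂ (FC D) m)
    {V : ℍ → ℂ} {χ : D.Γ →* ℂˣ} (h : IsRoot D m u V χ) :
    IsParaChar χ := by
  intro γ htr
  haveI : NeZero m := ⟨hm⟩
  obtain ⟨C, hC, g, hCV, hCg⟩ := h.cls
  obtain ⟨δ, k, hδ⟩ := exists_conj_of_trace' (γ : SL(2, ℤ)) htr
  obtain ⟨P, e, hP⟩ := exists_isCuspPlace (D := D) δ
  have hCmem : unitWN C hC ∈ kummerSubgroup ℂ (FC D) m := by
    rw [hCg]
    exact mul_mem hu (powSubgroup_le (K := ℂ) (F := FC D) _ ⟨g, rfl⟩)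
  obtain ⟨l, hl⟩ := hCmem P
  rw [coe_unitWN] at hl
  have h1 := hP.2 (toFC D C) (toFC_ne_zero hC)
  rw [kap_toFC, hl] at h1
  have hNk : (N : ℤ) ∣ k * e := hP.dvd_mul (k := k) fun f z => by
    rw [← hδ, f.2.2 _ γ.2]
  -- the function at the cusp
  set W : ℍ → ℂ := fun z => V (δ • z) with hW
  have hWd : MDiff W := mdiff_comp_smul h.mdiff δ
  have hWm : HasExp (N * m) (W ^ m) (qExpand ℂ m (expW D δ C)) := by
    refine ((hasExp_expW δ C).qExpand (m := m)).congr ?_ rfl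
    funext z
    rw [hCV]
    rfl
  have hWN : ∀ z, W ((ModularGroup.T ^ (N : ℤ) : SL(2, ℤ)) • z) =
      χ ⟨_, D.conj_mem δ (N : ℤ) (dvd_mul_left _ _)⟩ * W z := by
    intro z
    have := h.inv ⟨_, D.conj_mem δ (N : ℤ) (dvd_mul_left _ _)⟩ (δ • z)
    rw [← this]
    simp only [hW]
    rw [← mul_smul, ← mul_smul]
    congr 2
    simp [mul_assoc]
  have hper : ∀ z, W ((ModularGroup.T ^ ((N * m : ℕ) : ℤ) : SL(2, ℤ)) • z) = W z := by
    intro z
    set c := χ ⟨_, D.conj_mem δ (N : ℤ) (dvd_mul_left _ _)⟩ with hc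
    have h2 : ∀ (j : ℕ) (z : ℍ), W ((ModularGroup.T ^ ((N * j : ℕ) : ℤ) : SL(2, ℤ)) • z) =
        (c : ℂ) ^ j * W z := by
      intro j
      induction j with
      | zero => intro z; simp
      | succ j ih =>
        intro z
        have e1 : (ModularGroup.T ^ ((N * (j + 1) : ℕ) : ℤ) : SL(2, ℤ)) =
            ModularGroup.T ^ (N : ℤ) * ModularGroup.T ^ ((N * j : ℕ) : ℤ) := by
          rw [← zpow_add]; congr 1; push_cast; ring
        rw [e1, mul_smul, hWN, ih, pow_succ']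
        ring
    rw [h2, ← Units.val_pow_eq_pow_val, hc, ← MonoidHom.pow_apply, h.pow, MonoidHom.one_apply,
      Units.val_one, one_mul]
  obtain ⟨φ, hφ⟩ := exists_hasExp_of_pow (N := N * m) hm hWd hWm hper
  have hW0 : W ≠ 0 := by
    intro h0
    apply h.ne
    funext z
    have := congrFun h0 (δ⁻¹ • z)
    simpa [hW] using this
  have hφ0 : φ ≠ 0 := fun h0 => hW0 (hφ.eq_zero_iff.mpr h0)
  have hpow : φ ^ m = qExpand ℂ m (expW D δ C) := (hφ.pow m).unique hWm
  have hm' : (m : ℤ) ≠ 0 := by exact_mod_cast hm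
  have hord : φ.order = e * (m * l) := by
    have h3 := congrArg HahnSeries.order hpow
    rw [order_pow_laurent, order_qExpand, h1] at h3
    apply mul_left_cancel₀ hm'
    rw [h3]
  -- compare
  have h4 := hφ.translate k (g := fun z => χ γ * W z) (fun z => by
    rw [← T_zpow_smul_eq_vadd]
    simp only [hW]
    rw [← hδ, h.inv])
  have h5 : HasExp (N * m) (fun z => (χ γ : ℂ) * W z) (HahnSeries.C (χ γ : ℂ) * φ) := by
    have := hφ.smul (χ γ : ℂ)
    exact this
  have h6 := congrArg (fun ψ : LaurentSeries ℂ => ψ.coeff φ.order) (h4.unique h5)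
  simp only [twist_coeff, HahnSeries.C_mul_eq_smul, HahnSeries.coeff_smul, smul_eq_mul] at h6
  have h7 : φ.coeff φ.order ≠ 0 := HahnSeries.coeff_order_eq_zero.not.mpr hφ0
  have h8 := mul_right_cancel₀ h7 h6
  rw [Units.val_inj, ← zpow_mul] at h8
  rw [← h8, zetaU_zpow_eq_one_iff]
  obtain ⟨t, ht⟩ := hNk
  refine ⟨t * l, ?_⟩
  rw [hord]
  push_cast
  linear_combination (m * l : ℤ) * ht

theorem IsRoot.mem_admSub {m : ℕ} (hm : m ≠ 0) {u : (FC D)ˣ}
    (hu : u ∈ kummerSubgroup ℂ (FC D) m)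
    {V : ℍ → ℂ} {χ : D.Γ →* ℂˣ} (h : IsRoot D m u V χ) :
    χ ∈ admSub D m := ⟨h.para hm hu, h.pow⟩

theorem IsRoot.isCForm {m : ℕ} (hm : m ≠ 0) {u : (FC D)ˣ}
    (hu : u ∈ kummerSubgroup ℂ (FC D) m)
    {V : ℍ → ℂ} {χ : D.Γ →* ℂˣ} (h : IsRoot D m u V χ) :
    IsCForm D χ V where
  inv := h.inv
  exp δ := by
    obtain ⟨C, hC, g, hCV, hCg⟩ := h.cls
    refine exists_hasExp_of_pow (m := m) hm (mdiff_comp_smul h.mdiff δ) (ψ := expW D δ C) ?_ ?_
    · refine (hasExp_expW δ C).congr ?_ rfl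
      funext z
      rw [hCV]
      rfl
    · intro z
      have h1 := h.inv ⟨_, D.conj_mem δ (N : ℤ) (dvd_mul_left _ _)⟩ (δ • z)
      rw [h.para hm hu _ (by rw [trace_conj_T_zpow]; norm_num), Units.val_one, one_mul] at h1
      rw [← h1, ← mul_smul, ← mul_smul]
      congr 2
      simp [mul_assoc]

/-- **Every class of the complex Kummer group comes from an admissible character.** -/
theorem kapChi_surjective {m : ℕ} (hm : m.Coprime 6) : Function.Surjective (kapChi D hm) := by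
  intro q
  have hm0 := ne_zero_of_coprime_six hm
  obtain ⟨u, rfl⟩ := QuotientGroup.mk_surjective q
  obtain ⟨V, χ, h⟩ := exists_isRoot hm0 u.2
  have hχ := h.mem_admSub hm0 u.2
  refine ⟨⟨χ, hχ⟩, ?_⟩
  rw [kapChi_eq hm (h.isCForm hm0 u.2) hχ h.ne, clsU, QuotientGroup.eq, Subgroup.mem_subgroupOf]
  obtain ⟨C, hC, g, hCV, hCg⟩ := h.cls
  refine ⟨g⁻¹, ?_⟩
  have h1 : powU (h.isCForm hm0 u.2) hχ.2 h.ne = unitWN C hC := by
    apply Units.ext
    rw [coe_powU, coe_unitWN]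
    congr 1
    exact Subtype.ext hCV.symm
  change g⁻¹ ^ m = (powU (h.isCForm hm0 u.2) hχ.2 h.ne)⁻¹ * (u : (FC D)ˣ)
  rw [h1, hCg, mul_inv, mul_comm (u : (FC D)ˣ)⁻¹, mul_assoc, inv_mul_cancel, mul_one, inv_pow]

end Fermat.Agent.Neb
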