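import Mathlib
import Fermat.Agent.Neb.DatumH
import Fermat.Agent.Neb.KummerSurj

/-!
# Diamond operators on the function field of `X_H`
-/

set_option autoImplicit false
set_option linter.unusedSectionVars false
set_option linter.style.haveILetI false

noncomputable section

namespace Fermat.Agent.Neb

open UpperHalfPlane hiding I
open EisensteinSeries ModularForm Filter Topology Fermat.Agent.ModFn Fermat.Agent.Support
open Fermat.Agent.Top Fermat.Agent.DS CongruenceSubgroup ModularCurve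
open scoped MatrixGroups Manifold Real

section Gen

variable {N : ℕ} [NeZero N] (X : Datum N)

/-- Automorphisms of the ring of functions extend to the function field. -/
def fcAut : (WN X ≃ₐ[ℂ] WN X) →* (FC X ≃ₐ[ℂ] FC X) :=
  IsFractionRing.fieldEquivOfAlgEquivHom (A := ℂ) ℂ (FC X)

theorem fcAut_toFC (e : WN X ≃ₐ[ℂ] WN X) (f : WN X) :
    fcAut X e (toFC X f) = toFC X (e f) :=
  IsFractionRing.fieldEquivOfAlgEquiv_algebraMap ℂ (FC X) (FC X) e f

end Gen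

variable {D : ℕ} [NeZero D] {hD : 3 ≤ D}

/-- invariance depends only on the lower right entry -/
theorem WN_smul_eq {f : ℍ → ℂ} (hf : f ∈ WN (datumH D hD)) {γ γ' : SL(2, ℤ)}
    (hγ : γ ∈ Gamma0 (D ^ 2)) (hγ' : γ' ∈ Gamma0 (D ^ 2))
    (h : ((γ 1 1 : ℤ) : ZMod D) = ((γ' 1 1 : ℤ) : ZMod D)) (z : ℍ) : f (γ • z) = f (γ' • z) := by
  have h1 : γ * γ'⁻¹ ∈ GH D := by
    refine ⟨mul_mem hγ (inv_mem hγ'), Or.inl ?_⟩
    have e : (γ'⁻¹) 1 1 = γ' 0 0 := by
      rw [Matrix.SpecialLinearGroup.SL2_inv_expl]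
      rfl
    rw [zmodD_mul hγ, e, h, mul_comm]
    exact zmodD_det hγ'
  have h2 := hf.2 _ h1 (γ' • z)
  rw [← mul_smul, inv_mul_cancel_right] at h2
  exact h2

variable (hD) in
/-- Diamond operators on functions. -/
def diaW (u : (ZMod (D ^ 2))ˣ) : WN (datumH D hD) →ₐ[ℂ] WN (datumH D hD) where
  toFun f := ⟨fun z => f.1 (gam u • z), smul_mem_bigA f.2.1 _, fun γ hγ z => by
    have := f.2.2 _ (conj_mem_GH hγ (gam_mem u)) (gam u • z)
    rw [← mul_smul, inv_mul_cancel_right, mul_smul] at this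
    exact this⟩
  map_one' := rfl
  map_mul' _ _ := rfl
  map_zero' := rfl
  map_add' _ _ := rfl
  commutes' _ := rfl

theorem diaW_apply (u : (ZMod (D ^ 2))ˣ) (f : WN (datumH D hD)) (z : ℍ) :
    (diaW hD u f).1 z = f.1 (gam u • z) := rfl

theorem diaW_eq (u : (ZMod (D ^ 2))ˣ) (f : WN (datumH D hD)) {γ : SL(2, ℤ)}
    (hγ : γ ∈ Gamma0 (D ^ 2)) (h : ((γ 1 1 : ℤ) : ZMod D) =
      ZMod.castHom (dvd_pow_self D two_ne_zero) (ZMod D) u) (z : ℍ) :
    (diaW hD u f).1 z = f.1 (γ • z) := by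
  rw [diaW_apply]
  exact WN_smul_eq f.2 (gam_mem u) hγ (by rw [h, zmodD_gam]) z

theorem diaW_one (f : WN (datumH D hD)) : diaW hD 1 f = f := by
  apply Subtype.ext
  funext z
  rw [diaW_eq 1 f (one_mem _) (by simp), one_smul]

theorem diaW_mul (u v : (ZMod (D ^ 2))ˣ) (f : WN (datumH D hD)) :
    diaW hD (u * v) f = diaW hD u (diaW hD v f) := by
  apply Subtype.ext
  funext z
  rw [diaW_eq (u * v) f (mul_mem (gam_mem v) (gam_mem u)), diaW_apply, diaW_apply, mul_smul]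
  rw [zmodD_mul (gam_mem v), zmodD_gam, zmodD_gam, Units.val_mul, map_mul, mul_comm]

variable (hD) in
/-- Diamond operators as automorphisms. -/
def diaWE : (ZMod (D ^ 2))ˣ →* (WN (datumH D hD) ≃ₐ[ℂ] WN (datumH D hD)) where
  toFun u := AlgEquiv.ofAlgHom (diaW hD u) (diaW hD u⁻¹)
    (AlgHom.ext fun f => by
      rw [AlgHom.comp_apply, ← diaW_mul, mul_inv_cancel, diaW_one]; rfl)
    (AlgHom.ext fun f => by
      rw [AlgHom.comp_apply, ← diaW_mul, inv_mul_cancel, diaW_one]; rfl)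
  map_one' := AlgEquiv.ext fun f => diaW_one f
  map_mul' u v := AlgEquiv.ext fun f => diaW_mul u v f

variable (hD) in
/-- Diamond operators on the function field. -/
def diaF : (ZMod (D ^ 2))ˣ →* (FC (datumH D hD) ≃ₐ[ℂ] FC (datumH D hD)) :=
  (fcAut (datumH D hD)).comp (diaWE hD)

theorem diaWE_apply (u : (ZMod (D ^ 2))ˣ) (f : WN (datumH D hD)) :
    diaWE hD u f = diaW hD u f := rfl

theorem diaF_eq (u : (ZMod (D ^ 2))ˣ) : diaF hD u = fcAut (datumH D hD) (diaWE hD u) := rfl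

theorem diaF_toFC (u : (ZMod (D ^ 2))ˣ) (f : WN (datumH D hD)) :
    diaF hD u (toFC (datumH D hD) f) = toFC (datumH D hD) (diaW hD u f) :=
  fcAut_toFC _ _ _

theorem diaW_jH (u : (ZMod (D ^ 2))ˣ) :
    diaW hD u ⟨jH, jH_mem_WN (datumH D hD)⟩ = ⟨jH, jH_mem_WN (datumH D hD)⟩ :=
  Subtype.ext (funext fun z => jH_smul _ z)

theorem diaF_jF (u : (ZMod (D ^ 2))ˣ) : diaF hD u (jF (datumH D hD)) = jF (datumH D hD) := by
  rw [← toFC_jH, diaF_toFC, diaW_jH]

theorem yH_mem_WN {a : ZMod D} (ha : a ≠ 0) : yH D a ∈ WN (datumH D hD) :=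
  ⟨yH_mem_bigA a, fun γ hγ z => yH_GH hγ ha z⟩

variable (hD) in
/-- The functions `y_a` in the function field -/
def yF {a : ZMod D} (ha : a ≠ 0) : FC (datumH D hD) := toFC (datumH D hD) ⟨yH D a, yH_mem_WN ha⟩

/-- reduction of units modulo `D` -/
def ubar (u : (ZMod (D ^ 2))ˣ) : (ZMod D)ˣ := ZMod.unitsMap (dvd_pow_self D two_ne_zero) u

theorem ubar_mul (u v : (ZMod (D ^ 2))ˣ) : ubar (u * v) = ubar u * ubar v := map_mul _ _ _

theorem ubar_inv (u : (ZMod (D ^ 2))ˣ) : ubar u⁻¹ = (ubar u)⁻¹ := map_inv _ _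

theorem val_ubar (u : (ZMod (D ^ 2))ˣ) :
    (ubar u : ZMod D) = ZMod.castHom (dvd_pow_self D two_ne_zero) (ZMod D) u := rfl

theorem gam_one_one' (u : (ZMod (D ^ 2))ˣ) : ((gam u 1 1 : ℤ) : ZMod D) = ubar u := zmodD_gam u

theorem gam_zero_zero (u : (ZMod (D ^ 2))ˣ) :
    ((gam u 0 0 : ℤ) : ZMod D) = ((ubar u)⁻¹ : (ZMod D)ˣ) := by
  have h1 := zmodD_det (gam_mem u)
  rw [gam_one_one'] at h1
  exact Units.eq_inv_of_mul_eq_one_left ((mul_comm _ _).trans h1)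

/-- the units of `ZMod D` are nonzero -/
theorem unit_ne_zero (hD : 3 ≤ D) (a : (ZMod D)ˣ) : (a : ZMod D) ≠ 0 := by
  haveI : Fact (1 < D) := ⟨by omega⟩
  exact a.ne_zero

theorem coe_toFC' (f : WN (datumH D hD)) {φ : LaurentSeries ℂ} (h : HasExp 1 f.1 φ) :
    (toFC (datumH D hD) f : LaurentSeries ℂ) = φ := wq_eq f h

theorem coe_yF {a : ZMod D} (ha : a ≠ 0) :
    (yF hD ha : LaurentSeries ℂ) = coeffMap (Int.castRingHom ℂ) (yq D a) :=
  coe_toFC' _ (hasExp_yH ha)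

/-- The diamond operators on the separating function. -/
theorem diaW_t (u : (ZMod (D ^ 2))ˣ) :
    (diaW hD u ⟨(datumH D hD).t, t_mem_WN _⟩).1 =
      jd (D ^ 2) + (cSep D hD : ℂ) • yH D ((ubar u)⁻¹ : (ZMod D)ˣ) := by
  funext z
  rw [diaW_apply]
  change (jd (D ^ 2) + (cSep D hD : ℂ) • yH D 1) (gam u • z) = _
  simp only [Pi.add_apply, Pi.smul_apply, smul_eq_mul]
  rw [jd_smul dvd_rfl (gam_mem u), yH_smul_of_mem 1 (Gamma0_le_of_sq (gam_mem u)), one_mul,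
    gam_zero_zero]

/-- The integral `q`-expansion of the translates of the separating function. -/
def tqu (hD : 3 ≤ D) (a : (ZMod D)ˣ) : LaurentSeries ℤ :=
  jqNModC ℤ (D ^ 2) + (cSep D hD : LaurentSeries ℤ) * yq D a

theorem tqu_one : tqu hD 1 = (datumH D hD).tq := by
  rw [tqu, Units.val_one]
  rfl

theorem hasExp_tqu (a : (ZMod D)ˣ) :
    HasExp 1 (jd (D ^ 2) + (cSep D hD : ℂ) • yH D a)
      (coeffMap (Int.castRingHom ℂ) (tqu hD a)) := by
  refine ((hasExp_jd (D ^ 2)).add ((hasExp_yH (unit_ne_zero hD a)).smul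
    (cSep D hD : ℂ))).congr rfl ?_
  rw [tqu, map_add, map_mul, map_intCast]
  congr 1
  · rw [jqNModC, coeffMap_qExpand]
    congr 1
    exact (map_jqModC (Int.castRingHom ℂ)).symm
  · congr 1
    simp

/-- the separating function in the function field -/
def tFC (hD : 3 ≤ D) : FC (datumH D hD) := toFC (datumH D hD) ⟨(datumH D hD).t, t_mem_WN _⟩

theorem coe_diaF_t (u : (ZMod (D ^ 2))ˣ) :
    (diaF hD u (tFC hD) : LaurentSeries ℂ) =
      coeffMap (Int.castRingHom ℂ) (tqu hD (ubar u)⁻¹) := by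
  rw [tFC, diaF_toFC]
  refine coe_toFC' _ ?_
  rw [diaW_t]
  exact hasExp_tqu _

theorem diaW_yH (u : (ZMod (D ^ 2))ˣ) (a : (ZMod D)ˣ) :
    diaW hD u ⟨yH D a, yH_mem_WN (unit_ne_zero hD a)⟩ =
      ⟨yH D ((a * (ubar u)⁻¹ : (ZMod D)ˣ) : ZMod D), yH_mem_WN (unit_ne_zero hD _)⟩ := by
  apply Subtype.ext
  funext z
  rw [diaW_apply]
  change yH D a (gam u • z) = yH D _ z
  rw [yH_smul_of_mem _ (Gamma0_le_of_sq (gam_mem u)), gam_zero_zero, Units.val_mul]

theorem coe_diaF_yF (u : (ZMod (D ^ 2))ˣ) (a : (ZMod D)ˣ) :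
    (diaF hD u (yF hD (unit_ne_zero hD a)) : LaurentSeries ℂ) =
      coeffMap (Int.castRingHom ℂ) (yq D ((a * (ubar u)⁻¹ : (ZMod D)ˣ) : ZMod D)) := by
  rw [yF, diaF_toFC, diaW_yH]
  exact coe_toFC' _ (hasExp_yH (unit_ne_zero hD _))

end Fermat.Agent.Neb
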