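import Mathlib
import Fermat.Agent.Neb.FC
import Fermat.Agent.Top.DescentSeries

/-!
# The function field over a field `K` of characteristic zero
-/

set_option autoImplicit false
set_option linter.unusedSectionVars false

noncomputable section

namespace Fermat.Agent.Neb

open UpperHalfPlane hiding I
open ModularForm Filter Topology Fermat.Agent.ModFn Fermat.Agent.Support Polynomial Fermat.Agent.Top
open ModularCurve IntermediateField
open scoped MatrixGroups Manifold

variable {N : ℕ} [NeZero N] {K : Type*} [Field K] [Algebra ℚ K] {D : Datum N}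

variable (K) in
/-- The function field over `K`. -/
abbrev FK (D : Datum N) : IntermediateField K (LaurentSeries K) := laurentBaseChange K (F₀ D)

theorem jq_mem_F₀ : jq ∈ F₀ D := IntermediateField.subset_adjoin ℚ _ (Set.mem_insert _ _)

theorem tq_mem_F₀ : coeffMap (Int.castRingHom ℚ) D.tq ∈ F₀ D :=
  IntermediateField.subset_adjoin ℚ _ (Set.mem_insert_of_mem _ rfl)

theorem coeffEmb_jq' : coeffEmb K jq = jqModC K := by
  rw [← map_jqModC (algebraMap ℚ K), jqModC_rat]
  rfl

theorem jq_mem_FK : jqModC K ∈ FK K D := by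
  rw [← coeffEmb_jq']
  exact coeffEmb_mem_laurentBaseChange K jq_mem_F₀

theorem tq_mem_FK : coeffMap (Int.castRingHom K) D.tq ∈ FK K D := by
  rw [← coeffEmb_tq]
  exact coeffEmb_mem_laurentBaseChange K tq_mem_F₀

variable (K D) in
/-- `j` in the function field -/
def jK : FK K D := ⟨jqModC K, jq_mem_FK⟩

variable (K D) in
/-- `t` in the function field -/
def tK : FK K D := ⟨coeffMap (Int.castRingHom K) D.tq, tq_mem_FK⟩

theorem FK_le_of (T : Subfield (LaurentSeries K))
    (hK : ∀ c : K, algebraMap K (LaurentSeries K) c ∈ T) (hj : jqModC K ∈ T)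
    (ht : coeffMap (Int.castRingHom K) D.tq ∈ T) {x : LaurentSeries K} (hx : x ∈ FK K D) :
    x ∈ T := by
  have h2 : (F₀ D).toSubfield ≤ T.comap (coeffEmb K) := by
    refine Subfield.closure_le.mpr ?_
    rintro y (⟨c, rfl⟩ | rfl | rfl)
    · refine Subfield.mem_comap.mpr ?_
      have h4 : coeffEmb K (algebraMap ℚ (LaurentSeries ℚ) c) =
          algebraMap K (LaurentSeries K) (algebraMap ℚ K c) := by
        rw [algebraMap_laurentSeries_eq_single, algebraMap_laurentSeries_eq_single, coeffEmb,
          ModularCurve.coeffMap_single]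
      rw [h4]
      exact hK _
    · refine Subfield.mem_comap.mpr ?_
      rw [coeffEmb_jq']
      exact hj
    · refine Subfield.mem_comap.mpr ?_
      rw [coeffEmb_tq]
      exact ht
  rw [mem_laurentBaseChange_iff] at hx
  refine (Subfield.closure_le.mpr ?_) hx
  rintro z (⟨c, rfl⟩ | ⟨z, hz, rfl⟩)
  · exact hK c
  · exact h2 hz

theorem FK_subfield_eq_top (T : Subfield (FK K D))
    (hK : ∀ c : K, algebraMap K (FK K D) c ∈ T) (hj : jK K D ∈ T) (ht : tK K D ∈ T) : T = ⊤ := by
  rw [eq_top_iff]
  intro x _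
  have h1 : (x : LaurentSeries K) ∈ T.map (FK K D).val.toRingHom := by
    refine FK_le_of _ (fun c => ?_) ?_ ?_ x.2
    · exact Subfield.mem_map.mpr ⟨_, hK c, rfl⟩
    · exact Subfield.mem_map.mpr ⟨_, hj, rfl⟩
    · exact Subfield.mem_map.mpr ⟨_, ht, rfl⟩
  obtain ⟨y, hy, hyx⟩ := Subfield.mem_map.mp h1
  have : y = x := Subtype.ext hyx
  rwa [← this]

theorem FK_hom_ext {L : Type*} [Field L] (f g : FK K D →+* L)
    (hK : ∀ c : K, f (algebraMap K _ c) = g (algebraMap K _ c)) (hj : f (jK K D) = g (jK K D))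
    (ht : f (tK K D) = g (tK K D)) : f = g := by
  have h := FK_subfield_eq_top (f.eqLocusField g) hK hj ht
  ext x
  have : x ∈ f.eqLocusField g := by rw [h]; trivial
  exact this

end Fermat.Agent.Neb
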