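import Mathlib
import Fermat.Agent.Neb.Dia
import Fermat.Agent.Neb.FK
import Fermat.Agent.Top.DescentKummer

/-!
# Diamond operators on the function field over `K`
-/

set_option autoImplicit false
set_option linter.unusedSectionVars false
set_option linter.style.haveILetI false

noncomputable section

namespace Fermat.Agent.Neb

open UpperHalfPlane hiding I
open EisensteinSeries ModularForm Filter Topology Fermat.Agent.ModFn Fermat.Agent.Support
open Fermat.Agent.Top Fermat.Agent.DS CongruenceSubgroup ModularCurve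
open scoped MatrixGroups Manifold Real

variable {D : ℕ} [NeZero D] {hD : 3 ≤ D}
variable (K : Type*) [Field K] [Algebra ℚ K] [Algebra K ℂ]

/-- The embedding of `F_K` in `F_ℂ`. -/
def embK (hD : 3 ≤ D) : FK K (datumH D hD) →+* FC (datumH D hD) :=
  baseChangeEmb K ℂ (F₀ (datumH D hD))

theorem coe_embK (x : FK K (datumH D hD)) :
    (embK K hD x : LaurentSeries ℂ) = coeffMap (algebraMap K ℂ) (x : LaurentSeries K) := rfl

theorem embK_injective : Function.Injective (embK K hD) := (embK K hD).injective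

theorem embK_algebraMap (c : K) :
    embK K hD (algebraMap K _ c) = algebraMap ℂ _ (algebraMap K ℂ c) := baseChangeEmb_algebraMap c

theorem coeffMap_intCast (φ : LaurentSeries ℤ) :
    coeffMap (algebraMap K ℂ) (coeffMap (Int.castRingHom K) φ) =
      coeffMap (Int.castRingHom ℂ) φ := by
  ext n
  simp

theorem embK_jK : embK K hD (jK K (datumH D hD)) = jF (datumH D hD) := by
  apply Subtype.ext
  rw [coe_embK]
  change coeffMap (algebraMap K ℂ) (jqModC K) = jqModC ℂ
  exact map_jqModC (algebraMap K ℂ)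

theorem embK_tK : embK K hD (tK K (datumH D hD)) = tFC hD := by
  apply Subtype.ext
  rw [coe_embK]
  change coeffMap (algebraMap K ℂ) (coeffMap (Int.castRingHom K) (datumH D hD).tq) = _
  rw [coeffMap_intCast, tFC]
  exact (coe_toFC' _ (datumH D hD).t_exp).symm

/-- elements with integral expansion descend -/
theorem mem_FK_of_int {φ : LaurentSeries ℤ}
    (h : coeffMap (Int.castRingHom ℂ) φ ∈ FC (datumH D hD)) :
    coeffMap (Int.castRingHom K) φ ∈ FK K (datumH D hD) := by
  apply mem_baseChange_of_coeffMap_mem (E := ℂ)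
  rw [coeffMap_intCast]
  exact h

/-- The functions `y_a` over `K`. -/
def yK (hD : 3 ≤ D) (a : (ZMod D)ˣ) : FK K (datumH D hD) :=
  ⟨coeffMap (Int.castRingHom K) (yq D a), mem_FK_of_int K (by
    rw [← coe_yF (unit_ne_zero hD a)]
    exact (yF hD (unit_ne_zero hD a)).2)⟩

theorem embK_yK (a : (ZMod D)ˣ) : embK K hD (yK K hD a) = yF hD (unit_ne_zero hD a) := by
  apply Subtype.ext
  rw [coe_embK, coe_yF]
  exact coeffMap_intCast K _

/-- The translates of the separating function over `K`. -/
def tuK (hD : 3 ≤ D) (u : (ZMod (D ^ 2))ˣ) : FK K (datumH D hD) :=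
  ⟨coeffMap (Int.castRingHom K) (tqu hD (ubar u)⁻¹), mem_FK_of_int K (by
    rw [← coe_diaF_t]
    exact (diaF hD u (tFC hD)).2)⟩

theorem embK_tuK (u : (ZMod (D ^ 2))ˣ) : embK K hD (tuK K hD u) = diaF hD u (tFC hD) := by
  apply Subtype.ext
  rw [coe_embK, coe_diaF_t]
  exact coeffMap_intCast K _

theorem diaF_embK_mem (u : (ZMod (D ^ 2))ˣ) (x : FK K (datumH D hD)) :
    diaF hD u (embK K hD x) ∈ (embK K hD).range := by
  have h : ((embK K hD).fieldRange.comap (diaF hD u : FC (datumH D hD) →+* FC (datumH D hD))).comap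
      (embK K hD) = ⊤ := by
    apply FK_subfield_eq_top
    · intro c
      rw [Subfield.mem_comap, Subfield.mem_comap, embK_algebraMap]
      change diaF hD u (algebraMap ℂ _ _) ∈ _
      rw [AlgEquiv.commutes, ← embK_algebraMap]
      exact RingHom.mem_fieldRange.mpr ⟨_, rfl⟩
    · rw [Subfield.mem_comap, Subfield.mem_comap, embK_jK]
      change diaF hD u (jF _) ∈ _
      rw [diaF_jF, ← embK_jK K]
      exact RingHom.mem_fieldRange.mpr ⟨_, rfl⟩
    · rw [Subfield.mem_comap, Subfield.mem_comap, embK_tK]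
      change diaF hD u (tFC hD) ∈ _
      rw [← embK_tuK K]
      exact RingHom.mem_fieldRange.mpr ⟨_, rfl⟩
  have h2 : x ∈ ((embK K hD).fieldRange.comap
      (diaF hD u : FC (datumH D hD) →+* FC (datumH D hD))).comap (embK K hD) := by
    rw [h]; trivial
  rw [Subfield.mem_comap, Subfield.mem_comap, RingHom.mem_fieldRange] at h2
  exact h2

theorem existsUnique_diaK (u : (ZMod (D ^ 2))ˣ) (x : FK K (datumH D hD)) :
    ∃ y, embK K hD y = diaF hD u (embK K hD x) := diaF_embK_mem K u x

/-- auxiliary function -/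
def diaKfun (hD : 3 ≤ D) (u : (ZMod (D ^ 2))ˣ) (x : FK K (datumH D hD)) : FK K (datumH D hD) :=
  (existsUnique_diaK K u x).choose

theorem embK_diaKfun (u : (ZMod (D ^ 2))ˣ) (x : FK K (datumH D hD)) :
    embK K hD (diaKfun K hD u x) = diaF hD u (embK K hD x) :=
  (existsUnique_diaK K u x).choose_spec

/-- Diamond operators over `K`, as homomorphisms. -/
def diaKHom (hD : 3 ≤ D) (u : (ZMod (D ^ 2))ˣ) : FK K (datumH D hD) →ₐ[K] FK K (datumH D hD) where
  toFun := diaKfun K hD u
  map_one' := by apply embK_injective K; rw [embK_diaKfun, map_one, map_one]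
  map_mul' x y := by
    apply embK_injective K
    rw [embK_diaKfun, map_mul, map_mul, map_mul, embK_diaKfun, embK_diaKfun]
  map_zero' := by apply embK_injective K; rw [embK_diaKfun, map_zero, map_zero]
  map_add' x y := by
    apply embK_injective K
    rw [embK_diaKfun, map_add, map_add, map_add, embK_diaKfun, embK_diaKfun]
  commutes' c := by
    apply embK_injective K
    rw [embK_diaKfun, embK_algebraMap, AlgEquiv.commutes]

theorem embK_diaKHom (u : (ZMod (D ^ 2))ˣ) (x : FK K (datumH D hD)) :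
    embK K hD (diaKHom K hD u x) = diaF hD u (embK K hD x) := embK_diaKfun K u x

theorem diaKHom_one (x : FK K (datumH D hD)) : diaKHom K hD 1 x = x := by
  apply embK_injective K
  rw [embK_diaKHom, map_one, AlgEquiv.one_apply]

theorem diaKHom_mul (u v : (ZMod (D ^ 2))ˣ) (x : FK K (datumH D hD)) :
    diaKHom K hD (u * v) x = diaKHom K hD u (diaKHom K hD v x) := by
  apply embK_injective K
  rw [embK_diaKHom, embK_diaKHom, embK_diaKHom, map_mul, AlgEquiv.mul_apply]

/-- **Diamond operators over `K`.** -/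
def diaK (hD : 3 ≤ D) : (ZMod (D ^ 2))ˣ →* (FK K (datumH D hD) ≃ₐ[K] FK K (datumH D hD)) where
  toFun u := AlgEquiv.ofAlgHom (diaKHom K hD u) (diaKHom K hD u⁻¹)
    (AlgHom.ext fun f => by
      rw [AlgHom.comp_apply, ← diaKHom_mul, mul_inv_cancel, diaKHom_one]; rfl)
    (AlgHom.ext fun f => by
      rw [AlgHom.comp_apply, ← diaKHom_mul, inv_mul_cancel, diaKHom_one]; rfl)
  map_one' := AlgEquiv.ext fun f => diaKHom_one K f
  map_mul' u v := AlgEquiv.ext fun f => diaKHom_mul K u v f

theorem embK_diaK (u : (ZMod (D ^ 2))ˣ) (x : FK K (datumH D hD)) :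
    embK K hD (diaK K hD u x) = diaF hD u (embK K hD x) := embK_diaKfun K u x

theorem diaK_jK (u : (ZMod (D ^ 2))ˣ) :
    diaK K hD u (jK K (datumH D hD)) = jK K (datumH D hD) := by
  apply embK_injective K
  rw [embK_diaK, embK_jK, diaF_jF]

theorem diaK_tK (u : (ZMod (D ^ 2))ˣ) :
    diaK K hD u (tK K (datumH D hD)) = tuK K hD u := by
  apply embK_injective K
  rw [embK_diaK, embK_tK, embK_tuK]

theorem diaK_yK (u : (ZMod (D ^ 2))ˣ) (a : (ZMod D)ˣ) :
    diaK K hD u (yK K hD a) = yK K hD (a * (ubar u)⁻¹) := by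
  apply embK_injective K
  rw [embK_diaK, embK_yK, embK_yK]
  apply Subtype.ext
  rw [coe_diaF_yF, coe_yF]

end Fermat.Agent.Neb
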