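import Mathlib
import Fermat.Agent.Neb.DiaK

/-!
# Diamond operators commute with the Galois action
-/

set_option autoImplicit false
set_option linter.unusedSectionVars false
set_option linter.style.haveILetI false

noncomputable section

namespace Fermat.Agent.Neb

open UpperHalfPlane hiding I
open EisensteinSeries ModularForm Filter Topology Fermat.Agent.ModFn Fermat.Agent.Support
open Fermat.Agent.Top Fermat.Agent.DS CongruenceSubgroup ModularCurve
open scoped MatrixGroups Manifold Real

variable {D : ℕ} [NeZero D] {hD : 3 ≤ D}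
variable (K : Type*) [Field K] [Algebra ℚ K] [Algebra K ℂ]

theorem coeffMap_intCast' {R S : Type*} [CommRing R] [CommRing S] (f : R →+* S)
    (φ : LaurentSeries ℤ) :
    coeffMap f (coeffMap (Int.castRingHom R) φ) = coeffMap (Int.castRingHom S) φ := by
  ext n
  simp

theorem smul_jK (σ : K ≃ₐ[ℚ] K) :
    arithmeticGalois (F₀ (datumH D hD)) σ • jK K (datumH D hD) = jK K (datumH D hD) := by
  apply Subtype.ext
  rw [coe_arithmeticGalois_smul]
  exact map_jqModC _

theorem smul_tK (σ : K ≃ₐ[ℚ] K) :
    arithmeticGalois (F₀ (datumH D hD)) σ • tK K (datumH D hD) = tK K (datumH D hD) := by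
  apply Subtype.ext
  rw [coe_arithmeticGalois_smul]
  exact coeffMap_intCast' _ _

theorem smul_tuK (σ : K ≃ₐ[ℚ] K) (u : (ZMod (D ^ 2))ˣ) :
    arithmeticGalois (F₀ (datumH D hD)) σ • tuK K hD u = tuK K hD u := by
  apply Subtype.ext
  rw [coe_arithmeticGalois_smul]
  exact coeffMap_intCast' _ _

theorem smul_algebraMap (σ : K ≃ₐ[ℚ] K) (c : K) :
    arithmeticGalois (F₀ (datumH D hD)) σ • algebraMap K (FK K (datumH D hD)) c =
      algebraMap K (FK K (datumH D hD)) (σ c) := by
  apply Subtype.ext
  rw [coe_arithmeticGalois_smul]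
  change coeffMap _ (algebraMap K (LaurentSeries K) c) = algebraMap K (LaurentSeries K) (σ c)
  rw [algebraMap_laurentSeries_eq_single, algebraMap_laurentSeries_eq_single,
    ModularCurve.coeffMap_single]
  rfl

/-- The Galois action as a ring homomorphism. -/
def galR (hD : 3 ≤ D) (σ : K ≃ₐ[ℚ] K) : FK K (datumH D hD) →+* FK K (datumH D hD) where
  toFun x := arithmeticGalois (F₀ (datumH D hD)) σ • x
  map_one' := smul_one _
  map_mul' _ _ := smul_mul' _ _ _
  map_zero' := smul_zero _
  map_add' _ _ := smul_add _ _ _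

theorem galR_apply (σ : K ≃ₐ[ℚ] K) (x : FK K (datumH D hD)) :
    galR K hD σ x = arithmeticGalois (F₀ (datumH D hD)) σ • x := rfl

/-- The diamond operators as ring homomorphisms. -/
def diaR (hD : 3 ≤ D) (u : (ZMod (D ^ 2))ˣ) : FK K (datumH D hD) →+* FK K (datumH D hD) :=
  (diaKHom K hD u).toRingHom

theorem diaR_apply (u : (ZMod (D ^ 2))ˣ) (x : FK K (datumH D hD)) :
    diaR K hD u x = diaK K hD u x := rfl

theorem galR_comp_diaR (σ : K ≃ₐ[ℚ] K) (u : (ZMod (D ^ 2))ˣ) :
    (galR K hD σ).comp (diaR K hD u) = (diaR K hD u).comp (galR K hD σ) := by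
  apply FK_hom_ext
  · intro c
    rw [RingHom.comp_apply, RingHom.comp_apply, diaR_apply, galR_apply, AlgEquiv.commutes,
      smul_algebraMap, diaR_apply, galR_apply, smul_algebraMap, AlgEquiv.commutes]
  · rw [RingHom.comp_apply, RingHom.comp_apply, diaR_apply, galR_apply, diaK_jK, smul_jK,
      diaR_apply, galR_apply, smul_jK, diaK_jK]
  · rw [RingHom.comp_apply, RingHom.comp_apply, diaR_apply, galR_apply, diaK_tK, smul_tuK,
      diaR_apply, galR_apply, smul_tK, diaK_tK]

/-- **Diamond operators commute with the Galois action.** -/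
theorem smul_diaK (σ : K ≃ₐ[ℚ] K) (u : (ZMod (D ^ 2))ˣ) (x : FK K (datumH D hD)) :
    arithmeticGalois (F₀ (datumH D hD)) σ • diaK K hD u x =
      diaK K hD u (arithmeticGalois (F₀ (datumH D hD)) σ • x) :=
  RingHom.congr_fun (galR_comp_diaR K σ u) x

end Fermat.Agent.Neb
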