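import Mathlib
import Fermat.Agent.Top.HeckeNorm

/-!
# The formal multiplicative Hecke operator with nebentypus
-/

set_option autoImplicit false

open HahnSeries ModularCurve Fermat.Agent.ModFn

namespace Fermat.Agent.Neb

variable {L : Type*} [Field L] {ℓ : ℕ} [NeZero ℓ]

/-- `u'(q) = v(q^ℓ) ∏_i u(ζ^i q^{1/ℓ})`. -/
def IsTwNorm (ℓ : ℕ) [NeZero ℓ] (ζ : Lˣ) (u v u' : LaurentSeries L) : Prop :=
  qExpand L ℓ u' = qExpand L (ℓ ^ 2) v * ∏ i ∈ Finset.range ℓ, twist (ζ ^ i) u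

theorem IsTwNorm.unique {ζ : Lˣ} {u v a b : LaurentSeries L} (ha : IsTwNorm ℓ ζ u v a)
    (hb : IsTwNorm ℓ ζ u v b) : a = b :=
  qExpand_injective ℓ (ha.trans hb.symm)

theorem IsTwNorm.one (ζ : Lˣ) : IsTwNorm ℓ ζ (1 : LaurentSeries L) 1 1 := by
  simp [IsTwNorm]

theorem IsTwNorm.mul {ζ : Lˣ} {u v w u' v' w' : LaurentSeries L} (hu : IsTwNorm ℓ ζ u v w)
    (hv : IsTwNorm ℓ ζ u' v' w') : IsTwNorm ℓ ζ (u * u') (v * v') (w * w') := by
  unfold IsTwNorm at *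
  rw [map_mul, hu, hv, map_mul]
  simp only [map_mul, Finset.prod_mul_distrib]
  ring

theorem IsTwNorm.inv {ζ : Lˣ} {u v w : LaurentSeries L} (hu : IsTwNorm ℓ ζ u v w) :
    IsTwNorm ℓ ζ u⁻¹ v⁻¹ w⁻¹ := by
  unfold IsTwNorm at *
  rw [map_inv₀, hu, map_inv₀, mul_inv, ← Finset.prod_inv_distrib]
  simp only [map_inv₀]

theorem IsTwNorm.pow {ζ : Lˣ} {u v w : LaurentSeries L} (hu : IsTwNorm ℓ ζ u v w) (n : ℕ) :
    IsTwNorm ℓ ζ (u ^ n) (v ^ n) (w ^ n) := by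
  induction n with
  | zero => rw [pow_zero, pow_zero, pow_zero]; exact IsTwNorm.one ζ
  | succ n ih => rw [pow_succ, pow_succ, pow_succ]; exact ih.mul hu

theorem IsTwNorm.map {M : Type*} [Field M] (f : L →+* M) {ζ : Lˣ} {u v w : LaurentSeries L}
    (h : IsTwNorm ℓ ζ u v w) :
    IsTwNorm ℓ (Units.map f.toMonoidHom ζ) (coeffMap f u) (coeffMap f v) (coeffMap f w) := by
  unfold IsTwNorm at *
  rw [← coeffMap_qExpand, h, map_mul, coeffMap_qExpand, map_prod]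
  congr 1
  refine Finset.prod_congr rfl fun i _ => ?_
  rw [coeffMap_twist, map_pow]

theorem IsTwNorm.ne_zero {ζ : Lˣ} {u v w : LaurentSeries L} (hu : IsTwNorm ℓ ζ u v w)
    (h0 : u ≠ 0) (h0' : v ≠ 0) : w ≠ 0 := by
  rintro rfl
  unfold IsTwNorm at hu
  rw [map_zero] at hu
  have h1 : qExpand L (ℓ ^ 2) v ≠ 0 := fun h =>
    h0' (qExpand_injective (ℓ ^ 2) (h.trans (map_zero _).symm))
  have h2 : ∏ i ∈ Finset.range ℓ, twist (ζ ^ i) u ≠ 0 := by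
    rw [Finset.prod_ne_zero_iff]
    intro i _ h
    exact h0 (twist_injective _ (h.trans (map_zero _).symm))
  exact mul_ne_zero h1 h2 hu.symm

end Fermat.Agent.Neb
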