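import Mathlib
import Fermat.Agent.Neb.Dia
import Fermat.Agent.Neb.TwNorm
import Fermat.Agent.Top.HeckeForm

/-!
# Multiplicative Hecke operators with nebentypus on forms with character
-/

set_option autoImplicit false
set_option linter.unusedSectionVars false
set_option linter.style.haveILetI false

noncomputable section

namespace Fermat.Agent.Neb

open UpperHalfPlane hiding I
open ModularForm Filter Topology Fermat.Agent.ModFn Fermat.Agent.Support Polynomial
open ModularCurve IntermediateField Fermat.Agent.FF WithZero AlgebraicCurve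
open Fermat.Agent.Top Fermat.Agent.DS Matrix.SpecialLinearGroup
open scoped MatrixGroups Manifold

variable {D : ℕ} [NeZero D] {hD : 3 ≤ D} {m p : ℕ}

theorem rH_smul_eq_act (u : (ZMod (D ^ 2))ˣ) (hp : p ≠ 0) (i : Option (Fin p)) (z : ℍ) :
    rH u p i • z = act (MH u p i) z := by
  have hdet : (MH u p i).det ≠ 0 := by rw [det_MH]; exact_mod_cast hp
  rw [act_of_ne _ hdet]
  congr 1
  apply Units.ext
  rw [rH_apply u hp, toGLR_val]
  rfl

/-- The multiplicative Hecke operator. -/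
def hProd (u : (ZMod (D ^ 2))ˣ) (p : ℕ) (F : ℍ → ℂ) (z : ℍ) : ℂ :=
  ∏ i : Option (Fin p), F (rH u p i • z)

theorem hProd_eq (u : (ZMod (D ^ 2))ˣ) (F : ℍ → ℂ) (z : ℍ) :
    hProd u p F z = (∏ j : Fin p, F (HR p (some j) • z)) * F (gam u • (HR p none • z)) := by
  rw [hProd, Fintype.prod_option, mul_comm]
  congr 1
  rw [rH, mul_smul]
  rfl

theorem hProd_pow (u : (ZMod (D ^ 2))ˣ) (F : ℍ → ℂ) (n : ℕ) :
    hProd u p (F ^ n) = hProd u p F ^ n := by
  funext z
  simp only [hProd, Pi.pow_apply, Finset.prod_pow]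

theorem hProd_exp {V : ℍ → ℂ} (hV : V ∈ bigA (D ^ 2)) (u : (ZMod (D ^ 2))ˣ) (hp : 0 < p)
    (δ : SL(2, ℤ)) :
    ∃ φ : LaurentSeries ℂ, HasExp (D ^ 2 * p) (fun z => hProd u p V (δ • z)) φ := by
  haveI : NeZero p := ⟨hp.ne'⟩
  choose φ hφ using fun i : Option (Fin p) =>
    exists_hasExp_act hV hp (MH u p i) (det_MH u p i) δ
  refine ⟨_, (HasExp.prod (h := D ^ 2 * p) Finset.univ (fun i _ => hφ i)).congr ?_ rfl⟩
  funext z
  simp only [Finset.prod_apply, hProd]
  exact Finset.prod_congr rfl fun i _ => by rw [rH_smul_eq_act u hp.ne']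

theorem hProd_inv (hp : p.Prime) (hpN : ¬ p ∣ D ^ 2) {χ : GH D →* ℂˣ} {V : ℍ → ℂ}
    (hV : ∀ (γ : GH D) (z : ℍ), V ((γ : SL(2, ℤ)) • z) = χ γ * V z) (γ : GH D) (z : ℍ) :
    hProd (up hp hpN) p V ((γ : SL(2, ℤ)) • z) =
      (hrepsH hp hpN).opMul χ γ * hProd (up hp hpN) p V z := by
  have h := (hrepsH hp hpN).prod_smul_smul V ((Units.coeHom ℂ).comp χ)
    (fun γ z => by rw [toGLH_smul, hV]; rfl) γ z
  simp only [hrepsH_δ, toGLH_smul] at h
  rw [hProd, hProd, h]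
  congr 1
  rw [Reps.opMul_apply, Reps.opMul_apply]
  simp only [MonoidHom.comp_apply, Units.coeHom_apply]
  exact (map_prod (Units.coeHom ℂ) _ _).symm

theorem isCForm_hProd (hp : p.Prime) (hpN : ¬ p ∣ D ^ 2) {χ : (datumH D hD).Γ →* ℂˣ} {V : ℍ → ℂ}
    (hV : IsCForm (datumH D hD) χ V)
    (hχ : IsParaChar (D := datumH D hD) ((hrepsH hp hpN).opMul χ)) :
    IsCForm (datumH D hD) ((hrepsH hp hpN).opMul χ) (hProd (up hp hpN) p V) where
  inv := hProd_inv hp hpN hV.inv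
  exp δ := by
    haveI : NeZero p := ⟨hp.ne_zero⟩
    obtain ⟨φ, hφ⟩ := hProd_exp hV.exp (up hp hpN) hp.pos δ
    have h1 : ∀ z, hProd (up hp hpN) p V (δ • (((((D ^ 2 : ℕ) : ℤ) : ℝ) +ᵥ z : ℍ))) =
        hProd (up hp hpN) p V (δ • z) := by
      intro z
      rw [← T_zpow_smul_eq_vadd]
      let g : GH D := ⟨_, (datumH D hD).conj_mem δ (h := ((D ^ 2 : ℕ) : ℤ)) (dvd_mul_left _ _)⟩
      have h2 := hProd_inv hp hpN hV.inv g (δ • z)
      have h3 : (hrepsH hp hpN).opMul χ g = 1 := hχ g (by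
        have := trace_conj_T_zpow δ ((D ^ 2 : ℕ) : ℤ)
        change ((δ * ModularGroup.T ^ ((D ^ 2 : ℕ) : ℤ) * δ⁻¹ : SL(2, ℤ)) :
          Matrix (Fin 2) (Fin 2) ℤ).trace ^ 2 = 4
        rw [this]; norm_num)
      rw [h3, Units.val_one, one_mul] at h2
      rw [← h2, ← mul_smul, ← mul_smul]
      congr 2
      change δ * ModularGroup.T ^ ((D ^ 2 : ℕ) : ℤ) =
        δ * ModularGroup.T ^ ((D ^ 2 : ℕ) : ℤ) * δ⁻¹ * δ
      rw [inv_mul_cancel_right]
    exact ⟨_, (HasExp.contract hφ h1).1⟩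

theorem opMulH_one (hp : p.Prime) (hpN : ¬ p ∣ D ^ 2) :
    (hrepsH hp hpN).opMul (1 : GH D →* ℂˣ) = 1 := by
  ext γ
  simp [Reps.opMul_apply]

theorem hProd_mem_WN (hp : p.Prime) (hpN : ¬ p ∣ D ^ 2) {V : ℍ → ℂ} (hV : V ∈ WN (datumH D hD)) :
    hProd (up hp hpN) p V ∈ WN (datumH D hD) := by
  rw [mem_WN_iff_isCForm] at hV ⊢
  have h1 : (hrepsH hp hpN).opMul (1 : (datumH D hD).Γ →* ℂˣ) = 1 := opMulH_one hp hpN
  have := isCForm_hProd hp hpN hV (by rw [h1]; exact fun _ _ => rfl)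
  rwa [h1] at this

theorem hProd_ne_zero (u : (ZMod (D ^ 2))ˣ) (hp : 0 < p) {V : ℍ → ℂ} (hV : V ∈ bigA (D ^ 2))
    (h0 : V ≠ 0) : hProd u p V ≠ 0 := by
  haveI : NeZero p := ⟨hp.ne'⟩
  choose φ hφ using fun i : Option (Fin p) =>
    exists_hasExp_act hV hp (MH u p i) (det_MH u p i) 1
  have hne : ∀ i, φ i ≠ 0 := by
    intro i hi
    have h1 := (hφ i).eq_zero_iff.mpr hi
    apply h0
    funext z
    have h2 := congrFun h1 ((rH u p i)⁻¹ • z)
    simp only [one_smul, ← rH_smul_eq_act u hp.ne', smul_inv_smul] at h2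
    exact h2
  have h1 := HasExp.prod (h := D ^ 2 * p) Finset.univ (fun i _ => hφ i)
  intro hcon
  have h2 : (∏ i : Option (Fin p), fun z : ℍ => V (act (MH u p i) ((1 : SL(2, ℤ)) • z))) = 0 := by
    rw [← hcon]
    funext z
    simp only [Finset.prod_apply, hProd, one_smul]
    exact Finset.prod_congr rfl fun i _ => by rw [rH_smul_eq_act u hp.ne']
  exact Finset.prod_ne_zero_iff.mpr (fun i _ => hne i) (h1.eq_zero_iff.mp h2)

/-- The expansion of the product. -/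
theorem isTwNorm_hProd [NeZero p] (hp : p.Prime) (hpN : ¬ p ∣ D ^ 2) (W : WN (datumH D hD)) :
    IsTwNorm p (zetaU p) (wq _ W) (wq _ (diaW hD (up hp hpN) W))
      (wq _ (⟨hProd (up hp hpN) p W.1, hProd_mem_WN hp hpN W.2⟩ : WN (datumH D hD))) := by
  have h1 := (hasExp_wq (D := datumH D hD)
    ⟨hProd (up hp hpN) p W.1, hProd_mem_WN hp hpN W.2⟩).qExpand (m := p)
  have hW := hasExp_wq W
  have hW' := hasExp_wq (diaW hD (up hp hpN) W)
  have h2 : HasExp p (fun z => W.1 (gam (up hp hpN) • (HR p none • z)))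
      (qExpand ℂ (p ^ 2) (wq _ (diaW hD (up hp hpN) W))) := by
    have h3 := (hW'.affine (d := 1) (a := p) 0 (fun z => HR p none • z) (fun τ => by
      rw [HR_smul_eq_act hp.ne_zero, HM_none]
      simpa using coe_act_upper p 1 0 τ)
      (g := fun z => W.1 (gam (up hp hpN) • (HR p none • z))) (fun τ => rfl)).qExpand (m := p)
    rw [zpow_zero, one_mul, one_mul] at h3
    refine h3.congr rfl ?_
    rw [qExpand_qExpand, twist_one]
    exact qExpand_congr (by ring) _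
  have h3 : ∀ j : Fin p, HasExp p (fun z => W.1 (HR p (some j) • z))
      (twist (zetaU p ^ (j : ℕ)) (wq _ W)) := by
    intro j
    have h3 := (hW.affine (d := p) (a := 1) (j : ℕ) (fun z => HR p (some j) • z) (fun τ => by
      rw [HR_smul_eq_act hp.ne_zero, HM_some]
      simpa using coe_act_upper 1 p (j : ℕ) τ) (g := fun z => W.1 (HR p (some j) • z))
      (fun τ => rfl))
    rw [one_mul, qExpand_one_apply, zpow_natCast] at h3
    exact h3
  rw [one_mul] at h1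
  refine h1.unique (((HasExp.prod Finset.univ fun j _ => h3 j).mul h2).congr ?_ ?_)
  · funext z
    refine Eq.trans ?_ (hProd_eq _ W.1 z).symm
    simp only [Pi.mul_apply, Finset.prod_apply]
  · rw [mul_comm]
    congr 1
    rw [Finset.prod_range]

/-! ### The function field -/

/-- The Hecke operator on functions in `W`. -/
def TW (hD : 3 ≤ D) (hp : p.Prime) (hpN : ¬ p ∣ D ^ 2) (W : WN (datumH D hD)) :
    WN (datumH D hD) := ⟨hProd (up hp hpN) p W.1, hProd_mem_WN hp hpN W.2⟩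

theorem TW_ne_zero (hp : p.Prime) (hpN : ¬ p ∣ D ^ 2) {W : WN (datumH D hD)} (hW : W ≠ 0) :
    TW hD hp hpN W ≠ 0 := fun h =>
  hProd_ne_zero (up hp hpN) hp.pos W.2.1 (WN.coe_ne_zero hW) (congrArg Subtype.val h)

theorem isTwNorm_toFC [NeZero p] (hp : p.Prime) (hpN : ¬ p ∣ D ^ 2) (W : WN (datumH D hD)) :
    IsTwNorm p (zetaU p) (toFC _ W : LaurentSeries ℂ)
      (diaF hD (up hp hpN) (toFC _ W) : LaurentSeries ℂ) (toFC _ (TW hD hp hpN W)) := by
  rw [diaF_toFC]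
  exact isTwNorm_hProd hp hpN W

/-- **The multiplicative Hecke operator on the complex function field.** -/
theorem exists_isTwNorm_FC [NeZero p] (hp : p.Prime) (hpN : ¬ p ∣ D ^ 2)
    (f : FC (datumH D hD)) : ∃ f' : FC (datumH D hD),
      IsTwNorm p (zetaU p) (f : LaurentSeries ℂ) (diaF hD (up hp hpN) f : LaurentSeries ℂ)
        (f' : LaurentSeries ℂ) := by
  obtain ⟨a, b, hb, rfl⟩ := exists_div f
  refine ⟨toFC _ (TW hD hp hpN a) / toFC _ (TW hD hp hpN b), ?_⟩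
  have h := (isTwNorm_toFC hp hpN a).mul (isTwNorm_toFC hp hpN b).inv
  rw [map_div₀, div_eq_mul_inv, div_eq_mul_inv, div_eq_mul_inv]
  exact h

end Fermat.Agent.Neb
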