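import Mathlib
import Fermat.Agent.Neb.HeckeFormH
import Fermat.Agent.Neb.DiaGal

/-!
# The multiplicative Hecke operator on the function field over `K`
-/

set_option autoImplicit false
set_option linter.unusedSectionVars false
set_option linter.style.haveILetI false

noncomputable section

namespace Fermat.Agent.Neb

open ModularCurve Fermat.Agent.ModFn Fermat.Agent.Top Fermat.Agent.DS

variable {D : ℕ} [NeZero D] {hD : 3 ≤ D} {p : ℕ}
variable {K : Type*} [Field K] [Algebra ℚ K] [Algebra K ℂ]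

/-- Descent of `IsTwNorm`. -/
theorem IsTwNorm.descend {L E : Type*} [Field L] [Field E] (σ : L →+* E) {ℓ : ℕ} [NeZero ℓ]
    {ζ : Lˣ} {u v : LaurentSeries L} {w : LaurentSeries E}
    (h : IsTwNorm ℓ (Units.map σ.toMonoidHom ζ) (coeffMap σ u) (coeffMap σ v) w) :
    ∃ w₀ : LaurentSeries L, coeffMap σ w₀ = w ∧ IsTwNorm ℓ ζ u v w₀ := by
  set R : LaurentSeries L := qExpand L (ℓ ^ 2) v * ∏ i ∈ Finset.range ℓ, twist (ζ ^ i) u with hR
  have hRE : coeffMap σ R = qExpand E ℓ w := by
    unfold IsTwNorm at h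
    rw [h, hR, map_mul, coeffMap_qExpand, map_prod]
    congr 1
    refine Finset.prod_congr rfl fun i _ => ?_
    rw [coeffMap_twist, map_pow]
  obtain ⟨w₀, hw₀⟩ := exists_coeffMap_eq σ (z := w) (fun n => ⟨R.coeff (ℓ * n), by
    rw [← coeffMap_coeff, hRE, qExpand_coeff_mul]⟩)
  refine ⟨w₀, hw₀, ?_⟩
  have hinj : Function.Injective (coeffMap σ) := by
    intro x y hxy
    ext n
    apply σ.injective
    rw [← coeffMap_coeff, ← coeffMap_coeff, hxy]
  apply hinj
  rw [coeffMap_qExpand, hw₀, ← hRE]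

/-- **The multiplicative Hecke operator over `K`.** -/
theorem exists_isTwNorm_FK [NeZero p] (hp : p.Prime) (hpN : ¬ p ∣ D ^ 2) {ζ : Kˣ}
    (hζ : Units.map (algebraMap K ℂ).toMonoidHom ζ = zetaU p) (f : FK K (datumH D hD)) :
    ∃ f' : FK K (datumH D hD),
      IsTwNorm p ζ (f : LaurentSeries K) (diaK K hD (up hp hpN) f : LaurentSeries K)
        (f' : LaurentSeries K) := by
  obtain ⟨g, hg⟩ := exists_isTwNorm_FC hp hpN (embK K hD f)
  rw [← embK_diaK, coe_embK, coe_embK, ← hζ] at hg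
  obtain ⟨w₀, hw₀, hw⟩ := hg.descend
  exact ⟨⟨w₀, mem_baseChange_of_coeffMap_mem (E := ℂ) (by rw [hw₀]; exact g.2)⟩, hw⟩

/-- Roots of unity descend to algebraically closed fields. -/
theorem exists_zetaK [IsAlgClosed K] (p : ℕ) [NeZero p] :
    ∃ ζ : Kˣ, Units.map (algebraMap K ℂ).toMonoidHom ζ = zetaU p ∧ orderOf ζ = p := by
  have hinj : Function.Injective (Units.map (algebraMap K ℂ).toMonoidHom) :=
    Units.map_injective (algebraMap K ℂ).injective
  have h0 : CharZero K := algebraRat.charZero K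
  obtain ⟨ζ, hζ⟩ : ∃ ζ : K, IsPrimitiveRoot ζ p := by
    have : NeZero (p : K) := ⟨by exact_mod_cast NeZero.ne p⟩
    exact HasEnoughRootsOfUnity.exists_primitiveRoot K p
  have h1 := hζ.map_of_injective (algebraMap K ℂ).injective
  obtain ⟨i, -, hi⟩ := h1.eq_pow_of_pow_eq_one (ξ := (zetaU p : ℂ))
    (isPrimitiveRoot_zetaU p).pow_eq_one
  have hu : IsUnit ζ := hζ.isUnit (NeZero.ne p)
  refine ⟨hu.unit ^ i, ?_, ?_⟩
  · apply Units.ext
    rw [Units.coe_map, ← hi, Units.val_pow_eq_pow_val, IsUnit.unit_spec]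
    exact map_pow _ _ _
  · have h2 : orderOf (Units.map (algebraMap K ℂ).toMonoidHom (hu.unit ^ i)) = p := by
      have h3 : Units.map (algebraMap K ℂ).toMonoidHom (hu.unit ^ i) = zetaU p := by
        apply Units.ext
        rw [Units.coe_map, ← hi, Units.val_pow_eq_pow_val, IsUnit.unit_spec]
        exact map_pow _ _ _
      rw [h3]
      exact (IsPrimitiveRoot.coe_units_iff.1 (isPrimitiveRoot_zetaU p)).eq_orderOf.symm
    rw [← h2]
    exact (orderOf_injective _ hinj _).symm

end Fermat.Agent.Neb
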