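import Fermat.Agent.Neb.Reduce

/-!
# Descent of eigencharacters to tensor products
-/

set_option autoImplicit false
set_option linter.style.haveILetI false

namespace Fermat.Agent.Neb

open Module TensorProduct

variable {G : Type} [Group G] {F k : Type} [Field F] [Field k] [Algebra F k]

section

variable (U : Submodule F (Additive G →+ F))

/-- evaluation at `γ` -/
def evF (γ : Additive G) : U →ₗ[F] F where
  toFun ψ := (ψ : Additive G →+ F) γ
  map_add' _ _ := rfl
  map_smul' _ _ := rfl

variable (k) in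
/-- evaluation at `γ` after base change -/
noncomputable def evK (γ : Additive G) : k ⊗[F] U →ₗ[k] k :=
  (TensorProduct.AlgebraTensorModule.rid F k k).toLinearMap ∘ₗ (evF U γ).baseChange k

theorem evK_tmul (γ : Additive G) (c : k) (ψ : U) :
    evK k U γ (c ⊗ₜ ψ) = (ψ : Additive G →+ F) γ • c := rfl

variable (k) in
/-- the homomorphism attached to a tensor -/
noncomputable def homK (x : k ⊗[F] U) : Additive G →+ k where
  toFun γ := evK k U γ x
  map_zero' := by
    induction x using TensorProduct.induction_on with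
    | zero => simp
    | tmul c ψ => rw [evK_tmul, map_zero, zero_smul]
    | add x y hx hy => rw [map_add, hx, hy, add_zero]
  map_add' γ γ' := by
    induction x using TensorProduct.induction_on with
    | zero => simp
    | tmul c ψ => rw [evK_tmul, evK_tmul, evK_tmul, map_add, add_smul]
    | add x y hx hy =>
      simp only [map_add]
      rw [hx, hy]
      abel

theorem homK_apply (x : k ⊗[F] U) (γ : Additive G) : homK k U x γ = evK k U γ x := rfl

theorem homK_add (x y : k ⊗[F] U) : homK k U (x + y) = homK k U x + homK k U y := by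
  ext γ
  exact map_add (evK k U (Additive.ofMul γ)) x y

theorem homK_zero : homK k U 0 = 0 := by
  ext γ
  exact map_zero (evK k U (Additive.ofMul γ))

theorem homK_op (O : NatOp G) (opU : Module.End F U)
    (hop : ∀ ψ : U, (opU ψ : Additive G →+ F) = O.op ψ) (x : k ⊗[F] U) :
    homK k U (opU.baseChange k x) = O.op (homK k U x) := by
  induction x using TensorProduct.induction_on with
  | zero => rw [map_zero, homK_zero, map_zero]
  | tmul c ψ =>
    rw [LinearMap.baseChange_tmul]
    let g : F →+ k :=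
      { toFun := fun r ↦ r • c
        map_zero' := zero_smul _ _
        map_add' := fun r s ↦ add_smul r s c }
    have h1 : ∀ ψ : U, homK k U (c ⊗ₜ ψ) = g.comp (ψ : Additive G →+ F) := fun ψ ↦ by
      ext γ
      rfl
    rw [h1, h1, O.nat, hop]
  | add x y hx hy => rw [map_add, homK_add, homK_add, map_add, hx, hy]

theorem homK_injective {x : k ⊗[F] U} (h : homK k U x = 0) : x = 0 := by
  classical
  let ℬ := Module.Basis.ofVectorSpace F k
  obtain ⟨c, rfl⟩ := TensorProduct.eq_repr_basis_left ℬ x
  have hc : c = 0 := by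
    ext i γ
    have h1 : evK k U (Additive.ofMul γ) (c.sum fun i u ↦ ℬ i ⊗ₜ[F] u) = 0 :=
      DFunLike.congr_fun h (Additive.ofMul γ)
    rw [Finsupp.sum, map_sum] at h1
    simp only [evK_tmul] at h1
    have hli := ℬ.linearIndependent
    rw [linearIndependent_iff'] at hli
    have h2 := hli c.support (fun i ↦ ((c i : U) : Additive G →+ F) (Additive.ofMul γ)) h1
    by_cases hi : i ∈ c.support
    · exact h2 i hi
    · rw [Finsupp.notMem_support_iff] at hi
      rw [hi]
      rfl
  rw [hc, Finsupp.sum_zero_index]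

theorem exists_homK_eq [Group.FG G] (Z : Set G)
    (hU : ∀ ψ : Additive G →+ F, (∀ z ∈ Z, ψ (Additive.ofMul z) = 0) → ψ ∈ U)
    (φ : Additive G →+ k) (hφ : ∀ z ∈ Z, φ (Additive.ofMul z) = 0) :
    ∃ x : k ⊗[F] U, homK k U x = φ := by
  classical
  let ℬ := Module.Basis.ofVectorSpace F k
  let ψ : Module.Basis.ofVectorSpaceIndex F k → U := fun i ↦
    ⟨((ℬ.coord i : k →ₗ[F] F) : k →+ F).comp φ, hU _ fun z hz ↦ by
      change ℬ.coord i (φ (Additive.ofMul z)) = 0
      rw [hφ z hz, map_zero]⟩
  have hψ : ∀ i γ, (ψ i : Additive G →+ F) γ = ℬ.repr (φ γ) i := fun i γ ↦ rfl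
  obtain ⟨S, hS⟩ := Group.fg_def.mp (inferInstance : Group.FG G)
  let s := S.biUnion fun γ ↦ (ℬ.repr (φ (Additive.ofMul γ))).support
  have hs : ∀ γ : G, (ℬ.repr (φ (Additive.ofMul γ))).support ⊆ s := by
    intro γ
    have hγ : γ ∈ Subgroup.closure (S : Set G) := by rw [hS]; trivial
    induction hγ using Subgroup.closure_induction with
    | mem x hx =>
      exact Finset.subset_biUnion_of_mem
        (fun γ : G ↦ (ℬ.repr (φ (Additive.ofMul γ))).support) hx
    | one => simp
    | mul x y _ _ hx hy =>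
      rw [ofMul_mul, map_add, map_add]
      exact Finsupp.support_add.trans (Finset.union_subset hx hy)
    | inv x _ hx =>
      rw [ofMul_inv, map_neg, map_neg, Finsupp.support_neg]
      exact hx
  refine ⟨∑ i ∈ s, ℬ i ⊗ₜ ψ i, ?_⟩
  ext γ
  change evK k U (Additive.ofMul γ) _ = φ (Additive.ofMul γ)
  rw [map_sum]
  simp only [evK_tmul, hψ]
  conv_rhs => rw [← ℬ.linearCombination_repr (φ (Additive.ofMul γ)), Finsupp.linearCombination_apply]
  exact (Finsupp.sum_of_support_subset _ (hs γ) (fun i a ↦ a • ℬ i)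
    (fun i _ ↦ zero_smul _ _)).symm

/-- **Descent.** -/
theorem exists_tensor_eigen [Group.FG G] (Z : Set G)
    (hU : ∀ ψ : Additive G →+ F, (∀ z ∈ Z, ψ (Additive.ofMul z) = 0) → ψ ∈ U)
    {J : Type*} (O : J → NatOp G) (opU : J → Module.End F U)
    (hop : ∀ j (ψ : U), (opU j ψ : Additive G →+ F) = (O j).op ψ)
    (φ : Additive G →+ k) (hφ0 : φ ≠ 0) (hφZ : ∀ z ∈ Z, φ (Additive.ofMul z) = 0)
    (a : J → k) (hφ : ∀ j γ, (O j).op φ γ = a j * φ γ) :
    ∃ x : k ⊗[F] U, x ≠ 0 ∧ ∀ j, (opU j).baseChange k x = a j • x := by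
  obtain ⟨x, hx⟩ := exists_homK_eq U Z hU φ hφZ
  refine ⟨x, ?_, fun j ↦ ?_⟩
  · rintro rfl
    rw [homK_zero] at hx
    exact hφ0 hx.symm
  · rw [← sub_eq_zero]
    apply homK_injective U
    ext γ
    change evK k U (Additive.ofMul γ) _ = 0
    rw [map_sub, map_smul, ← homK_apply, ← homK_apply, homK_op U (O j) (opU j) (hop j), hx, hφ,
      smul_eq_mul, sub_self]

end

end Fermat.Agent.Neb
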