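import Fermat.Agent.RepTwo.Eigen

/-!
# Lifting characters of commuting operators to eigenvectors
-/

set_option autoImplicit false
set_option linter.style.haveILetI false

namespace Fermat.Agent.Neb

open Module TensorProduct

/-- Characters of a subring of a finite commutative algebra over an algebraically closed field. -/
theorem exists_character_lift {K B T k : Type*} [Field K] [IsAlgClosed K] [CommRing B]
    [Algebra K B] [Module.Finite K B] [CommRing T] [Field k] (ι : T →+* B)
    (hι : Function.Injective ι) (θ : T →+* k) :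
    ∃ χ : B →ₐ[K] K, ∀ t, χ (ι t) = 0 → θ t = 0 := by
  haveI hP : (RingHom.ker θ).IsPrime := RingHom.ker_isPrime _
  obtain ⟨p, hp, hpP⟩ := Ideal.exists_minimalPrimes_le (I := (⊥ : Ideal T))
    (J := RingHom.ker θ) bot_le
  obtain ⟨q, hq, hqp⟩ := Ideal.exists_comap_eq_of_mem_minimalPrimes_of_injective hι p hp
  haveI := hq
  haveI : Module.Finite K (B ⧸ q) :=
    Module.Finite.of_surjective (Ideal.Quotient.mkₐ K q).toLinearMap
      (Ideal.Quotient.mkₐ_surjective K q)
  haveI : IsDomain (B ⧸ q) := Ideal.Quotient.isDomain q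
  haveI : Algebra.IsIntegral K (B ⧸ q) := Algebra.IsIntegral.of_finite K _
  have hbij : Function.Bijective (algebraMap K (B ⧸ q)) :=
    IsAlgClosed.algebraMap_bijective_of_isIntegral
  let e : K ≃ₐ[K] (B ⧸ q) := AlgEquiv.ofBijective (Algebra.ofId K (B ⧸ q)) hbij
  let χ : B →ₐ[K] K := (e.symm : (B ⧸ q) →ₐ[K] K).comp (Ideal.Quotient.mkₐ K q)
  have hχ : ∀ b : B, χ b = 0 ↔ b ∈ q := by
    intro b
    change e.symm (Ideal.Quotient.mk q b) = 0 ↔ _
    rw [map_eq_zero_iff _ e.symm.injective, Ideal.Quotient.eq_zero_iff_mem]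
  refine ⟨χ, fun t ht ↦ ?_⟩
  have h1 : ι t ∈ q := (hχ _).mp ht
  have h2 : t ∈ p := by
    rw [← hqp]
    exact h1
  exact hpP h2

theorem exists_eigenvector_of_algHom {K B S : Type*} [Field K] [CommRing B]
    [Algebra K B] [Module.Finite K B] [AddCommGroup S] [Module K S] [FiniteDimensional K S]
    (φ : B →ₐ[K] Module.End K S) (hφ : Function.Injective φ) (χ : B →ₐ[K] K) :
    ∃ v : S, v ≠ 0 ∧ ∀ b, φ b v = χ b • v := by
  obtain ⟨x, hx0, hx⟩ := RepTwo.exists_eigenvector_baseChange (k := K) (U := S) B φ hφ χ
  refine ⟨TensorProduct.lid K S x, ?_, ?_⟩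
  · intro h0
    exact hx0 ((TensorProduct.lid K S).map_eq_zero_iff.mp h0)
  · intro t
    have h1 := hx t
    have h2 := congrArg (TensorProduct.lid K S) h1
    rw [map_smul] at h2
    have h3 : ∀ (g : Module.End K S) (y : K ⊗[K] S),
        TensorProduct.lid K S (g.baseChange K y) = g (TensorProduct.lid K S y) := by
      intro g y
      induction y using TensorProduct.induction_on with
      | zero => simp
      | tmul c a => simp
      | add x y hx hy => rw [map_add, map_add, map_add, map_add, hx, hy]
    rw [h3] at h2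
    exact h2

section

variable {K R : Type*} [Field K] [Ring R] [Algebra K R] (A : Subalgebra ℤ R) (B : Subalgebra K R)
  (h : ∀ x ∈ A, x ∈ B)

/-- The inclusion of an integral subalgebra. -/
def inclSub : A →+* B where
  toFun t := ⟨t, h t t.2⟩
  map_one' := rfl
  map_mul' _ _ := rfl
  map_zero' := rfl
  map_add' _ _ := rfl

theorem coe_inclSub (t : A) : (inclSub A B h t : R) = t := rfl

theorem inclSub_injective : Function.Injective (inclSub A B h) := fun _ _ h ↦
  Subtype.ext (congrArg (fun b : B ↦ (b : R)) h)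

end

section

variable {K : Type*} [Field K] {S : Type*} [AddCommGroup S] [Module K S] {I : Type*}
  (op : I → Module.End K S)

theorem adjoin_int_le {x : Module.End K S} (hx : x ∈ Algebra.adjoin ℤ (Set.range op)) :
    x ∈ Algebra.adjoin K (Set.range op) := by
  induction hx using Algebra.adjoin_induction with
  | mem x hx => exact Algebra.subset_adjoin hx
  | algebraMap r => exact intCast_mem _ r
  | add x y _ _ hx hy => exact add_mem hx hy
  | mul x y _ _ hx hy => exact mul_mem hx hy

theorem finite_adjoin [FiniteDimensional K S] :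
    Module.Finite K (Algebra.adjoin K (Set.range op)) :=
  inferInstanceAs (Module.Finite K (Subalgebra.toSubmodule (Algebra.adjoin K (Set.range op))))

open scoped IsMulCommutative in
/-- A character of the ring generated by commuting endomorphisms of a finite-dimensional vector
space over an algebraically closed field "lifts" to an eigenvector. -/
theorem exists_eigenvector_lift [IsAlgClosed K] [FiniteDimensional K S]
    (hcomm : ∀ i j, Commute (op i) (op j)) {k : Type*} [Field k]
    (θ : Algebra.adjoin ℤ (Set.range op) →+* k) :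
    ∃ (Θ : Algebra.adjoin ℤ (Set.range op) →+* K) (v : S), v ≠ 0 ∧
      (∀ t : Algebra.adjoin ℤ (Set.range op), (t : Module.End K S) v = Θ t • v) ∧
      ∀ t, Θ t = 0 → θ t = 0 := by
  have hc : ∀ a ∈ Set.range op, ∀ b ∈ Set.range op, a * b = b * a := by
    rintro _ ⟨i, rfl⟩ _ ⟨j, rfl⟩
    exact hcomm i j
  haveI iT := Algebra.isMulCommutative_adjoin ℤ hc
  haveI iB := Algebra.isMulCommutative_adjoin K hc
  haveI := finite_adjoin op
  have hle := fun x (hx : x ∈ Algebra.adjoin ℤ (Set.range op)) ↦ adjoin_int_le op hx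
  obtain ⟨χ, hχ⟩ := exists_character_lift (K := K) (B := Algebra.adjoin K (Set.range op))
    (T := Algebra.adjoin ℤ (Set.range op)) (inclSub _ _ hle) (inclSub_injective _ _ hle) θ
  obtain ⟨v, hv0, hv⟩ := exists_eigenvector_of_algHom (Subalgebra.val _)
    Subtype.val_injective χ
  refine ⟨(χ : _ →+* K).comp (inclSub _ _ hle), v, hv0, fun t ↦ ?_, hχ⟩
  have h1 := hv (inclSub _ _ hle t)
  rw [Subalgebra.val_apply, coe_inclSub] at h1
  exact h1

end

end Fermat.Agent.Neb
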