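import Fermat.Agent.Neb.GH
import Fermat.Agent.Neb.Lift
import Fermat.Agent.Neb.Descend
import Fermat.Agent.DS.OpsG1
import Fermat.Agent.DS.WtTwo
import Fermat.Agent.Period.Main

/-!
# Period homomorphisms for `GH D` and eigenvectors modulo `ℓ`
-/

set_option autoImplicit false
set_option linter.style.haveILetI false
set_option linter.unusedSectionVars false

open UpperHalfPlane CongruenceSubgroup ModularCurve.Period Filter Topology
open scoped MatrixGroups ModularForm Pointwise Manifold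

namespace Fermat.Agent.Neb

open Matrix.SpecialLinearGroup Fermat.Agent.Top Fermat.Agent.DS Fermat.Agent.IntStr
open Fermat.Agent.Period (IsPrimitive exists_primitive_qParam_of_periodic
  IsPrimitive.exists_sub_eq_const IsPrimitive.comp_smul exists_conj_lower_left_eq_zero)

variable {D : ℕ} [NeZero D] {f : ℍ → ℂ}

/-! ### Primitives -/

theorem exists_prim_slash (hf : IsCF (Gamma1 D) 2 f) (δ : SL(2, ℤ)) :
    ∃ P : ℍ → ℂ, IsPrimitive P (f ∣[(2 : ℤ)] δ) ∧ Tendsto P atImInfty (𝓝 0) := by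
  have hD : (0 : ℝ) < D := by exact_mod_cast NeZero.pos D
  obtain ⟨Φ, hΦ, hΦ0, hprim⟩ := exists_primitive_qParam_of_periodic hD
    (hf.toIsMF.periodic_slash δ (conj_T_pow_mem_Gamma1 D δ)) (hf.toIsMF.holo_slash δ)
    (hf.zero_cusp δ)
  refine ⟨_, hprim, ?_⟩
  have hc : ContinuousAt Φ 0 :=
    (hΦ.differentiableAt (Metric.ball_mem_nhds 0 one_pos)).continuousAt
  have h1 := hc.tendsto.comp (qParam_tendsto_atImInfty hD)
  rwa [hΦ0] at h1

theorem exists_prim (hf : IsCF (Gamma1 D) 2 f) :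
    ∃ F : ℍ → ℂ, IsPrimitive F f ∧ ∀ δ : SL(2, ℤ), ∃ L : ℂ,
      Tendsto (fun τ : ℍ ↦ F (δ • τ)) atImInfty (𝓝 L) := by
  obtain ⟨F, hF, -⟩ := exists_prim_slash hf 1
  rw [SlashAction.slash_one] at hF
  refine ⟨F, hF, fun δ ↦ ?_⟩
  obtain ⟨P, hP, hP0⟩ := exists_prim_slash hf δ
  obtain ⟨c, hc⟩ := IsPrimitive.exists_sub_eq_const (hF.comp_smul δ) hP
  refine ⟨0 + c, ?_⟩
  have h1 := hP0.add_const c
  refine h1.congr fun τ ↦ ?_
  rw [← hc τ]
  ring

/-! ### Invariance under `GH D` -/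

theorem Gamma0_sq_le (D : ℕ) : Gamma0 (D ^ 2) ≤ Gamma0 D := Gamma0_mono (dvd_pow_self D two_ne_zero)

theorem slash_GH (hf : Inv1 D 2 f) {γ : SL(2, ℤ)} (hγ : γ ∈ GH D) : f ∣[(2 : ℤ)] γ = f := by
  have h0 : γ ∈ Gamma0 D := Gamma0_sq_le D hγ.1
  have hneg : f ∣[(2 : ℤ)] (-1 : SL(2, ℤ)) = f := by
    funext τ
    rw [ModularForm.SL_slash_apply]
    have e : (-1 : SL(2, ℤ)) • τ = τ := by
      rw [ModularGroup.SL_neg_smul, one_smul]
    rw [e]
    have e2 : denom (-1 : SL(2, ℤ)) τ = -1 := by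
      rw [ModularGroup.denom_apply]
      simp
    rw [e2]
    norm_num
  rcases hγ.2 with h | h
  · have h1 := hf.slash_eq h0 (one_mem (Gamma0 D)) (by simpa using h)
    rw [h1, SlashAction.slash_one]
  · have hm : (-1 : SL(2, ℤ)) ∈ Gamma0 D := by simp [Gamma0_mem]
    have h1 := hf.slash_eq h0 hm (by simpa using h)
    rw [h1, hneg]

/-! ### Period homomorphisms -/

/-- `φ` is the period homomorphism of `f` on `GH D`. -/
def IsPer (D : ℕ) (f : ℍ → ℂ) (φ : Additive (GH D) →+ ℂ) : Prop :=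
  ∃ F : ℍ → ℂ, IsPrimitive F f ∧ ∀ (γ : GH D) (τ : ℍ),
    F ((γ : SL(2, ℤ)) • τ) = φ (Additive.ofMul γ) + F τ

theorem IsPer.unique {φ φ' : Additive (GH D) →+ ℂ} (h : IsPer D f φ) (h' : IsPer D f φ') :
    φ = φ' := by
  obtain ⟨F, hF, hφ⟩ := h
  obtain ⟨F', hF', hφ'⟩ := h'
  obtain ⟨c, hc⟩ := IsPrimitive.exists_sub_eq_const hF hF'
  refine AddMonoidHom.ext fun γ' ↦ ?_
  obtain ⟨γ, rfl⟩ := Additive.ofMul.surjective γ'
  have h1 := hc ((γ : SL(2, ℤ)) • UpperHalfPlane.I)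
  have h2 := hc UpperHalfPlane.I
  rw [hφ, hφ'] at h1
  linear_combination h1 - h2

theorem IsPer.smul {φ : Additive (GH D) →+ ℂ} (h : IsPer D f φ) (c : ℂ) :
    IsPer D (c • f) (c • φ) := by
  obtain ⟨F, hF, hφ⟩ := h
  refine ⟨fun τ ↦ c * F τ, fun τ ↦ ?_, fun γ τ ↦ ?_⟩
  · exact (hF τ).const_mul c
  · change c * F _ = c * φ (Additive.ofMul γ) + c * F τ
    rw [hφ, mul_add]

theorem exists_isPer (hf : IsCF (Gamma1 D) 2 f) : ∃ φ : parH D ℂ ℂ, IsPer D f φ := by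
  obtain ⟨F, hF, hlim⟩ := exists_prim hf
  have hconst : ∀ γ : GH D, ∃ c : ℂ, ∀ τ : ℍ, F ((γ : SL(2, ℤ)) • τ) - F τ = c := by
    intro γ
    have h1 := hF.comp_smul (γ : SL(2, ℤ))
    rw [slash_GH hf.slash γ.2] at h1
    exact h1.exists_sub_eq_const hF
  choose c hc using hconst
  have hc' : ∀ (γ : GH D) (τ : ℍ), F ((γ : SL(2, ℤ)) • τ) = c γ + F τ := fun γ τ ↦ by
    rw [← hc γ τ]; ring
  let φ : Additive (GH D) →+ ℂ :=
    { toFun := fun γ ↦ c (Additive.toMul γ)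
      map_zero' := by
        rw [← hc _ UpperHalfPlane.I]
        simp
      map_add' := fun γ δ ↦ by
        have h1 := hc' (Additive.toMul γ * Additive.toMul δ) UpperHalfPlane.I
        rw [Subgroup.coe_mul, mul_smul, hc', hc'] at h1
        rw [toMul_add]
        linear_combination -h1 }
  have hφ : ∀ γ : GH D, φ (Additive.ofMul γ) = c γ := fun γ ↦ rfl
  refine ⟨⟨φ, fun γ hγ ↦ ?_⟩, F, hF, fun γ τ ↦ ?_⟩
  · obtain ⟨δ, hδ⟩ := exists_conj_lower_left_eq_zero (γ : SL(2, ℤ)) hγ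
    obtain ⟨L, hL⟩ := hlim δ
    set m : SL(2, ℤ) := δ⁻¹ * γ * δ with hm
    have hm' : Tendsto (fun w : ℍ ↦ m • w) atImInfty atImInfty := by
      have : ((m : GL (Fin 2) ℝ)) 1 0 = 0 := by
        simp only [Matrix.SpecialLinearGroup.coe_GL_coe_matrix]
        simp [hδ]
      exact tendsto_smul_atImInfty this
    have h5 : Tendsto (fun w : ℍ ↦ F (δ • (m • w)) - F (δ • w)) atImInfty
        (𝓝 (L - L)) := (hL.comp hm').sub hL
    have h6 : (fun w : ℍ ↦ F (δ • (m • w)) - F (δ • w)) = fun _ ↦ c γ := by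
      funext w
      rw [← hc γ (δ • w)]
      congr 2
      rw [hm, ← mul_smul, ← mul_smul]
      congr 1
      group
    rw [h6, sub_self] at h5
    rw [hφ]
    exact tendsto_nhds_unique tendsto_const_nhds h5
  · rw [hφ]
    exact hc' γ τ

/-- Injectivity of the period map. -/
theorem eq_zero_of_isPer_zero (hf : IsCF (Gamma1 D) 2 f) (h : IsPer D f 0) : f = 0 := by
  obtain ⟨F, hF, hinv⟩ := h
  obtain ⟨F', hF', hlim⟩ := exists_prim hf
  obtain ⟨c, hc⟩ := IsPrimitive.exists_sub_eq_const hF hF'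
  have hslash : ∀ (g : ℍ → ℂ) (γ : SL(2, ℤ)), g ∣[(0 : ℤ)] γ = fun τ ↦ g (γ • τ) := by
    intro g γ
    funext τ
    rw [ModularForm.SL_slash_apply]
    simp
  have hmf : IsMF (GH D) 0 F := by
    refine ⟨?_, ?_, ?_⟩
    · rw [UpperHalfPlane.mdifferentiable_iff]
      intro z hz
      exact (hF ⟨z, hz⟩).differentiableAt.differentiableWithinAt
    · intro γ hγ
      rw [hslash]
      funext τ
      have := hinv ⟨γ, hγ⟩ τ
      simpa using this
    · intro γ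
      rw [hslash]
      obtain ⟨L, hL⟩ := hlim γ
      have h1 : Tendsto (fun τ : ℍ ↦ F (γ • τ)) atImInfty (𝓝 (L + c)) := by
        refine (hL.add_const c).congr fun τ ↦ ?_
        rw [← hc (γ • τ)]
        ring
      exact h1.isBigO_one ℝ
  obtain ⟨c', hc'⟩ := ModularForm.eq_const_of_weight_zero hmf.toModularForm
  have hFc : F = fun _ ↦ c' := hc'
  funext τ
  have h1 := hF τ
  rw [hFc] at h1
  exact h1.unique (hasDerivAt_const (τ : ℂ) c')

theorem IsPer.dia {φ : Additive (GH D) →+ ℂ} (h : IsPer D f φ) (u : (ZMod (D ^ 2))ˣ) :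
    IsPer D (f ∣[(2 : ℤ)] gam u) (diaHom D ℂ ℂ u φ) := by
  obtain ⟨F, hF, hφ⟩ := h
  refine ⟨_, hF.comp_smul (gam u), fun γ τ ↦ ?_⟩
  rw [diaHom_apply]
  have h1 := hφ (conjH u γ) (gam u • τ)
  rw [coe_conjH] at h1
  rw [← h1]
  congr 1
  rw [← mul_smul, ← mul_smul]
  congr 1
  group

theorem det_rH_pos (u : (ZMod (D ^ 2))ˣ) {p : ℕ} (hp : p ≠ 0) (i : Option (Fin p)) :
    0 < ((rH u p i).det : ℝ) := by
  rw [Matrix.GeneralLinearGroup.val_det_apply, rH_apply u hp]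
  have h1 : ((MH u p i).map (Int.cast : ℤ → ℝ)).det = ((MH u p i).det : ℝ) :=
    (Int.cast_det (MH u p i)).symm
  rw [h1, det_MH]
  have := Nat.pos_of_ne_zero hp
  exact_mod_cast this

theorem IsPer.hecke {φ : Additive (GH D) →+ ℂ} (h : IsPer D f φ) {p : ℕ} (hp : p.Prime)
    (hpN : ¬ p ∣ D ^ 2) :
    IsPer D (heckeOp 2 hp hpN f) ((hrepsH hp hpN).op φ) := by
  obtain ⟨F, hF, hφ⟩ := h
  refine ⟨∑ i : Option (Fin p), fun τ ↦ F (rH (up hp hpN) p i • τ),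
    Top.IsPrimitive.sum _ fun i _ ↦ Top.IsPrimitive.comp_smul_GL hF _
      (det_rH_pos _ hp.ne_zero i), fun γ τ ↦ ?_⟩
  have h2 := (hrepsH hp hpN).sum_smul_smul F φ (fun γ x ↦ hφ γ x) γ τ
  simp only [Finset.sum_apply]
  exact h2

/-! ### Comparison of levels -/

theorem not_dvd_of_sq {p : ℕ} (hpN : ¬ p ∣ D ^ 2) : ¬ p ∣ D :=
  fun h ↦ hpN (h.trans (dvd_pow_self D two_ne_zero))

theorem dia_sq (hf : Inv1 D 2 f) (u : (ZMod (D ^ 2))ˣ) :
    f ∣[(2 : ℤ)] gam u = dia 2 (ZMod.unitsMap (dvd_pow_self D two_ne_zero) u) f := by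
  rw [dia_eq hf _ (Gamma0_sq_le D (gam_mem u))]
  rw [zmodD_gam]
  rfl

theorem heckeOp_sq (hf : Inv1 D 2 f) {p : ℕ} (hp : p.Prime) (hpN : ¬ p ∣ D ^ 2) :
    heckeOp 2 hp hpN f = heckeOp 2 hp (not_dvd_of_sq hpN) f := by
  rw [heckeOp_eq, heckeOp_eq]
  congr 3
  change f ∣[(2 : ℤ)] gam (up hp hpN) = _
  rw [dia_sq hf]
  congr 1
  ext
  rw [ZMod.unitsMap_val, val_up, val_up, ZMod.cast_natCast (dvd_pow_self D two_ne_zero)]

/-! ### The natural operators -/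

/-- the transfer operators as natural operators -/
noncomputable def natT {p : ℕ} (hp : p.Prime) (hpN : ¬ p ∣ D ^ 2) : NatOp (GH D) where
  op := (hrepsH hp hpN).op
  nat g φ := (hrepsH hp hpN).op_comp_left g φ

/-- the diamond operators as natural operators -/
noncomputable def natD (u : (ZMod (D ^ 2))ˣ) : NatOp (GH D) where
  op := AddMonoidHom.compHom' (MonoidHom.toAdditive (conjH u))
  nat _ _ := rfl

/-- all operators -/
noncomputable def natO (D : ℕ) [NeZero D] :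
    {p : Nat.Primes // ¬ (p : ℕ) ∣ D ^ 2} ⊕ (ZMod (D ^ 2))ˣ → NatOp (GH D)
  | Sum.inl p => natT p.1.2 p.2
  | Sum.inr u => natD u

/-- all operators on the parabolic homomorphisms -/
noncomputable def opO (D : ℕ) [NeZero D] (F : Type) [Field F] :
    {p : Nat.Primes // ¬ (p : ℕ) ∣ D ^ 2} ⊕ (ZMod (D ^ 2))ˣ → Module.End F (parH D F F)
  | Sum.inl p => TpH D F F p.1.2 p.2
  | Sum.inr u => diaH D F F u

theorem coe_opO (F : Type) [Field F]
    (j : {p : Nat.Primes // ¬ (p : ℕ) ∣ D ^ 2} ⊕ (ZMod (D ^ 2))ˣ) (ψ : parH D F F) :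
    (opO D F j ψ : Additive (GH D) →+ F) = (natO D j).op ψ := by
  rcases j with p | u
  · rfl
  · rfl

/-- the corresponding elements of the Hecke ring -/
noncomputable def tO (D : ℕ) [NeZero D] :
    {p : Nat.Primes // ¬ (p : ℕ) ∣ D ^ 2} ⊕ (ZMod (D ^ 2))ˣ → heckeRing D 2
  | Sum.inl p => heckeGen D 2 (Sum.inl p.1)
  | Sum.inr u => heckeGen D 2 (Sum.inr (ZMod.unitsMap (dvd_pow_self D two_ne_zero) u))

/-- **Eigenvectors modulo `ℓ`.** -/
theorem exists_eigen (D l : ℕ) [NeZero D] [Fact l.Prime] (hD : 3 ≤ D) (k : Type) [Field k]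
    [Algebra (ZMod l) k] (θ : heckeRing D 2 →+* k) :
    ∃ x : TensorProduct (ZMod l) k (parH D (ZMod l) (ZMod l)), x ≠ 0 ∧
      (∀ (p : ℕ) (hp : p.Prime) (hpN : ¬ p ∣ D ^ 2),
        (TpH D (ZMod l) (ZMod l) hp hpN).baseChange k x =
          θ (heckeGen D 2 (Sum.inl ⟨p, hp⟩)) • x) ∧
      ∀ u : (ZMod (D ^ 2))ˣ, (diaH D (ZMod l) (ZMod l) u).baseChange k x =
        θ (heckeGen D 2 (Sum.inr (ZMod.unitsMap (dvd_pow_self D two_ne_zero) u))) • x := by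
  haveI := (nice_Gamma1 hD).finiteDimensional 2
  haveI : FiniteDimensional ℂ (CF (Gamma1 D) 2) :=
    Submodule.finiteDimensional_of_le (CF_le_MF (G := Gamma1 D) (k := 2))
  obtain ⟨Θ, v, hv0, hv, hker⟩ := exists_eigenvector_lift (opG D 2) commute_opG θ
  obtain ⟨φ, hφ⟩ := exists_isPer v.2
  have hφ0 : (φ : Additive (GH D) →+ ℂ) ≠ 0 := by
    intro h0
    rw [h0] at hφ
    exact hv0 (Subtype.ext (eq_zero_of_isPer_zero v.2 hφ))
  have hop : ∀ j (γ : Additive (GH D)),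
      (natO D j).op (φ : Additive (GH D) →+ ℂ) γ = Θ (tO D j) * (φ : Additive (GH D) →+ ℂ) γ := by
    rintro (p | u) γ
    · have h1 := hφ.hecke p.1.2 p.2
      rw [heckeOp_sq v.2.slash p.1.2 p.2] at h1
      have h2 := hv (heckeGen D 2 (Sum.inl p.1))
      have h3 : heckeOp 2 p.1.2 (not_dvd_of_sq p.2) (v : ℍ → ℂ) =
          Θ (heckeGen D 2 (Sum.inl p.1)) • (v : ℍ → ℂ) := by
        have h4 := congrArg (Subtype.val) h2
        change ((opG D 2 (Sum.inl p.1)) v : ℍ → ℂ) = _ at h4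
        rw [opG_inl p.1 (not_dvd_of_sq p.2)] at h4
        exact h4
      rw [h3] at h1
      exact DFunLike.congr_fun (h1.unique (hφ.smul _)) γ
    · have h1 := hφ.dia u
      rw [dia_sq v.2.slash] at h1
      have h2 := hv (heckeGen D 2 (Sum.inr (ZMod.unitsMap (dvd_pow_self D two_ne_zero) u)))
      have h3 : dia 2 (ZMod.unitsMap (dvd_pow_self D two_ne_zero) u) (v : ℍ → ℂ) =
          Θ (heckeGen D 2 (Sum.inr (ZMod.unitsMap (dvd_pow_self D two_ne_zero) u))) •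
            (v : ℍ → ℂ) := congrArg (Subtype.val) h2
      rw [h3] at h1
      exact DFunLike.congr_fun (h1.unique (hφ.smul _)) γ
  obtain ⟨φ', hφ'0, hφ', hφ'Z⟩ := exists_reduction' (natO D)
    (algebraMap ℤ (heckeRing D 2) (-1))
    (by rw [← map_one (algebraMap ℤ (heckeRing D 2)), ← map_add]; simp) Θ θ hker (tO D)
    (φ : Additive (GH D) →+ ℂ) hφ0 hop
    {γ | ((γ : SL(2, ℤ)) : Matrix (Fin 2) (Fin 2) ℤ).trace ^ 2 = 4} (fun z hz ↦ φ.2 z hz)
  obtain ⟨x, hx0, hx⟩ := exists_tensor_eigen (F := ZMod l) (k := k)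
    (parH D (ZMod l) (ZMod l))
    {γ | ((γ : SL(2, ℤ)) : Matrix (Fin 2) (Fin 2) ℤ).trace ^ 2 = 4}
    (fun ψ hψ ↦ fun γ hγ ↦ hψ γ hγ) (natO D) (opO D (ZMod l)) (coe_opO (ZMod l)) φ' hφ'0 hφ'Z
    (fun j ↦ θ (tO D j)) hφ'
  exact ⟨x, hx0, fun p hp hpN ↦ hx (Sum.inl ⟨⟨p, hp⟩, hpN⟩), fun u ↦ hx (Sum.inr u)⟩

end Fermat.Agent.Neb
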