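import Fermat.Agent.Neb.LinAlg
import Fermat.Agent.Neb.Periods
import Fermat.Agent.Neb.HeckeK
import Fermat.Agent.Neb.GaussGen
import Fermat.Agent.Top.Support
import Fermat.Agent.DS.Target

/-!
# The Galois representation on the Kummer group and the weight two input
-/

set_option autoImplicit false
set_option linter.unusedSectionVars false
set_option linter.style.haveILetI false

noncomputable section

open AlgebraicCurve IntermediateField ModularCurve Module CongruenceSubgroup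

namespace Fermat.Agent.Neb

open Fermat.Agent.Red Fermat.Agent.ModFn Fermat.Agent.FF Fermat.Agent.Top Fermat.Agent.DS

local notation "Qb" => AlgebraicClosure ℚ
local notation "Γℚ" => (AlgebraicClosure ℚ ≃ₐ[ℚ] AlgebraicClosure ℚ)

/-! ### Change of the root of unity -/

theorem IsTwNorm.congr_root {L : Type*} [Field L] {ℓ : ℕ} [NeZero ℓ] {ζ ξ : Lˣ}
    (hζ : IsPrimitiveRoot ζ ℓ) (hξ : IsPrimitiveRoot ξ ℓ) {u v u' : LaurentSeries L}
    (h : IsTwNorm ℓ ζ u v u') : IsTwNorm ℓ ξ u v u' := by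
  unfold IsTwNorm at *
  rw [h, prod_twist_eq (NeZero.pos ℓ) hζ hξ]

/-! ### Interfaces -/

section

variable (D l : ℕ) [NeZero D] (hD : 3 ≤ D)

/-- the Kummer group of `X_H` -/
abbrev KumH : Type := Additive (KummerGroup Qb (FK Qb (datumH D hD)) l)

/-- Compatibility of an isomorphism with the operators. -/
structure IsVEquiv [Algebra Qb ℂ] [Fact l.Prime]
    (Φ : parH D (ZMod l) (ZMod l) ≃+ KumH D l hD) : Prop where
  dia : ∀ (u : (ZMod (D ^ 2))ˣ) (φ : parH D (ZMod l) (ZMod l))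
    (w : kummerSubgroup Qb (FK Qb (datumH D hD)) l), Φ φ = Additive.ofMul (kmk w) →
    ∃ v : kummerSubgroup Qb (FK Qb (datumH D hD)) l,
      (((v : (FK Qb (datumH D hD))ˣ)) : FK Qb (datumH D hD)) =
        diaK Qb hD u (((w : (FK Qb (datumH D hD))ˣ)) : FK Qb (datumH D hD)) ∧
      Φ (diaH D (ZMod l) (ZMod l) u φ) = Additive.ofMul (kmk v)
  hecke : ∀ (p : ℕ) (hp : p.Prime) (hpN : ¬ p ∣ D ^ 2) [NeZero p] (ζ : Qbˣ),
    Units.map (algebraMap Qb ℂ).toMonoidHom ζ = zetaU p →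
    ∀ (φ : parH D (ZMod l) (ZMod l)) (w : kummerSubgroup Qb (FK Qb (datumH D hD)) l),
    Φ φ = Additive.ofMul (kmk w) →
    ∃ w' : kummerSubgroup Qb (FK Qb (datumH D hD)) l,
      IsTwNorm p ζ ((((w : (FK Qb (datumH D hD))ˣ)) : FK Qb (datumH D hD)) : LaurentSeries Qb)
        ((diaK Qb hD (up hp hpN) (((w : (FK Qb (datumH D hD))ˣ)) : FK Qb (datumH D hD)) :
          FK Qb (datumH D hD)) : LaurentSeries Qb)
        ((((w' : (FK Qb (datumH D hD))ˣ)) : FK Qb (datumH D hD)) : LaurentSeries Qb) ∧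
      Φ (TpH D (ZMod l) (ZMod l) hp hpN φ) = Additive.ofMul (kmk w')

/-- Good reduction at `p`. -/
def IsGoodAt (p : ℕ) : Prop := ∀ (hp : p.Prime) (A : ValuationSubring Qb) (hA : A.LiesOverPrime p)
  (k : Type) [Field k] (π : A →+* k) (hπ : ∀ a : A, π a = 0 ↔ ¬ IsUnit a)
  (hs : Function.Surjective π), ∃ x xb B, GoodRed.GoodCoord (gaussConstRedFull
    (gaussField_F₀ (datumH D hD) π hp hA) hπ hs) x xb B

end

section Main

variable {D l : ℕ} [NeZero D] {hD : 3 ≤ D} [Fact l.Prime] [Algebra Qb ℂ]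
  {Φ : parH D (ZMod l) (ZMod l) ≃+ KumH D l hD}

/-- the Galois action on parabolic homomorphisms -/
def rhoV (Φ : parH D (ZMod l) (ZMod l) ≃+ KumH D l hD) :
    Γℚ →* Module.End (ZMod l) (parH D (ZMod l) (ZMod l)) where
  toFun σ := AddMonoidHom.toZModLinearMap l
    ((Φ.symm : KumH D l hD →+ parH D (ZMod l) (ZMod l)).comp
      ((kumGal (F₀ (datumH D hD)) l σ).comp (Φ : parH D (ZMod l) (ZMod l) →+ KumH D l hD)))
  map_one' := by
    refine LinearMap.ext fun φ ↦ ?_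
    change Φ.symm (kumGal (F₀ (datumH D hD)) l 1 (Φ φ)) = φ
    rw [map_one]
    exact Φ.symm_apply_apply φ
  map_mul' σ τ := by
    refine LinearMap.ext fun φ ↦ ?_
    change Φ.symm (kumGal (F₀ (datumH D hD)) l (σ * τ) (Φ φ)) =
      Φ.symm (kumGal (F₀ (datumH D hD)) l σ (Φ (Φ.symm (kumGal (F₀ (datumH D hD)) l τ (Φ φ)))))
    rw [map_mul, Φ.apply_symm_apply]
    rfl

theorem rhoV_apply (σ : Γℚ) (φ : parH D (ZMod l) (ZMod l)) :
    rhoV Φ σ φ = Φ.symm (kumGal (F₀ (datumH D hD)) l σ (Φ φ)) := rfl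

theorem phi_rhoV (σ : Γℚ) (φ : parH D (ZMod l) (ZMod l)) :
    Φ (rhoV Φ σ φ) = kumGal (F₀ (datumH D hD)) l σ (Φ φ) := by
  rw [rhoV_apply, Φ.apply_symm_apply]

theorem exists_kmk (φ : parH D (ZMod l) (ZMod l)) :
    ∃ w : kummerSubgroup Qb (FK Qb (datumH D hD)) l, Φ φ = Additive.ofMul (kmk w) := by
  obtain ⟨w, hw⟩ := kmk_surjective (Additive.toMul (Φ φ))
  exact ⟨w, by rw [hw]; rfl⟩

theorem phi_rhoV_kmk (σ : Γℚ) {φ : parH D (ZMod l) (ZMod l)}
    {w : kummerSubgroup Qb (FK Qb (datumH D hD)) l} (hw : Φ φ = Additive.ofMul (kmk w)) :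
    Φ (rhoV Φ σ φ) =
      Additive.ofMul (kmk (kumSubAct (arithmeticGalois (F₀ (datumH D hD)) σ) l w)) := by
  rw [phi_rhoV, hw]
  rfl

theorem kumSub_ext {w w' : kummerSubgroup Qb (FK Qb (datumH D hD)) l}
    (h : (((w : (FK Qb (datumH D hD))ˣ)) : FK Qb (datumH D hD)) =
      (((w' : (FK Qb (datumH D hD))ˣ)) : FK Qb (datumH D hD))) : w = w' :=
  Subtype.ext (Units.ext h)

/-- the Galois action commutes with the diamonds -/
theorem rhoV_dia (hΦ : IsVEquiv D l hD Φ) (σ : Γℚ) (u : (ZMod (D ^ 2))ˣ) :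
    rhoV Φ σ * diaH D (ZMod l) (ZMod l) u = diaH D (ZMod l) (ZMod l) u * rhoV Φ σ := by
  refine LinearMap.ext fun φ ↦ ?_
  rw [Module.End.mul_apply, Module.End.mul_apply]
  apply Φ.injective
  obtain ⟨w, hw⟩ := exists_kmk (Φ := Φ) φ
  obtain ⟨v, hv, hv'⟩ := hΦ.dia u φ w hw
  obtain ⟨v', hv2, hv2'⟩ := hΦ.dia u _ _ (phi_rhoV_kmk σ hw)
  rw [hv2', phi_rhoV_kmk σ hv']
  congr 2
  apply kumSub_ext
  rw [coe_kumSubAct, hv, hv2, coe_kumSubAct, smul_diaK]

/-- the Galois action commutes with the Hecke operators -/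
theorem rhoV_hecke (hΦ : IsVEquiv D l hD Φ) (σ : Γℚ) {p : ℕ} (hp : p.Prime)
    (hpN : ¬ p ∣ D ^ 2) :
    rhoV Φ σ * TpH D (ZMod l) (ZMod l) hp hpN = TpH D (ZMod l) (ZMod l) hp hpN * rhoV Φ σ := by
  haveI : NeZero p := ⟨hp.ne_zero⟩
  obtain ⟨ζ, hζ, hord⟩ := exists_zetaK (K := Qb) p
  have hprim : IsPrimitiveRoot ζ p := by
    rw [← hord]
    exact IsPrimitiveRoot.orderOf ζ
  refine LinearMap.ext fun φ ↦ ?_
  rw [Module.End.mul_apply, Module.End.mul_apply]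
  apply Φ.injective
  obtain ⟨w, hw⟩ := exists_kmk (Φ := Φ) φ
  obtain ⟨v, hv, hv'⟩ := hΦ.hecke p hp hpN ζ hζ φ w hw
  obtain ⟨v', hv2, hv2'⟩ := hΦ.hecke p hp hpN ζ hζ _ _ (phi_rhoV_kmk σ hw)
  rw [hv2', phi_rhoV_kmk σ hv']
  congr 2
  apply kumSub_ext
  apply Subtype.ext
  have h1 := hv.map (σ : Qb →+* Qb)
  have hprim' : IsPrimitiveRoot (Units.map (σ : Qb →+* Qb).toMonoidHom ζ) p :=
    hprim.map_of_injective (f := Units.map (σ : Qb →+* Qb).toMonoidHom)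
      (Units.map_injective (σ : Qb →+* Qb).injective)
  have h2 := h1.congr_root hprim' hprim
  rw [coe_kumSubAct] at hv2 ⊢
  rw [← smul_diaK, coe_arithmeticGalois_smul, coe_arithmeticGalois_smul] at hv2
  rw [coe_arithmeticGalois_smul]
  exact h2.unique hv2

variable (D l) in
/-- the Hecke operators, indexed by natural numbers -/
def TN (p : ℕ) : Module.End (ZMod l) (parH D (ZMod l) (ZMod l)) :=
  if h : p.Prime ∧ ¬ p ∣ D ^ 2 then TpH D (ZMod l) (ZMod l) h.1 h.2 else 0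

variable (D l) in
/-- the diamond operators, indexed by natural numbers -/
def dN (p : ℕ) : Module.End (ZMod l) (parH D (ZMod l) (ZMod l)) :=
  if h : p.Prime ∧ ¬ p ∣ D ^ 2 then diaH D (ZMod l) (ZMod l) (up h.1 h.2) else 0

theorem TN_eq {p : ℕ} (hp : p.Prime) (hpN : ¬ p ∣ D ^ 2) :
    TN D l p = TpH D (ZMod l) (ZMod l) hp hpN := by
  rw [TN, dif_pos ⟨hp, hpN⟩]

theorem dN_eq {p : ℕ} (hp : p.Prime) (hpN : ¬ p ∣ D ^ 2) :
    dN D l p = diaH D (ZMod l) (ZMod l) (up hp hpN) := by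
  rw [dN, dif_pos ⟨hp, hpN⟩]

theorem not_dvd_sq {p : ℕ} (hp : p.Prime) (h : ¬ p ∣ D * l) : ¬ p ∣ D ^ 2 ∧ p ≠ l := by
  constructor
  · intro h1
    exact h ((hp.dvd_of_dvd_pow h1).mul_right l)
  · rintro rfl
    exact h (dvd_mul_left _ _)

theorem rhoV_eq_one {σ : Γℚ} (h : kumGal (F₀ (datumH D hD)) l σ = 1) : rhoV Φ σ = 1 := by
  refine LinearMap.ext fun φ ↦ ?_
  rw [rhoV_apply, h]
  exact Φ.symm_apply_apply φ

set_option maxHeartbeats 2000000 in
theorem rhoV_quadratic (hΦ : IsVEquiv D l hD Φ) {p : ℕ} (hp : p.Prime) (hpB : ¬ p ∣ D * l)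
    (hgood : IsGoodAt D hD p) {A : ValuationSubring Qb} (hA : A.LiesOverPrime p) {σ : Γℚ}
    (hσ : A.IsFrobeniusAt σ p) (φ : parH D (ZMod l) (ZMod l)) :
    rhoV Φ σ (rhoV Φ σ φ) - TN D l p (rhoV Φ σ φ) + p • dN D l p φ = 0 := by
  haveI : NeZero p := ⟨hp.ne_zero⟩
  haveI : Fact p.Prime := ⟨hp⟩
  obtain ⟨hpN, hpl⟩ := not_dvd_sq hp hpB
  have hπ : ∀ a : A, IsLocalRing.residue A a = 0 ↔ ¬ IsUnit a := fun a ↦ by
    rw [IsLocalRing.residue_eq_zero_iff, IsLocalRing.mem_maximalIdeal, mem_nonunits_iff]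
  haveI : CharP (IsLocalRing.ResidueField A) p := Red.charP_of_liesOverPrime hA hπ
  obtain ⟨x, xb, B, hc⟩ := hgood hp A hA (IsLocalRing.ResidueField A) (IsLocalRing.residue A) hπ
    IsLocalRing.residue_surjective
  have hm : ((l : ℕ) : IsLocalRing.ResidueField A) ≠ 0 := by
    rw [Ne, CharP.cast_eq_zero_iff (IsLocalRing.ResidueField A) p]
    exact fun h ↦ hpl ((Nat.prime_dvd_prime_iff_eq hp (Fact.out : l.Prime)).mp h)
  obtain ⟨ζ, hζ, hord⟩ := exists_zetaK (K := Qb) p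
  have hζ1 : ζ ^ p = 1 := by rw [← hord]; exact pow_orderOf_eq_one ζ
  have key := kumGal_quadratic hc hm hσ hζ1
    (fun y ↦ Φ (TpH D (ZMod l) (ZMod l) hp hpN (Φ.symm y)))
    (fun y ↦ Φ (diaH D (ZMod l) (ZMod l) (up hp hpN) (Φ.symm y)))
    (fun u ↦ by
      have h1 : Φ (Φ.symm (Additive.ofMul (kmk u))) = Additive.ofMul (kmk u) :=
        Φ.apply_symm_apply _
      obtain ⟨v, hv, hv'⟩ := hΦ.dia (up hp hpN) _ _ h1
      obtain ⟨w, hw, hw'⟩ := hΦ.hecke p hp hpN ζ hζ _ _ h1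
      refine ⟨v, w, hv', hw', ?_⟩
      rw [hv]
      exact hw)
    (fun y ↦ by
      have h1 := LinearMap.congr_fun (rhoV_dia hΦ σ (up hp hpN)) (Φ.symm y)
      rw [Module.End.mul_apply, Module.End.mul_apply, rhoV_apply, rhoV_apply,
        Φ.apply_symm_apply] at h1
      have h2 := congrArg Φ h1
      rw [Φ.apply_symm_apply] at h2
      exact h2.symm)
    (Φ φ)
  apply Φ.injective
  rw [map_add, map_sub, map_nsmul, map_zero, phi_rhoV, phi_rhoV, TN_eq hp hpN, dN_eq hp hpN,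
    rhoV_apply]
  rw [Φ.symm_apply_apply] at key
  exact key

/-- **Eichler-Shimura data.** -/
theorem isNebES [Finite (KummerGroup Qb (FK Qb (datumH D hD)) l)] (hΦ : IsVEquiv D l hD Φ)
    (hgood : ∀ p : ℕ, p.Prime → ¬ p ∣ D ^ 2 → IsGoodAt D hD p) :
    IsNebES l (D * l) (rhoV Φ) (TN D l) (dN D l) where
  finite_level := by
    obtain ⟨L, hL, h⟩ := kumGal_finite_level (F₀ := F₀ (datumH D hD)) l
    exact ⟨L, hL, fun σ hσ ↦ rhoV_eq_one (h σ hσ)⟩
  comm σ p hp hpB := by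
    rw [TN_eq hp (not_dvd_sq hp hpB).1]
    exact rhoV_hecke hΦ σ hp _
  comm' σ p hp hpB := by
    rw [dN_eq hp (not_dvd_sq hp hpB).1]
    exact rhoV_dia hΦ σ _
  unram p hp hpB A hA σ hσ := by
    haveI : Fact p.Prime := ⟨hp⟩
    obtain ⟨hpN, hpl⟩ := not_dvd_sq hp hpB
    have hπ : ∀ a : A, IsLocalRing.residue A a = 0 ↔ ¬ IsUnit a := fun a ↦ by
      rw [IsLocalRing.residue_eq_zero_iff, IsLocalRing.mem_maximalIdeal, mem_nonunits_iff]
    haveI : CharP (IsLocalRing.ResidueField A) p := Red.charP_of_liesOverPrime hA hπ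
    obtain ⟨x, xb, B, hc⟩ := hgood p hp hpN hp A hA (IsLocalRing.ResidueField A)
      (IsLocalRing.residue A) hπ IsLocalRing.residue_surjective
    have hm : ((l : ℕ) : IsLocalRing.ResidueField A) ≠ 0 := by
      rw [Ne, CharP.cast_eq_zero_iff (IsLocalRing.ResidueField A) p]
      exact fun h ↦ hpl ((Nat.prime_dvd_prime_iff_eq hp (Fact.out : l.Prime)).mp h)
    exact rhoV_eq_one (kumGal_inertia hc hm hσ)
  frob p hp hpB A hA σ hσ := by
    refine LinearMap.ext fun φ ↦ ?_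
    have h1 := rhoV_quadratic hΦ hp hpB (hgood p hp (not_dvd_sq hp hpB).1) hA hσ φ
    rw [LinearMap.add_apply, LinearMap.sub_apply, Module.End.mul_apply, Module.End.mul_apply,
      LinearMap.smul_apply, Nat.cast_smul_eq_nsmul]
    exact h1

end Main

end Fermat.Agent.Neb
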