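import Mathlib
import Fermat.Agent.Neb.HeckeFormH
import Fermat.Agent.Neb.KummerSurj

/-!
# Diamond and Hecke operators on the complex Kummer group and on characters
-/

set_option autoImplicit false
set_option linter.unusedSectionVars false
set_option linter.style.haveILetI false

noncomputable section

namespace Fermat.Agent.Neb

open UpperHalfPlane hiding I
open ModularForm Filter Topology Fermat.Agent.ModFn Fermat.Agent.Support
open ModularCurve Fermat.Agent.FF AlgebraicCurve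
open Fermat.Agent.Top Fermat.Agent.DS Matrix.SpecialLinearGroup
open scoped MatrixGroups Manifold

variable {D : ℕ} [NeZero D] {hD : 3 ≤ D} {m p : ℕ}

/-! ### Operators on characters -/

/-- the diamond operators on characters -/
def chiDia (hD : 3 ≤ D) (u : (ZMod (D ^ 2))ˣ) (χ : (datumH D hD).Γ →* ℂˣ) :
    (datumH D hD).Γ →* ℂˣ := MonoidHom.comp (M := GH D) χ (conjH u)

theorem chiDia_apply (u : (ZMod (D ^ 2))ˣ) (χ : (datumH D hD).Γ →* ℂˣ) (γ : GH D) :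
    chiDia hD u χ γ = χ (conjH u γ) := rfl

theorem pow_apply_eq_one {Γ : Type*} [Group Γ] {χ : Γ →* ℂˣ} (h : χ ^ m = 1) (γ : Γ) :
    χ γ ^ m = 1 := by
  rw [← MonoidHom.pow_apply, h, MonoidHom.one_apply]

theorem pow_eq_one_of {Γ : Type*} [Group Γ] {χ : Γ →* ℂˣ} (h : ∀ γ, χ γ ^ m = 1) : χ ^ m = 1 := by
  apply MonoidHom.ext
  intro γ
  rw [MonoidHom.pow_apply, h, MonoidHom.one_apply]

theorem chiDia_mem (u : (ZMod (D ^ 2))ˣ) {χ : (datumH D hD).Γ →* ℂˣ}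
    (hχ : χ ∈ admSub (datumH D hD) m) : chiDia hD u χ ∈ admSub (datumH D hD) m := by
  refine ⟨fun γ hγ => ?_, pow_eq_one_of fun γ => pow_apply_eq_one hχ.2 _⟩
  exact hχ.1 (conjH u γ) (by
    have := trace_conjH u γ
    change ((conjH u γ : SL(2, ℤ)) : Matrix (Fin 2) (Fin 2) ℤ).trace ^ 2 = 4
    rw [this]
    exact hγ)

/-- the Hecke operators on characters -/
def chiT (hD : 3 ≤ D) (hp : p.Prime) (hpN : ¬ p ∣ D ^ 2) (χ : (datumH D hD).Γ →* ℂˣ) :
    (datumH D hD).Γ →* ℂˣ := (hrepsH hp hpN).opMul χ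

theorem chiT_apply (hp : p.Prime) (hpN : ¬ p ∣ D ^ 2) (χ : (datumH D hD).Γ →* ℂˣ) (γ : GH D) :
    chiT hD hp hpN χ γ = ∏ i, χ ((hrepsH hp hpN).c γ i) := rfl

theorem chiT_mem (hp : p.Prime) (hpN : ¬ p ∣ D ^ 2) {χ : (datumH D hD).Γ →* ℂˣ}
    (hχ : χ ∈ admSub (datumH D hD) m) : chiT hD hp hpN χ ∈ admSub (datumH D hD) m := by
  refine ⟨fun γ hγ => ?_, pow_eq_one_of fun γ => ?_⟩
  · have h1 := isParabolicHom_op (A := Additive ℂˣ) hp hpN
      (φ := MonoidHom.toAdditive (α := GH D) χ) (fun γ hγ => hχ.1 γ hγ) γ hγ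
    exact h1
  · have h2 : ∀ γ : GH D, (∏ i, χ ((hrepsH hp hpN).c γ i)) ^ m = 1 := by
      intro γ
      rw [← Finset.prod_pow]
      exact Finset.prod_eq_one fun i _ => pow_apply_eq_one hχ.2 _
    exact h2 γ

/-! ### Diamonds on forms and classes -/

theorem isCForm_dia (u : (ZMod (D ^ 2))ˣ) {χ : (datumH D hD).Γ →* ℂˣ} {V : ℍ → ℂ}
    (hV : IsCForm (datumH D hD) χ V) :
    IsCForm (datumH D hD) (chiDia hD u χ) (fun z => V (gam u • z)) where
  inv γ z := by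
    have h1 := hV.inv (conjH u γ) (gam u • z)
    have h2 : ((conjH u γ : GH D) : SL(2, ℤ)) • gam u • z = gam u • (γ : SL(2, ℤ)) • z := by
      rw [← mul_smul, ← mul_smul]
      congr 1
      change gam u * (γ : SL(2, ℤ)) * (gam u)⁻¹ * gam u = _
      rw [inv_mul_cancel_right]
    have h3 : V (((conjH u γ : GH D) : SL(2, ℤ)) • gam u • z) =
      χ (conjH u γ) * V (gam u • z) := h1
    rw [h2] at h3
    exact h3
  exp δ := by
    obtain ⟨φ, hφ⟩ := hV.exp (gam u * δ)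
    exact ⟨φ, hφ.congr (funext fun z => by rw [mul_smul]) rfl⟩

theorem dia_ne_zero (u : (ZMod (D ^ 2))ˣ) {V : ℍ → ℂ} (h0 : V ≠ 0) :
    (fun z => V (gam u • z)) ≠ 0 := by
  intro h
  apply h0
  funext z
  have := congrFun h ((gam u)⁻¹ • z)
  simpa using this

/-- the diamond operator on units -/
def diaU (hD : 3 ≤ D) (u : (ZMod (D ^ 2))ˣ) : (FC (datumH D hD))ˣ →* (FC (datumH D hD))ˣ :=
  Units.map (diaF hD u : FC (datumH D hD) →* FC (datumH D hD))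

theorem coe_diaU (u : (ZMod (D ^ 2))ˣ) (f : (FC (datumH D hD))ˣ) :
    (diaU hD u f : FC (datumH D hD)) = diaF hD u f := rfl

theorem diaU_powU (u : (ZMod (D ^ 2))ˣ) {χ : (datumH D hD).Γ →* ℂˣ} {V : ℍ → ℂ}
    (hV : IsCForm (datumH D hD) χ V) (hχ : χ ^ m = 1) (hχ' : chiDia hD u χ ^ m = 1) (h0 : V ≠ 0) :
    diaU hD u (powU hV hχ h0) = powU (isCForm_dia u hV) hχ' (dia_ne_zero u h0) := by
  apply Units.ext
  rw [coe_diaU, coe_powU, coe_powU, diaF_toFC]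
  rfl

theorem mk_eq_mul_pow {F : Type*} [Field F] [Algebra ℂ F] {a b : kummerSubgroup ℂ F m}
    (h : (QuotientGroup.mk a : KummerGroup ℂ F m) = QuotientGroup.mk b) :
    ∃ g : Fˣ, (b : Fˣ) = a * g ^ m := by
  rw [QuotientGroup.eq, Subgroup.mem_subgroupOf, mem_powSubgroup] at h
  obtain ⟨g, hg⟩ := h
  refine ⟨g, ?_⟩
  rw [hg]
  simp

theorem mk_eq_of_mul_pow {F : Type*} [Field F] [Algebra ℂ F] {a b : kummerSubgroup ℂ F m}
    {g : Fˣ} (h : (b : Fˣ) = a * g ^ m) :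
    (QuotientGroup.mk a : KummerGroup ℂ F m) = QuotientGroup.mk b := by
  rw [QuotientGroup.eq, Subgroup.mem_subgroupOf, mem_powSubgroup]
  refine ⟨g, ?_⟩
  simp [h]

/-- **Diamonds on classes.** -/
theorem kapChi_dia (hm : m.Coprime 6) (u : (ZMod (D ^ 2))ˣ)
    {χ : (datumH D hD).Γ →* ℂˣ} (hχ : χ ∈ admSub (datumH D hD) m)
    (w : kummerSubgroup ℂ (FC (datumH D hD)) m)
    (hw : kapChi (datumH D hD) hm ⟨χ, hχ⟩ = QuotientGroup.mk w) :
    ∃ v : kummerSubgroup ℂ (FC (datumH D hD)) m,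
      ((v : (FC (datumH D hD))ˣ) : FC (datumH D hD)) = diaF hD u ((w : (FC (datumH D hD))ˣ) :
        FC (datumH D hD)) ∧
      kapChi (datumH D hD) hm ⟨chiDia hD u χ, chiDia_mem u hχ⟩ = QuotientGroup.mk v := by
  obtain ⟨hV, h0⟩ := chiForm_spec (ne_zero_of_coprime_six hm) hχ
  have hχ' := chiDia_mem u hχ
  rw [kapChi_eq hm hV hχ h0, clsU] at hw
  obtain ⟨g, hg⟩ := mk_eq_mul_pow hw
  have h1 := powU_mem (isCForm_dia u hV) hχ' (dia_ne_zero u h0) hm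
  have h2 : diaU hD u w = powU (isCForm_dia u hV) hχ'.2 (dia_ne_zero u h0) *
      (diaU hD u g) ^ m := by
    rw [hg, map_mul, map_pow, diaU_powU u hV hχ.2 hχ'.2 h0]
  have h3 : diaU hD u w ∈ kummerSubgroup ℂ (FC (datumH D hD)) m := by
    rw [h2]
    exact mul_mem h1 (powSubgroup_le (K := ℂ) (F := FC (datumH D hD)) _ ⟨_, rfl⟩)
  refine ⟨⟨diaU hD u w, h3⟩, rfl, ?_⟩
  rw [kapChi_eq hm (isCForm_dia u hV) hχ' (dia_ne_zero u h0), clsU]
  exact mk_eq_of_mul_pow h2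

/-! ### Hecke operators -/

theorem isTwNorm_powU [NeZero p] (hp : p.Prime) (hpN : ¬ p ∣ D ^ 2)
    {χ : (datumH D hD).Γ →* ℂˣ} {V : ℍ → ℂ}
    (hV : IsCForm (datumH D hD) χ V) (hχ : χ ^ m = 1)
    (hW : IsCForm (datumH D hD) (chiT hD hp hpN χ) (hProd (up hp hpN) p V))
    (hχ' : chiT hD hp hpN χ ^ m = 1) (h0 : V ≠ 0) (h0' : hProd (up hp hpN) p V ≠ 0) :
    IsTwNorm p (zetaU p) ((powU hV hχ h0 : FC (datumH D hD)) : LaurentSeries ℂ)
      ((diaF hD (up hp hpN) (powU hV hχ h0 : FC (datumH D hD)) : FC (datumH D hD)) :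
        LaurentSeries ℂ)
      ((powU hW hχ' h0' : FC (datumH D hD)) : LaurentSeries ℂ) := by
  rw [coe_powU, coe_powU]
  have h1 := isTwNorm_toFC hp hpN (powW hV hχ)
  have h2 : TW hD hp hpN (powW hV hχ) = powW hW hχ' :=
    Subtype.ext (hProd_pow (up hp hpN) V m)
  rw [h2] at h1
  exact h1

/-- **Hecke operators on classes.** -/
theorem kapChi_T [NeZero p] (hm : m.Coprime 6) (hp : p.Prime) (hpN : ¬ p ∣ D ^ 2)
    {χ : (datumH D hD).Γ →* ℂˣ} (hχ : χ ∈ admSub (datumH D hD) m)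
    (w : kummerSubgroup ℂ (FC (datumH D hD)) m)
    (hw : kapChi (datumH D hD) hm ⟨χ, hχ⟩ = QuotientGroup.mk w) :
    ∃ w' : kummerSubgroup ℂ (FC (datumH D hD)) m,
      IsTwNorm p (zetaU p) (((w : (FC (datumH D hD))ˣ) : FC (datumH D hD)) : LaurentSeries ℂ)
        ((diaF hD (up hp hpN) ((w : (FC (datumH D hD))ˣ) : FC (datumH D hD)) :
          FC (datumH D hD)) : LaurentSeries ℂ)
        (((w' : (FC (datumH D hD))ˣ) : FC (datumH D hD)) : LaurentSeries ℂ) ∧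
      kapChi (datumH D hD) hm ⟨chiT hD hp hpN χ, chiT_mem hp hpN hχ⟩ = QuotientGroup.mk w' := by
  obtain ⟨hV, h0⟩ := chiForm_spec (ne_zero_of_coprime_six hm) hχ
  have hχ' := chiT_mem hp hpN hχ
  rw [kapChi_eq hm hV hχ h0, clsU] at hw
  obtain ⟨g, hg⟩ := mk_eq_mul_pow hw
  have hW : IsCForm (datumH D hD) (chiT hD hp hpN χ) (hProd (up hp hpN) p (chiForm χ)) :=
    isCForm_hProd hp hpN hV hχ'.1
  have h0' := hProd_ne_zero (up hp hpN) hp.pos hV.exp h0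
  have h1 := powU_mem hW hχ' h0' hm
  obtain ⟨g', hg'⟩ := exists_isTwNorm_FC hp hpN (g : FC (datumH D hD))
  have hg0 : g' ≠ 0 := by
    intro h
    have h2 := hg'.ne_zero (fun h => g.ne_zero (Subtype.ext h))
      (fun h => (map_ne_zero (diaF hD (up hp hpN))).mpr g.ne_zero (Subtype.ext h))
    rw [h] at h2
    exact h2 rfl
  have h2 := (isTwNorm_powU hp hpN hV hχ.2 hW hχ'.2 h0 h0').mul (hg'.pow m)
  refine ⟨⟨powU hW hχ'.2 h0' * Units.mk0 g' hg0 ^ m,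
    mul_mem h1 (powSubgroup_le (K := ℂ) (F := FC (datumH D hD)) _ ⟨_, rfl⟩)⟩, ?_, ?_⟩
  · rw [hg]
    simp only [Units.val_mul, Units.val_pow_eq_pow_val, map_mul, map_pow]
    exact h2
  · rw [kapChi_eq hm hW hχ' h0', clsU]
    exact mk_eq_of_mul_pow rfl

end Fermat.Agent.Neb
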