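import Mathlib
import Fermat.Agent.Neb.DiaK
import Fermat.Agent.Top.FC

/-!
# The fixed field of the diamond operators
-/

set_option autoImplicit false
set_option linter.unusedSectionVars false
set_option linter.style.haveILetI false

noncomputable section

namespace Fermat.Agent.Neb

open UpperHalfPlane hiding I
open ModularForm Filter Topology Fermat.Agent.ModFn Fermat.Agent.Support
open Fermat.Agent.Top Fermat.Agent.DS CongruenceSubgroup ModularCurve
open scoped MatrixGroups Manifold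

variable {D : ℕ} [NeZero D] {hD : 3 ≤ D}

/-- Elements of the ring of functions of level `Γ₀(D²)`. -/
def inW (hD : 3 ≤ D) (g : Top.WN (D ^ 2)) : WN (datumH D hD) :=
  ⟨g.1, WN_Gamma0_le (datumH D hD) g.2⟩

theorem coe_toFC_inW (g : Top.WN (D ^ 2)) :
    (toFC (datumH D hD) (inW hD g) : LaurentSeries ℂ) = (Top.toFC (D ^ 2) g : LaurentSeries ℂ) :=
  coe_toFC' _ (Top.hasExp_wq g)

theorem inW_injective : Function.Injective (inW hD) := fun a b h =>
  Subtype.ext (congrArg (fun x : WN (datumH D hD) => x.1) h)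

theorem diaW_inW (u : (ZMod (D ^ 2))ˣ) (g : Top.WN (D ^ 2)) :
    diaW hD u (inW hD g) = inW hD g := by
  apply Subtype.ext
  funext z
  exact g.2.2 _ (gam_mem u) z

theorem exists_of_mem_TopFC {x : LaurentSeries ℂ} (hx : x ∈ Top.FC (D ^ 2)) :
    ∃ a b : Top.WN (D ^ 2), b ≠ 0 ∧
      x = ((toFC (datumH D hD) (inW hD a) / toFC (datumH D hD) (inW hD b) : FC (datumH D hD)) :
        LaurentSeries ℂ) := by
  obtain ⟨a, b, hb, hab⟩ := Top.exists_div (⟨x, hx⟩ : Top.FC (D ^ 2))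
  refine ⟨a, b, hb, ?_⟩
  have h1 := congrArg (fun y : Top.FC (D ^ 2) => (y : LaurentSeries ℂ)) hab
  change x = _ at h1
  rw [h1]
  change (Top.toFC (D ^ 2) a : LaurentSeries ℂ) / (Top.toFC (D ^ 2) b : LaurentSeries ℂ) =
    (toFC (datumH D hD) (inW hD a) : LaurentSeries ℂ) /
      (toFC (datumH D hD) (inW hD b) : LaurentSeries ℂ)
  rw [coe_toFC_inW, coe_toFC_inW]

theorem TopFC_le {x : LaurentSeries ℂ} (hx : x ∈ Top.FC (D ^ 2)) : x ∈ FC (datumH D hD) := by
  obtain ⟨a, b, -, rfl⟩ := exists_of_mem_TopFC (hD := hD) hx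
  exact SetLike.coe_mem _

/-- functions fixed by the diamonds are functions of level `Γ₀(D²)`. -/
theorem exists_inW {f : WN (datumH D hD)} (hf : ∀ u, diaW hD u f = f) :
    ∃ g : Top.WN (D ^ 2), inW hD g = f := by
  refine ⟨⟨f.1, f.2.1, fun γ hγ z => ?_⟩, rfl⟩
  have hdet := congrArg (Int.cast : ℤ → ZMod (D ^ 2)) γ.det_coe
  rw [Matrix.det_fin_two] at hdet
  push_cast at hdet
  rw [Gamma0_mem.mp hγ, mul_zero, sub_zero] at hdet
  let u : (ZMod (D ^ 2))ˣ := ⟨((γ 1 1 : ℤ) : ZMod (D ^ 2)), ((γ 0 0 : ℤ) : ZMod (D ^ 2)),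
    by rw [mul_comm]; exact hdet, hdet⟩
  have h1 := congrArg (fun x : WN (datumH D hD) => x.1 z) (hf u)
  have h2 := diaW_eq u f hγ (by
    change _ = ZMod.castHom _ (ZMod D) ((γ 1 1 : ℤ) : ZMod (D ^ 2))
    rw [map_intCast]) z
  exact h2.symm.trans h1

theorem fixedC_iff (x : FC (datumH D hD)) :
    (∀ u, diaF hD u x = x) ↔ (x : LaurentSeries ℂ) ∈ Top.FC (D ^ 2) := by
  classical
  constructor
  · intro hx
    obtain ⟨a, b, hb, hab⟩ := exists_div x
    set B : WN (datumH D hD) := ∏ u : (ZMod (D ^ 2))ˣ, diaWE hD u b with hB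
    set A : WN (datumH D hD) := a * ∏ u ∈ (Finset.univ : Finset (ZMod (D ^ 2))ˣ).erase 1,
      diaWE hD u b with hA
    have hb0 : ∀ u : (ZMod (D ^ 2))ˣ, diaWE hD u b ≠ 0 := fun u =>
      (map_ne_zero_iff _ (diaWE hD u).injective).mpr hb
    have hB0 : B ≠ 0 := Finset.prod_ne_zero_iff.mpr fun u _ => hb0 u
    have hBfix : ∀ v, diaW hD v B = B := by
      intro v
      have h1 : diaW hD v B = diaWE hD v B := rfl
      rw [h1, hB, map_prod]
      have h2 : ∀ u, diaWE hD v (diaWE hD u b) = diaWE hD (v * u) b := by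
        intro u; rw [map_mul]; rfl
      rw [Finset.prod_congr rfl fun u _ => h2 u]
      exact Equiv.prod_comp (Equiv.mulLeft v) (fun u => diaWE hD u b)
    have hBb : B = b * ∏ u ∈ (Finset.univ : Finset (ZMod (D ^ 2))ˣ).erase 1, diaWE hD u b := by
      rw [hB, ← Finset.mul_prod_erase Finset.univ _ (Finset.mem_univ (1 : (ZMod (D ^ 2))ˣ)), map_one]
      rfl
    have hxB : x * toFC _ B = toFC _ A := by
      rw [hab, hBb, hA, map_mul, map_mul, ← mul_assoc, div_mul_cancel₀ _ (toFC_ne_zero hb)]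
    have hAfix : ∀ v, diaW hD v A = A := by
      intro v
      apply toFC_injective
      rw [← diaF_toFC, ← hxB, map_mul, hx, diaF_toFC, hBfix]
    obtain ⟨A', hA'⟩ := exists_inW hAfix
    obtain ⟨B', hB'⟩ := exists_inW hBfix
    have h1 : x = toFC _ A / toFC _ B := by
      rw [eq_div_iff (toFC_ne_zero hB0), hxB]
    rw [h1, ← hA', ← hB']
    change (toFC (datumH D hD) (inW hD A') : LaurentSeries ℂ) /
      (toFC (datumH D hD) (inW hD B') : LaurentSeries ℂ) ∈ Top.FC (D ^ 2)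
    rw [coe_toFC_inW, coe_toFC_inW]
    exact div_mem (SetLike.coe_mem _) (SetLike.coe_mem _)
  · intro hx u
    obtain ⟨a, b, hb, hab⟩ := exists_of_mem_TopFC (hD := hD) hx
    have h1 : x = toFC (datumH D hD) (inW hD a) / toFC (datumH D hD) (inW hD b) :=
      Subtype.ext hab
    rw [h1, map_div₀, diaF_toFC, diaF_toFC, diaW_inW, diaW_inW]

/-! ### Over `K` -/

variable {K : Type*} [Field K] [Algebra ℚ K] [Algebra K ℂ]

theorem FN_le_FK {x : LaurentSeries K}
    (hx : x ∈ laurentBaseChange K (modularFunctionFieldFull (D ^ 2))) :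
    x ∈ FK K (datumH D hD) := by
  apply mem_baseChange_of_coeffMap_mem (E := ℂ)
  exact TopFC_le (coeffMap_mem_baseChange (E := ℂ) hx)

/-- **The fixed field of the diamonds.** -/
theorem fixedK_iff (x : FK K (datumH D hD)) :
    (∀ u, diaK K hD u x = x) ↔
      (x : LaurentSeries K) ∈ laurentBaseChange K (modularFunctionFieldFull (D ^ 2)) := by
  have h1 : (∀ u, diaK K hD u x = x) ↔ ∀ u, diaF hD u (embK K hD x) = embK K hD x := by
    refine forall_congr' fun u => ?_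
    rw [← embK_diaK, (embK_injective K).eq_iff]
  rw [h1, fixedC_iff, coe_embK]
  constructor
  · intro h
    exact mem_baseChange_of_coeffMap_mem (E := ℂ) h
  · intro h
    exact coeffMap_mem_baseChange (E := ℂ) h

theorem gam_mem_GH {u : (ZMod (D ^ 2))ˣ} (h : (ubar u : ZMod D) = 1 ∨ (ubar u : ZMod D) = -1) :
    gam u ∈ GH D := ⟨gam_mem u, by rw [gam_one_one']; exact h⟩

theorem diaF_eq_one {u : (ZMod (D ^ 2))ˣ}
    (h : (ubar u : ZMod D) = 1 ∨ (ubar u : ZMod D) = -1) : diaF hD u = 1 := by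
  have h1 : ∀ f : WN (datumH D hD), diaW hD u f = f := by
    intro f
    apply Subtype.ext
    funext z
    exact f.2.2 _ (gam_mem_GH h) z
  apply AlgEquiv.ext
  intro x
  obtain ⟨a, b, -, rfl⟩ := exists_div x
  rw [map_div₀, diaF_toFC, diaF_toFC, h1, h1, AlgEquiv.one_apply]

theorem diaK_eq_one {u : (ZMod (D ^ 2))ˣ}
    (h : (ubar u : ZMod D) = 1 ∨ (ubar u : ZMod D) = -1) : diaK K hD u = 1 := by
  apply AlgEquiv.ext
  intro x
  apply embK_injective K
  rw [embK_diaK, diaF_eq_one h]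
  rfl

/-- The functions `y` for the reduction argument. -/
theorem ubar_of_coeffMap_yq {k : Type*} [Field k] (hD : 3 ≤ D) {c : (ZMod (D ^ 2))ˣ}
    (h : coeffMap (Int.castRingHom k) (yq D (((ubar c)⁻¹ : (ZMod D)ˣ) : ZMod D)) =
      coeffMap (Int.castRingHom k) (yq D (((ubar (1 : (ZMod (D ^ 2))ˣ))⁻¹ : (ZMod D)ˣ) : ZMod D))) :
    (ubar c : ZMod D) = 1 ∨ (ubar c : ZMod D) = -1 := by
  have h1 : ((ubar (1 : (ZMod (D ^ 2))ˣ))⁻¹ : (ZMod D)ˣ) = 1 := by
    rw [ubar, map_one, inv_one]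
  rw [h1] at h
  have h2 := eq_or_eq_neg_of_coeffMap_yq (isUnit_ne_neg hD (Units.isUnit _))
    (isUnit_ne_neg hD (Units.isUnit _)) h
  rw [Units.val_one] at h2
  exact (pm_iff (Units.inv_mul (ubar c))).mp h2

end Fermat.Agent.Neb
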