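import Mathlib
import Fermat.Agent.Neb.FK
import Fermat.Agent.Neb.FnC

/-!
# The function field over `K` is a function field
-/

set_option autoImplicit false
set_option linter.unusedSectionVars false
set_option linter.style.haveILetI false

noncomputable section

namespace Fermat.Agent.Neb

open UpperHalfPlane hiding I
open ModularForm Filter Topology Fermat.Agent.ModFn Fermat.Agent.Support Polynomial Fermat.Agent.Top
open ModularCurve IntermediateField Fermat.Agent.FF
open scoped MatrixGroups Manifold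

section Descent

variable {K E : Type*} [Field K] [Field E] [Algebra K E]

theorem mapFun_algebraMap_mul (lam : E →ₗ[K] K) (e : E) (z : LaurentSeries K) :
    mapFun lam (algebraMap E (LaurentSeries E) e * coeffMap (algebraMap K E) z) =
      algebraMap K (LaurentSeries K) (lam e) * z := by
  rw [mul_comm, mapFun_coeffMap_mul, mul_comm]
  congr 1
  ext n
  rw [mapFun_coeff, algebraMap_laurentSeries_eq_single, algebraMap_laurentSeries_eq_single]
  by_cases hn : n = 0
  · subst hn; simp
  · rw [HahnSeries.coeff_single_of_ne hn, map_zero, HahnSeries.coeff_single_of_ne hn]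

/-- Algebraic relations descend. -/
theorem exists_rel_descend {u v : LaurentSeries K} {P : Polynomial (Polynomial E)} (hP : P ≠ 0)
    (h : P.eval₂ ((Polynomial.aeval (coeffMap (algebraMap K E) u) : E[X] →ₐ[E] LaurentSeries E) :
      E[X] →+* LaurentSeries E) (coeffMap (algebraMap K E) v) = 0) :
    ∃ Q : Polynomial (Polynomial K), Q ≠ 0 ∧
      Q.eval₂ ((Polynomial.aeval u : K[X] →ₐ[K] LaurentSeries K) : K[X] →+* LaurentSeries K) v =
        0 := by
  obtain ⟨n₀, hn₀⟩ : ∃ n, P.coeff n ≠ 0 := by
    by_contra hcon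
    push Not at hcon
    exact hP (Polynomial.ext fun n => by rw [hcon n, Polynomial.coeff_zero])
  obtain ⟨m₀, hm₀⟩ : ∃ m, (P.coeff n₀).coeff m ≠ 0 := by
    by_contra hcon
    push Not at hcon
    exact hn₀ (Polynomial.ext fun n => by rw [hcon n, Polynomial.coeff_zero])
  obtain ⟨lam, hlam⟩ := Module.Projective.exists_dual_ne_zero K hm₀
  refine ⟨∑ n ∈ Finset.range (P.natDegree + 1), Polynomial.monomial n
    (∑ m ∈ Finset.range ((P.coeff n).natDegree + 1),
      Polynomial.monomial m (lam ((P.coeff n).coeff m))), ?_, ?_⟩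
  · intro h0
    apply hlam
    have h1 := congrArg (fun Q : Polynomial (Polynomial K) => (Q.coeff n₀).coeff m₀) h0
    simp only [Polynomial.finsetSum_coeff, Polynomial.coeff_monomial, Polynomial.coeff_zero] at h1
    rw [Finset.sum_eq_single n₀, if_pos rfl, Polynomial.finsetSum_coeff,
      Finset.sum_eq_single m₀, Polynomial.coeff_monomial, if_pos rfl] at h1
    · exact h1
    · intro b _ hb
      rw [Polynomial.coeff_monomial, if_neg hb]
    · intro hb
      exact absurd (Finset.mem_range.2 (Nat.lt_succ_of_le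
        (Polynomial.le_natDegree_of_ne_zero hm₀))) hb
    · intro b _ hb
      rw [if_neg hb, Polynomial.coeff_zero]
    · intro hb
      exact absurd (Finset.mem_range.2 (Nat.lt_succ_of_le
        (Polynomial.le_natDegree_of_ne_zero hn₀))) hb
  · have h1 := congrArg (mapFun lam) h
    rw [map_zero, Polynomial.eval₂_eq_sum_range, map_sum] at h1
    rw [Polynomial.eval₂_finsetSum, ← h1]
    refine Finset.sum_congr rfl fun n _ => ?_
    rw [Polynomial.eval₂_monomial, map_sum, RingHom.coe_coe, RingHom.coe_coe,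
      Polynomial.aeval_eq_sum_range, Finset.sum_mul, Finset.sum_mul, map_sum]
    refine Finset.sum_congr rfl fun m _ => ?_
    rw [Polynomial.aeval_monomial, Algebra.smul_def, mul_assoc, mul_assoc, ← map_pow, ← map_pow,
      ← map_mul, mapFun_algebraMap_mul]

end Descent

section Gen

variable {K F : Type*} [Field K] [Field F] [Algebra K F]

theorem isAlgebraic_of_rel {x y : F} (hx : Transcendental K x) {Q : Polynomial (Polynomial K)}
    (hQ : Q ≠ 0) (h : Q.eval₂ ((Polynomial.aeval x : K[X] →ₐ[K] F) : K[X] →+* F) y = 0) :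
    IsAlgebraic K⟮x⟯ y := by
  let φ : K[X] →ₐ[K] K⟮x⟯ := Polynomial.aeval (AdjoinSimple.gen K x)
  have h4 : ((algebraMap K⟮x⟯ F).comp (φ : K[X] →+* K⟮x⟯)) =
        ((Polynomial.aeval x : K[X] →ₐ[K] F) : K[X] →+* F) := by
    refine RingHom.ext fun P => ?_
    change algebraMap K⟮x⟯ F (Polynomial.aeval (AdjoinSimple.gen K x) P) = Polynomial.aeval x P
    rw [← Polynomial.aeval_algebraMap_apply, AdjoinSimple.algebraMap_gen]
  have hφ : Function.Injective φ := by
    intro a b hab
    rw [transcendental_iff_injective] at hx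
    apply hx
    have h5 := congrArg (algebraMap K⟮x⟯ F) hab
    have h6 := fun P => RingHom.congr_fun h4 P
    exact (h6 a).symm.trans (h5.trans (h6 b))
  refine ⟨Q.map (φ : K[X] →+* K⟮x⟯), ?_, ?_⟩
  · exact (Polynomial.map_ne_zero_iff (f := (φ : K[X] →+* K⟮x⟯)) hφ).mpr hQ
  · rw [Polynomial.aeval_def, Polynomial.eval₂_map, h4]
    exact h

theorem finiteDimensional_of_rel {x y : F} (hx : Transcendental K x)
    {Q : Polynomial (Polynomial K)}
    (hQ : Q ≠ 0) (h : Q.eval₂ ((Polynomial.aeval x : K[X] →ₐ[K] F) : K[X] →+* F) y = 0)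
    (hgen : ∀ T : Subfield F, (∀ c : K, algebraMap K F c ∈ T) → x ∈ T → y ∈ T → T = ⊤) :
    FiniteDimensional K⟮x⟯ F := by
  have h1 := isAlgebraic_of_rel hx hQ h
  haveI := IntermediateField.adjoin.finiteDimensional h1.isIntegral
  have htop : IntermediateField.adjoin K⟮x⟯ {y} = ⊤ := by
    rw [eq_top_iff]
    intro z _
    have h2 := hgen (IntermediateField.adjoin K⟮x⟯ {y}).toSubfield ?_ ?_ ?_
    · have h3 : z ∈ (IntermediateField.adjoin K⟮x⟯ {y}).toSubfield := by
        rw [h2]; trivial
      exact h3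
    · intro c
      exact (IntermediateField.adjoin K⟮x⟯ {y}).algebraMap_mem (algebraMap K K⟮x⟯ c)
    · have h3 := (IntermediateField.adjoin K⟮x⟯ {y}).algebraMap_mem (AdjoinSimple.gen K x)
      rwa [AdjoinSimple.algebraMap_gen] at h3
    · exact IntermediateField.mem_adjoin_simple_self _ _
  rw [htop] at this
  exact (IntermediateField.topEquiv (F := K⟮x⟯) (E := F)).toLinearEquiv.finiteDimensional

end Gen

theorem transcendental_jqModC' (k : Type*) [Field k] : Transcendental k (jqModC k) := by
  rw [transcendental_iff_injective, injective_iff_map_eq_zero]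
  intro P hP
  by_contra hne
  have h3 := congrArg (fun φ : LaurentSeries k => φ.coeff (-(P.natDegree : ℤ))) hP
  simp only [Polynomial.aeval_def, Polynomial.eval₂_eq_sum_range, HahnSeries.coeff_sum,
    HahnSeries.coeff_zero] at h3
  rw [Finset.sum_eq_single P.natDegree] at h3
  · rw [algebraMap_laurentSeries_eq_single, HahnSeries.coeff_single_zero_mul,
      jqModC_pow_coeff_self, mul_one] at h3
    exact hne (Polynomial.leadingCoeff_eq_zero.mp h3)
  · intro k hk hkne
    rw [algebraMap_laurentSeries_eq_single, HahnSeries.coeff_single_zero_mul,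
      jqModC_pow_coeff_of_lt, mul_zero]
    have := Finset.mem_range.mp hk
    omega
  · intro h
    exact absurd (Finset.self_mem_range_succ _) h

variable {N : ℕ} [NeZero N] {D : Datum N} {K : Type*} [Field K] [Algebra ℚ K]

theorem transcendental_jK : Transcendental K (jK K D) := by
  intro h
  exact transcendental_jqModC' K (h.algHom (FK K D).val)

variable [Algebra K ℂ]

variable (D) in
theorem exists_rel_C : ∃ P : Polynomial (Polynomial ℂ), P ≠ 0 ∧
    P.eval₂ ((Polynomial.aeval (jqModC ℂ) : ℂ[X] →ₐ[ℂ] LaurentSeries ℂ) :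
      ℂ[X] →+* LaurentSeries ℂ) (coeffMap (Int.castRingHom ℂ) D.tq) = 0 := by
  obtain ⟨q, hq, hqg⟩ := exists_monic (⟨D.t, t_mem_WN D⟩ : WN D)
  refine ⟨q, hq.ne_zero, ?_⟩
  have h1 := congrArg (wq D) hqg
  rw [map_zero] at h1
  have hφ : ((Polynomial.aeval (jqModC ℂ) : ℂ[X] →ₐ[ℂ] LaurentSeries ℂ) :
      ℂ[X] →+* LaurentSeries ℂ) =
      ((wq D : WN D →ₐ[ℂ] LaurentSeries ℂ) : WN D →+* LaurentSeries ℂ).comp
        (evJ D : ℂ[X] →+* WN D) := by
    refine RingHom.ext fun P => ?_
    have h2 : wq D (evJ D P) = Polynomial.aeval (jqModC ℂ) P := by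
      rw [evJ, ← Polynomial.aeval_algHom_apply, wq_jH]
    exact h2.symm
  rw [hφ, ← h1, ← wq_t (D := D)]
  exact (Polynomial.hom_eval₂ _ _ _ _).symm

variable (K D) in
theorem exists_rel_K : ∃ Q : Polynomial (Polynomial K), Q ≠ 0 ∧
    Q.eval₂ ((Polynomial.aeval (jK K D) : K[X] →ₐ[K] FK K D) : K[X] →+* FK K D) (tK K D) = 0 := by
  obtain ⟨P, hP, h⟩ := exists_rel_C D
  have hj : jqModC ℂ = coeffMap (algebraMap K ℂ) (jqModC K) := (map_jqModC (algebraMap K ℂ)).symm
  have ht : coeffMap (Int.castRingHom ℂ) D.tq =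
      coeffMap (algebraMap K ℂ) (coeffMap (Int.castRingHom K) D.tq) := by
    ext n
    simp
  rw [hj, ht] at h
  obtain ⟨Q, hQ, hQ0⟩ := exists_rel_descend hP h
  refine ⟨Q, hQ, ?_⟩
  apply Subtype.ext
  have h3 : ((Q.eval₂ ((Polynomial.aeval (jK K D) : K[X] →ₐ[K] FK K D) : K[X] →+* FK K D)
      (tK K D) : FK K D) : LaurentSeries K) =
      Q.eval₂ (((FK K D).val : FK K D →+* LaurentSeries K).comp
        ((Polynomial.aeval (jK K D) : K[X] →ₐ[K] FK K D) : K[X] →+* FK K D))
        ((tK K D : FK K D) : LaurentSeries K) :=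
    Polynomial.hom_eval₂ Q _ ((FK K D).val : FK K D →+* LaurentSeries K) (tK K D)
  have h4 : (((FK K D).val : FK K D →+* LaurentSeries K).comp
        ((Polynomial.aeval (jK K D) : K[X] →ₐ[K] FK K D) : K[X] →+* FK K D)) =
        ((Polynomial.aeval (jqModC K) : K[X] →ₐ[K] LaurentSeries K) :
          K[X] →+* LaurentSeries K) := by
    refine RingHom.ext fun P => ?_
    exact (Polynomial.aeval_algHom_apply (FK K D).val (jK K D) P).symm
  rw [h3, h4]
  exact hQ0

instance finiteDimensional_FK : FiniteDimensional K⟮jK K D⟯ (FK K D) := by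
  obtain ⟨Q, hQ, hQ0⟩ := exists_rel_K D K
  exact finiteDimensional_of_rel transcendental_jK hQ hQ0 FK_subfield_eq_top

instance isFnField_FK : IsFnField K (FK K D) := IsFnField.of_finiteDimensional transcendental_jK

end Fermat.Agent.Neb
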