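import Fermat.Agent.Neb.GaussInv
import Fermat.Agent.Red.Level

/-!
# Good coordinates on function fields with a group of diamond operators
-/

set_option autoImplicit false
set_option linter.unusedSectionVars false
set_option linter.style.haveILetI false
set_option linter.unusedVariables false

noncomputable section

open AlgebraicCurve IntermediateField ModularCurve Module

namespace Fermat.Agent.Neb

open Fermat.Agent.Red Fermat.Agent.ModFn

section Artin

variable {L E : Type*} [Field L] [Field E] [Algebra L E]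

theorem finrank_fixedField' (H : Subgroup (E ≃ₐ[L] E)) [Finite H] :
    finrank (fixedField H) E = Nat.card H := by
  haveI := Fintype.ofFinite H
  rw [Nat.card_eq_fintype_card]
  exact FixedPoints.finrank_eq_card H E

theorem isSeparable_fixedField' (H : Subgroup (E ≃ₐ[L] E)) [Finite H] :
    Algebra.IsSeparable (fixedField H) E :=
  (inferInstance : Algebra.IsSeparable (FixedPoints.subfield H E) E)

end Artin

section Bar

variable {K k : Type*} [Field K] [Field k] {A : ValuationSubring K} {π : A →+* k}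
  {F Fk : Type*} [Field F] [Algebra K F] [Field Fk] [Algebra k Fk]
  (R : ConstRed A π F Fk) {G : Type*} [Group G] (δ : G →* (F ≃ₐ[K] F))

include δ in
/-- An action preserving the valuation ring of a constant reduction reduces. -/
theorem exists_bar (hs : Function.Surjective π) (hinv : ∀ (c : G) (f : F), f ∈ R.O → δ c f ∈ R.O) :
    ∃ δb : G →* (Fk ≃ₐ[k] Fk), ∀ (c : G) (f : F) (z : Fk), R.IsRed f z →
      R.IsRed (δ c f) (δb c z) := by
  classical
  have hδδ : ∀ (c : G) (f : F), δ c⁻¹ (δ c f) = f := by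
    intro c f
    rw [← AlgEquiv.mul_apply, ← map_mul, inv_mul_cancel, map_one]
    rfl
  have hzero : ∀ (c : G) (f : F), R.IsRed f 0 → R.IsRed (δ c f) 0 := by
    intro c f hf
    rcases eq_or_ne f 0 with rfl | hf0
    · rw [map_zero]
      exact R.isRed_zero
    · obtain ⟨z, hz⟩ := R.exists_isRed_of_mem (hinv c f hf.mem)
      rcases eq_or_ne z 0 with rfl | hz0
      · exact hz
      · exfalso
        have h1 := hinv c⁻¹ _ (hz.inv hz0).mem
        rw [map_inv₀, hδδ] at h1
        exact hf.inv_notMem hf0 h1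
  choose lift hlift using fun z : Fk => R.exists_isRed z
  choose φ hφ using fun (c : G) (z : Fk) => R.exists_isRed_of_mem (hinv c _ (hlift z).mem)
  have key : ∀ (c : G) (f : F) (z : Fk), R.IsRed f z → R.IsRed (δ c f) (φ c z) := by
    intro c f z hf
    have h1 : R.IsRed (f - lift z) 0 := by
      have := hf.sub (hlift z)
      rwa [sub_self] at this
    have h2 := (hzero c _ h1).add (hφ c z)
    rwa [map_sub, sub_add_cancel, zero_add] at h2
  have hone : ∀ c, φ c 1 = 1 := fun c => by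
    have h := key c 1 1 R.isRed_one
    rw [map_one] at h
    exact h.unique R.isRed_one
  have hzero' : ∀ c, φ c 0 = 0 := fun c => by
    have h := key c 0 0 R.isRed_zero
    rw [map_zero] at h
    exact h.unique R.isRed_zero
  have hadd : ∀ c z w, φ c (z + w) = φ c z + φ c w := fun c z w => by
    have h := key c _ _ ((hlift z).add (hlift w))
    rw [map_add] at h
    exact h.unique ((key c _ _ (hlift z)).add (key c _ _ (hlift w)))
  have hmul : ∀ c z w, φ c (z * w) = φ c z * φ c w := fun c z w => by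
    have h := key c _ _ ((hlift z).mul (hlift w))
    rw [map_mul] at h
    exact h.unique ((key c _ _ (hlift z)).mul (key c _ _ (hlift w)))
  have hcomm : ∀ c (r : k), φ c (algebraMap k Fk r) = algebraMap k Fk r := by
    intro c r
    obtain ⟨a, rfl⟩ := hs r
    have h := key c _ _ (R.isRed_coe a)
    rw [AlgEquiv.commutes] at h
    exact h.unique (R.isRed_coe a)
  have hcomp : ∀ c c' z, φ (c * c') z = φ c (φ c' z) := fun c c' z => by
    have h1 := key (c * c') _ _ (hlift z)
    have h2 := key c _ _ (key c' _ _ (hlift z))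
    rw [map_mul, AlgEquiv.mul_apply] at h1
    exact h1.unique h2
  have hid : ∀ z, φ 1 z = z := fun z => by
    have h1 := key 1 _ _ (hlift z)
    rw [map_one, AlgEquiv.one_apply] at h1
    exact h1.unique (hlift z)
  let ψ : G → (Fk ≃ₐ[k] Fk) := fun c =>
    { toFun := φ c
      invFun := φ c⁻¹
      left_inv := fun z => by rw [← hcomp, inv_mul_cancel, hid]
      right_inv := fun z => by rw [← hcomp, mul_inv_cancel, hid]
      map_mul' := hmul c
      map_add' := hadd c
      commutes' := hcomm c }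
  exact ⟨{ toFun := ψ
           map_one' := by ext z; exact hid z
           map_mul' := fun a b => by ext z; exact hcomp a b z }, key⟩

end Bar

section Rel

variable {K Ω : Type*} [Field K] [Field Ω] [Algebra K Ω]

theorem relfinrank_fixed {E EN : IntermediateField K Ω} (hle : EN ≤ E)
    (H : Subgroup (E ≃ₐ[K] E)) [Finite H]
    (hfix : ∀ u : E, (∀ h ∈ H, h u = u) ↔ (u : Ω) ∈ EN) :
    IntermediateField.relfinrank EN E = Nat.card H := by
  rw [← finrank_fixedField' H, ← IntermediateField.relfinrank_top_right,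
    ← IntermediateField.relfinrank_map_map _ _ E.val]
  congr 1
  · ext u
    rw [IntermediateField.mem_map]
    constructor
    · intro hu
      refine ⟨⟨u, hle hu⟩, ?_, rfl⟩
      rw [IntermediateField.mem_fixedField_iff]
      exact (hfix ⟨u, hle hu⟩).2 hu
    · rintro ⟨v, hv, rfl⟩
      rw [IntermediateField.mem_fixedField_iff] at hv
      exact (hfix v).1 hv
  · rw [← AlgHom.fieldRange_eq_map, IntermediateField.fieldRange_val]

/-- The tower argument: enough automorphisms over a subfield with the right degree. -/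
theorem separable_of_aut {κ κN : IntermediateField K Ω} (hle : κN ≤ κ) (x : κN)
    [hfd : FiniteDimensional K⟮(⟨(x : Ω), hle x.2⟩ : κ)⟯ κ]
    (H : Subgroup (κ ≃ₐ[K] κ)) [Finite H]
    (hH : ∀ h ∈ H, ∀ u : κ, (u : Ω) ∈ κN → h u = u)
    (hdeg : finrank K⟮(⟨(x : Ω), hle x.2⟩ : κ)⟯ κ ≤ finrank K⟮x⟯ κN * Nat.card H)
    (hsep : Algebra.IsSeparable K⟮x⟯ κN) :
    finrank K⟮(⟨(x : Ω), hle x.2⟩ : κ)⟯ κ = finrank K⟮x⟯ κN * Nat.card H ∧
      Algebra.IsSeparable K⟮(⟨(x : Ω), hle x.2⟩ : κ)⟯ κ := by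
  classical
  set xb : κ := ⟨(x : Ω), hle x.2⟩ with hxb
  -- the fixed field, inside `Ω`
  set κ' : IntermediateField K Ω := (fixedField H).map κ.val with hκ'
  have hκ'le : κ' ≤ κ := by
    rintro _ ⟨v, hv, rfl⟩
    exact v.2
  have hNle : κN ≤ κ' := by
    intro u hu
    refine ⟨⟨u, hle hu⟩, ?_, rfl⟩
    change (⟨u, hle hu⟩ : κ) ∈ fixedField H
    rw [IntermediateField.mem_fixedField_iff]
    exact fun h hh => hH h hh _ hu
  have e1 : finrank K⟮xb⟯ κ = IntermediateField.relfinrank K⟮(x : Ω)⟯ κ := finrank_adjoin_sub κ xb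
  have e2 : finrank K⟮x⟯ κN = IntermediateField.relfinrank K⟮(x : Ω)⟯ κN := finrank_adjoin_sub κN x
  have e3 : IntermediateField.relfinrank κ' κ = Nat.card H := by
    rw [← finrank_fixedField' H, ← IntermediateField.relfinrank_top_right,
      ← IntermediateField.relfinrank_map_map _ _ κ.val]
    congr 1
    rw [← AlgHom.fieldRange_eq_map, IntermediateField.fieldRange_val]
  have hxN : K⟮(x : Ω)⟯ ≤ κN := adjoin_simple_le_of_mem x.2
  have h1 : IntermediateField.relfinrank K⟮(x : Ω)⟯ κN * IntermediateField.relfinrank κN κ' *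
      IntermediateField.relfinrank κ' κ = IntermediateField.relfinrank K⟮(x : Ω)⟯ κ := by
    rw [IntermediateField.relfinrank_mul_relfinrank hxN hNle,
      IntermediateField.relfinrank_mul_relfinrank (hxN.trans hNle) hκ'le]
  have hpos : 0 < finrank K⟮xb⟯ κ := finrank_pos
  rw [e1, e2, ← h1, e3] at hdeg
  rw [e1, ← h1, e3] at hpos
  have hp1 : 0 < IntermediateField.relfinrank K⟮(x : Ω)⟯ κN :=
    Nat.pos_of_ne_zero fun h0 => by rw [h0] at hpos; simp at hpos
  have hp2 : 0 < IntermediateField.relfinrank κN κ' :=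
    Nat.pos_of_ne_zero fun h0 => by rw [h0] at hpos; simp at hpos
  have hp3 : 0 < Nat.card H :=
    Nat.pos_of_ne_zero fun h0 => by rw [h0] at hpos; simp at hpos
  have h2 : IntermediateField.relfinrank κN κ' = 1 := by
    have h3 : IntermediateField.relfinrank κN κ' ≤ 1 := by
      by_contra hcon
      push Not at hcon
      have h4 : IntermediateField.relfinrank K⟮(x : Ω)⟯ κN * Nat.card H <
          IntermediateField.relfinrank K⟮(x : Ω)⟯ κN * IntermediateField.relfinrank κN κ' *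
            Nat.card H := by
        apply Nat.mul_lt_mul_of_pos_right _ hp3
        exact lt_mul_of_one_lt_right hp1 hcon
      exact absurd hdeg (not_le.2 h4)
    omega
  refine ⟨?_, ?_⟩
  · rw [e1, e2, ← h1, h2, mul_one, e3]
  have hκ'N : κ' ≤ κN := IntermediateField.relfinrank_eq_one_iff.1 h2
  -- separability
  haveI : Algebra.IsSeparable (fixedField H) κ := isSeparable_fixedField' H
  let g : fixedField H →+* κN :=
    { toFun := fun z => ⟨((z : κ) : Ω), hκ'N ⟨z, z.2, rfl⟩⟩
      map_one' := rfl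
      map_mul' := fun a b => rfl
      map_zero' := rfl
      map_add' := fun a b => rfl }
  letI : Algebra κN κ := (IntermediateField.inclusion hle).toRingHom.toAlgebra
  have hsepN : Algebra.IsSeparable κN κ := by
    letI : Algebra (fixedField H) κN := g.toAlgebra
    haveI : IsScalarTower (fixedField H) κN κ := IsScalarTower.of_algebraMap_eq fun z => rfl
    exact Algebra.isSeparable_tower_top_of_isSeparable (fixedField H) κN κ
  have hsep' : Algebra.IsSeparable K⟮x⟯ κ := Algebra.IsSeparable.trans K⟮x⟯ κN κ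
  have hmem : ∀ z : K⟮x⟯, algebraMap K⟮x⟯ κ z ∈ K⟮xb⟯ := by
    intro z
    have h5 : K⟮x⟯ ≤ (K⟮xb⟯).comap (IntermediateField.inclusion hle) := by
      rw [IntermediateField.adjoin_simple_le_iff]
      change IntermediateField.inclusion hle x ∈ K⟮xb⟯
      exact mem_adjoin_simple_self K xb
    exact h5 z.2
  letI : Algebra K⟮x⟯ K⟮xb⟯ :=
    ((algebraMap K⟮x⟯ κ).codRestrict K⟮xb⟯.toSubfield.toSubring.toSubsemiring hmem).toAlgebra
  haveI : IsScalarTower K⟮x⟯ K⟮xb⟯ κ := IsScalarTower.of_algebraMap_eq fun z => rfl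
  exact Algebra.isSeparable_tower_top_of_isSeparable K⟮x⟯ K⟮xb⟯ κ

end Rel

section Coord

variable {L k : Type*} [Field L] [Field k] {A : ValuationSubring L} {π : A →+* k}

theorem gaussRes_mono (hs : Function.Surjective π) {E EN : IntermediateField L (LaurentSeries L)}
    (hle : EN ≤ E) : gaussRes π EN hs ≤ gaussRes π E hs := by
  rintro z ⟨f, hf, h⟩
  exact ⟨f, hle hf, h⟩

theorem card_range_le_of_ker {G H H' : Type*} [Group G] [Finite G] [Group H] [Group H']
    (f : G →* H) (g : G →* H') (h : g.ker ≤ f.ker) : Nat.card f.range ≤ Nat.card g.range := by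
  rw [← Subgroup.index_ker, ← Subgroup.index_ker]
  exact Nat.le_of_dvd (Nat.pos_of_ne_zero Subgroup.index_ne_zero_of_finite)
    (Subgroup.index_dvd_of_le h)

theorem finite_range' {G H : Type*} [Group G] [Finite G] [Group H] (f : G →* H) :
    Finite f.range := Finite.of_surjective f.rangeRestrict f.rangeRestrict_surjective

theorem finrank_of_fixed {E EN : IntermediateField L (LaurentSeries L)} (hle : EN ≤ E)
    (jN : EN) (jE : E) (hj : (jE : LaurentSeries L) = jN)
    {G : Type*} [Group G] [Finite G] (δ : G →* (E ≃ₐ[L] E))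
    (hfix : ∀ u : E, (∀ c, δ c u = u) ↔ (u : LaurentSeries L) ∈ EN) :
    finrank L⟮jE⟯ E = finrank L⟮jN⟯ EN * Nat.card δ.range := by
  haveI := finite_range' δ
  have e1 := finrank_adjoin_sub E jE
  have e2 := finrank_adjoin_sub EN jN
  rw [hj] at e1
  rw [e1, e2, ← IntermediateField.relfinrank_mul_relfinrank
    (adjoin_simple_le_of_mem jN.2) hle, relfinrank_fixed hle δ.range]
  intro u
  rw [← hfix]
  constructor
  · intro h c
    exact h _ ⟨c, rfl⟩
  · rintro h _ ⟨c, rfl⟩
    exact h c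

theorem transcendental_mk {E : IntermediateField k (LaurentSeries k)} (h : jqModC k ∈ E) :
    Transcendental k (⟨jqModC k, h⟩ : E) := by
  intro h'
  exact transcendental_jqModC k (h'.algebraMap (A := LaurentSeries k))

/-- **The reduction of a function field with diamond operators.** -/
theorem isCoord_of_diamond (hπ : ∀ a : A, π a = 0 ↔ ¬ IsUnit a) (hs : Function.Surjective π)
    {E EN : IntermediateField L (LaurentSeries L)} (hE : GaussField π E) (hle : EN ≤ E)
    (jN : EN) (hjN : (jN : LaurentSeries L) = jqModC L) (jE : E)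
    (hj : (jE : LaurentSeries L) = jqModC L) [hfin : FiniteDimensional L⟮jE⟯ E]
    {G : Type*} [Group G] [Finite G] (δ : G →* (E ≃ₐ[L] E))
    (hfix : ∀ u : E, (∀ c, δ c u = u) ↔ (u : LaurentSeries L) ∈ EN)
    (hinv : ∀ (c : G) (u : E), (∃ z, GRed π (u : LaurentSeries L) z) →
      ∃ z, GRed π (δ c u : LaurentSeries L) z)
    (y : G → LaurentSeries ℤ) (hy : ∀ c, coeffMap (Int.castRingHom L) (y c) ∈ E)
    (hδy : ∀ c, δ c ⟨_, hy 1⟩ = ⟨_, hy c⟩)
    (hyk : ∀ c, coeffMap (Int.castRingHom k) (y c) = coeffMap (Int.castRingHom k) (y 1) →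
      δ c = 1)
    (xN : gaussRes π EN hs) (hxN : (xN : LaurentSeries k) = jqModC k)
    (hrank : finrank k⟮xN⟯ (gaussRes π EN hs) = finrank L⟮jN⟯ EN)
    (hsep : Algebra.IsSeparable k⟮xN⟯ (gaussRes π EN hs))
    (xb : gaussRes π E hs) (hxb : (xb : LaurentSeries k) = jqModC k) :
    GoodRed.IsCoord (gaussConstRedFull hE hπ hs) jE xb ∧
      Algebra.IsSeparable k⟮xb⟯ (gaussRes π E hs) := by
  set R := gaussConstRedFull hE hπ hs with hR
  have hinv' : ∀ (c : G) (f : E), f ∈ R.O → δ c f ∈ R.O := hinv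
  obtain ⟨δb, hδb⟩ := exists_bar R δ hs hinv'
  have hleκ : gaussRes π EN hs ≤ gaussRes π E hs := gaussRes_mono hs hle
  have hxb' : xb = ⟨(xN : LaurentSeries k), hleκ xN.2⟩ := Subtype.ext (hxb.trans hxN.symm)
  have hjx : R.IsRed jE xb := isRed_full.2 (by rw [hj, hxb]; exact gRed_jq π)
  have htr : Transcendental k xb := by
    intro h'
    have := h'.algebraMap (A := LaurentSeries k)
    exact transcendental_jqModC k (hxb ▸ this)
  obtain ⟨hfd, hrk⟩ := finite_of_bound (R := R) hjx htr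
  have hyr : ∀ c, coeffMap (Int.castRingHom k) (y c) ∈ gaussRes π E hs := fun c =>
    ⟨_, hy c, gRed_int π (y c)⟩
  have hyred : ∀ c, R.IsRed ⟨_, hy c⟩ ⟨_, hyr c⟩ := fun c => isRed_full.2 (gRed_int π (y c))
  have hyb : ∀ c, δb c ⟨_, hyr 1⟩ = ⟨_, hyr c⟩ := fun c => by
    have h1 := hδb c _ _ (hyred 1)
    rw [hδy] at h1
    exact h1.unique (hyred c)
  have hker : δb.ker ≤ δ.ker := by
    intro c hc
    rw [MonoidHom.mem_ker] at hc ⊢
    apply hyk
    have h1 := hyb c
    rw [hc, AlgEquiv.one_apply] at h1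
    exact (congrArg Subtype.val h1).symm
  have hcard := card_range_le_of_ker δ δb hker
  have hdegE := finrank_of_fixed hle jN jE (hj.trans hjN.symm) δ hfix
  haveI := finite_range' δb
  have hδbfix : ∀ h ∈ δb.range, ∀ u : gaussRes π E hs, (u : LaurentSeries k) ∈ gaussRes π EN hs →
      h u = u := by
    rintro _ ⟨c, rfl⟩ u ⟨f, hf, hfu⟩
    have h1 : R.IsRed ⟨f, hle hf⟩ u := isRed_full.2 hfu
    have h2 := hδb c _ _ h1
    rw [(hfix ⟨f, hle hf⟩).2 hf c] at h2
    exact h2.unique h1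
  subst hxb'
  have hbound : finrank k⟮(⟨(xN : LaurentSeries k), hleκ xN.2⟩ : gaussRes π E hs)⟯
      (gaussRes π E hs) ≤ finrank k⟮xN⟯ (gaussRes π EN hs) * Nat.card δb.range := by
    rw [hrank]
    refine (hrk.trans hdegE.le).trans ?_
    exact Nat.mul_le_mul_left _ hcard
  obtain ⟨h1, h2⟩ := separable_of_aut hleκ xN δb.range hδbfix hbound hsep
  refine ⟨⟨hjx, htr, hfin, hfd, le_antisymm ?_ hrk⟩, h2⟩
  rw [h1, hdegE, hrank]
  exact Nat.mul_le_mul_left _ hcard

end Coord

end Fermat.Agent.Neb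

namespace Fermat.Agent.Neb

open Fermat.Agent.Red Fermat.Agent.ModFn Fermat.Agent.FF

section Haupt

variable {K k : Type*} [Field K] [Field k] {A : ValuationSubring K} {π : A →+* k}
  {F Fk : Type*} [Field F] [Algebra K F] [Field Fk] [Algebra k Fk]
  {R : ConstRed A π F Fk}

/-- the coordinate `j` is good if `1728` is a unit. -/
theorem goodCoord_j {j : F} {jb : Fk} (hc : GoodRed.IsCoord R j jb)
    (hsep : Algebra.IsSeparable k⟮jb⟯ Fk) (h1728 : (1728 : k) ≠ 0)
    (hram : ∀ (P : Place K F) (c : K), c ≠ 0 → c ≠ 1728 → P.ord (j - algebraMap K F c) ≤ 1) :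
    GoodRed.GoodCoord R j jb {(1728 : A)} :=
  { toIsCoord := hc
    sep := hsep
    inj := by simp
    unit := by
      intro b hb
      rw [Finset.mem_singleton] at hb
      subst hb
      have h4 : π 1728 = (1728 : k) := map_ofNat π 1728
      rw [h4]
      exact h1728
    unram := by
      intro P a ha hb'
      apply hram P a ha
      intro h
      exact hb' 1728 (Finset.mem_singleton_self _) h.symm }

variable [IsAlgClosed K] [CharZero K] [IsAlgClosed k] [IsFnField K F] [IsFnField k Fk]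

theorem goodCoord_of_rel' {j : F} {jb : Fk} (hcj : GoodRed.IsCoord R j jb)
    (hsep : Algebra.IsSeparable k⟮jb⟯ Fk) {t : F} {tb : Fk} (ht : R.IsRed t tb)
    {e : ℕ} (c : Fin (e + 1) → ℤ) (hc1 : ∀ i, ((c i : ℤ) : K) ≠ 0)
    (hc2 : ∀ i, ((c i : ℤ) : k) ≠ 0)
    (hrel1 : j * t ^ e = ∏ i, (t + algebraMap _ _ ((c i : ℤ) : K)))
    (hrel2 : jb * tb ^ e = ∏ i, (tb + algebraMap _ _ ((c i : ℤ) : k))) {b : ℤ}
    (hb : (b : k) ≠ 0)
    (hunr : ∀ (P : Place K F) (a : K), a ≠ 0 → a ≠ b → P.ord (t - algebraMap _ _ a) ≤ 1) :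
    GoodRed.GoodCoord R t tb {(b : A)} := by
  have htr1 := transcendental_of_rel hcj.transK _ hc1 hrel1
  have htr2 := transcendental_of_rel hcj.trans _ hc2 hrel2
  have hd1 := finrank_of_rel hcj.transK _ hc1 hrel1
  have hd2 := finrank_of_rel hcj.trans _ hc2 hrel2
  exact
  { isRed := ht
    trans := htr2
    finite := IsFnField.finiteDimensional htr1
    finite' := IsFnField.finiteDimensional htr2
    finrank_eq := by
      rw [← hcj.finrank_eq, hd1] at hd2
      exact Nat.eq_of_mul_eq_mul_left (Nat.succ_pos e) hd2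
    sep := isSeparable_of_mem_adjoin (mem_adjoin_of_rel htr2 _ hrel2) hsep
    inj := by simp
    unit := by
      intro b' hb'
      rw [Finset.mem_singleton] at hb'
      subst hb'
      rw [map_intCast]
      exact hb
    unram := by
      intro P a ha hb'
      apply hunr P a ha
      intro h
      have := hb' _ (Finset.mem_singleton_self _)
      exact this (by rw [h]; simp) }

/-- the Hauptmodul of level `3`. -/
theorem goodCoord_T' {j : F} {jb : Fk} (hcj : GoodRed.IsCoord R j jb)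
    (hsep : Algebra.IsSeparable k⟮jb⟯ Fk) {t : F} {tb : Fk} (ht : R.IsRed t tb)
    (h3 : (3 : k) ≠ 0)
    (hrel1 : j * t ^ 3 = (t + 27) * (t + 243) ^ 3)
    (hrel2 : jb * tb ^ 3 = (tb + 27) * (tb + 243) ^ 3)
    (h1 : ∀ (P : Place K F) (c : K), c ≠ 0 → c ≠ 1728 → P.ord (j - algebraMap K F c) ≤ 1)
    (h2 : ∀ P : Place K F, P.ord j ≤ 3)
    (h4 : ∀ P : Place K F, P.ord (j - algebraMap K F 1728) ≤ 2) :
    GoodRed.GoodCoord R t tb {((-27 : ℤ) : A)} := by
  have h27 : (27 : k) ≠ 0 := by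
    have : (27 : k) = 3 ^ 3 := by norm_num
    rw [this]; exact pow_ne_zero _ h3
  have h243 : (243 : k) ≠ 0 := by
    have : (243 : k) = 3 ^ 5 := by norm_num
    rw [this]; exact pow_ne_zero _ h3
  have hr1 : j * t ^ 3 = ∏ i, (t + algebraMap _ _
      (((![27, 243, 243, 243] : Fin 4 → ℤ) i : ℤ) : K)) := by
    rw [hrel1]
    refine Eq.trans ?_ (Fin.prod_univ_four _).symm
    simp only [Matrix.cons_val_zero, Matrix.cons_val_one, Matrix.cons_val]
    push_cast
    simp only [map_ofNat]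
    ring
  have hr2 : jb * tb ^ 3 = ∏ i, (tb + algebraMap _ _
      (((![27, 243, 243, 243] : Fin 4 → ℤ) i : ℤ) : k)) := by
    rw [hrel2]
    refine Eq.trans ?_ (Fin.prod_univ_four _).symm
    simp only [Matrix.cons_val_zero, Matrix.cons_val_one, Matrix.cons_val]
    push_cast
    simp only [map_ofNat]
    ring
  have hc1 : ∀ i, (((![27, 243, 243, 243] : Fin 4 → ℤ) i : ℤ) : K) ≠ 0 := by
    intro i
    fin_cases i <;> norm_num
  have hc2 : ∀ i, (((![27, 243, 243, 243] : Fin 4 → ℤ) i : ℤ) : k) ≠ 0 := by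
    intro i
    fin_cases i <;> simp [h27, h243]
  refine goodCoord_of_rel' hcj hsep ht (e := 3) _ hc1 hc2 hr1 hr2 (b := -27) (by simpa using h27) ?_
  intro P a ha hb
  refine unram_T P hcj.transK (transcendental_of_rel hcj.transK _ hc1 hr1) hrel1 (h1 P) (h2 P)
    (h4 P) ha ?_
  intro h
  apply hb
  rw [h]
  norm_num

/-- the Hauptmodul of level `2`. -/
theorem goodCoord_H' {j : F} {jb : Fk} (hcj : GoodRed.IsCoord R j jb)
    (hsep : Algebra.IsSeparable k⟮jb⟯ Fk) {t : F} {tb : Fk} (ht : R.IsRed t tb)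
    (h2' : (2 : k) ≠ 0)
    (hrel1 : j * t ^ 2 = (t + 256) ^ 3)
    (hrel2 : jb * tb ^ 2 = (tb + 256) ^ 3)
    (h1 : ∀ (P : Place K F) (c : K), c ≠ 0 → c ≠ 1728 → P.ord (j - algebraMap K F c) ≤ 1)
    (h2 : ∀ P : Place K F, P.ord j ≤ 3)
    (h4 : ∀ P : Place K F, P.ord (j - algebraMap K F 1728) ≤ 2) :
    GoodRed.GoodCoord R t tb {((-64 : ℤ) : A)} := by
  have h256 : (256 : k) ≠ 0 := by
    have : (256 : k) = 2 ^ 8 := by norm_num
    rw [this]; exact pow_ne_zero _ h2'
  have h64 : (64 : k) ≠ 0 := by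
    have : (64 : k) = 2 ^ 6 := by norm_num
    rw [this]; exact pow_ne_zero _ h2'
  have hr1 : j * t ^ 2 = ∏ i, (t + algebraMap _ _
      (((![256, 256, 256] : Fin 3 → ℤ) i : ℤ) : K)) := by
    rw [hrel1]
    refine Eq.trans ?_ (Fin.prod_univ_three _).symm
    simp only [Matrix.cons_val_zero, Matrix.cons_val_one, Matrix.cons_val]
    push_cast
    simp only [map_ofNat]
    ring
  have hr2 : jb * tb ^ 2 = ∏ i, (tb + algebraMap _ _
      (((![256, 256, 256] : Fin 3 → ℤ) i : ℤ) : k)) := by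
    rw [hrel2]
    refine Eq.trans ?_ (Fin.prod_univ_three _).symm
    simp only [Matrix.cons_val_zero, Matrix.cons_val_one, Matrix.cons_val]
    push_cast
    simp only [map_ofNat]
    ring
  have hc1 : ∀ i, (((![256, 256, 256] : Fin 3 → ℤ) i : ℤ) : K) ≠ 0 := by
    intro i
    fin_cases i <;> norm_num
  have hc2 : ∀ i, (((![256, 256, 256] : Fin 3 → ℤ) i : ℤ) : k) ≠ 0 := by
    intro i
    fin_cases i <;> simp [h256]
  refine goodCoord_of_rel' hcj hsep ht (e := 2) _ hc1 hc2 hr1 hr2 (b := -64) (by simpa using h64) ?_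
  intro P a ha hb
  refine unram_H P hcj.transK (transcendental_of_rel hcj.transK _ hc1 hr1) hrel1 (h1 P) (h2 P)
    (h4 P) ha ?_
  intro h
  apply hb
  rw [h]
  norm_num

end Haupt

section Bar

variable {N : ℕ} [NeZero N] {p : ℕ} [hp : Fact p.Prime]
  {A : ValuationSubring (AlgebraicClosure ℚ)} {k : Type*} [Field k] {π : A →+* k}
  {E : IntermediateField (AlgebraicClosure ℚ) (LaurentSeries (AlgebraicClosure ℚ))}

/-- The function `j` on a covering of `X₀(N)`. -/
def jOf (hle : modularFunctionFieldBar N ≤ E) : E := ⟨jqModC _, hle (jqModC_mem_bar N)⟩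

theorem coe_jOf (hle : modularFunctionFieldBar N ≤ E) :
    (jOf hle : LaurentSeries (AlgebraicClosure ℚ)) = jqModC _ := rfl

theorem jq_mem_gaussRes (hs : Function.Surjective π) (hle : modularFunctionFieldBar N ≤ E) :
    jqModC k ∈ gaussRes π E hs := ⟨jqModC _, hle (jqModC_mem_bar N), gRed_jq π⟩

theorem isCoord_diamond (hA : A.LiesOverPrime p) (hπ : ∀ a : A, π a = 0 ↔ ¬ IsUnit a)
    (hs : Function.Surjective π) (hN : ¬ p ∣ N) (hE : GaussField π E)
    (hle : modularFunctionFieldBar N ≤ E)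
    (hfin : FiniteDimensional (AlgebraicClosure ℚ)⟮jOf hle⟯ E)
    {G : Type*} [Group G] [Finite G] (δ : G →* (E ≃ₐ[AlgebraicClosure ℚ] E))
    (hfix : ∀ u : E, (∀ c, δ c u = u) ↔
      (u : LaurentSeries (AlgebraicClosure ℚ)) ∈ modularFunctionFieldBar N)
    (hT : ∀ (c : G) (n : ℕ), ∃ (ℓ : ℕ) (_ : NeZero ℓ) (ζ : (AlgebraicClosure ℚ)ˣ), n < ℓ ∧
      ℓ.Prime ∧ orderOf ζ = ℓ ∧ ∀ u : E, u ≠ 0 → ∃ u' : E,
        IsTwNorm ℓ ζ (u : LaurentSeries (AlgebraicClosure ℚ)) (δ c u) u')
    (y : G → LaurentSeries ℤ)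
    (hy : ∀ c, coeffMap (Int.castRingHom (AlgebraicClosure ℚ)) (y c) ∈ E)
    (hδy : ∀ c, δ c ⟨_, hy 1⟩ = ⟨_, hy c⟩)
    (hyk : ∀ c, coeffMap (Int.castRingHom k) (y c) = coeffMap (Int.castRingHom k) (y 1) →
      δ c = 1) :
    GoodRed.IsCoord (gaussConstRedFull hE hπ hs) (jOf hle) ⟨jqModC k, jq_mem_gaussRes hs hle⟩ ∧
      Algebra.IsSeparable k⟮(⟨jqModC k, jq_mem_gaussRes hs hle⟩ : gaussRes π E hs)⟯
        (gaussRes π E hs) := by
  haveI hch : CharP k p := charP_of_liesOverPrime hA hπ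
  have hδj : ∀ c, δ c (jOf hle) = jOf hle := (hfix _).2 (jqModC_mem_bar N)
  have hinv := gauss_invariant (p := p) hπ hs hE (jOf hle) rfl δ hδj hT
  have hbar := gaussRes_bar N hA hπ hs hN
  have hmem : jqModC k ∈ gaussRes π (modularFunctionFieldBar N) hs :=
    ⟨jqModC _, jqModC_mem_bar N, gRed_jq π⟩
  have hkey : ∀ (κ : IntermediateField k (LaurentSeries k)) (h : jqModC k ∈ κ),
      κ = modularFunctionFieldFullC k N →
      finrank k⟮(⟨jqModC k, h⟩ : κ)⟯ κ = finrank (AlgebraicClosure ℚ)⟮jB N⟯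
        (modularFunctionFieldBar N) ∧ Algebra.IsSeparable k⟮(⟨jqModC k, h⟩ : κ)⟯ κ := by
    rintro κ h rfl
    refine ⟨?_, RedQ.isSeparable_charP N k p hN⟩
    rw [finrank_jB]
    exact RedQ.finrank_charP N k p hN
  obtain ⟨h1, h2⟩ := hkey _ hmem hbar
  exact isCoord_of_diamond hπ hs hE hle (jB N) rfl (jOf hle) rfl δ hfix hinv y hy hδy hyk
    ⟨jqModC k, hmem⟩ rfl h1 h2 ⟨jqModC k, jq_mem_gaussRes hs hle⟩ rfl

/-- **Good coordinates for coverings of `X₀(N)` with diamond operators.** -/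
theorem exists_goodCoord_diamond (hA : A.LiesOverPrime p)
    (hπ : ∀ a : A, π a = 0 ↔ ¬ IsUnit a)
    (hs : Function.Surjective π) (hN : ¬ p ∣ N) (hE : GaussField π E)
    (hle : modularFunctionFieldBar N ≤ E)
    (hfin : FiniteDimensional (AlgebraicClosure ℚ)⟮jOf hle⟯ E)
    {G : Type*} [Group G] [Finite G] (δ : G →* (E ≃ₐ[AlgebraicClosure ℚ] E))
    (hfix : ∀ u : E, (∀ c, δ c u = u) ↔
      (u : LaurentSeries (AlgebraicClosure ℚ)) ∈ modularFunctionFieldBar N)
    (hT : ∀ (c : G) (n : ℕ), ∃ (ℓ : ℕ) (_ : NeZero ℓ) (ζ : (AlgebraicClosure ℚ)ˣ), n < ℓ ∧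
      ℓ.Prime ∧ orderOf ζ = ℓ ∧ ∀ u : E, u ≠ 0 → ∃ u' : E,
        IsTwNorm ℓ ζ (u : LaurentSeries (AlgebraicClosure ℚ)) (δ c u) u')
    (y : G → LaurentSeries ℤ)
    (hy : ∀ c, coeffMap (Int.castRingHom (AlgebraicClosure ℚ)) (y c) ∈ E)
    (hδy : ∀ c, δ c ⟨_, hy 1⟩ = ⟨_, hy c⟩)
    (hyk : ∀ c, coeffMap (Int.castRingHom k) (y c) = coeffMap (Int.castRingHom k) (y 1) →
      δ c = 1)
    (hram1 : ∀ (P : Place (AlgebraicClosure ℚ) E) (c : AlgebraicClosure ℚ), c ≠ 0 → c ≠ 1728 →
      P.ord (jOf hle - algebraMap _ _ c) ≤ 1)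
    (hram2 : ∀ P : Place (AlgebraicClosure ℚ) E, P.ord (jOf hle) ≤ 3)
    (hram3 : ∀ P : Place (AlgebraicClosure ℚ) E,
      P.ord (jOf hle - algebraMap (AlgebraicClosure ℚ) _ 1728) ≤ 2)
    (h2 : p = 2 → 3 ∣ N) (h3 : p = 3 → 2 ∣ N) :
    ∃ (x : E) (xb : gaussRes π E hs) (B : Finset A),
      GoodRed.GoodCoord (gaussConstRedFull hE hπ hs) x xb B := by
  haveI hch : CharP k p := charP_of_liesOverPrime hA hπ
  haveI : IsAlgClosed k := isAlgClosed_of_surjective hs
  obtain ⟨hc, hsep⟩ := isCoord_diamond hA hπ hs hN hE hle hfin δ hfix hT y hy hδy hyk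
  haveI : IsFnField (AlgebraicClosure ℚ) E := IsFnField.of_finiteDimensional hc.transK
  haveI := hc.finite'
  haveI : IsFnField k (gaussRes π E hs) := IsFnField.of_finiteDimensional hc.trans
  have hmemk : ∀ T : LaurentSeries ℤ, coeffMap (Int.castRingHom (AlgebraicClosure ℚ)) T ∈ E →
      coeffMap (Int.castRingHom k) T ∈ gaussRes π E hs := fun T hT => ⟨_, hT, gRed_int π T⟩
  have hne : ∀ q : ℕ, q.Prime → p ≠ q → (q : k) ≠ 0 := by
    intro q hq hpq h
    rw [CharP.cast_eq_zero_iff k p, Nat.prime_dvd_prime_iff_eq hp.out hq] at h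
    exact hpq h
  by_cases hp2 : p = 2
  · have hT3 := hle (haupt3_mem_bar (h2 hp2))
    refine ⟨⟨_, hT3⟩, ⟨_, hmemk _ hT3⟩, _, goodCoord_T' hc hsep (isRed_full.2 (gRed_int π _))
      (by have := hne 3 Nat.prime_three (by omega); exact_mod_cast this) ?_ ?_ hram1 hram2 hram3⟩
    · apply Subtype.ext
      have h1 := congrArg (coeffMap (Int.castRingHom (AlgebraicClosure ℚ))) (RedQ.haupt3_rel ℤ)
      simp only [map_mul, map_pow, ModularCurve.coeffMap_jqModC, map_add, map_ofNat] at h1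
      exact h1
    · apply Subtype.ext
      have h1 := congrArg (coeffMap (Int.castRingHom k)) (RedQ.haupt3_rel ℤ)
      simp only [map_mul, map_pow, ModularCurve.coeffMap_jqModC, map_add, map_ofNat] at h1
      exact h1
  by_cases hp3 : p = 3
  · have hT2 := hle (haupt2_mem_bar (h3 hp3))
    refine ⟨⟨_, hT2⟩, ⟨_, hmemk _ hT2⟩, _, goodCoord_H' hc hsep (isRed_full.2 (gRed_int π _))
      (by have := hne 2 Nat.prime_two (by omega); exact_mod_cast this) ?_ ?_ hram1 hram2 hram3⟩
    · apply Subtype.ext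
      have h1 := congrArg (coeffMap (Int.castRingHom (AlgebraicClosure ℚ))) (RedQ.haupt2_rel ℤ)
      simp only [map_mul, map_pow, ModularCurve.coeffMap_jqModC, map_add, map_ofNat] at h1
      exact h1
    · apply Subtype.ext
      have h1 := congrArg (coeffMap (Int.castRingHom k)) (RedQ.haupt2_rel ℤ)
      simp only [map_mul, map_pow, ModularCurve.coeffMap_jqModC, map_add, map_ofNat] at h1
      exact h1
  refine ⟨_, _, _, goodCoord_j hc hsep ?_ hram1⟩
  have e1 : (1728 : k) = (2 : ℕ) ^ 6 * (3 : ℕ) ^ 3 := by norm_num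
  rw [e1]
  exact mul_ne_zero (pow_ne_zero _ (hne 2 Nat.prime_two hp2))
    (pow_ne_zero _ (hne 3 Nat.prime_three hp3))

end Bar

end Fermat.Agent.Neb
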