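import Mathlib
import Fermat.Agent.Neb.HeckeK
import Fermat.Agent.Neb.FnK
import Fermat.Agent.Neb.GaussCoord
import Fermat.Agent.Neb.GaussGen
import Fermat.Agent.Neb.Index
import Fermat.Agent.Neb.FixH
import Fermat.Agent.Top.PlaceLift

/-!
# Good coordinates on the reduction of `X_H`
-/

set_option autoImplicit false
set_option linter.unusedSectionVars false
set_option linter.style.haveILetI false

noncomputable section

namespace Fermat.Agent.Neb

open ModularCurve Fermat.Agent.ModFn Fermat.Agent.Top Fermat.Agent.DS CongruenceSubgroup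
open AlgebraicCurve Fermat.Agent.Red
open scoped MatrixGroups

variable {D : ℕ} [NeZero D] {hD : 3 ≤ D}

/-! ### Descent -/

section Descend

variable [Algebra (AlgebraicClosure ℚ) ℂ]

variable (hD) in
theorem bar_le : modularFunctionFieldBar (D ^ 2) ≤ FK (AlgebraicClosure ℚ) (datumH D hD) :=
  fun _ hx => FN_le_FK hx

theorem diaK_fixed (x : FK (AlgebraicClosure ℚ) (datumH D hD)) :
    (∀ u, diaK _ hD u x = x) ↔
      (x : LaurentSeries (AlgebraicClosure ℚ)) ∈ modularFunctionFieldBar (D ^ 2) :=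
  fixedK_iff x

theorem exists_isTwNorm_dia (c : (ZMod (D ^ 2))ˣ) (n : ℕ) :
    ∃ (ℓ : ℕ) (_ : NeZero ℓ) (ζ : (AlgebraicClosure ℚ)ˣ), n < ℓ ∧
      ℓ.Prime ∧ orderOf ζ = ℓ ∧ ∀ u : FK (AlgebraicClosure ℚ) (datumH D hD), u ≠ 0 →
        ∃ u' : FK (AlgebraicClosure ℚ) (datumH D hD),
        IsTwNorm ℓ ζ (u : LaurentSeries (AlgebraicClosure ℚ)) (diaK _ hD c u) u' := by
  obtain ⟨ℓ, hℓ, hp, hc⟩ := Nat.forall_exists_prime_gt_and_eq_mod c.isUnit (max n (D ^ 2))
  have hn : n < ℓ := lt_of_le_of_lt (le_max_left _ _) hℓ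
  have hND : ¬ ℓ ∣ D ^ 2 := by
    intro h
    have h1 := Nat.le_of_dvd (Nat.pos_of_neZero (D ^ 2)) h
    have h2 := lt_of_le_of_lt (le_max_right _ _) hℓ
    omega
  haveI : NeZero ℓ := ⟨hp.ne_zero⟩
  obtain ⟨ζ, hζ, hζ'⟩ := exists_zetaK (K := AlgebraicClosure ℚ) ℓ
  refine ⟨ℓ, inferInstance, ζ, hn, hp, hζ', fun u _ => ?_⟩
  have hup : up hp hND = c := Units.ext (by rw [val_up, hc])
  obtain ⟨u', hu'⟩ := exists_isTwNorm_FK hp hND hζ u
  rw [hup] at hu'
  exact ⟨u', hu'⟩

theorem ord_jK_sub (P : Place (AlgebraicClosure ℚ) (FK (AlgebraicClosure ℚ) (datumH D hD)))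
    (a : AlgebraicClosure ℚ)
    (ha : 0 < P.ord (jK (AlgebraicClosure ℚ) (datumH D hD) - algebraMap _ _ a)) :
    P.ord (jK (AlgebraicClosure ℚ) (datumH D hD) - algebraMap _ _ a) ∣
      if a = 0 then 3 else if a = 1728 then 2 else 1 := by
  obtain ⟨v, hv⟩ := exists_place_lift ℂ P
  have h1 : baseChangeEmb (AlgebraicClosure ℚ) ℂ (F₀ (datumH D hD))
      (jK (AlgebraicClosure ℚ) (datumH D hD) - algebraMap _ _ a) =
      jF (datumH D hD) - algebraMap ℂ _ (algebraMap (AlgebraicClosure ℚ) ℂ a) := by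
    have h2 := embK_jK (hD := hD) (AlgebraicClosure ℚ)
    have h3 := embK_algebraMap (hD := hD) (AlgebraicClosure ℚ) a
    rw [← h2, ← h3, ← map_sub]
    rfl
  rw [← hv, h1] at ha ⊢
  have h4 := ord_jF_sub_le v _ ha
  have h0 : algebraMap (AlgebraicClosure ℚ) ℂ a = 0 ↔ a = 0 := map_eq_zero _
  have h1728 : algebraMap (AlgebraicClosure ℚ) ℂ a = 1728 ↔ a = 1728 := by
    rw [← map_ofNat (algebraMap (AlgebraicClosure ℚ) ℂ) 1728]
    exact (algebraMap (AlgebraicClosure ℚ) ℂ).injective.eq_iff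
  simp only [h0, h1728] at h4
  exact h4

variable {p : ℕ} [hp : Fact p.Prime] {A : ValuationSubring (AlgebraicClosure ℚ)} {k : Type*}
  [Field k] {π : A →+* k}

variable (hD) in
/-- **Good coordinates on the reduction of `X_H`.** -/
theorem exists_goodCoord_H (hpN : ¬ p ∣ D ^ 2) (h2 : p = 2 → 3 ∣ D) (h3 : p = 3 → 2 ∣ D)
    (hA : A.LiesOverPrime p) (hπ : ∀ a : A, π a = 0 ↔ ¬ IsUnit a)
    (hs : Function.Surjective π) :
    ∃ (x : FK (AlgebraicClosure ℚ) (datumH D hD))
      (xb : gaussRes π (laurentBaseChange (AlgebraicClosure ℚ) (F₀ (datumH D hD))) hs)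
      (B : Finset A),
      GoodRed.GoodCoord (gaussConstRedFull (gaussField_F₀ (datumH D hD) π hp.out hA) hπ hs)
        x xb B := by
  haveI : CharP k p := charP_of_liesOverPrime hA hπ
  have hu1 : (ubar (1 : (ZMod (D ^ 2))ˣ))⁻¹ = (1 : (ZMod D)ˣ) := by
    have : ubar (1 : (ZMod (D ^ 2))ˣ) = 1 := map_one _
    rw [this, inv_one]
  refine exists_goodCoord_diamond (N := D ^ 2) hA hπ hs hpN
    (gaussField_F₀ (datumH D hD) π hp.out hA) (bar_le hD) ?_ (diaK _ hD) diaK_fixed
    exists_isTwNorm_dia (fun c => yq D (((ubar c)⁻¹ : (ZMod D)ˣ) : ZMod D))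
    (fun c => (yK _ hD (ubar c)⁻¹).2) ?_ ?_ ?_ ?_ ?_ (fun h => dvd_pow (h2 h) two_ne_zero)
    (fun h => dvd_pow (h3 h) two_ne_zero)
  · exact finiteDimensional_FK (K := AlgebraicClosure ℚ) (D := datumH D hD)
  · intro c
    have h := diaK_yK (hD := hD) (AlgebraicClosure ℚ) c (ubar 1)⁻¹
    refine h.trans ?_
    apply Subtype.ext
    change coeffMap _ (yq D _) = coeffMap _ (yq D _)
    rw [hu1, one_mul]
  · intro c hc
    haveI : Nontrivial k := inferInstance
    rw [hu1] at hc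
    have h4 := eq_or_eq_neg_of_coeffMap_yq (isUnit_ne_neg hD (Units.isUnit _))
      (isUnit_ne_neg hD (Units.isUnit _)) hc
    apply diaK_eq_one
    rcases h4 with h4 | h4
    · left
      have h5 : (ubar c)⁻¹ = 1 := Units.ext h4
      rw [inv_eq_one] at h5
      rw [h5, Units.val_one]
    · right
      have h5 : (ubar c)⁻¹ = -1 := Units.ext (by rw [h4]; simp)
      have h6 : ubar c = -1 := by
        rw [inv_eq_iff_eq_inv] at h5
        rw [h5]
        simp
      rw [h6]; simp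
  · intro P c hc0 hc1
    by_contra hcon
    rw [not_le] at hcon
    have h5 := ord_jK_sub P c (by
      refine lt_trans zero_lt_one hcon)
    rw [if_neg hc0, if_neg hc1] at h5
    exact absurd (Int.le_of_dvd one_pos h5) (not_le.mpr hcon)
  · intro P
    by_contra hcon
    rw [not_le] at hcon
    have h5 := ord_jK_sub P 0
    rw [map_zero, sub_zero, if_pos rfl] at h5
    have h6 := h5 (lt_trans (by norm_num) hcon)
    exact absurd (Int.le_of_dvd (by norm_num) h6) (not_le.mpr hcon)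
  · intro P
    by_contra hcon
    rw [not_le] at hcon
    have h5 := ord_jK_sub P 1728 (lt_trans (by norm_num) hcon)
    rw [if_neg (by norm_num), if_pos rfl] at h5
    exact absurd (Int.le_of_dvd (by norm_num) h5) (not_le.mpr hcon)

end Descend

end Fermat.Agent.Neb
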