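import Fermat.Agent.Neb.GaussCoord
import Fermat.Agent.Top.PicKummer
import Fermat.Agent.JZ.OpenStab
import Fermat.Agent.Frob.Basic
import Fermat.Agent.ESh.NormRed

/-!
# Reduction of Kummer classes and the Frobenius relation

For a function field with good reduction, the reduction of Kummer classes of order prime to the
residue characteristic is injective.  This gives the triviality of inertia and the relation
`T = σ + p σ⁻¹ δ` on the Kummer group.
-/

set_option autoImplicit false
set_option linter.unusedSectionVars false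
set_option linter.style.haveILetI false
set_option linter.unusedVariables false

noncomputable section

open AlgebraicCurve IntermediateField ModularCurve Module

namespace Fermat.Agent.Neb

open Fermat.Agent.Red Fermat.Agent.ModFn Fermat.Agent.FF Fermat.Agent.Top

section Abstract

variable {K k : Type*} [Field K] [Field k] {A : ValuationSubring K} {π : A →+* k}
  {F Fk : Type*} [Field F] [Algebra K F] [Field Fk] [Algebra k Fk]
  {R : ConstRed A π F Fk} {x : F} {xb : Fk} {B : Finset A}
  [IsAlgClosed K] [CharZero K] [IsAlgClosed k]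

/-- **Injectivity of the reduction on the Kummer group.** -/
theorem mem_powSubgroup_of_isRed (hc : GoodRed.GoodCoord R x xb B)
    (hs : Function.Surjective π) {m : ℕ} (hm : (m : k) ≠ 0) {u : Fˣ}
    (hu : u ∈ kummerSubgroup K F m) {c : K} (hc0 : c ≠ 0) {z : Fk} (hz : z ≠ 0)
    (h : R.IsRed (algebraMap K F c * u) (z ^ m)) : u ∈ powSubgroup F m := by
  haveI := isFnField_of_goodCoord hc
  haveI := isFnField_of_goodCoord' hc
  have hm0 : m ≠ 0 := by rintro rfl; simp at hm
  haveI : NeZero m := ⟨hm0⟩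
  set S := specGood hc hs with hS
  have hc0' : algebraMap K F c ≠ 0 := by simpa using hc0
  have h1 : ∀ P : Place K F, (m • rootDiv (K := K) m (u : F)) P =
      P.ord (algebraMap K F c * u) := by
    intro P
    rw [nsmul_rootDiv hu, RR.divOf_apply, P.ord_mul hc0' u.ne_zero, FF.ord_algebraMap, zero_add]
  have h2 := S.ord_eq _ _ h (pow_ne_zero _ hz) _ h1
  have h3 : ∀ Q : Place k Fk, Finsupp.mapDomain S.r (rootDiv (K := K) m (u : F)) Q = Q.ord z := by
    intro Q
    have h4 := h2 Q
    rw [Finsupp.mapDomain_smul, Finsupp.smul_apply, nsmul_eq_mul, FF.ord_pow] at h4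
    exact mul_left_cancel₀ (by exact_mod_cast hm0) h4
  have h5 : Divisor.IsPrincipal (Finsupp.mapDomain S.r (rootDiv (K := K) m (u : F))) :=
    ⟨z, hz, h3⟩
  have h6 : Divisor.IsPrincipal (m • rootDiv (K := K) m (u : F)) := by
    rw [nsmul_rootDiv hu]
    exact ⟨u, u.ne_zero, fun v => RR.divOf_apply _ _⟩
  have h7 := isPrincipal_of_torsion hc hs S m hm _ (degree_rootDiv (NeZero.pos m) hu) h6 h5
  have h8 : kummerToPic K F m (Additive.ofMul (⟨u, hu⟩ : kummerSubgroup K F m)) = 0 :=
    mk_eq_zero_iff.2 h7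
  rw [kummerToPic_eq_zero_iff] at h8
  exact h8

theorem div_mem_powSubgroup_of_isRed (hc : GoodRed.GoodCoord R x xb B)
    (hs : Function.Surjective π) {m : ℕ} (hm : (m : k) ≠ 0) {u v : Fˣ}
    (hu : u ∈ kummerSubgroup K F m) (hv : v ∈ kummerSubgroup K F m) {c d : K} (hc0 : c ≠ 0)
    (hd0 : d ≠ 0) {a : Fk} (ha : a ≠ 0)
    (h1 : R.IsRed (algebraMap K F c * u) a) (h2 : R.IsRed (algebraMap K F d * v) a) :
    u / v ∈ powSubgroup F m := by
  refine mem_powSubgroup_of_isRed hc hs hm (div_mem hu hv) (c := c / d) (div_ne_zero hc0 hd0)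
    (z := 1) one_ne_zero ?_
  have h3 := h1.div h2 ha
  rw [div_self ha] at h3
  rw [one_pow]
  convert h3 using 1
  rw [map_div₀, Units.val_div_eq_div_val]
  ring

end Abstract

section Action

variable {K F : Type*} [Field K] [Field F] [Algebra K F]

/-- the action of a semilinear automorphism on units -/
def unitsAct (g : SemilinearAut K F) : Fˣ →* Fˣ := Units.map (SemilinearAut.toRingAut g : F →* F)

theorem coe_unitsAct (g : SemilinearAut K F) (u : Fˣ) : (unitsAct g u : F) = g • (u : F) := rfl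

theorem unitsAct_mem {g : SemilinearAut K F} {m : ℕ} {u : Fˣ} (hu : u ∈ kummerSubgroup K F m) :
    unitsAct g u ∈ kummerSubgroup K F m := by
  intro v
  rw [coe_unitsAct]
  have h1 := SemilinearAut.ord_smul g (g⁻¹ • v) (u : F)
  rw [smul_inv_smul] at h1
  rw [h1]
  exact hu _

/-- the action on the subgroup of units with divisible divisor -/
def kumSubAct (g : SemilinearAut K F) (m : ℕ) : kummerSubgroup K F m →* kummerSubgroup K F m :=
  ((unitsAct g).comp (kummerSubgroup K F m).subtype).codRestrict _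
    (fun u => unitsAct_mem u.2)

theorem coe_kumSubAct (g : SemilinearAut K F) (m : ℕ) (u : kummerSubgroup K F m) :
    ((kumSubAct g m u : Fˣ) : F) = g • ((u : Fˣ) : F) := rfl

/-- the action on the Kummer group -/
def kumAct (g : SemilinearAut K F) (m : ℕ) : KummerGroup K F m →* KummerGroup K F m :=
  QuotientGroup.map _ _ (kumSubAct g m) (by
    intro u hu
    rw [Subgroup.mem_subgroupOf] at hu
    obtain ⟨g', hg'⟩ := hu
    rw [Subgroup.mem_comap, Subgroup.mem_subgroupOf]
    refine ⟨unitsAct g g', ?_⟩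
    change (unitsAct g g') ^ m = unitsAct g u
    rw [← map_pow]
    exact congrArg _ hg')

theorem kumAct_mk (g : SemilinearAut K F) (m : ℕ) (u : kummerSubgroup K F m) :
    kumAct g m (QuotientGroup.mk u) = QuotientGroup.mk (kumSubAct g m u) := rfl

theorem kumAct_one (m : ℕ) : kumAct (1 : SemilinearAut K F) m = MonoidHom.id _ := by
  refine MonoidHom.ext fun x => ?_
  obtain ⟨u, rfl⟩ := QuotientGroup.mk_surjective x
  rw [kumAct_mk]
  congr 1

theorem kumAct_mul (g g' : SemilinearAut K F) (m : ℕ) :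
    kumAct (g * g') m = (kumAct g m).comp (kumAct g' m) := by
  refine MonoidHom.ext fun x => ?_
  obtain ⟨u, rfl⟩ := QuotientGroup.mk_surjective x
  rw [MonoidHom.comp_apply, kumAct_mk, kumAct_mk, kumAct_mk]
  congr 1

end Action

section Mk

variable {K F : Type*} [Field K] [Field F] [Algebra K F] {m : ℕ}

/-- the class of a unit in the Kummer group -/
def kmk (u : kummerSubgroup K F m) : KummerGroup K F m := QuotientGroup.mk u

theorem kmk_surjective (y : KummerGroup K F m) : ∃ u : kummerSubgroup K F m, kmk u = y :=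
  QuotientGroup.mk_surjective y

theorem kumAct_kmk (g : SemilinearAut K F) (u : kummerSubgroup K F m) :
    kumAct g m (kmk u) = kmk (kumSubAct g m u) := rfl

theorem kmk_mul (u v : kummerSubgroup K F m) : kmk (u * v) = kmk u * kmk v := rfl

theorem kmk_pow (u : kummerSubgroup K F m) (n : ℕ) : kmk (u ^ n) = kmk u ^ n := rfl

theorem kmk_eq_iff {u v : kummerSubgroup K F m} :
    kmk u = kmk v ↔ (u : Fˣ) / v ∈ powSubgroup F m := by
  unfold kmk
  rw [QuotientGroup.eq, Subgroup.mem_subgroupOf]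
  constructor
  · intro h
    have h1 := inv_mem h
    convert h1 using 1
    push_cast
    rw [mul_inv_rev, inv_inv, mul_comm, div_eq_mul_inv]
  · intro h
    have h1 := inv_mem h
    convert h1 using 1
    push_cast
    rw [inv_div, div_eq_mul_inv, mul_comm]

end Mk

section Galois

local notation "Qb" => AlgebraicClosure ℚ
local notation "Γℚ" => (AlgebraicClosure ℚ ≃ₐ[ℚ] AlgebraicClosure ℚ)

variable (F₀ : IntermediateField ℚ (LaurentSeries ℚ))

/-- **The Galois action on the Kummer group.** -/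
def kumGal (m : ℕ) : Γℚ →* AddMonoid.End (Additive (KummerGroup Qb (laurentBaseChange Qb F₀) m)) where
  toFun σ := MonoidHom.toAdditive (kumAct (arithmeticGalois F₀ σ) m)
  map_one' := by
    rw [map_one, kumAct_one]
    rfl
  map_mul' σ τ := by
    rw [map_mul, kumAct_mul]
    rfl

theorem kumGal_mk (m : ℕ) (σ : Γℚ) (u : kummerSubgroup Qb (laurentBaseChange Qb F₀) m) :
    kumGal F₀ m σ (Additive.ofMul (QuotientGroup.mk u)) =
      Additive.ofMul (QuotientGroup.mk (kumSubAct (arithmeticGalois F₀ σ) m u)) := rfl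

variable {F₀}

theorem kumGal_finite_level (m : ℕ)
    [hfin : Finite (KummerGroup Qb (laurentBaseChange Qb F₀) m)] :
    GaloisFactorsThroughFiniteLevel (kumGal F₀ m) := by
  classical
  haveI := Fintype.ofFinite (KummerGroup Qb (laurentBaseChange Qb F₀) m)
  choose lift hlift using kmk_surjective (K := Qb) (F := laurentBaseChange Qb F₀) (m := m)
  obtain ⟨E, hE, h⟩ := JZ.exists_level_finset (F₀ := F₀)
    (Finset.univ.image fun x => ((lift x : (laurentBaseChange Qb F₀)ˣ) : laurentBaseChange Qb F₀))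
  refine ⟨E, hE, fun σ hσ => ?_⟩
  have key : ∀ x, kumAct (arithmeticGalois F₀ σ) m x = x := by
    intro x
    have h1 : kumSubAct (arithmeticGalois F₀ σ) m (lift x) = lift x := by
      apply Subtype.ext
      apply Units.ext
      rw [coe_kumSubAct]
      exact h σ hσ _ (Finset.mem_image_of_mem _ (Finset.mem_univ _))
    have h2 := kumAct_kmk (arithmeticGalois F₀ σ) (lift x)
    rw [h1, hlift x] at h2
    exact h2
  refine AddMonoidHom.ext fun x => ?_
  exact congrArg Additive.ofMul (key (Additive.toMul x))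

variable {k : Type*} [Field k] {A : ValuationSubring Qb} {π : A →+* k}

/-- coefficientwise semilinear actions and reduction -/
theorem gRed_coeffMap (σ : Γℚ) (sA : A →+* A)
    (hsA : ∀ a : A, ((sA a : A) : Qb) = σ a) (sk : k →+* k)
    (hsk : ∀ a : A, π (sA a) = sk (π a)) {f : LaurentSeries Qb} {z : LaurentSeries k}
    (h : GRed π f z) : GRed π (coeffMap (σ : Qb →+* Qb) f) (coeffMap sk z) := by
  obtain ⟨a, b, hb, h1, h2⟩ := h
  have hi : ∀ y : LaurentSeries A, iotaA A (coeffMap sA y) = coeffMap (σ : Qb →+* Qb)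
      (iotaA A y) := by
    intro y
    ext n
    simp only [iotaA, coeffMap_coeff]
    exact hsA _
  have hr : ∀ y : LaurentSeries A, rhoA π (coeffMap sA y) = coeffMap sk (rhoA π y) := by
    intro y
    ext n
    simp only [rhoA, coeffMap_coeff]
    exact hsk _
  refine ⟨coeffMap sA a, coeffMap sA b, ?_, ?_, ?_⟩
  · rw [hr]
    intro h
    exact hb (Red.coeffMap_injective' _ sk.injective (h.trans (map_zero _).symm))
  · rw [hi, hi, ← map_mul, h1]
  · rw [hr, hr, ← map_mul, h2]

theorem exists_residue_inertia (hπ : ∀ a : A, π a = 0 ↔ ¬ IsUnit a) {σ : Γℚ}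
    (hσ : σ ∈ A.inertiaSubgroupIn ℚ) : ∃ sA : A →+* A,
      (∀ a : A, ((sA a : A) : Qb) = σ a) ∧ ∀ a : A, π (sA a) = RingHom.id k (π a) := by
  obtain ⟨hσD, hσF⟩ := (Frob.mem_inertiaSubgroupIn_iff A σ).1 hσ
  refine ⟨((σ : Qb →+* Qb).comp A.subtype).codRestrict A.toSubring
    (fun a => (Frob.apply_mem_iff hσD).2 a.2), fun a => rfl, ?_⟩
  intro a
  rw [RingHom.id_apply, ← sub_eq_zero, ← map_sub, hπ]
  have h1 := hσF a a.2
  rw [ValuationSubring.mem_nonunits_iff_exists_mem_maximalIdeal] at h1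
  obtain ⟨h2, h3⟩ := h1
  exact (IsLocalRing.mem_maximalIdeal _).1 h3

theorem exists_residue_frobenius {p : ℕ} [Fact p.Prime] [CharP k p]
    (hπ : ∀ a : A, π a = 0 ↔ ¬ IsUnit a) {σ : Γℚ}
    (hσ : A.IsFrobeniusAt σ p) : ∃ sA : A →+* A,
      (∀ a : A, ((sA a : A) : Qb) = σ a) ∧ ∀ a : A, π (sA a) = frobenius k p (π a) := by
  obtain ⟨hσD, hσF⟩ := (Frob.isFrobeniusAt_iff A σ p).1 hσ
  refine ⟨((σ : Qb →+* Qb).comp A.subtype).codRestrict A.toSubring
    (fun a => (Frob.apply_mem_iff hσD).2 a.2), fun a => rfl, ?_⟩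
  intro a
  rw [frobenius_def, ← map_pow, ← sub_eq_zero, ← map_sub, hπ]
  have h1 := hσF a a.2
  rw [ValuationSubring.mem_nonunits_iff_exists_mem_maximalIdeal] at h1
  obtain ⟨h2, h3⟩ := h1
  exact (IsLocalRing.mem_maximalIdeal _).1 h3

theorem coeffMap_algebraMap_mul (σ : Γℚ) (c : Qb) (f : laurentBaseChange Qb F₀) :
    coeffMap (σ : Qb →+* Qb) ((algebraMap Qb (laurentBaseChange Qb F₀) c * f :
      laurentBaseChange Qb F₀) : LaurentSeries Qb) =
      ((algebraMap Qb (laurentBaseChange Qb F₀) (σ c) * (arithmeticGalois F₀ σ • f) :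
        laurentBaseChange Qb F₀) : LaurentSeries Qb) := by
  rw [IntermediateField.coe_mul, IntermediateField.coe_mul, map_mul, coe_arithmeticGalois_smul]
  congr 1
  exact coeffMap_algebraMap (σ : Qb →+* Qb) c

section Main

variable {hπ : ∀ a : A, π a = 0 ↔ ¬ IsUnit a} {hs : Function.Surjective π}
  {hE : GaussField π (laurentBaseChange Qb F₀)}
  {x : laurentBaseChange Qb F₀} {xb : gaussRes π (laurentBaseChange Qb F₀) hs} {B : Finset A}
  (hc : GoodRed.GoodCoord (gaussConstRedFull hE hπ hs) x xb B) {m : ℕ} (hm : (m : k) ≠ 0)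

include hc hm in
/-- **Inertia acts trivially on the Kummer group.** -/
theorem kumGal_inertia {σ : Γℚ} (hσ : σ ∈ A.inertiaSubgroupIn ℚ) : kumGal F₀ m σ = 1 := by
  haveI : IsAlgClosed k := isAlgClosed_of_surjective hs
  obtain ⟨sA, hsA, hsk⟩ := exists_residue_inertia hπ hσ
  refine AddMonoidHom.ext fun y => ?_
  have key : ∀ y, kumAct (arithmeticGalois F₀ σ) m y = y := by
    intro y
    obtain ⟨u, rfl⟩ := kmk_surjective y
    rw [kumAct_kmk, kmk_eq_iff]
    obtain ⟨c, hc0, z, hz, hcz⟩ := (gaussConstRedFull hE hπ hs).exists_isRed_mul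
      (Units.ne_zero (u : (laurentBaseChange Qb F₀)ˣ))
    have h1 := gRed_coeffMap σ sA hsA (RingHom.id k) hsk (isRed_full.1 hcz)
    rw [coeffMap_algebraMap_mul, coeffMap_id] at h1
    have hσc : σ c ≠ 0 := by simpa using hc0
    exact div_mem_powSubgroup_of_isRed hc hs hm (kumSubAct (arithmeticGalois F₀ σ) m u).2 u.2
      hσc hc0 hz (isRed_full.2 h1) hcz
  exact congrArg Additive.ofMul (key (Additive.toMul y))

theorem isTwNorm_C {p : ℕ} [NeZero p] (ζ : Qbˣ) (c d : Qb) :
    IsTwNorm p ζ (HahnSeries.C c : LaurentSeries Qb) (HahnSeries.C d)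
      (HahnSeries.C (d * c ^ p)) := by
  have ht : ∀ i, twist (ζ ^ i) (HahnSeries.C c : LaurentSeries Qb) = HahnSeries.C c := by
    intro i
    ext n
    rw [twist_coeff]
    change _ * (HahnSeries.single (0 : ℤ) c).coeff n = (HahnSeries.single (0 : ℤ) c).coeff n
    rw [HahnSeries.coeff_single]
    split_ifs with h
    · rw [h]; simp
    · simp
  unfold IsTwNorm
  rw [qExpand_C, qExpand_C, Finset.prod_congr rfl fun i _ => ht i, Finset.prod_const,
    Finset.card_range, map_mul, map_pow]

include hπ in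
/-- reduction of the multiplicative Hecke operator at `p`. -/
theorem gRed_isTwNorm {E : IntermediateField Qb (LaurentSeries Qb)} (hE' : GaussField π E)
    {p : ℕ} [hp : Fact p.Prime] [NeZero p] [CharP k p] {ζ : Qbˣ} (hζ : ζ ^ p = 1)
    {f g h : LaurentSeries Qb} (hh : h ∈ E) (hT : IsTwNorm p ζ f g h) {ub vb : LaurentSeries k}
    (hf : GRed π f ub) (hg : GRed π g vb) :
    GRed π h (qExpand k p vb * coeffMap (frobenius k p) ub) := by
  have hpow : ∀ i, (ζ ^ i : Qbˣ) ^ p = 1 := fun i => by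
    rw [← pow_mul, mul_comm, pow_mul, hζ, one_pow]
  have htw : ∀ i, GRed π (twist (ζ ^ i) f) ub := by
    intro i
    obtain ⟨ξ, hξ⟩ := exists_unit_of_pow_eq_one A hp.out.ne_zero (hpow i)
    have h3 := gRed_twist ξ hf
    rw [hξ] at h3
    have h4 : Units.map π.toMonoidHom ξ = 1 := by
      have h5 : ξ ^ p = 1 := by
        have h6 : Units.map A.subtype.toMonoidHom (ξ ^ p) =
            Units.map A.subtype.toMonoidHom 1 := by rw [map_pow, hξ, hpow, map_one]
        exact Units.map_injective (f := A.subtype.toMonoidHom) Subtype.coe_injective h6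
      have h7 : (Units.map π.toMonoidHom ξ) ^ p = 1 := by rw [← map_pow, h5, map_one]
      apply Units.ext
      have h8 : ((Units.map π.toMonoidHom ξ : kˣ) : k) ^ p = 1 := by
        rw [← Units.val_pow_eq_pow_val, h7, Units.val_one]
      have h9 : frobenius k p ((Units.map π.toMonoidHom ξ : kˣ) : k) = frobenius k p 1 := by
        rw [map_one, frobenius_def]
        exact h8
      exact (frobenius k p).injective h9
    rwa [h4, twist_one] at h3
  have hprod : GRed π (∏ i ∈ Finset.range p, twist (ζ ^ i) f) (ub ^ p) := by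
    have h3 : ∀ s : Finset ℕ, GRed π (∏ i ∈ s, twist (ζ ^ i) f) (ub ^ s.card) := by
      intro s
      induction s using Finset.induction_on with
      | empty => rw [Finset.prod_empty, Finset.card_empty, pow_zero]; exact gRed_one π
      | insert a s ha ih =>
        rw [Finset.prod_insert ha, Finset.card_insert_of_notMem ha, pow_succ']
        exact (htw a).mul ih
    have := h3 (Finset.range p)
    rwa [Finset.card_range] at this
  refine gRed_of_qExpand hπ hE' hh p ?_
  have h4 := (gRed_qExpand' (p ^ 2) hg).mul hprod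
  unfold IsTwNorm at hT
  rw [← hT] at h4
  convert h4 using 1
  rw [map_mul, ESh.pow_eq_qExpand (ℓ := p) ub, qExpand_qExpand]
  have h8 : ∀ (q : ℕ) [NeZero q], q = p * p → qExpand k q = qExpand k (p * p) := by
    rintro q hq rfl
    rfl
  rw [← h8 (p ^ 2) (sq p)]

theorem GRed.pow' {f : LaurentSeries Qb} {z : LaurentSeries k} (h : GRed π f z) (n : ℕ) :
    GRed π (f ^ n) (z ^ n) := by
  induction n with
  | zero => rw [pow_zero, pow_zero]; exact gRed_one π
  | succ n ih => rw [pow_succ, pow_succ]; exact ih.mul h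

set_option maxHeartbeats 2000000 in
variable (hπ hs hE) in
/-- The Frobenius relation for functions, up to constants and reduction. -/
theorem exists_red_frobenius {p : ℕ} [hp : Fact p.Prime] [NeZero p] [CharP k p] {σ : Γℚ}
    (hσ : A.IsFrobeniusAt σ p) {ζ : Qbˣ} (hζ : ζ ^ p = 1)
    {u v u' v' : laurentBaseChange Qb F₀} (hu : u ≠ 0) (hv : v' ≠ 0)
    (hvv : arithmeticGalois F₀ σ • v' = v)
    (hT : IsTwNorm p ζ (u : LaurentSeries Qb) (v : LaurentSeries Qb) (u' : LaurentSeries Qb)) :
    ∃ (c d : Qb) (a : gaussRes π (laurentBaseChange Qb F₀) hs), c ≠ 0 ∧ d ≠ 0 ∧ a ≠ 0 ∧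
      (gaussConstRedFull hE hπ hs).IsRed (algebraMap _ _ c * u') a ∧
      (gaussConstRedFull hE hπ hs).IsRed
        (algebraMap _ _ d * ((arithmeticGalois F₀ σ • u) * v' ^ p)) a := by
  obtain ⟨sA, hsA, hsk⟩ := exists_residue_frobenius (p := p) hπ hσ
  obtain ⟨c, hc0, ub, hub, hcu⟩ := (gaussConstRedFull hE hπ hs).exists_isRed_mul hu
  obtain ⟨e, he0, w, hw, hew⟩ := (gaussConstRedFull hE hπ hs).exists_isRed_mul hv
  have hcu' := isRed_full.1 hcu
  have hew' := isRed_full.1 hew
  have h1 := gRed_coeffMap σ sA hsA (frobenius k p) hsk hcu'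
  have h2 := gRed_coeffMap σ sA hsA (frobenius k p) hsk hew'
  rw [coeffMap_algebraMap_mul] at h1 h2
  rw [hvv] at h2
  have hTs : IsTwNorm p ζ
      ((algebraMap Qb (laurentBaseChange Qb F₀) c * u : laurentBaseChange Qb F₀) :
        LaurentSeries Qb)
      ((algebraMap Qb (laurentBaseChange Qb F₀) (σ e) * v : laurentBaseChange Qb F₀) :
        LaurentSeries Qb)
      ((algebraMap Qb (laurentBaseChange Qb F₀) (σ e * c ^ p) * u' : laurentBaseChange Qb F₀) :
        LaurentSeries Qb) := by
    have h3 := (isTwNorm_C ζ c (σ e)).mul hT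
    rw [← algebraMap_eq_C, ← algebraMap_eq_C, ← algebraMap_eq_C] at h3
    exact h3
  have h3 := gRed_isTwNorm (hπ := hπ) hE hζ (Subtype.property _) hTs hcu' h2
  rw [← ESh.pow_eq_qExpand (ℓ := p) (w : LaurentSeries k)] at h3
  have h4 := h1.mul (GRed.pow' hew' p)
  rw [mul_comm (coeffMap (frobenius k p) (ub : LaurentSeries k)), ← IntermediateField.coe_pow,
    ← IntermediateField.coe_mul] at h4
  have hmem : (w : LaurentSeries k) ^ p * coeffMap (frobenius k p) ub ∈
      gaussRes π (laurentBaseChange Qb F₀) hs := ⟨_, Subtype.property _, h3⟩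
  have hne : (⟨_, hmem⟩ : gaussRes π (laurentBaseChange Qb F₀) hs) ≠ 0 := by
    intro h
    have h5 : (w : LaurentSeries k) ^ p * coeffMap (frobenius k p) ub = 0 :=
      congrArg Subtype.val h
    rcases mul_eq_zero.1 h5 with h6 | h6
    · exact hw (Subtype.ext (eq_zero_of_pow_eq_zero h6))
    · exact hub (Subtype.ext (Red.coeffMap_injective' _ (frobenius k p).injective
        (h6.trans (map_zero _).symm)))
  have hσe : σ e ≠ 0 := by simpa using he0
  have hσc : σ c ≠ 0 := by simpa using hc0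
  refine ⟨σ e * c ^ p, σ c * e ^ p, ⟨_, hmem⟩, mul_ne_zero hσe (pow_ne_zero _ hc0),
    mul_ne_zero hσc (pow_ne_zero _ he0), hne, isRed_full.2 h3, isRed_full.2 ?_⟩
  have h5 : algebraMap Qb (laurentBaseChange Qb F₀) (σ c) * (arithmeticGalois F₀ σ • u) *
      (algebraMap Qb (laurentBaseChange Qb F₀) e * v') ^ p =
      algebraMap Qb (laurentBaseChange Qb F₀) (σ c * e ^ p) *
        ((arithmeticGalois F₀ σ • u) * v' ^ p) := by
    rw [map_mul, map_pow, mul_pow]
    ring
  rw [h5] at h4
  exact h4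

set_option maxHeartbeats 2000000 in
include hc hm in
/-- **The Frobenius relation on Kummer classes.** -/
theorem kumAct_frobenius {p : ℕ} [hp : Fact p.Prime] [NeZero p] [CharP k p] {σ : Γℚ}
    (hσ : A.IsFrobeniusAt σ p) {ζ : Qbˣ} (hζ : ζ ^ p = 1)
    {u v u' : kummerSubgroup Qb (laurentBaseChange Qb F₀) m}
    (hT : IsTwNorm p ζ (((u : (laurentBaseChange Qb F₀)ˣ) : laurentBaseChange Qb F₀) :
      LaurentSeries Qb) (((v : (laurentBaseChange Qb F₀)ˣ) : laurentBaseChange Qb F₀) :
      LaurentSeries Qb) (((u' : (laurentBaseChange Qb F₀)ˣ) : laurentBaseChange Qb F₀) :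
      LaurentSeries Qb)) :
    kmk u' = kumAct (arithmeticGalois F₀ σ) m (kmk u) *
      (kumAct (arithmeticGalois F₀ σ⁻¹) m (kmk v)) ^ p := by
  haveI : IsAlgClosed k := isAlgClosed_of_surjective hs
  rw [kumAct_kmk, kumAct_kmk, ← kmk_pow, ← kmk_mul, kmk_eq_iff]
  have hvv : arithmeticGalois F₀ σ • ((((kumSubAct (arithmeticGalois F₀ σ⁻¹) m v) :
      (laurentBaseChange Qb F₀)ˣ) : laurentBaseChange Qb F₀)) =
      ((v : (laurentBaseChange Qb F₀)ˣ) : laurentBaseChange Qb F₀) := by
    rw [coe_kumSubAct, map_inv, smul_inv_smul]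
  obtain ⟨c, d, a, hc0, hd0, ha0, h1, h2⟩ := exists_red_frobenius hπ hs hE hσ hζ
    (Units.ne_zero (u : (laurentBaseChange Qb F₀)ˣ)) (Units.ne_zero _) hvv hT
  exact div_mem_powSubgroup_of_isRed hc hs hm u'.2 (Subtype.property _) hc0 hd0 ha0 h1 h2

include hc hm in
/-- **The relation `T = σ + p σ⁻¹ δ` on the Kummer group.** -/
theorem kumGal_frobenius {p : ℕ} [hp : Fact p.Prime] [NeZero p] [CharP k p] {σ : Γℚ}
    (hσ : A.IsFrobeniusAt σ p) {ζ : Qbˣ} (hζ : ζ ^ p = 1)
    (T D : Additive (KummerGroup Qb (laurentBaseChange Qb F₀) m) →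
      Additive (KummerGroup Qb (laurentBaseChange Qb F₀) m))
    (hTD : ∀ u : kummerSubgroup Qb (laurentBaseChange Qb F₀) m,
      ∃ v u' : kummerSubgroup Qb (laurentBaseChange Qb F₀) m,
        D (Additive.ofMul (kmk u)) = Additive.ofMul (kmk v) ∧
        T (Additive.ofMul (kmk u)) = Additive.ofMul (kmk u') ∧
        IsTwNorm p ζ (((u : (laurentBaseChange Qb F₀)ˣ) : laurentBaseChange Qb F₀) :
          LaurentSeries Qb) (((v : (laurentBaseChange Qb F₀)ˣ) : laurentBaseChange Qb F₀) :
          LaurentSeries Qb) (((u' : (laurentBaseChange Qb F₀)ˣ) : laurentBaseChange Qb F₀) :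
          LaurentSeries Qb))
    (y : Additive (KummerGroup Qb (laurentBaseChange Qb F₀) m)) :
    T y = kumGal F₀ m σ y + p • kumGal F₀ m σ⁻¹ (D y) := by
  obtain ⟨u, hu⟩ := kmk_surjective (Additive.toMul y)
  obtain ⟨v, u', h1, h2, h3⟩ := hTD u
  have hy : y = Additive.ofMul (kmk u) := by rw [hu]; rfl
  rw [hy, h1, h2]
  exact congrArg Additive.ofMul (kumAct_frobenius hc hm hσ hζ h3)

include hc hm in
/-- the quadratic relation at Frobenius elements -/
theorem kumGal_quadratic {p : ℕ} [hp : Fact p.Prime] [NeZero p] [CharP k p] {σ : Γℚ}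
    (hσ : A.IsFrobeniusAt σ p) {ζ : Qbˣ} (hζ : ζ ^ p = 1)
    (T D : Additive (KummerGroup Qb (laurentBaseChange Qb F₀) m) →
      Additive (KummerGroup Qb (laurentBaseChange Qb F₀) m))
    (hTD : ∀ u : kummerSubgroup Qb (laurentBaseChange Qb F₀) m,
      ∃ v u' : kummerSubgroup Qb (laurentBaseChange Qb F₀) m,
        D (Additive.ofMul (kmk u)) = Additive.ofMul (kmk v) ∧
        T (Additive.ofMul (kmk u)) = Additive.ofMul (kmk u') ∧
        IsTwNorm p ζ (((u : (laurentBaseChange Qb F₀)ˣ) : laurentBaseChange Qb F₀) :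
          LaurentSeries Qb) (((v : (laurentBaseChange Qb F₀)ˣ) : laurentBaseChange Qb F₀) :
          LaurentSeries Qb) (((u' : (laurentBaseChange Qb F₀)ˣ) : laurentBaseChange Qb F₀) :
          LaurentSeries Qb))
    (hcomm : ∀ y, D (kumGal F₀ m σ y) = kumGal F₀ m σ (D y))
    (y : Additive (KummerGroup Qb (laurentBaseChange Qb F₀) m)) :
    kumGal F₀ m σ (kumGal F₀ m σ y) - T (kumGal F₀ m σ y) + p • D y = 0 := by
  rw [kumGal_frobenius hc hm hσ hζ T D hTD (kumGal F₀ m σ y), hcomm]
  have h1 : kumGal F₀ m σ⁻¹ (kumGal F₀ m σ (D y)) = D y := by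
    have h2 : (kumGal F₀ m σ⁻¹ * kumGal F₀ m σ) (D y) = D y := by
      rw [← map_mul, inv_mul_cancel, map_one]
      rfl
    exact h2
  rw [h1]
  abel

end Main

end Galois

end Fermat.Agent.Neb
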