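import Mathlib
import Fermat.Agent.Neb.ClassH
import Fermat.Agent.Neb.HeckeK
import Fermat.Agent.Neb.KummerRed

/-!
# Parabolic characters of `GH D` and the Kummer group of `X_H` over `K`
-/

set_option autoImplicit false
set_option linter.unusedSectionVars false
set_option linter.style.haveILetI false

noncomputable section

namespace Fermat.Agent.Neb

open UpperHalfPlane hiding I
open ModularForm Filter Topology Fermat.Agent.ModFn Fermat.Agent.Support
open ModularCurve Fermat.Agent.FF AlgebraicCurve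
open Fermat.Agent.Top Fermat.Agent.DS Matrix.SpecialLinearGroup
open scoped MatrixGroups Manifold

variable {D : ℕ} [NeZero D] {hD : 3 ≤ D} {l : ℕ} [NeZero l]

variable (l) in
/-- `ZMod l → ℂˣ`, `a ↦ exp (2πia/l)`. -/
def eZ : ZMod l →+ Additive ℂˣ :=
  ZMod.lift l ⟨zmultiplesHom (Additive ℂˣ) (Additive.ofMul (zetaU l)), by
    have h := (IsPrimitiveRoot.coe_units_iff.1 (isPrimitiveRoot_zetaU l)).pow_eq_one
    change Additive.ofMul (zetaU l ^ ((l : ℕ) : ℤ)) = 0
    rw [zpow_natCast, h]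
    rfl⟩

theorem eZ_intCast (n : ℤ) : eZ l (n : ZMod l) = Additive.ofMul (zetaU l ^ n) :=
  ZMod.lift_coe l _ n

theorem eZ_injective : Function.Injective (eZ l) := by
  rw [injective_iff_map_eq_zero]
  intro a ha
  obtain ⟨n, rfl⟩ := ZMod.intCast_surjective a
  rw [eZ_intCast] at ha
  have h1 : zetaU l ^ n = 1 := Additive.ofMul.injective ha
  rw [zetaU_zpow_eq_one_iff] at h1
  exact (ZMod.intCast_zmod_eq_zero_iff_dvd _ _).mpr h1

theorem eZ_nsmul (a : ZMod l) : l • eZ l a = 0 := by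
  rw [← map_nsmul, nsmul_eq_mul, CharP.cast_eq_zero, zero_mul, map_zero]

theorem exists_eZ {x : ℂˣ} (hx : x ^ l = 1) : ∃ a, eZ l a = Additive.ofMul x := by
  obtain ⟨k, -, hk⟩ := (isPrimitiveRoot_zetaU l).eq_pow_of_pow_eq_one (ξ := (x : ℂ))
    (by rw [← Units.val_pow_eq_pow_val, hx, Units.val_one])
  refine ⟨((k : ℤ) : ZMod l), ?_⟩
  rw [eZ_intCast, zpow_natCast]
  congr 1
  apply Units.ext
  rw [Units.val_pow_eq_pow_val]
  exact hk

/-- The character attached to a homomorphism to `ZMod l`. -/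
def chiOf (hD : 3 ≤ D) (φ : Additive (GH D) →+ ZMod l) : (datumH D hD).Γ →* ℂˣ :=
  (MonoidHom.toAdditive (α := GH D) (β := ℂˣ)).symm ((eZ l).comp φ)

theorem chiOf_apply (φ : Additive (GH D) →+ ZMod l) (γ : GH D) :
    chiOf hD φ γ = Additive.toMul (eZ l (φ (Additive.ofMul γ))) := rfl

theorem chiOf_mem {φ : Additive (GH D) →+ ZMod l} (hφ : φ ∈ parH D (ZMod l) (ZMod l)) :
    chiOf hD φ ∈ admSub (datumH D hD) l := by
  refine ⟨fun γ hγ => ?_, pow_eq_one_of fun γ => ?_⟩
  · have h1 : φ (Additive.ofMul (γ : GH D)) = 0 := hφ γ hγ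
    have h2 : chiOf hD φ γ = Additive.toMul (eZ l (φ (Additive.ofMul (γ : GH D)))) := rfl
    rw [h2, h1, map_zero]
    rfl
  · have h2 : chiOf hD φ γ ^ l = Additive.toMul (l • (eZ l (φ (Additive.ofMul (γ : GH D))))) := rfl
    rw [h2, eZ_nsmul]
    rfl

/-- Characters attached to parabolic homomorphisms. -/
def chiHom (hD : 3 ≤ D) : parH D (ZMod l) (ZMod l) →+ Additive (admSub (datumH D hD) l) where
  toFun φ := Additive.ofMul ⟨chiOf hD φ.1, chiOf_mem φ.2⟩
  map_zero' := by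
    apply congrArg Additive.ofMul
    apply Subtype.ext
    apply MonoidHom.ext
    intro γ
    have h2 : chiOf hD (0 : parH D (ZMod l) (ZMod l)).1 γ = Additive.toMul (eZ l 0) := rfl
    rw [h2, map_zero]
    rfl
  map_add' φ ψ := by
    apply congrArg Additive.ofMul
    apply Subtype.ext
    apply MonoidHom.ext
    intro γ
    have h2 : chiOf hD (φ + ψ).1 γ = Additive.toMul (eZ l (φ.1 (Additive.ofMul (γ : GH D)) +
      ψ.1 (Additive.ofMul (γ : GH D)))) := rfl
    rw [h2, map_add]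
    rfl

theorem chiHom_injective : Function.Injective (chiHom (l := l) hD) := by
  intro φ ψ h
  apply Subtype.ext
  apply AddMonoidHom.ext
  intro γ
  apply eZ_injective (l := l)
  have h1 := congrArg (fun x => (Additive.toMul x).1) h
  have h2 := DFunLike.congr_fun h1 (Additive.toMul γ : GH D)
  exact h2

theorem chiHom_surjective : Function.Surjective (chiHom (l := l) hD) := by
  intro χ
  obtain ⟨⟨χ, hχ⟩, rfl⟩ := Additive.ofMul.surjective χ
  choose a ha using fun γ : GH D => exists_eZ (l := l) (x := χ γ) (pow_apply_eq_one hχ.2 _)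
  have hone : a 1 = 0 := by
    apply eZ_injective (l := l)
    rw [map_zero]
    exact (ha 1).trans (congrArg Additive.ofMul (map_one χ))
  have hmul : ∀ γ γ' : GH D, a (γ * γ') = a γ + a γ' := by
    intro γ γ'
    apply eZ_injective (l := l)
    rw [map_add]
    exact (ha (γ * γ')).trans ((congrArg Additive.ofMul (map_mul χ γ γ')).trans
      (congrArg₂ (· + ·) (ha γ) (ha γ')).symm)
  let φ : Additive (GH D) →+ ZMod l :=
    { toFun := fun γ => a (Additive.toMul γ)
      map_zero' := hone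
      map_add' := fun γ γ' => hmul _ _ }
  have hφ : φ ∈ parH D (ZMod l) (ZMod l) := by
    intro γ hγ
    apply eZ_injective (l := l)
    change eZ l (a γ) = _
    rw [ha, map_zero]
    have : χ (γ : GH D) = 1 := hχ.1 γ hγ
    exact congrArg Additive.ofMul this
  refine ⟨⟨φ, hφ⟩, ?_⟩
  apply congrArg Additive.ofMul
  apply Subtype.ext
  apply MonoidHom.ext
  intro γ
  exact congrArg Additive.toMul (ha γ)

/-- `parH` and admissible characters. -/
def chiEquiv (hD : 3 ≤ D) : parH D (ZMod l) (ZMod l) ≃+ Additive (admSub (datumH D hD) l) :=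
  AddEquiv.ofBijective (chiHom hD) ⟨chiHom_injective, chiHom_surjective⟩

theorem chiEquiv_apply (φ : parH D (ZMod l) (ZMod l)) :
    chiEquiv hD φ = Additive.ofMul ⟨chiOf hD φ.1, chiOf_mem φ.2⟩ := rfl

theorem chiEquiv_dia (u : (ZMod (D ^ 2))ˣ) (φ : parH D (ZMod l) (ZMod l)) :
    chiEquiv hD (diaH D (ZMod l) (ZMod l) u φ) =
      Additive.ofMul ⟨chiDia hD u (chiOf hD φ.1), chiDia_mem u (chiOf_mem φ.2)⟩ := rfl

theorem chiOf_op {p : ℕ} (hp : p.Prime) (hpN : ¬ p ∣ D ^ 2) (φ : Additive (GH D) →+ ZMod l) :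
    chiOf hD ((hrepsH hp hpN).op φ) = chiT hD hp hpN (chiOf hD φ) := by
  apply MonoidHom.ext
  intro γ
  have h1 : chiOf hD ((hrepsH hp hpN).op φ) γ = Additive.toMul (eZ l
    (∑ i, φ (Additive.ofMul ((hrepsH hp hpN).c (γ : GH D) i)))) := rfl
  rw [h1, map_sum]
  rfl

theorem chiEquiv_T {p : ℕ} (hp : p.Prime) (hpN : ¬ p ∣ D ^ 2) (φ : parH D (ZMod l) (ZMod l)) :
    chiEquiv hD (TpH D (ZMod l) (ZMod l) hp hpN φ) =
      Additive.ofMul ⟨chiT hD hp hpN (chiOf hD φ.1), chiT_mem hp hpN (chiOf_mem φ.2)⟩ := by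
  rw [chiEquiv_apply]
  apply congrArg Additive.ofMul
  apply Subtype.ext
  exact chiOf_op hp hpN φ.1

/-! ### Descent to `K` -/

section Descent

variable {K : Type*} [Field K] [Algebra ℚ K] [Algebra K ℂ] [IsAlgClosed K] [CharZero K]
  [IsFnField K (FK K (datumH D hD))]

instance finite_kummerC : Finite (KummerGroup ℂ (FC (datumH D hD)) l) :=
  finite_kummerGroup_FC (NeZero.ne l)

theorem order_jq_ne : (jq : LaurentSeries ℚ).order ≠ 0 := by
  rw [← jqModC_rat, order_jqModC]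
  norm_num

variable (K l) in
/-- Descent of the Kummer group. -/
def kumE (hD : 3 ≤ D) [IsFnField K (FK K (datumH D hD))] :
    KummerGroup K (FK K (datumH D hD)) l ≃* KummerGroup ℂ (FC (datumH D hD)) l :=
  kummerEquiv K ℂ (F₀ (datumH D hD)) (Nat.pos_of_neZero l) (x := jq) jq_mem_F₀ order_jq_ne

theorem kumE_mk (w : kummerSubgroup K (FK K (datumH D hD)) l) :
    kumE l K hD (kmk w) = QuotientGroup.mk (kummerUnitsMap K ℂ (F₀ (datumH D hD)) l w) := rfl

variable (K) in
/-- **The Kummer group over `K` and parabolic homomorphisms.** -/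
def PhiK (hD : 3 ≤ D) [IsFnField K (FK K (datumH D hD))] (hl : l.Coprime 6) :
    parH D (ZMod l) (ZMod l) ≃+ Additive (KummerGroup K (FK K (datumH D hD)) l) :=
  (chiEquiv hD).trans ((MulEquiv.toAdditive (MulEquiv.ofBijective (kapChi (datumH D hD) hl)
    ⟨kapChi_injective hl, kapChi_surjective hl⟩)).trans (MulEquiv.toAdditive (kumE l K hD).symm))

theorem PhiK_eq_iff (hl : l.Coprime 6) (φ : parH D (ZMod l) (ZMod l))
    (w : kummerSubgroup K (FK K (datumH D hD)) l) :
    PhiK K hD hl φ = Additive.ofMul (kmk w) ↔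
      kapChi (datumH D hD) hl (Additive.toMul (chiEquiv hD φ)) =
        QuotientGroup.mk (kummerUnitsMap K ℂ (F₀ (datumH D hD)) l w) := by
  have h1 : PhiK K hD hl φ = Additive.ofMul ((kumE l K hD).symm
    (kapChi (datumH D hD) hl (Additive.toMul (chiEquiv hD φ)))) := rfl
  rw [h1, Additive.ofMul.injective.eq_iff, MulEquiv.symm_apply_eq, kumE_mk]

theorem PhiK_dia (hl : l.Coprime 6) (u : (ZMod (D ^ 2))ˣ) (φ : parH D (ZMod l) (ZMod l))
    (w : kummerSubgroup K (FK K (datumH D hD)) l)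
    (hw : PhiK K hD hl φ = Additive.ofMul (kmk w)) :
    ∃ v : kummerSubgroup K (FK K (datumH D hD)) l,
      ((v : (FK K (datumH D hD))ˣ) : FK K (datumH D hD)) =
        diaK K hD u ((w : (FK K (datumH D hD))ˣ) : FK K (datumH D hD)) ∧
      PhiK K hD hl (diaH D (ZMod l) (ZMod l) u φ) = Additive.ofMul (kmk v) := by
  rw [PhiK_eq_iff] at hw
  obtain ⟨vC, hv, hkv⟩ := kapChi_dia hl u (chiOf_mem φ.2) _ hw
  have hv0 : diaK K hD u ((w : (FK K (datumH D hD))ˣ) : FK K (datumH D hD)) ≠ 0 :=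
    (map_ne_zero (diaK K hD u)).mpr (Units.ne_zero _)
  have hv' : ((vC : (FC (datumH D hD))ˣ) : FC (datumH D hD)) =
      embK K hD (diaK K hD u ((w : (FK K (datumH D hD))ˣ) : FK K (datumH D hD))) := by
    rw [embK_diaK]
    exact hv
  have hmem : Units.mk0 _ hv0 ∈ kummerSubgroup K (FK K (datumH D hD)) l := by
    rw [mem_kummerSubgroup]
    refine (dvd_ord_emb_iff (E := ℂ)).mp ?_
    intro P
    have := vC.2 P
    rw [hv'] at this
    exact this
  refine ⟨⟨Units.mk0 _ hv0, hmem⟩, rfl, ?_⟩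
  rw [PhiK_eq_iff, chiEquiv_dia]
  refine hkv.trans (congrArg _ ?_)
  apply Subtype.ext
  apply Units.ext
  exact hv'

theorem PhiK_T {p : ℕ} [NeZero p] (hl : l.Coprime 6) (hp : p.Prime) (hpN : ¬ p ∣ D ^ 2) {ζ : Kˣ}
    (hζ : Units.map (algebraMap K ℂ).toMonoidHom ζ = zetaU p) (φ : parH D (ZMod l) (ZMod l))
    (w : kummerSubgroup K (FK K (datumH D hD)) l)
    (hw : PhiK K hD hl φ = Additive.ofMul (kmk w)) :
    ∃ w' : kummerSubgroup K (FK K (datumH D hD)) l,
      IsTwNorm p ζ (((w : (FK K (datumH D hD))ˣ) : FK K (datumH D hD)) : LaurentSeries K)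
        ((diaK K hD (up hp hpN) ((w : (FK K (datumH D hD))ˣ) : FK K (datumH D hD)) :
          FK K (datumH D hD)) : LaurentSeries K)
        (((w' : (FK K (datumH D hD))ˣ) : FK K (datumH D hD)) : LaurentSeries K) ∧
      PhiK K hD hl (TpH D (ZMod l) (ZMod l) hp hpN φ) = Additive.ofMul (kmk w') := by
  rw [PhiK_eq_iff] at hw
  obtain ⟨wC, hwT, hkw⟩ := kapChi_T hl hp hpN (chiOf_mem φ.2) _ hw
  have h1 : (((kummerUnitsMap K ℂ (F₀ (datumH D hD)) l w : kummerSubgroup ℂ _ l) :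
      (FC (datumH D hD))ˣ) : FC (datumH D hD)) =
      embK K hD ((w : (FK K (datumH D hD))ˣ) : FK K (datumH D hD)) := rfl
  rw [h1, ← embK_diaK, coe_embK, coe_embK, ← hζ] at hwT
  obtain ⟨w₀, hw₀, hw₁⟩ := hwT.descend
  have hmem0 : w₀ ∈ FK K (datumH D hD) := mem_baseChange_of_coeffMap_mem (E := ℂ)
    (by rw [hw₀]; exact ((wC : (FC (datumH D hD))ˣ) : FC (datumH D hD)).2)
  have hne : (⟨w₀, hmem0⟩ : FK K (datumH D hD)) ≠ 0 := by
    intro h
    have h2 : w₀ = 0 := congrArg Subtype.val h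
    rw [h2, map_zero] at hw₀
    exact (wC : (FC (datumH D hD))ˣ).ne_zero (Subtype.ext hw₀.symm)
  have hemb : ((wC : (FC (datumH D hD))ˣ) : FC (datumH D hD)) = embK K hD ⟨w₀, hmem0⟩ :=
    Subtype.ext hw₀.symm
  have hmem : Units.mk0 _ hne ∈ kummerSubgroup K (FK K (datumH D hD)) l := by
    rw [mem_kummerSubgroup]
    refine (dvd_ord_emb_iff (E := ℂ)).mp ?_
    intro P
    have := wC.2 P
    rw [hemb] at this
    exact this
  refine ⟨⟨Units.mk0 _ hne, hmem⟩, hw₁, ?_⟩
  rw [PhiK_eq_iff, chiEquiv_T]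
  refine hkw.trans (congrArg _ ?_)
  apply Subtype.ext
  apply Units.ext
  exact hemb

instance finite_kummerK (hD : 3 ≤ D) [IsFnField K (FK K (datumH D hD))] :
    Finite (KummerGroup K (FK K (datumH D hD)) l) :=
  Finite.of_equiv _ (kumE l K hD).symm.toEquiv

end Descent

end Fermat.Agent.Neb
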