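import Fermat.Agent.Neb.WtTwoGal
import Fermat.Agent.Neb.VEquiv
import Fermat.Agent.Neb.GoodH

/-!
# The weight two input of the Deligne-Serre theorem, final form
-/

set_option autoImplicit false
set_option linter.style.haveILetI false

noncomputable section

open AlgebraicCurve IntermediateField ModularCurve Module CongruenceSubgroup

namespace Fermat.Agent.Neb

open Fermat.Agent.Red Fermat.Agent.ModFn Fermat.Agent.FF Fermat.Agent.Top Fermat.Agent.DS

local notation "Qb" => AlgebraicClosure ℚ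

theorem isGoodAt_H (D : ℕ) [NeZero D] (hD : 3 ≤ D) [Algebra Qb ℂ] (p : ℕ) (hp : p.Prime)
    (hpN : ¬ p ∣ D ^ 2) (h2 : p = 2 → 3 ∣ D) (h3 : p = 3 → 2 ∣ D) : IsGoodAt D hD p := by
  intro hp' A hA k _ π hπ hs
  haveI : Fact p.Prime := ⟨hp⟩
  exact exists_goodCoord_H hD hpN h2 h3 hA hπ hs

theorem exists_isVEquiv (D l : ℕ) [NeZero D] [Fact l.Prime] (hD : 3 ≤ D) (hl : 5 ≤ l)
    [Algebra Qb ℂ] :
    Finite (KummerGroup Qb (FK Qb (datumH D hD)) l) ∧
      ∃ Φ : parH D (ZMod l) (ZMod l) ≃+ KumH D l hD, IsVEquiv D l hD Φ := by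
  have hlp : l.Prime := Fact.out
  haveI : NeZero l := ⟨hlp.ne_zero⟩
  have hl6 : l.Coprime 6 := by
    rw [Nat.Prime.coprime_iff_not_dvd hlp]
    intro h
    have h2 : l ∣ 2 * 3 := h
    rcases (Nat.Prime.dvd_mul hlp).mp h2 with h | h
    · have := Nat.le_of_dvd (by norm_num) h
      omega
    · have := Nat.le_of_dvd (by norm_num) h
      omega
  refine ⟨finite_kummerK hD, PhiK Qb hD hl6, ⟨fun u φ w hw ↦ PhiK_dia hl6 u φ w hw,
    fun p hp hpN _ ζ hζ φ w hw ↦ PhiK_T hl6 hp hpN hζ φ w hw⟩⟩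

theorem weightTwoGalois : WeightTwoGalois :=
  weightTwoGalois_of (fun D l _ _ hD hl _ ↦ exists_isVEquiv D l hD hl)
    (fun D _ hD _ p hp hpN h2 h3 ↦ isGoodAt_H D hD p hp hpN h2 h3)

end Fermat.Agent.Neb
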