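import Fermat.Agent.Red.XZero
import Fermat.Agent.Neb.TwNorm

/-!
# Invariance of the Gauss valuation under diamond operators

If a finite group `G` of automorphisms of a function field `E ⊆ L((q))` over `L(j)` is linked to
multiplicative Hecke operators at infinitely many primes, then the Gauss valuation of `E` is
invariant under `G`.
-/

set_option autoImplicit false
set_option linter.unusedSectionVars false
set_option linter.style.haveILetI false
set_option linter.unusedVariables false

noncomputable section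

open AlgebraicCurve IntermediateField ModularCurve Module

namespace Fermat.Agent.Neb

open Fermat.Agent.Red Fermat.Agent.ModFn

section Horner

open Polynomial

variable {E : Type*} [Field E]

/-- The tails of a polynomial evaluated at `x`. -/
def horner (P : E[X]) (x : E) (i : ℕ) : E := (divX^[i] P).eval x

theorem coeff_iterate_divX (P : E[X]) (i m : ℕ) : (divX^[i] P).coeff m = P.coeff (m + i) := by
  induction i generalizing m with
  | zero => rfl
  | succ i ih =>
    rw [Function.iterate_succ_apply', coeff_divX, ih]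
    congr 1
    ring

theorem horner_succ (P : E[X]) (x : E) (i : ℕ) :
    horner P x i = horner P x (i + 1) * x + P.coeff i := by
  unfold horner
  conv_lhs => rw [← divX_mul_X_add (divX^[i] P)]
  rw [Function.iterate_succ_apply', eval_add, eval_mul, eval_X, eval_C, coeff_iterate_divX,
    zero_add]

theorem horner_eq_zero (P : E[X]) (x : E) {i : ℕ} (hi : P.natDegree < i) : horner P x i = 0 := by
  unfold horner
  have : divX^[i] P = 0 := by
    ext m
    rw [coeff_iterate_divX, coeff_zero]
    exact coeff_eq_zero_of_natDegree_lt (by omega)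
  rw [this, eval_zero]

theorem horner_mem {O : ValuationSubring E} {P : E[X]} (hP : ∀ i, P.coeff i ∈ O) {x : E}
    (hx : x ∈ O) (i : ℕ) : horner P x i ∈ O := by
  by_cases hi : P.natDegree < i
  · rw [horner_eq_zero P x hi]
    exact O.zero_mem
  · obtain ⟨d, hd⟩ := Nat.exists_eq_add_of_le (not_lt.1 hi)
    induction d generalizing i with
    | zero =>
      rw [horner_succ, horner_eq_zero P x (by omega), zero_mul, zero_add]
      exact hP i
    | succ d ih =>
      rw [horner_succ]
      refine O.add_mem _ _ (O.mul_mem _ _ ?_ hx) (hP i)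
      exact ih (i + 1) (by omega) (by omega)

theorem horner_nonunit {O : ValuationSubring E} {P : E[X]} (hP : ∀ i, P.coeff i ∈ O) {x : E}
    (hx : x ∉ O) (h0 : P.eval x = 0) (i : ℕ) : O.valuation (horner P x i) < 1 := by
  have hx1 : 1 < O.valuation x := by
    rw [← not_le]
    intro h
    exact hx ((O.valuation_le_one_iff x).1 h)
  have hx0 : x ≠ 0 := by rintro rfl; exact hx O.zero_mem
  induction i with
  | zero =>
    have : horner P x 0 = 0 := h0
    rw [this, map_zero]
    exact zero_lt_one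
  | succ i ih =>
    have h1 : horner P x (i + 1) * x = horner P x i - P.coeff i := by
      rw [horner_succ P x i, add_sub_cancel_right]
    have h2 : O.valuation (horner P x (i + 1) * x) ≤ 1 := by
      rw [h1]
      refine (O.valuation.map_sub _ _).trans (max_le ih.le ?_)
      exact (O.valuation_le_one_iff _).2 (hP i)
    rw [map_mul] at h2
    by_contra h3
    rw [not_lt] at h3
    have h4 : O.valuation x ≤ O.valuation (horner P x (i + 1)) * O.valuation x :=
      le_mul_of_one_le_left zero_le h3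
    exact absurd h2 (not_le.2 (hx1.trans_le h4))

theorem exists_horner_unit {O : ValuationSubring E} {P : E[X]} (hP : ∀ i, P.coeff i ∈ O)
    (h1 : ∃ i, P.coeff i = 1) {x : E} (hx : x ∈ O) :
    ∃ i, O.valuation (horner P x i) = 1 := by
  by_contra hcon
  push Not at hcon
  have hlt : ∀ i, O.valuation (horner P x i) < 1 := fun i =>
    lt_of_le_of_ne ((O.valuation_le_one_iff _).2 (horner_mem hP hx i)) (hcon i)
  obtain ⟨i, hi⟩ := h1
  have h2 : P.coeff i = horner P x i - horner P x (i + 1) * x := by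
    rw [horner_succ P x i, add_sub_cancel_left]
  have h3 : O.valuation (P.coeff i) < 1 := by
    rw [h2]
    refine (O.valuation.map_sub _ _).trans_lt (max_lt (hlt i) ?_)
    rw [map_mul]
    exact mul_lt_one_of_lt_of_le (hlt _) ((O.valuation_le_one_iff _).2 hx)
  rw [hi, map_one] at h3
  exact lt_irrefl _ h3

/-- Separation of a valuation ring from a conjugate. -/
theorem exists_separating {G : Type*} [Group G] [Finite G] (δ : G →* (E ≃+* E))
    (O : ValuationSubring E) {c : G} {x : E} (hx : x ∉ O) (hc : δ c x ∈ O) :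
    ∃ y : E, (∀ b, δ b y ∈ O) ∧ O.valuation y < 1 ∧ O.valuation (δ c y) = 1 := by
  classical
  haveI := Fintype.ofFinite G
  let Q : E[X] := ∏ b : G, (X - C (δ b x))
  have hQ : Q.Monic := monic_prod_of_monic _ _ fun b _ => monic_X_sub_C _
  have hQx : Q.eval x = 0 := by
    rw [eval_prod]
    apply Finset.prod_eq_zero (Finset.mem_univ (1 : G))
    simp
  have hQinv : ∀ b : G, Q.map (δ b : E →+* E) = Q := by
    intro b
    change (∏ b : G, (X - C (δ b x))).map (δ b : E →+* E) = ∏ b : G, (X - C (δ b x))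
    rw [Polynomial.map_prod]
    refine Fintype.prod_equiv (Equiv.mulLeft b) _ _ fun a => ?_
    rw [Polynomial.map_sub, map_X, map_C, Equiv.coe_mulLeft, map_mul]
    rfl
  have hne : Q.support.Nonempty := by
    rw [Polynomial.support_nonempty]
    exact hQ.ne_zero
  obtain ⟨m, hm, hmax⟩ := Q.support.exists_max_image (fun i => O.valuation (Q.coeff i)) hne
  have hm0 : Q.coeff m ≠ 0 := Polynomial.mem_support_iff.1 hm
  let P : E[X] := C (Q.coeff m)⁻¹ * Q
  have hPc : ∀ i, P.coeff i = (Q.coeff m)⁻¹ * Q.coeff i := fun i => by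
    rw [Polynomial.coeff_C_mul]
  have hPO : ∀ i, P.coeff i ∈ O := by
    intro i
    rw [hPc, ← O.valuation_le_one_iff, map_mul, map_inv₀]
    by_cases hi : i ∈ Q.support
    · have h1 := hmax i hi
      have h2 : O.valuation (Q.coeff m) ≠ 0 := (Valuation.ne_zero_iff _).2 hm0
      calc (O.valuation (Q.coeff m))⁻¹ * O.valuation (Q.coeff i)
          ≤ (O.valuation (Q.coeff m))⁻¹ * O.valuation (Q.coeff m) :=
            mul_le_mul_of_nonneg_left h1 zero_le
        _ = 1 := inv_mul_cancel₀ h2
    · rw [Polynomial.notMem_support_iff.1 hi, map_zero, mul_zero]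
      exact zero_le_one
  have hP1 : P.coeff m = 1 := by rw [hPc, inv_mul_cancel₀ hm0]
  have hPx : P.eval x = 0 := by
    change (C (Q.coeff m)⁻¹ * Q).eval x = 0
    rw [eval_mul, hQx, mul_zero]
  have hPinv : ∀ (b : G) (i : ℕ), δ b (P.coeff i) = P.coeff i := by
    intro b i
    have h1 : ∀ i, δ b (Q.coeff i) = Q.coeff i := by
      intro i
      conv_rhs => rw [← hQinv b, coeff_map]
      rfl
    rw [hPc, map_mul, map_inv₀, h1, h1]
  have hPinv' : ∀ b : G, P.map (δ b : E →+* E) = P := by
    intro b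
    ext i
    rw [coeff_map]
    exact hPinv b i
  have hδ : ∀ (b : G) (i : ℕ), δ b (horner P x i) = horner P (δ b x) i := by
    intro b i
    induction h : P.natDegree + 1 - i generalizing i with
    | zero => rw [horner_eq_zero P x (by omega), horner_eq_zero P _ (by omega), map_zero]
    | succ d ih =>
      rw [horner_succ, horner_succ P (δ b x) i, map_add, map_mul, ih (i + 1) (by omega), hPinv]
  have hPb : ∀ b : G, P.eval (δ b x) = 0 := by
    intro b
    have h1 := hδ b 0
    have h2 : horner P x 0 = 0 := hPx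
    rw [h2, map_zero] at h1
    exact h1.symm
  obtain ⟨i, hi⟩ := exists_horner_unit hPO ⟨m, hP1⟩ hc
  refine ⟨horner P x i, fun b => ?_, horner_nonunit hPO hx hPx i, by rw [hδ]; exact hi⟩
  rw [hδ]
  by_cases hb : δ b x ∈ O
  · exact horner_mem hPO hb i
  · exact (O.valuation_le_one_iff _).1 (horner_nonunit hPO hb (hPb b) i).le

end Horner

section GRedAux

variable {L k : Type*} [Field L] [Field k] {A : ValuationSubring L} {π : A →+* k}

theorem gRed_qExpand' {f : LaurentSeries L} {z : LaurentSeries k} (q : ℕ)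
    [NeZero q] (h : GRed π f z) : GRed π (qExpand _ q f) (qExpand k q z) := by
  obtain ⟨a, b, hb, h1, h2⟩ := h
  have hi : ∀ y : LaurentSeries A, iotaA A (qExpand A q y) = qExpand _ q (iotaA A y) := by
    intro y
    rw [iotaA, ModFn.coeffMap_qExpand]
  have hr : ∀ y : LaurentSeries A, rhoA π (qExpand A q y) = qExpand k q (rhoA π y) := by
    intro y
    rw [rhoA, ModFn.coeffMap_qExpand]
  refine ⟨qExpand A q a, qExpand A q b, ?_, ?_, ?_⟩
  · rw [hr]
    intro h
    exact hb (qExpand_injective q (h.trans (map_zero _).symm))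
  · rw [hi, ← map_mul, h1, hi]
  · rw [hr, ← map_mul, h2, hr]

theorem gRed_twist {f : LaurentSeries L} {z : LaurentSeries k} (ζ : Aˣ) (h : GRed π f z) :
    GRed π (twist (Units.map A.subtype.toMonoidHom ζ) f)
      (twist (Units.map π.toMonoidHom ζ) z) := by
  obtain ⟨a, b, hb, h1, h2⟩ := h
  refine ⟨twist ζ a, twist ζ b, ?_, ?_, ?_⟩
  · rw [rhoA, coeffMap_twist]
    intro h
    exact hb (twist_injective _ (h.trans (map_zero _).symm))
  · rw [iotaA, coeffMap_twist, coeffMap_twist, ← map_mul, h1]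
  · rw [rhoA, coeffMap_twist, coeffMap_twist, ← map_mul, h2]

/-- roots of unity are units of valuation rings -/
theorem exists_unit_of_pow_eq_one (A : ValuationSubring L) {ζ : Lˣ} {n : ℕ} (hn : n ≠ 0)
    (h : ζ ^ n = 1) : ∃ ξ : Aˣ, Units.map A.subtype.toMonoidHom ξ = ζ := by
  have key : ∀ z : Lˣ, z ^ n = 1 → (z : L) ∈ A := by
    intro z hz
    rcases A.mem_or_inv_mem (z : L) with h | h
    · exact h
    · have h1 : (z : L) = ((z : L)⁻¹) ^ (n - 1) := by
        have h2 : (z : L) ^ n = 1 := by rw [← Units.val_pow_eq_pow_val, hz, Units.val_one]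
        have h3 : (z : L) ≠ 0 := z.ne_zero
        rw [inv_pow]
        apply eq_inv_of_mul_eq_one_right
        rw [← pow_succ, Nat.sub_add_cancel (Nat.one_le_iff_ne_zero.2 hn)]
        exact h2
      rw [h1]
      exact pow_mem h _
  refine ⟨⟨⟨(ζ : L), key ζ h⟩, ⟨((ζ⁻¹ : Lˣ) : L), key ζ⁻¹ (by rw [inv_pow, h, inv_one])⟩,
    Subtype.ext ζ.mul_inv, Subtype.ext ζ.inv_mul⟩, ?_⟩
  ext
  rfl

theorem gRed_of_qExpand (hπ : ∀ a : A, π a = 0 ↔ ¬ IsUnit a)
    {E : IntermediateField L (LaurentSeries L)} (hE : GaussField π E)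
    {u : LaurentSeries L} (hu : u ∈ E) (ℓ : ℕ) [NeZero ℓ] {w : LaurentSeries k}
    (h : GRed π (qExpand L ℓ u) (qExpand k ℓ w)) : GRed π u w := by
  rcases eq_or_ne u 0 with rfl | hu0
  · rw [map_zero] at h
    have h1 := h.unique (gRed_zero π)
    rw [qExpand_injective ℓ (h1.trans (map_zero _).symm)]
    exact gRed_zero π
  · obtain ⟨c, z, hc, hz, hcz⟩ := hE.exists_scale hu hu0
    have hc' : algebraMap L (LaurentSeries L) c ≠ 0 := by simpa using hc
    have key : ∀ hi : c⁻¹ ∈ A, GRed π u w := by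
      intro hi
      have h1 := (gRed_algebraMap π ⟨c⁻¹, hi⟩).mul hcz
      have h2 : algebraMap L (LaurentSeries L) c⁻¹ * (algebraMap L (LaurentSeries L) c * u) =
          u := by
        rw [← mul_assoc, ← map_mul, inv_mul_cancel₀ hc, map_one, one_mul]
      rw [h2] at h1
      have h3 := (gRed_qExpand' ℓ h1).unique h
      rw [← qExpand_injective ℓ h3]
      exact h1
    rcases A.mem_or_inv_mem c with h' | h'
    · have h1 := (gRed_algebraMap π ⟨c, h'⟩).mul h
      have h2 := gRed_qExpand' ℓ hcz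
      have h3 : qExpand L ℓ (algebraMap L (LaurentSeries L) c * u) =
          algebraMap L (LaurentSeries L) c * qExpand L ℓ u := by
        rw [map_mul, algebraMap_eq_C, qExpand_C]
      rw [h3] at h2
      have h4 := h2.unique h1
      have h5 : π ⟨c, h'⟩ ≠ 0 := by
        intro h5
        rw [h5, map_zero, zero_mul] at h4
        exact hz (qExpand_injective ℓ (h4.trans (map_zero _).symm))
      have h6 : IsUnit (⟨c, h'⟩ : A) := by
        by_contra h7
        exact h5 ((hπ _).2 h7)
      obtain ⟨b, hb⟩ := h6.exists_right_inv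
      have hb' : c * (b : L) = 1 := congrArg Subtype.val hb
      apply key
      rw [← eq_inv_of_mul_eq_one_right hb']
      exact b.2
    · exact key h'

end GRedAux

theorem le_dedekindPsi_prime {ℓ : ℕ} (hℓ : ℓ.Prime) : ℓ ≤ dedekindPsi ℓ := by
  unfold dedekindPsi
  have h1 : 1 ∈ {d ∈ ℓ.divisors | Squarefree d} := by
    rw [Finset.mem_filter, Nat.mem_divisors]
    exact ⟨⟨one_dvd _, hℓ.ne_zero⟩, squarefree_one⟩
  have h2 := Finset.single_le_sum (f := fun d => ℓ / d) (fun _ _ => Nat.zero_le _) h1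
  simpa using h2

section Main

variable {L k : Type*} [Field L] [Field k] {A : ValuationSubring L} {π : A →+* k}

/-- A finite extension of `k(j)` in `k((q))` contains `j(q^ℓ)` for only finitely many `ℓ`. -/
theorem lt_of_qExpand_mem {p : ℕ} [Fact p.Prime] [CharP k p]
    {κ : IntermediateField k (LaurentSeries k)} (hj : jqModC k ∈ κ)
    [hfin : FiniteDimensional k⟮(⟨jqModC k, hj⟩ : κ)⟯ κ] {ℓ : ℕ} [NeZero ℓ] (hℓ : ℓ.Prime)
    (hp : p ≠ ℓ) (h : qExpand k ℓ (jqModC k) ∈ κ) :
    ℓ ≤ finrank k⟮(⟨jqModC k, hj⟩ : κ)⟯ κ := by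
  have hle : modularFunctionFieldFullC k ℓ ≤ κ := by
    rw [modularFunctionFieldFullC, IntermediateField.adjoin_le_iff]
    rintro _ ⟨d, hd, hdN, rfl⟩
    rcases (Nat.dvd_prime hℓ).1 hdN with h1 | h1
    · subst h1
      rw [qExpand_one_apply]
      exact hj
    · subst h1
      exact h
  have e1 : finrank k⟮(⟨jqModC k, hj⟩ : κ)⟯ κ =
      IntermediateField.relfinrank k⟮jqModC k⟯ κ := finrank_adjoin_sub κ ⟨jqModC k, hj⟩
  have hpN : ¬ p ∣ ℓ := by
    rw [Nat.prime_dvd_prime_iff_eq (Fact.out : p.Prime) hℓ]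
    exact hp
  have e2 := finrank_adjoin_sub (modularFunctionFieldFullC k ℓ) (RedQ.xj k ℓ)
  rw [RedQ.finrank_charP ℓ k p hpN] at e2
  have h1 : IntermediateField.relfinrank k⟮jqModC k⟯ (modularFunctionFieldFullC k ℓ) *
      IntermediateField.relfinrank (modularFunctionFieldFullC k ℓ) κ =
      IntermediateField.relfinrank k⟮jqModC k⟯ κ :=
    IntermediateField.relfinrank_mul_relfinrank
      (adjoin_simple_le_of_mem (RedQ.xj k ℓ).2) hle
  have hpos : 0 < finrank k⟮(⟨jqModC k, hj⟩ : κ)⟯ κ := finrank_pos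
  rw [e1, ← h1] at hpos ⊢
  have h2 : 0 < IntermediateField.relfinrank (modularFunctionFieldFullC k ℓ) κ :=
    Nat.pos_of_ne_zero fun h0 => by rw [h0, mul_zero] at hpos; exact lt_irrefl _ hpos
  rw [RedQ.coe_xj] at e2
  rw [← e2]
  exact (le_dedekindPsi_prime hℓ).trans (Nat.le_mul_of_pos_right _ h2)

/-- **Invariance of the Gauss valuation under diamond operators.** -/
theorem gauss_invariant {p : ℕ} [Fact p.Prime] [CharP k p]
    (hπ : ∀ a : A, π a = 0 ↔ ¬ IsUnit a) (hs : Function.Surjective π)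
    {E : IntermediateField L (LaurentSeries L)} (hE : Red.GaussField π E) (jE : E)
    (hj : (jE : LaurentSeries L) = jqModC L) [FiniteDimensional L⟮jE⟯ E]
    {G : Type*} [Group G] [Finite G] (δ : G →* (E ≃ₐ[L] E)) (hδj : ∀ c, δ c jE = jE)
    (hT : ∀ (c : G) (n : ℕ), ∃ (ℓ : ℕ) (_ : NeZero ℓ) (ζ : Lˣ), n < ℓ ∧ ℓ.Prime ∧
      orderOf ζ = ℓ ∧ ∀ u : E, u ≠ 0 → ∃ u' : E,
        IsTwNorm ℓ ζ (u : LaurentSeries L) (δ c u) u') (c : G) (u : E) :
    (∃ z, Red.GRed π (u : LaurentSeries L) z) → ∃ z, Red.GRed π (δ c u : LaurentSeries L) z := by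
  intro hu
  by_contra hcon
  set O := gaussO hE hπ with hO
  have hmemO : ∀ f : E, f ∈ O ↔ ∃ z, GRed π (f : LaurentSeries L) z := fun f => Iff.rfl
  have hx : δ c u ∉ O := hcon
  have hx' : δ c⁻¹ (δ c u) ∈ O := by
    rw [← AlgEquiv.mul_apply, ← map_mul, inv_mul_cancel, map_one]
    exact hu
  let δ' : G →* (E ≃+* E) :=
    { toFun := fun c => (δ c).toRingEquiv
      map_one' := by rw [map_one]; rfl
      map_mul' := fun a b => by rw [map_mul]; rfl }
  obtain ⟨y, hyO, hy1, hyc⟩ := exists_separating δ' O (c := c⁻¹) hx hx'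
  obtain ⟨y0, hy0⟩ := hyO 1
  have hy0' : GRed π (y : LaurentSeries L) y0 := by
    have : δ' 1 y = y := by rw [map_one]; rfl
    rwa [this] at hy0
  have hy00 : y0 = 0 := by
    by_contra h
    have h1 := hy0'.inv h
    have h2 : y⁻¹ ∈ O := ⟨_, h1⟩
    have h3 := (O.valuation_le_one_iff _).2 h2
    rw [map_inv₀] at h3
    have hy : y ≠ 0 := by
      rintro rfl
      exact hy0'.ne_zero h rfl
    have h4 : O.valuation y ≠ 0 := (Valuation.ne_zero_iff _).2 hy
    have h5 := mul_lt_one_of_lt_of_le hy1 h3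
    rw [mul_inv_cancel₀ h4] at h5
    exact lt_irrefl _ h5
  rw [hy00] at hy0'
  obtain ⟨z, hz⟩ := hyO c⁻¹
  change GRed π (δ c⁻¹ y : LaurentSeries L) z at hz
  have hyc' : O.valuation (δ c⁻¹ y) = 1 := hyc
  have hz0 : z ≠ 0 := by
    rintro rfl
    have h1 : (δ c⁻¹ y)⁻¹ ∈ O := by
      rw [← O.valuation_le_one_iff, map_inv₀, hyc', inv_one]
    obtain ⟨w, hw⟩ := h1
    have h2 := hz.mul hw
    have h3 : (δ c⁻¹ y : LaurentSeries L) * (((δ c⁻¹ y)⁻¹ : E) : LaurentSeries L) = 1 := by
      rw [IntermediateField.coe_inv, mul_inv_cancel₀]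
      intro h4
      have h5 : δ c⁻¹ y = 0 := Subtype.ext h4
      rw [h5, map_zero] at hyc'
      exact zero_ne_one hyc'
    rw [h3, zero_mul] at h2
    exact one_ne_zero ((gRed_one π).unique h2)
  -- the residue field
  set κ := gaussRes π E hs with hκ
  have hjκ : jqModC k ∈ κ := ⟨jE, jE.2, by rw [hj]; exact gRed_jq π⟩
  have hjr : (gaussConstRedFull hE hπ hs).IsRed jE ⟨jqModC k, hjκ⟩ :=
    isRed_full.2 (by rw [hj]; exact gRed_jq π)
  have htr : Transcendental k (⟨jqModC k, hjκ⟩ : κ) := by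
    intro h
    exact transcendental_jqModC k (h.algebraMap (A := LaurentSeries k))
  obtain ⟨hfin, hrk⟩ := finite_of_bound (R := gaussConstRedFull hE hπ hs) hjr htr
  obtain ⟨ℓ, hℓ0, ζ, hnℓ, hℓ, hζ, hTu⟩ := hT c⁻¹ (max (finrank L⟮jE⟯ E) p)
  obtain ⟨ξ, hξ⟩ := exists_unit_of_pow_eq_one A hℓ.ne_zero (by rw [← hζ, pow_orderOf_eq_one])
  -- the key computation
  have key : ∀ (f : E) (g : LaurentSeries k), δ c⁻¹ f = f → GRed π (f : LaurentSeries L) g →
      qExpand k ℓ (z * g) ∈ κ := by
    intro f g hf hg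
    have h1 : GRed π ((1 + y * f : E) : LaurentSeries L) 1 := by
      have := (gRed_one π).add (hy0'.mul hg)
      rwa [zero_mul, add_zero] at this
    have h2 : GRed π ((δ c⁻¹ (1 + y * f) : E) : LaurentSeries L) (1 + z * g) := by
      have h0 : δ c⁻¹ (1 + y * f) = 1 + δ c⁻¹ y * f := by
        have h01 : δ' c⁻¹ f = f := hf
        change δ' c⁻¹ (1 + y * f) = 1 + δ' c⁻¹ y * f
        rw [map_add, map_one, map_mul, h01]
      rw [h0]
      exact (gRed_one π).add (hz.mul hg)
    have h3 : (1 + y * f : E) ≠ 0 := by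
      intro h
      exact h1.ne_zero one_ne_zero (by rw [h]; rfl)
    obtain ⟨u', hu'⟩ := hTu _ h3
    have h4 : ∀ i, GRed π (twist (ζ ^ i) ((1 + y * f : E) : LaurentSeries L)) 1 := by
      intro i
      have h5 := gRed_twist (ξ ^ i) h1
      rwa [map_pow, hξ, map_one] at h5
    have h5 : ∀ s : Finset ℕ, GRed π (∏ i ∈ s, twist (ζ ^ i)
        ((1 + y * f : E) : LaurentSeries L)) 1 := by
      intro s
      induction s using Finset.induction_on with
      | empty => rw [Finset.prod_empty]; exact gRed_one π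
      | insert a s ha ih =>
        rw [Finset.prod_insert ha]
        have := (h4 a).mul ih
        rwa [one_mul] at this
    have h6 : GRed π (qExpand L ℓ (u' : LaurentSeries L)) (qExpand k ℓ (qExpand k ℓ
        (1 + z * g))) := by
      have h7 := (gRed_qExpand' (ℓ ^ 2) h2).mul (h5 (Finset.range ℓ))
      rw [← hu', mul_one] at h7
      rw [qExpand_qExpand]
      have h8 : ∀ (m : ℕ) [NeZero m], m = ℓ * ℓ → qExpand k m = qExpand k (ℓ * ℓ) := by
        rintro m hm rfl
        rfl
      rw [← h8 (ℓ ^ 2) (sq ℓ)]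
      exact h7
    have h7 := gRed_of_qExpand hπ hE u'.2 ℓ h6
    have h8 : qExpand k ℓ (1 + z * g) ∈ κ := ⟨u', u'.2, h7⟩
    rw [map_add, map_one] at h8
    have h9 := sub_mem h8 (one_mem κ)
    rwa [add_sub_cancel_left] at h9
  have hk1 := key 1 1 (map_one _) (gRed_one π)
  rw [mul_one] at hk1
  have hk2 := key jE (jqModC k) (hδj _) (by rw [hj]; exact gRed_jq π)
  have hk3 : qExpand k ℓ (jqModC k) ∈ κ := by
    rw [map_mul] at hk2
    have hz' : qExpand k ℓ z ≠ 0 := fun h => hz0 (qExpand_injective ℓ (h.trans (map_zero _).symm))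
    have := mul_mem (inv_mem hk1) hk2
    rwa [inv_mul_cancel_left₀ hz'] at this
  have hlt := lt_of_qExpand_mem (p := p) hjκ hℓ (by
    rintro rfl
    exact absurd hnℓ (not_lt.2 (le_max_right _ _))) hk3
  exact absurd (hlt.trans hrk) (not_le.2 ((le_max_left _ _).trans_lt hnℓ))

end Main

end Fermat.Agent.Neb
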