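import Mathlib

/-!
# Places and additive functionals
-/

set_option autoImplicit false
set_option linter.style.haveILetI false

namespace Fermat.Agent.Neb

open IsLocalRing

/-- Given homomorphisms `i : R → K`, `θ : R → k` to fields with `ker i ≤ ker θ`, there is a
valuation ring of `K` containing `i(R)` with many additive functionals to `k`, compatible with
`i` and `θ`. -/
theorem exists_place {K : Type*} [Field K] {R : Type*} [CommRing R] (i : R →+* K)
    {k : Type*} [Field k] (θ : R →+* k) (hker : ∀ x, i x = 0 → θ x = 0) :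
    ∃ O : ValuationSubring K, ∃ hi : ∀ x, i x ∈ O, ∀ y : O, IsUnit y →
      ∃ lam : O →+ k, lam y ≠ 0 ∧ ∀ (x : R) (z : O), lam (⟨i x, hi x⟩ * z) = θ x * lam z := by
  classical
  haveI hP : (RingHom.ker θ).IsPrime := RingHom.ker_isPrime _
  let L := Localization.AtPrime (RingHom.ker θ)
  have hu : ∀ y : (RingHom.ker θ).primeCompl, IsUnit (i y) := by
    intro y
    rw [isUnit_iff_ne_zero]
    intro h0
    exact y.2 (RingHom.mem_ker.mpr (hker _ h0))
  have hu' : ∀ y : (RingHom.ker θ).primeCompl, IsUnit (θ y) := by
    intro y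
    rw [isUnit_iff_ne_zero]
    exact fun h0 ↦ y.2 (RingHom.mem_ker.mpr h0)
  let f : L →+* K := IsLocalization.lift (M := (RingHom.ker θ).primeCompl) hu
  let g : L →+* k := IsLocalization.lift (M := (RingHom.ker θ).primeCompl) hu'
  have hf : ∀ x, f (algebraMap R L x) = i x := fun x ↦ IsLocalization.lift_eq hu x
  have hg : ∀ x, g (algebraMap R L x) = θ x := fun x ↦ IsLocalization.lift_eq hu' x
  obtain ⟨O, hO, hloc⟩ := IsLocalRing.exists_factor_valuationRing f
  haveI hgl : IsLocalHom g := by
    constructor
    intro a ha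
    obtain ⟨x, s, rfl⟩ := IsLocalization.exists_mk'_eq (RingHom.ker θ).primeCompl a
    have h1 : g (algebraMap R L x) ≠ 0 := by
      intro h0
      have h2 : g (IsLocalization.mk' L x s) * g (algebraMap R L s) = 0 := by
        rw [← map_mul, IsLocalization.mk'_spec, h0]
      rcases mul_eq_zero.mp h2 with h3 | h3
      · exact ha.ne_zero h3
      · rw [hg] at h3
        exact s.2 (RingHom.mem_ker.mpr h3)
    rw [hg] at h1
    have h2 : x ∈ (RingHom.ker θ).primeCompl := fun h3 ↦ h1 (RingHom.mem_ker.mp h3)
    exact (IsLocalization.AtPrime.isUnit_mk'_iff L (RingHom.ker θ) x s).mpr h2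
  let f' : L →+* O := f.codRestrict O.toSubring hO
  haveI hfl : IsLocalHom f' := hloc
  have hi : ∀ x, i x ∈ O := fun x ↦ by
    have := hO (algebraMap R L x)
    rwa [hf] at this
  have hf' : ∀ x, f' (algebraMap R L x) = ⟨i x, hi x⟩ := fun x ↦ Subtype.ext (hf x)
  let j : ResidueField L →+* k := ResidueField.lift g
  have hj : ∀ x, j (residue L x) = g x := fun x ↦ ResidueField.lift_residue_apply g x
  let e : ResidueField L →+* ResidueField O := ResidueField.map f'
  have he : ∀ x, e (residue L x) = residue O (f' x) := fun x ↦ ResidueField.map_residue f' x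
  letI : Algebra (ResidueField L) (ResidueField O) := e.toAlgebra
  refine ⟨O, hi, fun y hy ↦ ?_⟩
  have hy0 : residue O y ≠ 0 := by
    rw [Ne, residue_eq_zero_iff, mem_maximalIdeal, mem_nonunits_iff, not_not]
    exact hy
  obtain ⟨μ, hμ⟩ : ∃ μ : Module.Dual (ResidueField L) (ResidueField O), μ (residue O y) ≠ 0 := by
    by_contra hcon
    push Not at hcon
    exact hy0 ((Module.forall_dual_apply_eq_zero_iff (ResidueField L) _).mp hcon)
  refine ⟨(j : ResidueField L →+ k).comp ((μ : ResidueField O →+ ResidueField L).comp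
    (residue O : O →+ ResidueField O)), ?_, fun x z ↦ ?_⟩
  · change j (μ (residue O y)) ≠ 0
    exact fun h0 ↦ hμ (j.injective (h0.trans (map_zero j).symm))
  · change j (μ (residue O (⟨i x, hi x⟩ * z))) = θ x * j (μ (residue O z))
    rw [← hf', map_mul, ← he]
    have h1 : e (residue L (algebraMap R L x)) * residue O z =
        (residue L (algebraMap R L x)) • residue O z := rfl
    rw [h1, map_smul, smul_eq_mul, map_mul, hj, hg]

end Fermat.Agent.Neb
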