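import Mathlib
import Fermat.Agent.Neb.Index
import Fermat.Agent.Neb.FK
import Fermat.Agent.Neb.FnC
import Fermat.Agent.Top.PlaceLift

/-!
# Ramification of the `j`-line over an algebraically closed `K ⊆ ℂ`
-/

set_option autoImplicit false
set_option linter.unusedSectionVars false
set_option linter.style.haveILetI false

noncomputable section

namespace Fermat.Agent.Neb

open UpperHalfPlane hiding I
open ModularForm Filter Topology Fermat.Agent.ModFn Fermat.Agent.Support Polynomial Fermat.Agent.Top
open ModularCurve IntermediateField Fermat.Agent.FF WithZero AlgebraicCurve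
open scoped MatrixGroups Manifold

variable {N : ℕ} [NeZero N] {D : Datum N}
variable {K : Type*} [Field K] [Algebra ℚ K] [Algebra K ℂ] [IsAlgClosed K] [CharZero K]
variable [FF.IsFnField K (FK K D)]

theorem emb_jK : baseChangeEmb K ℂ (F₀ D) (jK K D) = jF D := by
  apply Subtype.ext
  exact map_jqModC (algebraMap K ℂ)

theorem emb_jK_sub (a : K) :
    baseChangeEmb K ℂ (F₀ D) (jK K D - algebraMap K _ a) =
      jF D - algebraMap ℂ (FC D) (algebraMap K ℂ a) := by
  rw [map_sub, emb_jK]
  congr 1
  exact baseChangeEmb_algebraMap a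

open Classical in
/-- Ramification over the `j`-line. -/
theorem ord_jK_sub_le (P : Place K (FK K D)) (a : K) :
    P.ord (jK K D - algebraMap K _ a) ≤ if a = 0 then 3 else if a = 1728 then 2 else 1 := by
  by_cases hpos : P.ord (jK K D - algebraMap K _ a) ≤ 0
  · refine hpos.trans ?_
    split_ifs <;> norm_num
  rw [not_le] at hpos
  obtain ⟨v, hv⟩ := exists_place_lift ℂ P
  have h1 := hv (jK K D - algebraMap K _ a)
  rw [emb_jK_sub] at h1
  rw [← h1] at hpos ⊢
  have h2 := ord_jF_sub_le v _ hpos
  have h0 : algebraMap K ℂ a = 0 ↔ a = 0 := by simp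
  have h1728 : algebraMap K ℂ a = 1728 ↔ a = 1728 := by
    rw [← (algebraMap K ℂ).injective.eq_iff (a := a) (b := 1728), map_ofNat]
  simp only [h0, h1728] at h2
  refine Int.le_of_dvd ?_ h2
  split_ifs <;> norm_num

theorem ord_jK_sub_le_one (P : Place K (FK K D)) {a : K} (h0 : a ≠ 0) (h1 : a ≠ 1728) :
    P.ord (jK K D - algebraMap K _ a) ≤ 1 := by
  have h := ord_jK_sub_le P a
  rwa [if_neg h0, if_neg h1] at h

theorem ord_jK_le (P : Place K (FK K D)) : P.ord (jK K D) ≤ 3 := by
  have h := ord_jK_sub_le P 0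
  rwa [if_pos rfl, map_zero, sub_zero] at h

theorem ord_jK_sub_1728_le (P : Place K (FK K D)) :
    P.ord (jK K D - algebraMap K _ 1728) ≤ 2 := by
  have h := ord_jK_sub_le P 1728
  rwa [if_neg (by norm_num), if_pos rfl] at h

end Fermat.Agent.Neb
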