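import Fermat.Agent.Neb.Place

/-!
# Reduction of eigencharacters of a finitely generated group
-/

set_option autoImplicit false
set_option linter.style.haveILetI false

namespace Fermat.Agent.Neb

/-- Scaling a family with values in a finitely generated subgroup to make it integral and
primitive. -/
theorem exists_scale_family {K : Type*} [Field K] (O : ValuationSubring K) {X : Type*} {a : X → K}
    (hL : ∃ L : Submodule ℤ K, L.FG ∧ ∀ n, a n ∈ L) (ha : ∃ n, a n ≠ 0) :
    ∃ m, a m ≠ 0 ∧ ∀ n, a n / a m ∈ O := by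
  classical
  obtain ⟨L, hL, hLn⟩ := hL
  have hP : (Submodule.span ℤ (Set.range a)).FG := by
    haveI : IsNoetherian ℤ L := isNoetherian_of_fg_of_noetherian L hL
    refine (isNoetherian_submodule (N := L)).mp this _ ?_
    rw [Submodule.span_le]
    rintro _ ⟨n, rfl⟩
    exact hLn n
  obtain ⟨T, hTS, hT⟩ := Submodule.fg_span_iff_fg_span_finset_subset _ |>.mp hP
  have hTne : T.Nonempty := by
    rw [Finset.nonempty_iff_ne_empty]
    rintro rfl
    obtain ⟨n, hn⟩ := ha
    have h1 : a n ∈ Submodule.span ℤ (Set.range a) := Submodule.subset_span ⟨n, rfl⟩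
    rw [hT, Finset.coe_empty, Submodule.span_empty, Submodule.mem_bot] at h1
    exact hn h1
  obtain ⟨x, hx, hmax⟩ := T.exists_max_image (fun y ↦ O.valuation y) hTne
  have hx0 : x ≠ 0 := by
    rintro rfl
    obtain ⟨n, hn⟩ := ha
    have h1 : a n ∈ Submodule.span ℤ (Set.range a) := Submodule.subset_span ⟨n, rfl⟩
    have h2 : ∀ y ∈ T, y = 0 := by
      intro y hy
      have h3 := hmax y hy
      simp only [map_zero] at h3
      exact (map_eq_zero O.valuation).mp (le_antisymm h3 zero_le)
    have h4 : Submodule.span ℤ (T : Set K) ≤ ⊥ := by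
      rw [Submodule.span_le]
      intro y hy
      exact h2 y hy
    rw [hT] at h1
    exact hn (h4 h1)
  obtain ⟨m, rfl⟩ := hTS hx
  refine ⟨m, hx0, fun n ↦ ?_⟩
  have h1 : a n ∈ Submodule.span ℤ (T : Set K) := by
    rw [← hT]
    exact Submodule.subset_span ⟨n, rfl⟩
  generalize a n = y at h1
  induction h1 using Submodule.span_induction with
  | mem y hy =>
    rw [← O.valuation_le_one_iff, map_div₀]
    exact div_le_one_of_le₀ (hmax y hy) zero_le
  | zero => rw [zero_div]; exact O.zero_mem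
  | add y z _ _ hy hz => rw [add_div]; exact O.add_mem _ _ hy hz
  | smul c y _ hy =>
    rw [zsmul_eq_mul, mul_div_assoc]
    exact O.mul_mem _ _ (intCast_mem O c) hy

/-- A natural family of operators on the groups `Hom(G, A)`. -/
structure NatOp (G : Type) [Group G] where
  /-- the operators -/
  op : ∀ {A : Type} [AddCommGroup A], (Additive G →+ A) →+ (Additive G →+ A)
  nat : ∀ {A A' : Type} [AddCommGroup A] [AddCommGroup A'] (g : A →+ A') (φ : Additive G →+ A),
    op (g.comp φ) = g.comp (op φ)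

variable {G : Type} [Group G]

/-- the values of a homomorphism lie in a finitely generated group -/
theorem exists_fg_values [Group.FG G] {A : Type} [AddCommGroup A] (φ : Additive G →+ A) :
    ∃ L : Submodule ℤ A, L.FG ∧ ∀ γ : G, φ (Additive.ofMul γ) ∈ L := by
  classical
  obtain ⟨S, hS⟩ := Group.fg_def.mp (inferInstance : Group.FG G)
  refine ⟨Submodule.span ℤ ((S.image fun γ ↦ φ (Additive.ofMul γ) : Finset A) : Set A),
    ⟨_, rfl⟩, fun γ ↦ ?_⟩
  have hγ : γ ∈ Subgroup.closure (S : Set G) := by rw [hS]; trivial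
  induction hγ using Subgroup.closure_induction with
  | mem x hx =>
    apply Submodule.subset_span
    simp only [Finset.coe_image, Set.mem_image, Finset.mem_coe]
    exact ⟨x, hx, rfl⟩
  | one =>
    rw [ofMul_one, map_zero]
    exact Submodule.zero_mem _
  | mul x y _ _ hx hy =>
    rw [ofMul_mul, map_add]
    exact Submodule.add_mem _ hx hy
  | inv x _ hx =>
    rw [ofMul_inv, map_neg]
    exact Submodule.neg_mem _ hx

/-- **Reduction of an eigencharacter.** -/
theorem exists_reduction [Group.FG G] {J : Type*} (O : J → NatOp G) {T : Type*} [Ring T]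
    {K : Type} [Field K] (Θ : T →+* K) {k : Type} [Field k] (θ : T →+* k)
    (hker : ∀ t, Θ t = 0 → θ t = 0) (tt : J → T) (φ : Additive G →+ K) (hφ : φ ≠ 0)
    (hO : ∀ j γ, (O j).op φ γ = Θ (tt j) * φ γ) (Z : Set G)
    (hZ : ∀ z ∈ Z, φ (Additive.ofMul z) = 0) :
    ∃ φ' : Additive G →+ k, φ' ≠ 0 ∧ (∀ j γ, (O j).op φ' γ = θ (tt j) * φ' γ) ∧
      ∀ z ∈ Z, φ' (Additive.ofMul z) = 0 := by
  classical
  let R := Θ.range
  let θ' : R →+* k := (Θ.rangeRestrict.liftOfSurjective Θ.rangeRestrict_surjective) ⟨θ, by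
    intro t ht
    rw [RingHom.mem_ker] at ht ⊢
    exact hker t (congrArg Subtype.val ht)⟩
  have hθ' : ∀ t : T, θ' (Θ.rangeRestrict t) = θ t := fun t ↦
    RingHom.liftOfSurjective_comp_apply Θ.rangeRestrict Θ.rangeRestrict_surjective _ t
  obtain ⟨V, hi, hlam⟩ := exists_place R.subtype θ' (fun x hx ↦ by
    have : x = 0 := Subtype.ext hx
    rw [this, map_zero])
  obtain ⟨γ₀, h0, hγ⟩ := exists_scale_family V (a := fun γ : G ↦ φ (Additive.ofMul γ))
    (exists_fg_values φ) (by
      by_contra hcon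
      push Not at hcon
      apply hφ
      ext γ
      exact hcon _)
  set a := φ (Additive.ofMul γ₀) with ha
  let φV : Additive G →+ V :=
    { toFun := fun γ ↦ ⟨φ γ / a, hγ (Additive.toMul γ)⟩
      map_zero' := Subtype.ext (by simp)
      map_add' := fun x y ↦ Subtype.ext (by
        change φ (x + y) / a = φ x / a + φ y / a
        rw [map_add, add_div]) }
  have hφV : ∀ γ, ((φV γ : V) : K) = φ γ / a := fun γ ↦ rfl
  have hone : φV (Additive.ofMul γ₀) = 1 := Subtype.ext (by
    rw [hφV, ← ha, div_self h0]; rfl)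
  obtain ⟨lam, hlam0, hlam⟩ := hlam (φV (Additive.ofMul γ₀)) (by rw [hone]; exact isUnit_one)
  have key : ∀ j γ, (O j).op φV γ = ⟨Θ (tt j), hi (Θ.rangeRestrict (tt j))⟩ * φV γ := by
    intro j γ
    apply Subtype.ext
    have h1 := (O j).nat (V.subtype : V →+ K) φV
    have h2 : ((V.subtype : V →+* K) : V →+ K).comp φV = (AddMonoidHom.mulRight a⁻¹).comp φ := by
      ext γ
      change φ (Additive.ofMul γ) / a = φ (Additive.ofMul γ) * a⁻¹
      rw [div_eq_mul_inv]
    rw [h2, (O j).nat] at h1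
    have h3 := DFunLike.congr_fun h1 γ
    change (O j).op φ γ * a⁻¹ = (((O j).op φV γ : V) : K) at h3
    rw [← h3, hO]
    change _ = Θ (tt j) * (φ γ / a)
    ring
  refine ⟨lam.comp φV, ?_, fun j γ ↦ ?_, fun z hz ↦ ?_⟩
  · intro h4
    exact hlam0 (DFunLike.congr_fun h4 (Additive.ofMul γ₀))
  · rw [(O j).nat]
    change lam ((O j).op φV γ) = θ (tt j) * lam (φV γ)
    rw [key]
    have h5 := hlam (Θ.rangeRestrict (tt j)) (φV γ)
    rw [hθ'] at h5
    exact h5
  · change lam (φV (Additive.ofMul z)) = 0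
    have : φV (Additive.ofMul z) = 0 := Subtype.ext (by
      rw [hφV, hZ z hz, zero_div]; rfl)
    rw [this, map_zero]

/-- The same for semirings containing `-1`. -/
theorem exists_reduction' [Group.FG G] {J : Type*} (O : J → NatOp G) {T : Type*} [iT : Semiring T]
    (n : T) (hn : n + 1 = 0)
    {K : Type} [Field K] (Θ : T →+* K) {k : Type} [Field k] (θ : T →+* k)
    (hker : ∀ t, Θ t = 0 → θ t = 0) (tt : J → T) (φ : Additive G →+ K) (hφ : φ ≠ 0)
    (hO : ∀ j γ, (O j).op φ γ = Θ (tt j) * φ γ) (Z : Set G)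
    (hZ : ∀ z ∈ Z, φ (Additive.ofMul z) = 0) :
    ∃ φ' : Additive G →+ k, φ' ≠ 0 ∧ (∀ j γ, (O j).op φ' γ = θ (tt j) * φ' γ) ∧
      ∀ z ∈ Z, φ' (Additive.ofMul z) = 0 := by
  letI : Neg T := ⟨fun x ↦ n * x⟩
  letI : Ring T :=
    { iT with
      neg := fun x ↦ n * x
      zsmul := zsmulRec
      neg_add_cancel := fun x ↦ by
        change n * x + x = 0
        have h1 : n * x + x = (n + 1) * x := by rw [add_mul, one_mul]
        rw [h1, hn, zero_mul] }
  exact exists_reduction O Θ θ hker tt φ hφ hO Z hZ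

end Fermat.Agent.Neb
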