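import Fermat.Agent.Neb.Assembly

/-!
# The weight two input of the Deligne-Serre theorem
-/

set_option autoImplicit false
set_option linter.unusedSectionVars false
set_option linter.style.haveILetI false

noncomputable section

open AlgebraicCurve IntermediateField ModularCurve Module CongruenceSubgroup

namespace Fermat.Agent.Neb

open Fermat.Agent.Red Fermat.Agent.ModFn Fermat.Agent.FF Fermat.Agent.Top Fermat.Agent.DS

local notation "Qb" => AlgebraicClosure ℚ
local notation "Γℚ" => (AlgebraicClosure ℚ ≃ₐ[ℚ] AlgebraicClosure ℚ)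

section

variable {D l : ℕ} [NeZero D] [Fact l.Prime] {k : Type} [Field k] [CharP k l]

theorem heckeGen_inr_one : heckeGen D 2 (Sum.inr 1) = 1 := by
  apply Subtype.ext
  refine LinearMap.ext fun F ↦ Subtype.ext ?_
  change dia 2 (1 : (ZMod D)ˣ) (F : _ → ℂ) = F
  rw [dia_eq F.2.slash 1 (one_mem (Gamma0 D)) (by simp), SlashAction.slash_one]

theorem heckeGen_inr_mul (u v : (ZMod D)ˣ) :
    heckeGen D 2 (Sum.inr (u * v)) = heckeGen D 2 (Sum.inr u) * heckeGen D 2 (Sum.inr v) := by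
  apply Subtype.ext
  refine LinearMap.ext fun F ↦ Subtype.ext ?_
  change dia 2 (u * v) (F : _ → ℂ) = dia 2 u (dia 2 v (F : _ → ℂ))
  rw [dia_dia F.2.slash, mul_comm]

/-- the nebentypus of `θ` -/
def nebHom (θ : heckeRing D 2 →+* k) : (ZMod D)ˣ →* k where
  toFun u := θ (heckeGen D 2 (Sum.inr u))
  map_one' := by rw [heckeGen_inr_one, map_one]
  map_mul' u v := by rw [heckeGen_inr_mul, map_mul]

variable (l) in
/-- the determinant character -/
def psiHom (θ : heckeRing D 2 →+* k) : ZMod (D * l) →* k :=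
  (MulChar.ofUnitHom
    (((nebHom θ).toHomUnits.comp (Units.map (ZMod.castHom (dvd_mul_right D l)
      (ZMod D)).toMonoidHom)) *
      ((Units.map (ZMod.castHom (dvd_refl l) k).toMonoidHom).comp
        (Units.map (ZMod.castHom (dvd_mul_left l D) (ZMod l)).toMonoidHom)))).toMonoidHom

theorem psiHom_prime (θ : heckeRing D 2 →+* k) {p : ℕ} (hp : p.Prime) (hpB : ¬ p ∣ D * l)
    (hpD : ¬ p ∣ D) :
    psiHom l θ (p : ZMod (D * l)) = p * θ (heckeGen D 2 (Sum.inr (up hp hpD))) := by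
  have h1 : ((up hp hpB : (ZMod (D * l))ˣ) : ZMod (D * l)) = (p : ZMod (D * l)) := val_up hp hpB
  rw [← h1]
  change MulChar.ofUnitHom _ ((up hp hpB : (ZMod (D * l))ˣ) : ZMod (D * l)) = _
  rw [MulChar.ofUnitHom_coe]
  have h2 : Units.map (ZMod.castHom (dvd_mul_right D l) (ZMod D)).toMonoidHom (up hp hpB) =
      up hp hpD := by
    apply Units.ext
    rw [Units.coe_map, val_up]
    change ZMod.castHom (dvd_mul_right D l) (ZMod D) ((up hp hpB : (ZMod (D * l))ˣ) : _) = _
    rw [val_up, map_natCast, val_up]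
  rw [MonoidHom.mul_apply, Units.val_mul, MonoidHom.comp_apply, MonoidHom.comp_apply, h2, mul_comm]
  congr 1
  rw [Units.coe_map, Units.coe_map, val_up]
  change ZMod.castHom (dvd_refl l) k (ZMod.castHom (dvd_mul_left l D) (ZMod l) (p : ZMod (D * l))) =
    _
  rw [map_natCast, map_natCast]

end

/-- **The weight two input**, from the two interface statements. -/
theorem weightTwoGalois_of
    (hV : ∀ (D l : ℕ) [NeZero D] [Fact l.Prime] (hD : 3 ≤ D), 5 ≤ l → ∀ [Algebra Qb ℂ],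
      Finite (KummerGroup Qb (FK Qb (datumH D hD)) l) ∧
      ∃ Φ : parH D (ZMod l) (ZMod l) ≃+ KumH D l hD, IsVEquiv D l hD Φ)
    (hgood : ∀ (D : ℕ) [NeZero D] (hD : 3 ≤ D), ∀ [Algebra Qb ℂ], ∀ p : ℕ, p.Prime →
      ¬ p ∣ D ^ 2 → (p = 2 → 3 ∣ D) → (p = 3 → 2 ∣ D) → IsGoodAt D hD p) :
    WeightTwoGalois := by
  intro D l _ _ k _ _ _ θ t d hD5 hl5 h23 ht hd
  have hD : 3 ≤ D := by omega
  letI : Algebra (ZMod l) k := ZMod.algebra k l
  letI : Algebra Qb ℂ :=
    (IsAlgClosed.lift (R := ℚ) (S := AlgebraicClosure ℚ) (M := ℂ)).toRingHom.toAlgebra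
  obtain ⟨hfin, Φ, hΦ⟩ := hV D l hD hl5
  haveI := hfin
  haveI : NeZero (D * l) := ⟨mul_ne_zero (NeZero.ne D) (Fact.out : l.Prime).ne_zero⟩
  haveI : Finite (KumH D l hD) := hfin
  haveI : Finite (parH D (ZMod l) (ZMod l)) := Finite.of_equiv (KumH D l hD) Φ.symm.toEquiv
  obtain ⟨x, hx0, hxT, hxd⟩ := exists_eigen D l hD k θ
  have hES := isNebES hΦ (fun p hp hpN ↦ hgood D hD p hp hpN
    (fun h2 ↦ by
      subst h2
      rcases h23 with h | h
      · exact absurd (h.trans (dvd_pow_self D two_ne_zero)) hpN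
      · exact h)
    (fun h3 ↦ by
      subst h3
      rcases h23 with h | h
      · exact h
      · exact absurd (h.trans (dvd_pow_self D two_ne_zero)) hpN))
  have hnd : ∀ {p : ℕ}, ¬ p ∣ D * l → ¬ p ∣ D := fun h h1 ↦ h (h1.mul_right l)
  obtain ⟨M, hM⟩ := hES.exists_rep (K := k) (psiHom l θ) t hx0
    (fun p hp hpB ↦ by
      rw [TN_eq hp (not_dvd_sq hp hpB).1, hxT, ht p hp (hnd hpB)])
    (fun p hp hpB ↦ by
      rw [dN_eq hp (not_dvd_sq hp hpB).1, hxd, psiHom_prime θ hp hpB (hnd hpB), smul_smul]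
      congr 5
      apply Units.ext
      rw [ZMod.unitsMap_val, val_up, val_up, ZMod.cast_natCast (dvd_pow_self D two_ne_zero)])
  exact ⟨M, hM.level, hM.unram, hM.trace, fun p hp hpB A hA σ hσ ↦ by
    rw [hM.det p hp hpB A hA σ hσ, hd p hp (hnd hpB), psiHom_prime θ hp hpB (hnd hpB)]⟩

end Fermat.Agent.Neb
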